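import Mathlib.FieldTheory.Galois.Infinite
import Mathlib.FieldTheory.IsAlgClosed.AlgebraicClosure
import Mathlib.LinearAlgebra.LinearIndependent.Lemmas
import Mathlib.FieldTheory.Normal.Closure
import Mathlib.GroupTheory.Index
import Mathlib.Tactic

/-!
Multiplicative two-cocycles on subgroups of the absolute Galois group of `ℚ`, with values in
`ℚ̄ˣ`: Hilbert 90, classes dying on subgroups of finite index.
-/

set_option autoImplicit false

noncomputable section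

set_option backward.isDefEq.respectTransparency false

namespace Fermat.Agent.CFT.Brauer

/-- The algebraic closure of `ℚ`. -/
abbrev Qb : Type := AlgebraicClosure ℚ

/-- The absolute Galois group of `ℚ`. -/
abbrev GQ : Type := Qb ≃ₐ[ℚ] Qb

instance : Algebra.IsAlgebraic ℚ Qb := AlgebraicClosure.isAlgebraic ℚ

instance : IsAlgClosure ℚ Qb := ⟨inferInstance, inferInstance⟩

instance : Normal ℚ Qb := IsAlgClosure.normal ℚ Qb

instance : IsGalois ℚ Qb where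

lemma units_smul_coe (g : GQ) (x : Qbˣ) : ((g • x : Qbˣ) : Qb) = g (x : Qb) := rfl

lemma smul_units_eq_self {g : GQ} {x : Qbˣ} (h : g (x : Qb) = x) : g • x = x :=
  Units.ext h

/-! ### Levels -/

/-- A finite normal level containing a given finite set. -/
lemma exists_normal_level (F : IntermediateField ℚ Qb) [FiniteDimensional ℚ F] (s : Finset Qb) :
    ∃ F' : IntermediateField ℚ Qb, FiniteDimensional ℚ F' ∧ Normal ℚ F' ∧ F ≤ F' ∧
      ∀ x ∈ s, x ∈ F' := by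
  have : FiniteDimensional ℚ (IntermediateField.adjoin ℚ (↑s : Set Qb)) :=
    IntermediateField.finiteDimensional_adjoin fun x _ => Algebra.IsIntegral.isIntegral x
  set E := F ⊔ IntermediateField.adjoin ℚ (↑s : Set Qb) with hE
  have : FiniteDimensional ℚ E := IntermediateField.finiteDimensional_sup _ _
  refine ⟨IntermediateField.normalClosure ℚ E Qb, inferInstance, inferInstance,
    le_sup_left.trans E.le_normalClosure, fun x hx => ?_⟩
  exact (le_sup_right.trans E.le_normalClosure) (IntermediateField.subset_adjoin ℚ _ hx)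

lemma fix_eq {F : IntermediateField ℚ Qb} {g : GQ} (hg : g ∈ F.fixingSubgroup) {x : Qb}
    (hx : x ∈ F) : g x = x :=
  (IntermediateField.mem_fixingSubgroup_iff F g).mp hg x hx

lemma normal_fixingSubgroup (F : IntermediateField ℚ Qb) [Normal ℚ F] :
    F.fixingSubgroup.Normal := by
  rw [← IntermediateField.restrictNormalHom_ker]
  infer_instance

lemma conj_mem_fixingSubgroup {F : IntermediateField ℚ Qb} [Normal ℚ F] {s : GQ}
    (hs : s ∈ F.fixingSubgroup) (g : GQ) : g⁻¹ * s * g ∈ F.fixingSubgroup := by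
  have := (normal_fixingSubgroup F).conj_mem s hs g⁻¹
  rwa [inv_inv] at this

lemma finiteIndex_fixingSubgroup (F : IntermediateField ℚ Qb) [FiniteDimensional ℚ F]
    [Normal ℚ F] : F.fixingSubgroup.FiniteIndex := by
  rw [← IntermediateField.restrictNormalHom_ker]
  infer_instance

/-! ### Cochains -/

/-- Continuity of a one-cochain on `Γ`. -/
def Cts₁ (Γ : Subgroup GQ) {X : Type} (z : GQ → X) : Prop :=
  ∃ F : IntermediateField ℚ Qb, FiniteDimensional ℚ F ∧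
    ∀ g ∈ Γ, ∀ s ∈ Γ, s ∈ F.fixingSubgroup → z (g * s) = z g

/-- Continuity of a two-cochain on `Γ`. -/
def Cts₂ (Γ : Subgroup GQ) {X : Type} (f : GQ → GQ → X) : Prop :=
  ∃ F : IntermediateField ℚ Qb, FiniteDimensional ℚ F ∧
    ∀ g ∈ Γ, ∀ h ∈ Γ, ∀ s ∈ Γ, ∀ t ∈ Γ, s ∈ F.fixingSubgroup → t ∈ F.fixingSubgroup →
      f (g * s) (h * t) = f g h

/-- `Δ` is open in `Γ`. -/
def IsOpenIn (Δ Γ : Subgroup GQ) : Prop :=
  Δ ≤ Γ ∧ ∃ F : IntermediateField ℚ Qb, FiniteDimensional ℚ F ∧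
    ∀ g ∈ Γ, g ∈ F.fixingSubgroup → g ∈ Δ

lemma IsOpenIn.inf {Δ Γ : Subgroup GQ} (h : IsOpenIn Δ Γ) (Γ' : Subgroup GQ) (hle : Γ' ≤ Γ) :
    IsOpenIn (Γ' ⊓ Δ) Γ' := by
  obtain ⟨-, F, hF, hFm⟩ := h
  exact ⟨inf_le_left, F, hF, fun g hg hgF => ⟨hg, hFm g (hle hg) hgF⟩⟩

lemma Cts₁.mono {Γ Γ' : Subgroup GQ} (hle : Γ' ≤ Γ) {X : Type} {z : GQ → X} (h : Cts₁ Γ z) :
    Cts₁ Γ' z := by
  obtain ⟨F, hF, hz⟩ := h
  exact ⟨F, hF, fun g hg s hs hsF => hz g (hle hg) s (hle hs) hsF⟩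

lemma Cts₂.mono {Γ Γ' : Subgroup GQ} (hle : Γ' ≤ Γ) {X : Type} {f : GQ → GQ → X}
    (h : Cts₂ Γ f) : Cts₂ Γ' f := by
  obtain ⟨F, hF, hf⟩ := h
  exact ⟨F, hF, fun g hg h' hh s hs t ht hsF htF =>
    hf g (hle hg) h' (hle hh) s (hle hs) t (hle ht) hsF htF⟩

lemma Cts₁.map₂ {Γ : Subgroup GQ} {X Y Z : Type} {z : GQ → X} {w : GQ → Y} (hz : Cts₁ Γ z)
    (hw : Cts₁ Γ w) (φ : X → Y → Z) : Cts₁ Γ (fun g => φ (z g) (w g)) := by
  obtain ⟨F, hF, h⟩ := hz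
  obtain ⟨F', hF', h'⟩ := hw
  have := hF; have := hF'
  exact ⟨F ⊔ F', inferInstance, fun g hg s hs hsF => congrArg₂ φ
    (h g hg s hs (IntermediateField.fixingSubgroup_antitone le_sup_left hsF))
    (h' g hg s hs (IntermediateField.fixingSubgroup_antitone le_sup_right hsF))⟩

lemma Cts₂.map₂ {Γ : Subgroup GQ} {X Y Z : Type} {f : GQ → GQ → X} {f' : GQ → GQ → Y}
    (hf : Cts₂ Γ f) (hf' : Cts₂ Γ f') (φ : X → Y → Z) :
    Cts₂ Γ (fun g h => φ (f g h) (f' g h)) := by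
  obtain ⟨F, hF, h⟩ := hf
  obtain ⟨F', hF', h'⟩ := hf'
  have := hF; have := hF'
  exact ⟨F ⊔ F', inferInstance, fun g hg k hk s hs t ht hsF htF => congrArg₂ φ
    (h g hg k hk s hs t ht (IntermediateField.fixingSubgroup_antitone le_sup_left hsF)
      (IntermediateField.fixingSubgroup_antitone le_sup_left htF))
    (h' g hg k hk s hs t ht (IntermediateField.fixingSubgroup_antitone le_sup_right hsF)
      (IntermediateField.fixingSubgroup_antitone le_sup_right htF))⟩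

lemma cts₁_const (Γ : Subgroup GQ) {X : Type} (x : X) : Cts₁ Γ (fun _ => x) :=
  ⟨⊥, inferInstance, fun _ _ _ _ _ => rfl⟩

lemma cts₂_const (Γ : Subgroup GQ) {X : Type} (x : X) : Cts₂ Γ (fun _ _ => x) :=
  ⟨⊥, inferInstance, fun _ _ _ _ _ _ _ _ _ _ => rfl⟩

/-- A continuous one-cochain has finitely many values; so a finite normal level fixes them. -/
lemma Cts₁.exists_level {Γ : Subgroup GQ} {z : GQ → Qbˣ} (hz : Cts₁ Γ z) :
    ∃ F : IntermediateField ℚ Qb, FiniteDimensional ℚ F ∧ Normal ℚ F ∧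
      (∀ g ∈ Γ, ∀ s ∈ Γ, s ∈ F.fixingSubgroup → z (g * s) = z g) ∧
      ∀ g ∈ Γ, ((z g : Qbˣ) : Qb) ∈ F := by
  classical
  obtain ⟨F, hF, h⟩ := hz
  obtain ⟨F₁, hF₁, hN₁, hle₁, -⟩ := exists_normal_level F ∅
  have := hF₁; have := hN₁
  have := finiteIndex_fixingSubgroup F₁
  let N := F₁.fixingSubgroup.subgroupOf Γ
  have : Finite (↥Γ ⧸ N) := inferInstance
  have := Fintype.ofFinite (↥Γ ⧸ N)
  obtain ⟨F₂, hF₂, hN₂, hle₂, hmem⟩ :=
    exists_normal_level F₁ (Finset.univ.image fun c : ↥Γ ⧸ N => (z (c.out : ↥Γ) : Qb))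
  refine ⟨F₂, hF₂, hN₂, fun g hg s hs hsF => h g hg s hs
    (IntermediateField.fixingSubgroup_antitone (hle₁.trans hle₂) hsF), fun g hg => ?_⟩
  obtain ⟨n, hn⟩ := QuotientGroup.mk_out_eq_mul N ⟨g, hg⟩
  have := h g hg n.1.1 n.1.2
    (IntermediateField.fixingSubgroup_antitone hle₁ n.2)
  rw [← this]
  exact hmem _ (Finset.mem_image.mpr ⟨_, Finset.mem_univ _, by rw [hn]; rfl⟩)

/-- The coboundary of a one-cochain. -/
def d1 (z : GQ → Qbˣ) (g h : GQ) : Qbˣ := g • z h * z g / z (g * h)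

lemma d1_mul (z w : GQ → Qbˣ) (g h : GQ) : d1 (z * w) g h = d1 z g h * d1 w g h := by
  simp only [d1, Pi.mul_apply, smul_mul', div_eq_mul_inv, mul_inv_rev]
  ac_rfl

@[simp] lemma d1_one (g h : GQ) : d1 1 g h = 1 := by simp [d1]

lemma d1_inv (z : GQ → Qbˣ) (g h : GQ) : d1 z⁻¹ g h = (d1 z g h)⁻¹ :=
  eq_inv_of_mul_eq_one_left (by rw [← d1_mul, inv_mul_cancel, d1_one])

/-- The cocycle condition on `Γ`. -/
def IsCoc (Γ : Subgroup GQ) (f : GQ → GQ → Qbˣ) : Prop :=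
  ∀ g ∈ Γ, ∀ h ∈ Γ, ∀ j ∈ Γ, f (g * h) j * f g h = g • f h j * f g (h * j)

lemma isCoc_d1 (Γ : Subgroup GQ) (z : GQ → Qbˣ) : IsCoc Γ (d1 z) := by
  intro g _ h _ j _
  simp only [d1, smul_mul', smul_div', mul_smul, mul_assoc g h j]
  apply Units.ext
  simp only [Units.val_mul, Units.val_div_eq_div_val]
  field_simp

/-- Continuous two-cocycles on `Γ`. -/
def Z2 (Γ : Subgroup GQ) : Subgroup (GQ → GQ → Qbˣ) where
  carrier := {f | IsCoc Γ f ∧ Cts₂ Γ f}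
  one_mem' := ⟨fun _ _ _ _ _ _ => by simp, cts₂_const Γ 1⟩
  mul_mem' {f f'} hf hf' := ⟨fun g hg h hh j hj => by
    simp only [Pi.mul_apply, smul_mul']
    rw [mul_mul_mul_comm, hf.1 g hg h hh j hj, hf'.1 g hg h hh j hj, mul_mul_mul_comm],
    hf.2.map₂ hf'.2 (· * ·)⟩
  inv_mem' {f} hf := ⟨fun g hg h hh j hj => by
    simp only [Pi.inv_apply, smul_inv']
    rw [← mul_inv, ← mul_inv, hf.1 g hg h hh j hj],
    hf.2.map₂ hf.2 (fun x _ => x⁻¹)⟩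

/-- Cochains which are coboundaries on `Γ`. -/
def B2 (Γ : Subgroup GQ) : Subgroup (GQ → GQ → Qbˣ) where
  carrier := {f | ∃ z, Cts₁ Γ z ∧ ∀ g ∈ Γ, ∀ h ∈ Γ, f g h = d1 z g h}
  one_mem' := ⟨1, cts₁_const Γ 1, fun _ _ _ _ => by simp⟩
  mul_mem' := fun ⟨z, hz, h⟩ ⟨z', hz', h'⟩ => ⟨z * z', hz.map₂ hz' (· * ·),
    fun g hg k hk => by simp [d1_mul, h g hg k hk, h' g hg k hk]⟩
  inv_mem' := fun ⟨z, hz, h⟩ => ⟨z⁻¹, hz.map₂ hz (fun x _ => x⁻¹),
    fun g hg k hk => by simp [d1_inv, h g hg k hk]⟩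

lemma Z2_anti {Γ Γ' : Subgroup GQ} (hle : Γ' ≤ Γ) : Z2 Γ ≤ Z2 Γ' :=
  fun _ hf => ⟨fun g hg h hh j hj => hf.1 g (hle hg) h (hle hh) j (hle hj), hf.2.mono hle⟩

lemma B2_anti {Γ Γ' : Subgroup GQ} (hle : Γ' ≤ Γ) : B2 Γ ≤ B2 Γ' :=
  fun _ ⟨z, hz, h⟩ => ⟨z, hz.mono hle, fun g hg k hk => h g (hle hg) k (hle hk)⟩

lemma d1_mem_Z2 {Γ : Subgroup GQ} {z : GQ → Qbˣ} (hz : Cts₁ Γ z) : d1 z ∈ Z2 Γ := by
  obtain ⟨F, hF, hN, hzF, hval⟩ := hz.exists_level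
  refine ⟨isCoc_d1 Γ z, F, hF, fun g hg h hh s hs t ht hsF htF => ?_⟩
  have e1 : g * s * (h * t) = g * h * ((h⁻¹ * s * h) * t) := by group
  simp only [d1]
  rw [hzF g hg s hs hsF, hzF h hh t ht htF, mul_smul,
    smul_units_eq_self (fix_eq hsF (hval h hh)), e1,
    hzF _ (mul_mem hg hh) _ (mul_mem (mul_mem (mul_mem (inv_mem hh) hs) hh) ht)
      (mul_mem (conj_mem_fixingSubgroup hsF h) htF)]

lemma d1_mem_B2 {Γ : Subgroup GQ} {z : GQ → Qbˣ} (hz : Cts₁ Γ z) : d1 z ∈ B2 Γ :=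
  ⟨z, hz, fun _ _ _ _ => rfl⟩

/-! ### Hilbert 90 -/

/-- Hilbert 90 for a continuous cocycle on an arbitrary subgroup. -/
theorem hilbert90 {Γ : Subgroup GQ} {z : GQ → Qbˣ} (hz : Cts₁ Γ z)
    (hc : ∀ g ∈ Γ, ∀ h ∈ Γ, z (g * h) = g • z h * z g) :
    ∃ c : Qbˣ, ∀ g ∈ Γ, z g = g • c / c := by
  classical
  obtain ⟨F, hF, hN, hzF, -⟩ := hz.exists_level
  have : Finite ↥(Γ.map (AlgEquiv.restrictNormalHom (F := ℚ) (K₁ := Qb) F)) := inferInstance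
  let I : Finset (F ≃ₐ[ℚ] F) :=
    (Set.toFinite (↑(Γ.map (AlgEquiv.restrictNormalHom (F := ℚ) (K₁ := Qb) F)) :
      Set (F ≃ₐ[ℚ] F))).toFinset
  have hmem : ∀ τ, τ ∈ I ↔ ∃ g ∈ Γ, AlgEquiv.restrictNormalHom F g = τ := fun τ => by
    simp only [I, Set.Finite.mem_toFinset, SetLike.mem_coe, Subgroup.mem_map]
  have hrep : ∀ τ : I, ∃ g, g ∈ Γ ∧ AlgEquiv.restrictNormalHom F g = (τ : F ≃ₐ[ℚ] F) :=
    fun τ => (hmem _).mp τ.2
  choose r hr hrτ using hrep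
  let χ : I → (F →* Qb) := fun τ =>
    (F.val : F →* Qb).comp ((τ : F ≃ₐ[ℚ] F) : F →* F)
  have hχ : Function.Injective χ := fun τ τ' h => Subtype.ext (AlgEquiv.ext fun x =>
    Subtype.ext (DFunLike.congr_fun h x))
  have hli : LinearIndependent Qb (fun τ => (χ τ : F → Qb)) :=
    (linearIndependent_monoidHom F Qb).comp χ hχ
  obtain ⟨x, hx⟩ : ∃ x : F, ∑ τ : I, (z (r τ) : Qb) * (((τ : F ≃ₐ[ℚ] F) x : F) : Qb) ≠ 0 := by
    by_contra! hall
    have hone : (1 : F ≃ₐ[ℚ] F) ∈ I := (hmem _).mpr ⟨1, one_mem _, map_one _⟩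
    have := Fintype.linearIndependent_iff.mp hli (fun τ => (z (r τ) : Qb)) (funext fun x => by
      simpa [χ] using hall x) ⟨1, hone⟩
    exact (z (r ⟨1, hone⟩)).ne_zero this
  set c₀ := ∑ τ : I, (z (r τ) : Qb) * (((τ : F ≃ₐ[ℚ] F) x : F) : Qb) with hc₀
  refine ⟨(Units.mk0 c₀ hx)⁻¹, fun g hg => ?_⟩
  have hgmem : AlgEquiv.restrictNormalHom F g ∈ Γ.map (AlgEquiv.restrictNormalHom F) :=
    Subgroup.mem_map_of_mem _ hg
  let e : I ≃ I :=
    { toFun := fun τ => ⟨AlgEquiv.restrictNormalHom F g * τ, (hmem _).mpr ⟨g * r τ,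
        mul_mem hg (hr τ), by rw [map_mul, hrτ]⟩⟩
      invFun := fun τ => ⟨(AlgEquiv.restrictNormalHom F g)⁻¹ * τ, (hmem _).mpr ⟨g⁻¹ * r τ,
        mul_mem (inv_mem hg) (hr τ), by rw [map_mul, map_inv, hrτ]⟩⟩
      left_inv := fun τ => by simp
      right_inv := fun τ => by simp }
  have hkey : g c₀ * (z g : Qb) = c₀ := by
    rw [hc₀, map_sum, Finset.sum_mul]
    refine Fintype.sum_equiv e _ _ fun τ => ?_
    have h1 : z (r (e τ)) = g • z (r τ) * z g := by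
      have hs : (g * r τ)⁻¹ * r (e τ) ∈ F.fixingSubgroup := by
        rw [← IntermediateField.restrictNormalHom_ker, MonoidHom.mem_ker]
        simp only [map_mul, map_inv, hrτ]
        exact inv_mul_cancel _
      have := hzF (g * r τ) (mul_mem hg (hr τ)) _
        (mul_mem (inv_mem (mul_mem hg (hr τ))) (hr _)) hs
      rw [mul_inv_cancel_left, hc g hg _ (hr τ)] at this
      exact this
    have h2 : ((((e τ : I) : F ≃ₐ[ℚ] F) x : F) : Qb) = g (((τ : F ≃ₐ[ℚ] F) x : F) : Qb) := by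
      change (((AlgEquiv.restrictNormalHom F g * (τ : F ≃ₐ[ℚ] F)) x : F) : Qb) = _
      exact AlgEquiv.restrictNormal_commutes g F _
    rw [h1, h2, map_mul, Units.val_mul, units_smul_coe]
    ring
  have hg' : g • Units.mk0 c₀ hx * z g = Units.mk0 c₀ hx := Units.ext hkey
  rw [smul_inv', div_eq_mul_inv, inv_inv, eq_inv_mul_iff_mul_eq]
  exact hg'

/-! ### Classes dying on an open subgroup -/

/-- Adjusting a cocycle which dies on `Δ` so that it is trivial on `Γ × Δ`. -/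
theorem exists_normalized {Γ Δ : Subgroup GQ} (hΔ : IsOpenIn Δ Γ) {f : GQ → GQ → Qbˣ}
    (hf : f ∈ Z2 Γ) (hfΔ : f ∈ B2 Δ) :
    ∃ f', f' ∈ Z2 Γ ∧ f / f' ∈ B2 Γ ∧ ∀ g ∈ Γ, ∀ s ∈ Δ, f' g s = 1 := by
  classical
  obtain ⟨hle, F, hF, hFm⟩ := hΔ
  obtain ⟨z, ⟨Fz, hFz, hzF⟩, hz⟩ := hfΔ
  have := hF; have := hFz
  let z₁ : GQ → Qbˣ := fun g => if g ∈ Δ then z g else 1
  have hz₁ : Cts₁ Γ z₁ := by
    refine ⟨F ⊔ Fz, inferInstance, fun g _ s hs hsF => ?_⟩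
    have hsΔ : s ∈ Δ := hFm s hs (IntermediateField.fixingSubgroup_antitone le_sup_left hsF)
    simp only [z₁, Subgroup.mul_mem_cancel_right _ hsΔ]
    split_ifs with hg
    · exact hzF g hg s hsΔ (IntermediateField.fixingSubgroup_antitone le_sup_right hsF)
    · rfl
  have hf1 : f / d1 z₁ ∈ Z2 Γ := div_mem hf (d1_mem_Z2 hz₁)
  set f1 := f / d1 z₁ with hf1def
  have hf1Δ : ∀ s ∈ Δ, ∀ t ∈ Δ, f1 s t = 1 := fun s hs t ht => by
    simp only [hf1def, Pi.div_apply, d1, z₁, if_pos hs, if_pos ht, if_pos (mul_mem hs ht),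
      hz s hs t ht, div_self']
  let rep : GQ → GQ := fun g => ((g : GQ ⧸ Δ)).out
  have hrep : ∀ g, (rep g)⁻¹ * g ∈ Δ := fun g => by
    rw [← QuotientGroup.eq]
    exact Quotient.out_eq _
  have hrepΓ : ∀ g ∈ Γ, rep g ∈ Γ := fun g hg => by
    simpa [mul_inv_rev] using mul_mem hg (inv_mem (hle (hrep g)))
  have hrep_mul : ∀ g, ∀ s ∈ Δ, rep (g * s) = rep g := fun g s hs => by
    simp only [rep]
    congr 1
    exact QuotientGroup.eq.mpr (by simpa using inv_mem hs)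
  let z₂ : GQ → Qbˣ := fun g => f1 (rep g) ((rep g)⁻¹ * g)
  have hz₂ : Cts₁ Γ z₂ := by
    obtain ⟨F₂, hF₂, h₂⟩ := hf1.2
    have := hF₂
    refine ⟨F ⊔ F₂, inferInstance, fun g hg s hs hsF => ?_⟩
    have hsΔ : s ∈ Δ := hFm s hs (IntermediateField.fixingSubgroup_antitone le_sup_left hsF)
    simp only [z₂, hrep_mul g s hsΔ]
    have := h₂ (rep g) (hrepΓ g hg) ((rep g)⁻¹ * g) (hle (hrep g)) 1 (one_mem _) s hs
      (one_mem _) (IntermediateField.fixingSubgroup_antitone le_sup_right hsF)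
    rwa [mul_one, mul_assoc] at this
  have hz₂Δ : ∀ s ∈ Δ, z₂ s = 1 := fun s hs => by
    refine hf1Δ _ ?_ _ (hrep s)
    simpa [mul_inv_rev] using mul_mem hs (inv_mem (hrep s))
  refine ⟨f1 * d1 z₂, mul_mem hf1 (d1_mem_Z2 hz₂), ?_, fun g hg s hs => ?_⟩
  · rw [hf1def, show f / (f / d1 z₁ * d1 z₂) = d1 z₁ / d1 z₂ by
      rw [← div_div, div_div_cancel]]
    exact div_mem (d1_mem_B2 hz₁) (d1_mem_B2 hz₂)
  · have h0 := hf1.1 (rep g) (hrepΓ g hg) ((rep g)⁻¹ * g) (hle (hrep g)) s (hle hs)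
    rw [mul_inv_cancel_left, hf1Δ _ (hrep g) _ hs, smul_one, one_mul] at h0
    simp only [Pi.mul_apply, d1, hz₂Δ s hs, smul_one, one_mul]
    simp only [z₂, hrep_mul g s hs]
    rw [← mul_assoc (rep g)⁻¹ g s, ← h0, div_eq_mul_inv, mul_inv_rev]
    simp

lemma right_invariant_of_normalized {Γ Δ : Subgroup GQ} (hle : Δ ≤ Γ) {f : GQ → GQ → Qbˣ}
    (hf : IsCoc Γ f) (hn : ∀ g ∈ Γ, ∀ s ∈ Δ, f g s = 1) {g h s : GQ} (hg : g ∈ Γ) (hh : h ∈ Γ)
    (hs : s ∈ Δ) : f g (h * s) = f g h := by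
  have := hf g hg h hh s (hle hs)
  rw [hn _ (mul_mem hg hh) _ hs, hn _ hh _ hs, smul_one, one_mul, one_mul] at this
  exact this.symm

/-- A class dying on an open subgroup is killed by the index. -/
theorem pow_relIndex_mem_B2 {Γ Δ : Subgroup GQ} (hΔ : IsOpenIn Δ Γ) {f : GQ → GQ → Qbˣ}
    (hf : f ∈ Z2 Γ) (hfΔ : f ∈ B2 Δ) : f ^ Δ.relIndex Γ ∈ B2 Γ := by
  classical
  obtain ⟨f', hf', hdiv, hn⟩ := exists_normalized hΔ hf hfΔ
  suffices h : f' ^ Δ.relIndex Γ ∈ B2 Γ by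
    have := mul_mem (pow_mem hdiv (Δ.relIndex Γ)) h
    rwa [div_pow, div_mul_cancel] at this
  obtain ⟨hle, F, hF, hFm⟩ := hΔ
  obtain ⟨F', hF', hN', hle', -⟩ := exists_normal_level F ∅
  have := hF'; have := hN'
  have := finiteIndex_fixingSubgroup F'
  have : (Δ.subgroupOf Γ).FiniteIndex :=
    Subgroup.finiteIndex_of_le (H := F'.fixingSubgroup.subgroupOf Γ) fun g hg =>
      hFm g g.2 (IntermediateField.fixingSubgroup_antitone hle' hg)
  have := Fintype.ofFinite (↥Γ ⧸ Δ.subgroupOf Γ)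
  let S : GQ → Qbˣ := fun g => ∏ x : ↥Γ ⧸ Δ.subgroupOf Γ, f' g (x.out : ↥Γ)
  have hS : Cts₁ Γ S := by
    obtain ⟨F₂, hF₂, h₂⟩ := hf'.2
    refine ⟨F₂, hF₂, fun g hg s hs hsF => Finset.prod_congr rfl fun x _ => ?_⟩
    have := h₂ g hg _ (x.out : ↥Γ).2 s hs 1 (one_mem _) hsF (one_mem _)
    rwa [mul_one] at this
  refine ⟨S, hS, fun g hg h hh => ?_⟩
  have hperm : (∏ x : ↥Γ ⧸ Δ.subgroupOf Γ, f' g (h * ((x.out : ↥Γ) : GQ))) = S g := by
    refine Fintype.prod_equiv (MulAction.toPerm (⟨h, hh⟩ : Γ)) _ _ fun x => ?_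
    rw [MulAction.toPerm_apply]
    obtain ⟨n, hn'⟩ := QuotientGroup.mk_out_eq_mul (Δ.subgroupOf Γ)
      (⟨h, hh⟩ * x.out : Γ)
    have hx : (⟨h, hh⟩ : Γ) • x = ((⟨h, hh⟩ * x.out : Γ) : ↥Γ ⧸ Δ.subgroupOf Γ) := by
      conv_lhs => rw [← QuotientGroup.out_eq' x]
      rfl
    rw [hx, hn']
    exact (right_invariant_of_normalized hle hf'.1 hn hg
      (mul_mem hh (x.out : ↥Γ).2) n.2).symm
  have hcard : Fintype.card (↥Γ ⧸ Δ.subgroupOf Γ) = Δ.relIndex Γ := by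
    rw [Fintype.card_eq_nat_card]
    rfl
  have key : S (g * h) * f' g h ^ Δ.relIndex Γ = g • S h * S g := by
    rw [← hcard, ← Finset.card_univ, ← Finset.prod_const, ← Finset.prod_mul_distrib]
    rw [Finset.prod_congr rfl fun x _ => hf'.1 g hg h hh _ (x.out : ↥Γ).2,
      Finset.prod_mul_distrib, hperm, Finset.smul_prod']
  simp only [Pi.pow_apply, d1]
  rw [eq_div_iff_mul_eq', mul_comm, key]

/-- Classes killed by two coprime numbers vanish. -/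
theorem mem_B2_of_coprime {Γ : Subgroup GQ} {f : GQ → GQ → Qbˣ} {m n : ℕ} (hmn : m.Coprime n)
    (hm : f ^ m ∈ B2 Γ) (hn : f ^ n ∈ B2 Γ) : f ∈ B2 Γ := by
  have h := Nat.gcd_eq_gcd_ab m n
  rw [hmn.gcd_eq_one, Nat.cast_one] at h
  have : f = (f ^ m) ^ Nat.gcdA m n * (f ^ n) ^ Nat.gcdB m n := by
    rw [← zpow_natCast, ← zpow_natCast, ← zpow_mul, ← zpow_mul, ← zpow_add, ← h, zpow_one]
  rw [this]
  exact mul_mem (zpow_mem hm _) (zpow_mem hn _)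

end Fermat.Agent.CFT.Brauer
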