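import Fermat.Agent.GalCoh.Descent.Mu
import Fermat.Agent.CFT.Brauer.Cocycle
import Fermat.Agent.Chebotarev.Main
import Mathlib.FieldTheory.KummerPolynomial
import Mathlib.RingTheory.IntegralDomain
import Mathlib.FieldTheory.Finite.Basic

/-!
Auxiliary primes `l ≡ 1 (mod p)` modulo which given primes are not `p`-th powers.
-/

set_option autoImplicit false
set_option backward.isDefEq.respectTransparency false

noncomputable section

namespace Fermat.Agent.CFT.Brauer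

open Fermat.Agent.GalCoh.Descent (eq_one_of_valuation_sub_one_lt frobenius_root_of_unity
  exists_primitiveRoot mem_of_fixed)

variable {p : ℕ} [hp : Fact p.Prime]

/-- A `p`-th root of a prime is moved by some element fixing a `p`-th root of unity. -/
theorem exists_move_root {r : ℕ} (hr : r.Prime) {ζ α : Qb} (hζ : IsPrimitiveRoot ζ p)
    (hα : α ^ p = (r : Qb)) : ∃ g : GQ, g ζ = ζ ∧ g α ≠ α := by
  by_contra! hall
  have hζint : IsIntegral ℚ ζ := Algebra.IsIntegral.isIntegral ζ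
  let E := IntermediateField.adjoin ℚ ({ζ} : Set Qb)
  have : FiniteDimensional ℚ E := IntermediateField.adjoin.finiteDimensional hζint
  have hαE : α ∈ E := mem_of_fixed fun g hg => hall g
    ((IntermediateField.mem_fixingSubgroup_iff _ _).mp hg _
      (IntermediateField.mem_adjoin_simple_self ℚ ζ))
  have hirr : Irreducible (Polynomial.X ^ p - Polynomial.C (r : ℚ)) := by
    refine X_pow_sub_C_irreducible_of_prime hp.out fun b hb => ?_
    have hv : (p : ℤ) * padicValRat r b = 1 := by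
      have : Fact r.Prime := ⟨hr⟩
      have h := congrArg (padicValRat r) hb
      rwa [padicValRat.pow, padicValRat.self hr.one_lt] at h
    have h1 := Int.eq_one_of_dvd_one (Int.natCast_nonneg p) (Dvd.intro _ hv)
    exact hp.out.ne_one (by exact_mod_cast h1)
  have hmin : minpoly ℚ α = Polynomial.X ^ p - Polynomial.C (r : ℚ) :=
    (minpoly.eq_of_irreducible_of_monic hirr (by simp [hα])
      (Polynomial.monic_X_pow_sub_C _ hp.out.ne_zero)).symm
  have hdeg : Module.finrank ℚ E ≤ p - 1 := by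
    rw [IntermediateField.adjoin.finrank hζint, ← Nat.totient_prime hp.out,
      ← Polynomial.natDegree_cyclotomic p ℚ]
    refine Polynomial.natDegree_le_of_dvd (minpoly.dvd ℚ ζ ?_)
      (Polynomial.cyclotomic_ne_zero p ℚ)
    rw [Polynomial.aeval_def, Polynomial.eval₂_eq_eval_map, Polynomial.map_cyclotomic]
    exact (hζ.isRoot_cyclotomic hp.out.pos).eq_zero
  have hle : (minpoly ℚ α).natDegree ≤ Module.finrank ℚ E := by
    have h := minpoly.natDegree_le (A := ℚ) (⟨α, hαE⟩ : E)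
    rwa [show minpoly ℚ (⟨α, hαE⟩ : E) = minpoly ℚ α from (minpoly.algebraMap_eq (algebraMap E Qb).injective _).symm] at h
  rw [hmin, Polynomial.natDegree_X_pow_sub_C] at hle
  have := hp.out.pos
  omega

/-- Two proper subgroups do not cover: an element moving two given roots. -/
theorem exists_move_two {r₁ r₂ : ℕ} (h₁ : r₁.Prime) (h₂ : r₂.Prime) {ζ α₁ α₂ : Qb}
    (hζ : IsPrimitiveRoot ζ p) (hα₁ : α₁ ^ p = (r₁ : Qb)) (hα₂ : α₂ ^ p = (r₂ : Qb)) :
    ∃ g : GQ, g ζ = ζ ∧ g α₁ ≠ α₁ ∧ g α₂ ≠ α₂ := by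
  obtain ⟨g₁, hg₁, hm₁⟩ := exists_move_root h₁ hζ hα₁
  obtain ⟨g₂, hg₂, hm₂⟩ := exists_move_root h₂ hζ hα₂
  by_cases e₁ : g₁ α₂ = α₂
  · by_cases e₂ : g₂ α₁ = α₁
    · refine ⟨g₁ * g₂, by rw [AlgEquiv.mul_apply, hg₂, hg₁], ?_, ?_⟩
      · rw [AlgEquiv.mul_apply, e₂]; exact hm₁
      · rw [AlgEquiv.mul_apply]
        intro h
        exact hm₂ (g₁.injective (h.trans e₁.symm))
    · exact ⟨g₂, hg₂, e₂, hm₂⟩
  · exact ⟨g₁, hg₁, hm₁, e₁⟩

/-- A Frobenius fixes the `p`-th roots of the `p`-th powers modulo its prime. -/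
theorem apply_root_eq_of_pow {A : ValuationSubring Qb} {l : ℕ} [Fact l.Prime]
    (hA : A.LiesOverPrime l) {σ : GQ} (hσ : A.IsFrobeniusAt σ l) {ζ : Qb}
    (hζ : IsPrimitiveRoot ζ p) (hlp : ¬ l ∣ p) (hσζ : σ ζ = ζ) {r : ℕ} (hlr : ¬ l ∣ r) {α : Qb}
    (hα : α ^ p = (r : Qb)) {x : ZMod l} (hx : x ^ p = (r : ZMod l)) : σ α = α := by
  classical
  have hl : l.Prime := Fact.out
  obtain ⟨hd, hfr⟩ := hσ
  have := Frobenius.residueField_charP hl hA
  have hαA : α ∈ A := FreyReducible.mem_of_isIntegral_int A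
    (IsIntegral.of_pow hp.out.pos (hα ▸ isIntegral_natCast r))
  have hζA : ζ ∈ A := FreyReducible.mem_of_isIntegral_int A
    (IsIntegral.of_pow hp.out.pos (hζ.pow_eq_one ▸ isIntegral_one))
  set a := IsLocalRing.residue A ⟨α, hαA⟩
  set z := IsLocalRing.residue A ⟨ζ, hζA⟩
  have hz : z ^ p = 1 := by
    rw [← map_pow, show (⟨ζ, hζA⟩ : A) ^ p = 1 from Subtype.ext hζ.pow_eq_one, map_one]
  have ha : a ^ p = (r : IsLocalRing.ResidueField A) := by
    rw [← map_pow, show (⟨α, hαA⟩ : A) ^ p = (r : A) from Subtype.ext (by simpa using hα),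
      map_natCast]
  set c : IsLocalRing.ResidueField A := ((x.val : ℕ) : IsLocalRing.ResidueField A)
  have hr0 : (r : IsLocalRing.ResidueField A) ≠ 0 := fun h0 =>
    hlr ((CharP.cast_eq_zero_iff (IsLocalRing.ResidueField A) l r).mp h0)
  have hcp : c ^ p = r := by
    rw [← Nat.cast_pow, CharP.natCast_eq_natCast _ l]
    apply (ZMod.natCast_eq_natCast_iff _ _ _).mp
    rw [Nat.cast_pow, ZMod.natCast_zmod_val, hx]
  have hcl : c ^ l = c := by
    rw [← Nat.cast_pow, CharP.natCast_eq_natCast _ l]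
    apply (ZMod.natCast_eq_natCast_iff _ _ _).mp
    rw [Nat.cast_pow, ZMod.natCast_zmod_val, ZMod.pow_card]
  have hc0 : c ≠ 0 := fun h0 => hr0 (by rw [← hcp, h0, zero_pow hp.out.ne_zero])
  have hzprim : IsPrimitiveRoot z p := IsPrimitiveRoot.iff_orderOf.mpr (orderOf_eq_prime hz
    fun hz1 => hζ.ne_one hp.out.one_lt (eq_one_of_valuation_sub_one_lt hl hA hlp hζ.pow_eq_one (by
      rw [← ValuationSubring.mem_nonunits_iff,
        show ζ - 1 = ((⟨ζ, hζA⟩ - 1 : A) : Qb) from rfl, ValuationSubring.coe_mem_nonunits_iff,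
        ← IsLocalRing.residue_eq_zero_iff, map_sub, map_one]
      exact sub_eq_zero.mpr hz1)))
  obtain ⟨i, -, hi⟩ := hzprim.eq_pow_of_pow_eq_one (ξ := a / c)
    (by rw [div_pow, ha, hcp, div_self hr0])
  have hzl : z ^ l = z := by
    have h := hfr z
    rw [← IsLocalRing.ResidueField.residue_smul] at h
    rw [← h]
    exact congrArg (IsLocalRing.residue A) (Subtype.ext hσζ)
  have hal : a ^ l = a := by
    rw [show a = z ^ i * c by rw [hi, div_mul_cancel₀ a hc0], mul_pow, ← pow_mul, mul_comm i,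
      pow_mul, hzl, hcl]
  have h := hfr a
  rw [← IsLocalRing.ResidueField.residue_smul, hal, ← sub_eq_zero, ← map_sub,
    IsLocalRing.residue_eq_zero_iff, ← ValuationSubring.coe_mem_nonunits_iff,
    ValuationSubring.mem_nonunits_iff] at h
  have hα0 : α ≠ 0 := fun h0 => hlr (by
    rw [h0, zero_pow hp.out.ne_zero, eq_comm, Nat.cast_eq_zero] at hα
    exact hα ▸ dvd_zero l)
  have hv : A.valuation α = 1 := by
    refine (pow_eq_one_iff_of_nonneg zero_le hp.out.ne_zero).1 ?_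
    rw [← map_pow, hα]
    exact GalCoh.Descent.valuation_natCast_eq_one hl hA hlr
  refine (div_eq_one_iff_eq hα0).mp (eq_one_of_valuation_sub_one_lt hl hA hlp ?_ ?_)
  · rw [div_pow, ← map_pow, hα, map_natCast, div_self]
    exact fun h0 => hlr (by rw [Nat.cast_eq_zero] at h0; exact h0 ▸ dvd_zero l)
  · rw [div_sub_one hα0, map_div₀, hv, div_one]
    exact h

/-- Primes `l ≡ 1 (mod p)` modulo which two given primes are not `p`-th powers. -/
theorem exists_aux_prime {r₁ r₂ : ℕ} (h₁ : r₁.Prime) (h₂ : r₂.Prime) :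
    ∃ l : ℕ, l.Prime ∧ l ≠ r₁ ∧ l ≠ r₂ ∧ p ∣ l - 1 ∧
      (∀ x : ZMod l, x ^ p ≠ (r₁ : ZMod l)) ∧ ∀ x : ZMod l, x ^ p ≠ (r₂ : ZMod l) := by
  obtain ⟨ζ, hζ⟩ := exists_primitiveRoot p
  obtain ⟨α₁, hα₁⟩ := IsAlgClosed.exists_pow_nat_eq (r₁ : Qb) hp.out.pos
  obtain ⟨α₂, hα₂⟩ := IsAlgClosed.exists_pow_nat_eq (r₂ : Qb) hp.out.pos
  obtain ⟨g, hgζ, hg₁, hg₂⟩ := exists_move_two h₁ h₂ hζ hα₁ hα₂
  let L := IntermediateField.adjoin ℚ ({ζ, α₁, α₂} : Set Qb)
  have : FiniteDimensional ℚ L :=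
    IntermediateField.finiteDimensional_adjoin fun x _ => Algebra.IsIntegral.isIntegral x
  obtain ⟨l, hl, hlS, A, hA, σ, hσ, heq⟩ :=
    Chebotarev.exists_isFrobeniusAt_eqOn L g {p, r₁, r₂}
  simp only [Finset.mem_insert, Finset.mem_singleton, not_or] at hlS
  obtain ⟨hlp, hl₁, hl₂⟩ := hlS
  have := Fact.mk hl
  have hmem : ∀ y ∈ ({ζ, α₁, α₂} : Set Qb), σ y = g y := fun y hy =>
    heq y (IntermediateField.subset_adjoin ℚ _ hy)
  have hσζ : σ ζ = ζ := (hmem ζ (by simp)).trans hgζ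
  have hndp : ¬ l ∣ p := fun h => hlp ((Nat.prime_dvd_prime_iff_eq hl hp.out).mp h)
  have hdvd : p ∣ l - 1 := by
    have h := frobenius_root_of_unity hl hA hndp hσ hζ.pow_eq_one
    rw [hσζ] at h
    refine (hζ.pow_eq_one_iff_dvd _).mp (mul_left_cancel₀ (hζ.ne_zero hp.out.ne_zero) ?_)
    rw [← pow_succ', Nat.sub_add_cancel hl.one_le, mul_one, ← h]
  refine ⟨l, hl, hl₁, hl₂, hdvd, fun x hx => hg₁ ?_, fun x hx => hg₂ ?_⟩
  · rw [← hmem α₁ (by simp)]
    exact apply_root_eq_of_pow hA hσ hζ hndp hσζ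
      (fun h => hl₁ ((Nat.prime_dvd_prime_iff_eq hl h₁).mp h)) hα₁ hx
  · rw [← hmem α₂ (by simp)]
    exact apply_root_eq_of_pow hA hσ hζ hndp hσζ
      (fun h => hl₂ ((Nat.prime_dvd_prime_iff_eq hl h₂).mp h)) hα₂ hx

end Fermat.Agent.CFT.Brauer
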