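import Fermat.Agent.CFT.Brauer.NormBridge

/-!
Places of fixed fields of open subgroups, and the dictionary between local norms in the sense of
`Fermat.Agent.CFT` and vanishing of cyclic classes on local groups.
-/

set_option autoImplicit false
set_option backward.isDefEq.respectTransparency false

noncomputable section

namespace Fermat.Agent.CFT.Brauer

open ExtCitation NumberField IsDedekindDomain Filter
open scoped Topology Pointwise
open Fermat.Agent.GalCoh (fullLevels Place conjLoc placeLoc SamePlace)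
open Fermat.Agent.GalCoh.Descent (fieldPlace fieldPrime finiteDimensional_fixedField)

/-! ### Places -/

lemma liesOverPrime_at (q : Nat.Primes) (g : GQ) :
    (g • primeLocalPlace q).LiesOverPrime (q : ℕ) :=
  GalCoh.liesOverPrime_smul (GalCoh.Descent.primeLocalPlace_liesOver q) g

/-- The place of `K` given by the embedding `jAt q g`. -/
def placeAt (K : IntermediateField ℚ Qb) [NumberField K] (q : Nat.Primes) (g : GQ) :
    HeightOneSpectrum (𝓞 K) :=
  fieldPlace q.2 (liesOverPrime_at q g) K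

section

variable (K : IntermediateField ℚ Qb) [NumberField K] (q : Nat.Primes) (g : GQ)

lemma natCast_mem_placeAt : ((q : ℕ) : 𝓞 K) ∈ (placeAt K q g).asIdeal :=
  GalCoh.Descent.natCast_mem_fieldPrime q.2 (liesOverPrime_at q g) K

lemma ordv_placeAt_pos : 0 < ordv (placeAt K q g) ((q : ℕ) : K) :=
  GalCoh.Descent.ordv_natCast_pos q.2 (liesOverPrime_at q g) K

variable [Fact (q : ℕ).Prime]

lemma norm_jAt_le_one {z : Qb} (hz : z ∈ g • primeLocalPlace q) : ‖jAt q g z‖ ≤ 1 := by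
  rw [ValuationSubring.mem_pointwise_smul_iff_inv_smul_mem] at hz
  exact hz

/-- The absolute value of `jAt q g` on `K` is that of the place. -/
theorem norm_jAt_rel {x : K} (hx : x ≠ 0) :
    ‖jAt q g (x : Qb)‖ ^ ordv (placeAt K q g) ((q : ℕ) : K) =
      ((q : ℝ)⁻¹) ^ ordv (placeAt K q g) x := by
  set A := g • primeLocalPlace q
  set v := placeAt K q g
  have hq0 : ((q : ℕ) : K) ≠ 0 := Nat.cast_ne_zero.mpr q.2.ne_zero
  set e := ordv v ((q : ℕ) : K)
  set o := ordv v x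
  have h0 : ordv v (x ^ e / ((q : ℕ) : K) ^ o) = 0 := by
    rw [ordv_div v (zpow_ne_zero _ hx) (zpow_ne_zero _ hq0), ordv_zpow, ordv_zpow]
    ring
  have h1 := GalCoh.Descent.valuation_eq_one_of_ordv q.2 (liesOverPrime_at q g) K
    (div_ne_zero (zpow_ne_zero _ hx) (zpow_ne_zero _ hq0)) h0
  set y : Qb := ((x ^ e / ((q : ℕ) : K) ^ o : K) : Qb) with hy
  have hy1 : y ∈ A := (A.valuation_le_one_iff y).mp h1.le
  have hy2 : y⁻¹ ∈ A := (A.valuation_le_one_iff y⁻¹).mp (by rw [map_inv₀, h1, inv_one])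
  have hy0 : y ≠ 0 := fun h => by rw [h, map_zero] at h1; exact zero_ne_one h1
  have hn : ‖jAt q g y‖ = 1 := by
    refine le_antisymm (norm_jAt_le_one q g hy1) ?_
    have h := norm_jAt_le_one q g hy2
    rwa [map_inv₀, norm_inv, inv_le_one₀ (norm_pos_iff.mpr ((map_ne_zero _).mpr hy0))] at h
  have hcoe : y = (x : Qb) ^ e / ((q : ℕ) : Qb) ^ o := by
    rw [hy]; push_cast; rfl
  rw [hcoe, map_div₀, map_zpow₀, map_zpow₀, norm_div, norm_zpow, norm_zpow, norm_map_q,
    div_eq_one_iff_eq (zpow_ne_zero _ (inv_ne_zero (Nat.cast_ne_zero.mpr q.2.ne_zero)))] at hn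
  exact hn

/-- Small at `jAt` gives a high valuation. -/
lemma le_ordv_of_norm_jAt_le {x : K} (hx0 : x ≠ 0) {n : ℕ}
    (hx : ‖jAt q g (x : Qb)‖ < ((q : ℝ)⁻¹) ^ n) : (n : ℤ) ≤ ordv (placeAt K q g) x := by
  set v := placeAt K q g
  have he := ordv_placeAt_pos K q g
  have hq0 : (0 : ℝ) < (q : ℝ)⁻¹ := inv_pos.mpr (Nat.cast_pos.mpr q.2.pos)
  have hq1 : (q : ℝ)⁻¹ < 1 := inv_lt_one_of_one_lt₀ (Nat.one_lt_cast.mpr q.2.one_lt)
  have h1 := norm_jAt_rel K q g hx0
  by_contra hlt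
  rw [not_le] at hlt
  obtain ⟨k, hk⟩ := Int.eq_ofNat_of_zero_le he.le
  rw [hk, zpow_natCast] at h1
  have h2 : ((q : ℝ)⁻¹) ^ (n : ℤ) < ((q : ℝ)⁻¹) ^ ordv v x :=
    zpow_lt_zpow_right_of_lt_one₀ hq0 hq1 hlt
  rw [← h1, zpow_natCast] at h2
  have h3 : ‖jAt q g (x : Qb)‖ ^ k < ((q : ℝ)⁻¹) ^ n :=
    (pow_le_of_le_one (norm_nonneg _) (hx.le.trans (pow_le_one₀ hq0.le hq1.le))
      (by omega)).trans_lt hx
  exact lt_asymm h2 h3

/-- High valuation gives small at `jAt`. -/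
lemma exists_norm_jAt_lt {ε : ℝ} (hε : 0 < ε) :
    ∃ m : ℕ, ∀ x : K, (placeAt K q g).valuation K x ≤ WithZero.exp (-(m : ℤ)) →
      ‖jAt q g (x : Qb)‖ < ε := by
  set v := placeAt K q g
  obtain ⟨k, hk⟩ := Int.eq_ofNat_of_zero_le (ordv_placeAt_pos K q g).le
  have hq0 : (0 : ℝ) < (q : ℝ)⁻¹ := inv_pos.mpr (Nat.cast_pos.mpr q.2.pos)
  have hq1 : (q : ℝ)⁻¹ < 1 := inv_lt_one_of_one_lt₀ (Nat.one_lt_cast.mpr q.2.one_lt)
  obtain ⟨m, hm⟩ := exists_pow_lt_of_lt_one (pow_pos hε k) hq1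
  refine ⟨m, fun x hx => ?_⟩
  rcases eq_or_ne x 0 with rfl | hx0
  · simpa using hε
  have h1 := norm_jAt_rel K q g hx0
  rw [hk, zpow_natCast] at h1
  refine lt_of_pow_lt_pow_left₀ k hε.le (lt_of_le_of_lt ?_ hm)
  rw [h1, ← zpow_natCast]
  exact zpow_le_zpow_right_of_le_one₀ hq0 hq1.le ((valuation_le_exp_iff v hx0).mp hx)

end

/-- Every prime of `K` is some `placeAt`. -/
theorem exists_placeAt_eq (K : IntermediateField ℚ Qb) [NumberField K]
    (v : HeightOneSpectrum (𝓞 K)) : ∃ q g, placeAt K q g = v := by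
  obtain ⟨q, A, hA, hAv⟩ := GalCoh.Descent.exists_place_over v
  obtain ⟨g, hg⟩ := Frobenius.exists_smul_eq_of_liesOverPrime_qbar q.2
    (GalCoh.Descent.primeLocalPlace_liesOver q) hA
  refine ⟨q, g, HeightOneSpectrum.ext ?_⟩
  show fieldPrime (g • primeLocalPlace q) K = v.asIdeal
  rw [hg, hAv]

/-- Places with the same prime are the same place. -/
theorem samePlace_of_placeAt_eq {H : Subgroup GQ} (hH : fullLevels.mem H)
    [NumberField (fixF H)] {q q' : Nat.Primes} {g g' : GQ}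
    (h : placeAt (fixF H) q g = placeAt (fixF H) q' g') :
    SamePlace H (Sum.inr q) g (Sum.inr q') g' := by
  classical
  obtain rfl : q = q' := GalCoh.Descent.prime_unique _ (natCast_mem_placeAt (fixF H) q g)
    (h ▸ natCast_mem_placeAt (fixF H) q' g')
  have hK := finiteDimensional_fixedField hH
  obtain ⟨E, hE, hN, hKE, -⟩ := exists_normal_level (fixF H) ∅
  have : IsGalois ℚ E := IsGalois.mk
  have : NumberField E := { to_charZero := inferInstance, to_finiteDimensional := hE }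
  let _ : Algebra (fixF H) E := (IntermediateField.inclusion hKE).toRingHom.toAlgebra
  have : IsScalarTower ℚ (fixF H) E := IsScalarTower.of_algebraMap_eq' (Subsingleton.elim _ _)
  have : IsGalois (fixF H) E := IsGalois.tower_top_of_isGalois ℚ (fixF H) E
  have hW : primeUnder (fixF H) (placeAt E q g) = primeUnder (fixF H) (placeAt E q g') := by
    have e : ∀ g₀ : GQ, primeUnder (fixF H) (placeAt E q g₀) = placeAt (fixF H) q g₀ := fun g₀ =>
      HeightOneSpectrum.ext (Ideal.ext fun _ => Iff.rfl)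
    rw [e, e, h]
  obtain ⟨σ, hσ⟩ := exists_smul_eq_of_primeUnder_eq hW
  let γ : GQ := (σ.restrictScalars ℚ).liftNormal Qb
  have hγ : ∀ x : E, γ (x : Qb) = ((σ x : E) : Qb) := fun x =>
    AlgEquiv.liftNormal_commutes (σ.restrictScalars ℚ) Qb x
  have hγH : γ ∈ H := mem_of_fix hH fun x hx => by
    have := hγ (algebraMap (fixF H) E ⟨x, hx⟩)
    rw [σ.commutes] at this
    exact this
  have hA : (γ • g • primeLocalPlace q).LiesOverPrime (q : ℕ) :=
    GalCoh.liesOverPrime_smul (liesOverPrime_at q g) γ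
  have hP : fieldPrime (γ • g • primeLocalPlace q) E = fieldPrime (g' • primeLocalPlace q) E := by
    have h2 : (σ • placeAt E q g).asIdeal = (placeAt E q g').asIdeal := by rw [hσ]
    rw [primeSmul_asIdeal] at h2
    refine Eq.trans ?_ h2
    ext b
    rw [Ideal.mem_pointwise_smul_iff_inv_smul_mem]
    show b ∈ fieldPrime (γ • g • primeLocalPlace q) E ↔
      σ⁻¹ • b ∈ fieldPrime (g • primeLocalPlace q) E
    rw [GalCoh.Descent.mem_fieldPrime, GalCoh.Descent.mem_fieldPrime,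
      GalCoh.mem_nonunits_smul_iff]
    have e : (((σ⁻¹ • b : 𝓞 E) : E) : Qb) = γ.symm ((b : E) : Qb) := by
      rw [AlgEquiv.eq_symm_apply, hγ]
      exact congrArg Subtype.val (σ.apply_symm_apply (b : E))
    rw [e]
  obtain ⟨n, hn, hnA⟩ := GalCoh.Descent.exists_fixing_smul_eq q.2 hA E (liesOverPrime_at q g') hP
  have hnH : n ∈ H := mem_of_fix hH fun x hx =>
    (IntermediateField.mem_fixingSubgroup_iff _ _).mp hn x (hKE hx)
  set x := n * γ
  have hd : g'⁻¹ * x * g ∈ (primeLocalPlace q).decompositionSubgroup ℚ := by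
    show (g'⁻¹ * x * g) • primeLocalPlace q = primeLocalPlace q
    rw [mul_smul, mul_smul, mul_smul, hnA, inv_smul_smul]
  have : Fact (q : ℕ).Prime := ⟨q.2⟩
  obtain ⟨τ, hτ⟩ := GalCoh.Descent.exists_localGaloisToGlobal_eq (q : ℕ) hd
  refine ⟨rfl, x, mul_mem hnH hγH, τ⁻¹, ?_⟩
  have e : placeLoc (Sum.inr q) τ⁻¹ = (g'⁻¹ * x * g)⁻¹ := by
    rw [map_inv]
    exact congrArg _ hτ
  rw [e]
  group

variable {S M : Subgroup GQ} {σ : GQ} {n : ℕ}

namespace CyclicOver

variable (h : CyclicOver S M σ n)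
include h

/-! ### Local norms and local vanishing -/

/-- A local norm is a limit of norms of global elements, for any cyclic quotient. -/
theorem exists_seq_norm' (hS : fullLevels.mem S) {a : Qbˣ} (ha : a ∈ fixU S)
    (q : Nat.Primes) [Fact (q : ℕ).Prime] (g : GQ)
    (hloc : h.fa a ∈ B2 (locG S (Sum.inr q) g)) :
    ∃ b : ℕ → Qb, (∀ m, b m ∈ fixF M) ∧
      Tendsto (fun m => jAt q g (∏ i ∈ Finset.range n, (σ ^ i) (b m))) atTop
        (𝓝 (jAt q g a)) := by
  classical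
  set j := jAt q g
  set D := locG S (Sum.inr q) g
  obtain ⟨d, τ, hd, h₁, hidx₁, hfa₁⟩ := h.exists_inf (locG_le S (Sum.inr q) g)
  obtain ⟨m', hm', h₀, hidx, hfa₀⟩ : ∃ m', n / d = m' ∧ ∃ h₀ : CyclicOver D (D ⊓ M) τ m',
      (∀ x ∈ D, h.idx x = d * h₀.idx x) ∧
        ∀ a : Qbˣ, ∀ x ∈ D, ∀ y ∈ D, h.fa a x y = h₀.fa a x y :=
    ⟨_, rfl, h₁, hidx₁, hfa₁⟩
  obtain ⟨b, hbfix, hb⟩ := (h₀.fa_mem_B2_iff (fixU_anti (locG_le _ _ _) ha)).mp
    ((mem_B2_congr (hfa₀ a)).mp hloc)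
  obtain ⟨m, rfl⟩ : ∃ m, n = d * m := hd
  have hd0 : 0 < d := Nat.pos_of_ne_zero fun e => by simpa [e] using h.pos
  obtain rfl : m = m' := (Nat.mul_div_cancel_left m hd0).symm.trans hm'
  obtain ⟨θ, hθ, hdet⟩ := h.repSystem.exists_det_ne_zero
  set A : Matrix (Fin (d * m)) (Fin (d * m)) Qb :=
    Matrix.of fun i k => (σ ^ (i : ℕ)) ((σ ^ (k : ℕ)) θ)
  have hu : IsUnit A.det := Ne.isUnit hdet
  let T : ℕ → Qb := fun i => if d ∣ i then ((τ ^ (i / d) • b : Qbˣ) : Qb) else 1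
  let t : Fin (d * m) → Qb := fun i => T i
  obtain ⟨c, hsys⟩ : ∃ c, A.mulVec c = t := ⟨A⁻¹.mulVec t, by
    rw [Matrix.mulVec_mulVec, Matrix.mul_nonsing_inv _ hu, Matrix.one_mulVec]⟩
  have hrow : ∀ i : Fin (d * m),
      ∑ k, c k * (σ ^ (i : ℕ)) ((σ ^ (k : ℕ)) θ) = T i := fun i => by
    have h1 := congrFun hsys i
    simp only [Matrix.mulVec, dotProduct, A, Matrix.of_apply, t] at h1 ⊢
    rw [← h1]
    exact Finset.sum_congr rfl fun k _ => mul_comm _ _
  have hcD : ∀ k, c k ∈ fixF D := by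
    suffices hall : ∀ x ∈ D, ∀ k, x (c k) = c k from
      fun k => mem_fixF.mpr fun x hx => hall x hx k
    intro x hx
    have hxS := locG_le S (Sum.inr q) g hx
    set e := h₀.idx x
    have hxe : h.idx x = d * e := hidx x hx
    have hfix : A.mulVec (fun k => x (c k)) = A.mulVec c := by
      funext i'
      obtain ⟨i, rfl⟩ : ∃ i : Fin (d * m),
          (⟨(d * e + i) % (d * m), Nat.mod_lt _ h.pos⟩ : Fin (d * m)) = i' := by
        refine ⟨⟨(i' + (d * m - d * e % (d * m))) % (d * m), Nat.mod_lt _ h.pos⟩, Fin.ext ?_⟩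
        have h1 := Nat.mod_lt (d * e) h.pos
        show (d * e + (i' + (d * m - d * e % (d * m))) % (d * m)) % (d * m) = i'
        rw [Nat.add_mod_mod, Nat.add_mod, Nat.add_mod_mod]
        conv_rhs => rw [← Nat.mod_eq_of_lt i'.2]
        rw [show d * e % (d * m) + (i' + (d * m - d * e % (d * m))) = i' + d * m by omega,
          Nat.add_mod_right]
      have hidxi : h.idx (x * σ ^ (i : ℕ)) = (d * e + i) % (d * m) := by
        rw [h.idx_mul hxS (h.pow_mem _), h.idx_pow, Nat.mod_eq_of_lt i.2, hxe]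
      have hrowx : ∀ k : Fin (d * m), x ((σ ^ (i : ℕ)) ((σ ^ (k : ℕ)) θ)) =
          (σ ^ ((d * e + i) % (d * m))) ((σ ^ (k : ℕ)) θ) := fun k => by
        have hmem : (σ ^ ((d * e + i) % (d * m)))⁻¹ * (x * σ ^ (i : ℕ)) ∈ M := by
          rw [← hidxi]
          exact h.idx_spec (mul_mem hxS (h.pow_mem _))
        have h3 := mem_fixF.mp (h.repSystem.smul_fix (h.pow_mem k) hθ) _ hmem
        rw [← AlgEquiv.mul_apply x]
        conv_lhs => rw [← mul_inv_cancel_left (σ ^ ((d * e + i) % (d * m))) (x * σ ^ (i : ℕ)),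
          AlgEquiv.mul_apply, h3]
      have hTx : x (T i) = T ((d * e + i) % (d * m)) := by
        by_cases hdi : d ∣ (i : ℕ)
        · obtain ⟨j₀, hj₀⟩ := hdi
          have e1 : (d * e + i) % (d * m) = d * ((e + j₀) % m) := by
            rw [hj₀, ← Nat.mul_add, Nat.mul_mod_mul_left]
          simp only [T, e1]
          simp only [hj₀, dvd_mul_right, if_true, Nat.mul_div_cancel_left _ hd0]
          rw [← units_smul_coe, ← mul_smul,
            h₀.smul_eq_pow_smul (mul_mem hx (h₀.pow_mem j₀)) hbfix,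
            h₀.idx_mul hx (h₀.pow_mem j₀), h₀.idx_pow, Nat.add_mod_mod]
        · have hndvd : ¬ d ∣ (d * e + i) % (d * m) := fun hdd => hdi
            ((Nat.dvd_add_right (dvd_mul_right d e)).mp
              ((Nat.dvd_mod_iff (dvd_mul_right d m)).mp hdd))
          simp only [T, if_neg hdi, if_neg hndvd, map_one]
      show A.mulVec (fun k => x (c k)) ⟨_, _⟩ = A.mulVec c ⟨_, _⟩
      rw [hsys]
      simp only [Matrix.mulVec, dotProduct, A, Matrix.of_apply, t]
      rw [← hTx, ← hrow i, map_sum]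
      exact Finset.sum_congr rfl fun k _ => by rw [map_mul, hrowx, mul_comm]
    exact congrFun (Matrix.mulVec_injective_iff_isUnit.mpr
      ((Matrix.isUnit_iff_isUnit_det _).mpr hu) hfix)
  have hprod : ∏ i ∈ Finset.range (d * m), ∑ k : Fin (d * m),
      c k * (σ ^ i) ((σ ^ (k : ℕ)) θ) = (a : Qb) := by
    rw [Finset.prod_range]
    simp only [hrow]
    rw [← Finset.prod_range fun i => T i, ← congrArg Units.val hb, Units.coe_prod]
    symm
    refine Finset.prod_bij_ne_one (fun i _ _ => d * i) (fun i hi _ => ?_) (fun i _ _ j _ _ hij =>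
      Nat.eq_of_mul_eq_mul_left hd0 hij) (fun k hk hne => ?_) (fun i _ _ => ?_)
    · exact Finset.mem_range.mpr (Nat.mul_lt_mul_of_pos_left (Finset.mem_range.mp hi) hd0)
    · obtain ⟨i, rfl⟩ : d ∣ k := by
        by_contra hnd
        exact hne (if_neg hnd)
      refine ⟨i, Finset.mem_range.mpr (Nat.lt_of_mul_lt_mul_left (Finset.mem_range.mp hk)), ?_, rfl⟩
      simpa only [T, dvd_mul_right, if_true, Nat.mul_div_cancel_left _ hd0] using hne
    · simp only [T, dvd_mul_right, if_true, Nat.mul_div_cancel_left _ hd0]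
  choose u hu' hulim using fun k =>
    mem_closure_iff_seq_limit.mp (mem_closure_image hS q g (hcD k))
  choose v hv hvu using hu'
  refine ⟨fun m' => ∑ k, v k m' * (σ ^ (k : ℕ)) θ, fun m' => sum_mem fun k _ =>
    mul_mem (fixF_anti h.le (hv k m')) (h.repSystem.smul_fix (h.pow_mem _) hθ), ?_⟩
  have e1 : ∀ m', j (∏ i ∈ Finset.range (d * m), (σ ^ i) (∑ k, v k m' * (σ ^ (k : ℕ)) θ)) =
      ∏ i ∈ Finset.range (d * m), ∑ k : Fin (d * m),
        u k m' * j ((σ ^ i) ((σ ^ (k : ℕ)) θ)) := fun m' => by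
    rw [map_prod]
    refine Finset.prod_congr rfl fun i _ => ?_
    rw [map_sum, map_sum]
    refine Finset.sum_congr rfl fun k _ => ?_
    rw [map_mul, map_mul, mem_fixF.mp (hv k m') _ (h.pow_mem i), hvu]
  simp only [e1]
  have hlim : j (a : Qb) = ∏ i ∈ Finset.range (d * m), ∑ k : Fin (d * m),
      j (c k) * j ((σ ^ i) ((σ ^ (k : ℕ)) θ)) := by
    rw [← hprod, map_prod]
    simp only [map_sum, map_mul]
  rw [hlim]
  exact tendsto_finsetProd _ fun i _ => tendsto_finsetSum _ fun k _ =>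
    (hulim k).mul_const _

/-- Local vanishing gives a local norm. -/
theorem isLocalNormAt_of_mem_B2 (hS : fullLevels.mem S) [NumberField (fixF S)]
    [NumberField h.top] {a : Qbˣ} (ha : a ∈ fixU S) (q : Nat.Primes) (g : GQ)
    (hloc : h.fa a ∈ B2 (locG S (Sum.inr q) g)) :
    IsLocalNormAt (fixF S) h.top (placeAt (fixF S) q g) ⟨(a : Qb), mem_fixU.mp ha⟩ := by
  classical
  have : Fact (q : ℕ).Prime := ⟨q.2⟩
  obtain ⟨-, -, hnorm⟩ := h.top_spec hS
  set aK : fixF S := ⟨(a : Qb), mem_fixU.mp ha⟩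
  set v := placeAt (fixF S) q g
  rw [isLocalNormAt_iff]
  intro k
  obtain ⟨b, hbM, hblim⟩ := h.exists_seq_norm' hS ha q g hloc
  have hja : jAt q g (a : Qb) ≠ 0 := (map_ne_zero _).mpr a.ne_zero
  have hlim : Tendsto (fun m => jAt q g (a : Qb) /
      jAt q g (∏ i ∈ Finset.range n, (σ ^ i) (b m)) - 1) atTop (𝓝 0) := by
    have := ((tendsto_const_nhds (x := jAt q g (a : Qb))).div hblim hja).sub_const 1
    rwa [div_self hja, sub_self] at this
  have hε : (0 : ℝ) < ((q : ℝ)⁻¹) ^ k := by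
    have : (0 : ℝ) < (q : ℝ) := Nat.cast_pos.mpr q.2.pos
    positivity
  obtain ⟨m, hm, hm0⟩ := ((tendsto_zero_iff_norm_tendsto_zero.mp hlim).eventually
    (gt_mem_nhds hε)).and (hblim.eventually_ne hja) |>.exists
  let bL : h.top := ⟨b m, (IntermediateField.mem_extendScalars _).mpr (hbM m)⟩
  refine ⟨bL, fun h0 => hm0 ?_, ?_⟩
  · have e0 : b m = 0 := congrArg Subtype.val h0
    simp only [e0, map_zero, Finset.prod_const, Finset.card_range, zero_pow h.pos.ne']
  rw [Near]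
  set x : fixF S := aK / Algebra.norm (fixF S) bL - 1
  rcases eq_or_ne x 0 with hx0 | hx0
  · rw [hx0, map_zero]; exact zero_le
  rw [valuation_le_exp_iff v hx0]
  refine le_ordv_of_norm_jAt_le _ q g hx0 ?_
  rwa [show (x : Qb) = (a : Qb) / (∏ i ∈ Finset.range n, (σ ^ i) (b m)) - 1 by
    rw [← hnorm bL]; rfl, map_sub, map_div₀, map_one]

/-- A local norm gives local vanishing. -/
theorem mem_B2_of_isLocalNormAt (hS : fullLevels.mem S) [NumberField (fixF S)]
    [NumberField h.top] {a : Qbˣ} (ha : a ∈ fixU S) (q : Nat.Primes) (g : GQ)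
    (hloc : IsLocalNormAt (fixF S) h.top (placeAt (fixF S) q g) ⟨(a : Qb), mem_fixU.mp ha⟩) :
    h.fa a ∈ B2 (locG S (Sum.inr q) g) := by
  classical
  have : Fact (q : ℕ).Prime := ⟨q.2⟩
  obtain ⟨-, -, hnorm⟩ := h.top_spec hS
  set D := locG S (Sum.inr q) g
  obtain ⟨d, τ, -, h₀, -, hfa₀⟩ := h.exists_inf (locG_le S (Sum.inr q) g)
  have hD := localAt_locG q g hS
  obtain ⟨π, hπ, hπ0, hπ1, -⟩ := hD.exists_uniformizer
  obtain ⟨Λ, -⟩ := exists_nbLattice hD h₀ hπ hπ0 hπ1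
  obtain ⟨m, hm⟩ := exists_norm_jAt_lt (fixF S) q g (one_div_pos.mpr Λ.C_pos)
  rw [isLocalNormAt_iff] at hloc
  obtain ⟨b, hb0, hb⟩ := hloc m
  have hb0' : ((b : h.top) : Qb) ≠ 0 := fun e => hb0 (Subtype.ext e)
  let β : Qbˣ := Units.mk0 (b : Qb) hb0'
  let N : Qbˣ := ∏ i ∈ Finset.range n, σ ^ i • β
  have hN : (N : Qb) = ((Algebra.norm (fixF S) b : fixF S) : Qb) := by
    rw [hnorm, Units.coe_prod]
    simp only [units_smul_coe, β, Units.val_mk0]
  have hNfix : N ∈ fixU S := mem_fixU.mpr (hN ▸ (Algebra.norm (fixF S) b).2)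
  have hNB : h.fa N ∈ B2 S := (h.fa_mem_B2_iff hNfix).mpr
    ⟨β, fun s hs => Units.ext (mem_fixF.mp (h.coe_top_mem b) s hs), rfl⟩
  set u := a / N
  have hu : u ∈ fixU D := fixU_anti (locG_le _ _ _) (div_mem ha hNfix)
  have hsmall : ‖jAt q g ((u : Qb) - 1)‖ < 1 / Λ.C := by
    have h1 := hm _ hb
    rwa [show ((((⟨(a : Qb), mem_fixU.mp ha⟩ : fixF S) / Algebra.norm (fixF S) b - 1 : fixF S)) : Qb)
      = (u : Qb) - 1 by rw [Units.val_div_eq_div_val, hN]; rfl] at h1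
  have huW : u ∈ Λ.W h₀ hD zero_le_one le_rfl := by
    rw [NBLattice.mem_W]
    exact Λ.V_of_norm_le (sub_mem (fixF_anti h₀.le (mem_fixU.mp hu)) (one_mem _)) hsmall.le
  obtain ⟨z, hz, hzu⟩ := Λ.exists_Nm_eq h₀ hD hu huW
  have hfu : h.fa u ∈ B2 D := (mem_B2_congr (hfa₀ u)).mpr ((h₀.fa_mem_B2_iff hu).mpr
    ⟨z, fun s hs => (Λ.W_le_units h₀ hD hz).1 s hs, hzu⟩)
  rw [← mul_div_cancel N a, h.fa_mul]
  exact mul_mem (B2_anti (locG_le _ _ _) hNB) hfu

end CyclicOver

end Fermat.Agent.CFT.Brauer
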