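import Fermat.Agent.CFT.Brauer.Cocycle

/-!
Descent along cyclic quotients: a class on `Γ` dying on `Δ` with `Γ / Δ` cyclic is the standard
class of an invariant element, which vanishes exactly when the element is a norm.
-/

set_option autoImplicit false
set_option backward.isDefEq.respectTransparency false

noncomputable section

namespace Fermat.Agent.CFT.Brauer

/-- `Δ` is open normal in `Γ` with quotient cyclic of order `n`, generated by `σ`. -/
structure CyclicOver (Γ Δ : Subgroup GQ) (σ : GQ) (n : ℕ) : Prop where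
  isOpen : IsOpenIn Δ Γ
  mem : σ ∈ Γ
  pos : 0 < n
  conj : ∀ g ∈ Γ, ∀ s ∈ Δ, g⁻¹ * s * g ∈ Δ
  cover : ∀ g ∈ Γ, ∃ i : ℕ, (σ ^ i)⁻¹ * g ∈ Δ
  pow_mem_iff : ∀ i : ℕ, σ ^ i ∈ Δ ↔ n ∣ i

variable {Γ Δ : Subgroup GQ} {σ : GQ} {n : ℕ}

open Classical in
/-- The exponent of `g` modulo `Δ`. -/
def CyclicOver.idx (_h : CyclicOver Γ Δ σ n) (g : GQ) : ℕ :=
  if hg : ∃ i : ℕ, (σ ^ i)⁻¹ * g ∈ Δ then hg.choose % n else 0

namespace CyclicOver

variable (h : CyclicOver Γ Δ σ n)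
include h

lemma le : Δ ≤ Γ := h.isOpen.1

lemma pow_mem (i : ℕ) : σ ^ i ∈ Γ := _root_.pow_mem h.mem i

lemma idx_lt (g : GQ) : h.idx g < n := by
  unfold idx
  split_ifs
  · exact Nat.mod_lt _ h.pos
  · exact h.pos

lemma pow_sub_mem {i j : ℕ} (hij : i % n = j % n) : (σ ^ i)⁻¹ * σ ^ j ∈ Δ := by
  have hn : σ ^ n ∈ Δ := (h.pow_mem_iff n).mpr dvd_rfl
  have key : ∀ a : ℕ, (σ ^ (a % n))⁻¹ * σ ^ a ∈ Δ := fun a => by
    conv in σ ^ a => rw [← Nat.mod_add_div a n, pow_add, pow_mul]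
    rw [inv_mul_cancel_left]
    exact _root_.pow_mem hn _
  have := mul_mem (inv_mem (key i)) (key j)
  rw [hij] at this
  simpa [mul_inv_rev, mul_assoc] using this

lemma idx_spec {g : GQ} (hg : g ∈ Γ) : (σ ^ h.idx g)⁻¹ * g ∈ Δ := by
  have he := h.cover g hg
  rw [idx, dif_pos he]
  have := mul_mem (h.pow_sub_mem (Nat.mod_mod he.choose n)) he.choose_spec
  rwa [mul_assoc, mul_inv_cancel_left] at this

lemma mod_eq_of_mem {i j : ℕ} (hij : (σ ^ i)⁻¹ * σ ^ j ∈ Δ) : i % n = j % n := by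
  rcases le_total i j with hle | hle
  · obtain ⟨k, rfl⟩ := Nat.exists_eq_add_of_le hle
    rw [pow_add, inv_mul_cancel_left, h.pow_mem_iff] at hij
    obtain ⟨c, rfl⟩ := hij
    rw [Nat.add_mul_mod_self_left]
  · obtain ⟨k, rfl⟩ := Nat.exists_eq_add_of_le hle
    rw [pow_add, mul_inv_rev, mul_assoc, inv_mul_cancel, mul_one, inv_mem_iff, h.pow_mem_iff]
      at hij
    obtain ⟨c, rfl⟩ := hij
    rw [Nat.add_mul_mod_self_left]

lemma idx_eq {g : GQ} {i : ℕ} (hg : g ∈ Γ) (hi : (σ ^ i)⁻¹ * g ∈ Δ) : h.idx g = i % n := by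
  rw [← Nat.mod_eq_of_lt (h.idx_lt g)]
  refine h.mod_eq_of_mem ?_
  simpa [mul_assoc, mul_inv_rev] using mul_mem (h.idx_spec hg) (inv_mem hi)

lemma idx_pow (i : ℕ) : h.idx (σ ^ i) = i % n :=
  h.idx_eq (h.pow_mem i) (by simp)

lemma idx_of_mem {s : GQ} (hs : s ∈ Δ) : h.idx s = 0 := by
  rw [h.idx_eq (h.le hs) (i := 0) (by simpa using hs), Nat.zero_mod]

lemma idx_mul {g g' : GQ} (hg : g ∈ Γ) (hg' : g' ∈ Γ) :
    h.idx (g * g') = (h.idx g + h.idx g') % n := by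
  refine h.idx_eq (mul_mem hg hg') ?_
  have h1 := h.conj _ (h.pow_mem (h.idx g')) _ (h.idx_spec hg)
  have := mul_mem h1 (h.idx_spec hg')
  simpa [pow_add, mul_inv_rev, mul_assoc] using this

lemma idx_mul_of_mem {g s : GQ} (hg : g ∈ Γ) (hs : s ∈ Δ) : h.idx (g * s) = h.idx g := by
  rw [h.idx_mul hg (h.le hs), h.idx_of_mem hs, Nat.add_zero, Nat.mod_eq_of_lt (h.idx_lt g)]

lemma smul_eq_pow_smul {g : GQ} (hg : g ∈ Γ) {x : Qbˣ} (hx : ∀ s ∈ Δ, s • x = x) :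
    g • x = σ ^ h.idx g • x := by
  conv_lhs => rw [← mul_inv_cancel_left (σ ^ h.idx g) g, mul_smul, hx _ (h.idx_spec hg)]

lemma cts₁_comp {X : Type} (φ : ℕ → X) : Cts₁ Γ (fun g => φ (h.idx g)) := by
  obtain ⟨-, F, hF, hFm⟩ := h.isOpen
  exact ⟨F, hF, fun g hg s hs hsF => congrArg φ (h.idx_mul_of_mem hg (hFm s hs hsF))⟩

/-- The standard two-cocycle attached to an element. -/
def fa (a : Qbˣ) (g g' : GQ) : Qbˣ := if n ≤ h.idx g + h.idx g' then a else 1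

lemma fa_mul (a b : Qbˣ) : h.fa (a * b) = h.fa a * h.fa b := by
  funext g g'
  simp only [fa, Pi.mul_apply]
  split_ifs <;> simp

lemma fa_one : h.fa 1 = 1 := by
  funext g g'
  simp [fa]

lemma cts₂_fa (a : Qbˣ) : Cts₂ Γ (h.fa a) := by
  obtain ⟨-, F, hF, hFm⟩ := h.isOpen
  refine ⟨F, hF, fun g hg g' hg' s hs t ht hsF htF => ?_⟩
  simp only [fa, h.idx_mul_of_mem hg (hFm s hs hsF), h.idx_mul_of_mem hg' (hFm t ht htF)]

lemma fa_mem_Z2 {a : Qbˣ} (ha : ∀ g ∈ Γ, g • a = a) : h.fa a ∈ Z2 Γ := by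
  refine ⟨fun g hg g' hg' j hj => ?_, h.cts₂_fa a⟩
  have hga : g • h.fa a g' j = h.fa a g' j := by
    simp only [fa]
    split_ifs
    · exact ha g hg
    · exact smul_one g
  rw [hga]
  simp only [fa, h.idx_mul hg hg', h.idx_mul hg' hj]
  have h1 := h.idx_lt g
  have h2 := h.idx_lt g'
  have h3 := h.idx_lt j
  generalize h.idx g = x, h.idx g' = y, h.idx j = z at h1 h2 h3 ⊢
  have hxy : (x + y) % n = if n ≤ x + y then x + y - n else x + y := by
    split_ifs with hc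
    · rw [Nat.mod_eq_sub_mod hc, Nat.mod_eq_of_lt (by omega)]
    · exact Nat.mod_eq_of_lt (by omega)
  have hyz : (y + z) % n = if n ≤ y + z then y + z - n else y + z := by
    split_ifs with hc
    · rw [Nat.mod_eq_sub_mod hc, Nat.mod_eq_of_lt (by omega)]
    · exact Nat.mod_eq_of_lt (by omega)
  rw [hxy, hyz]
  split_ifs <;> first | omega | simp [mul_comm]

lemma fa_mem_B2_sub (a : Qbˣ) : h.fa a ∈ B2 Δ :=
  ⟨1, cts₁_const Δ 1, fun g hg g' hg' => by
    simp [fa, h.idx_of_mem hg, h.idx_of_mem hg', Nat.pos_iff_ne_zero.mp h.pos]⟩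

/-- A cocycle which is normalised on both sides by `Δ` is the standard class of a product of its
values. -/
theorem eq_fa_of_normalized {f₂ : GQ → GQ → Qbˣ} (hf₂ : f₂ ∈ Z2 Γ)
    (hR : ∀ g ∈ Γ, ∀ s ∈ Δ, f₂ g s = 1) (hL : ∀ s ∈ Δ, ∀ g ∈ Γ, f₂ s g = 1) :
    (∀ g ∈ Γ, g • (∏ k ∈ Finset.range n, f₂ (σ ^ k) σ) = ∏ k ∈ Finset.range n, f₂ (σ ^ k) σ) ∧
      f₂ / h.fa (∏ k ∈ Finset.range n, f₂ (σ ^ k) σ) ∈ B2 Γ := by
  have hconjmul : ∀ g ∈ Γ, ∀ s ∈ Δ, s * g = g * (g⁻¹ * s * g) := fun g _ s _ => by group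
  have hr2 : ∀ {g g' s : GQ}, g ∈ Γ → g' ∈ Γ → s ∈ Δ → f₂ g (g' * s) = f₂ g g' :=
    fun hg hg' hs => right_invariant_of_normalized h.le hf₂.1 hR hg hg' hs
  have hl2 : ∀ {g g' s : GQ}, g ∈ Γ → g' ∈ Γ → s ∈ Δ → f₂ (g * s) g' = f₂ g g' := by
    intro g g' s hg hg' hs
    have := hf₂.1 g hg s (h.le hs) g' hg'
    rwa [hR g hg s hs, mul_one, hL s hs g' hg', smul_one, one_mul, hconjmul g' hg' s hs,
      hr2 hg hg' (h.conj g' hg' s hs)] at this
  have hinv : ∀ g ∈ Γ, ∀ g' ∈ Γ, ∀ s ∈ Δ, s • f₂ g g' = f₂ g g' := by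
    intro g hg g' hg' s hs
    have := hf₂.1 s (h.le hs) g hg g' hg'
    rw [hL s hs g hg, hL s hs _ (mul_mem hg hg'), mul_one, mul_one, hconjmul g hg s hs,
      hl2 hg hg' (h.conj g hg s hs)] at this
    exact this.symm
  -- telescoping products
  let W : ℕ → Qbˣ := fun i => ∏ k ∈ Finset.range i, f₂ (σ ^ k) σ
  have hW1 : ∀ i, W (i + 1) = W i * f₂ (σ ^ i) σ := fun i => Finset.prod_range_succ _ _
  have hWfix : ∀ i, ∀ s ∈ Δ, s • W i = W i := fun i s hs => by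
    simp only [W, Finset.smul_prod']
    exact Finset.prod_congr rfl fun k _ => hinv _ (h.pow_mem k) _ h.mem s hs
  have hWadd : ∀ i j, f₂ (σ ^ i) (σ ^ j) * (σ ^ i • W j * W i) = W (i + j) := by
    intro i j
    induction j with
    | zero => simp [W, hR _ (h.pow_mem i) 1 (one_mem _)]
    | succ j ih =>
      have := hf₂.1 _ (h.pow_mem i) _ (h.pow_mem j) σ h.mem
      rw [← pow_add, ← pow_succ] at this
      rw [← add_assoc, hW1, hW1, ← ih, smul_mul',
        show f₂ (σ ^ i) (σ ^ j) * (σ ^ i • W j * W i) * f₂ (σ ^ (i + j)) σ =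
          f₂ (σ ^ (i + j)) σ * f₂ (σ ^ i) (σ ^ j) * (σ ^ i • W j * W i) by ac_rfl, this]
      ac_rfl
  have hσn : σ ^ n ∈ Δ := (h.pow_mem_iff n).mpr dvd_rfl
  have hfix : ∀ k : ℕ, σ ^ k • W n * W k = W n * W k := fun k => by
    have h1 := hWadd k n
    have h2 := hWadd n k
    rw [hR _ (h.pow_mem k) _ hσn, one_mul] at h1
    rw [hL _ hσn _ (h.pow_mem k), one_mul, hWfix k _ hσn, add_comm] at h2
    rw [h1, ← h2, mul_comm]
  refine ⟨fun g hg => ?_, ?_⟩
  · rw [h.smul_eq_pow_smul hg (hWfix n)]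
    exact mul_right_cancel (hfix (h.idx g))
  have key : ∀ g ∈ Γ, ∀ g' ∈ Γ, f₂ g g' * d1 (fun g => W (h.idx g)) g g' = h.fa (W n) g g' := by
    intro g hg g' hg'
    have e1 : f₂ g g' = f₂ (σ ^ h.idx g) (σ ^ h.idx g') := by
      conv_lhs => rw [← mul_inv_cancel_left (σ ^ h.idx g) g,
        ← mul_inv_cancel_left (σ ^ h.idx g') g']
      rw [hl2 (h.pow_mem _) (mul_mem (h.pow_mem _) (h.le (h.idx_spec hg'))) (h.idx_spec hg),
        hr2 (h.pow_mem _) (h.pow_mem _) (h.idx_spec hg')]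
    simp only [d1, h.idx_mul hg hg', h.smul_eq_pow_smul hg (hWfix _)]
    rw [e1, mul_div_assoc', hWadd, div_eq_iff_eq_mul]
    have hi := h.idx_lt g
    have hj := h.idx_lt g'
    simp only [fa]
    split_ifs with hc
    · obtain ⟨k, hk⟩ := Nat.exists_eq_add_of_le hc
      have h1 := hWadd k n
      rw [hR _ (h.pow_mem k) _ hσn, one_mul, hfix k, add_comm] at h1
      rw [hk, Nat.add_mod_left, Nat.mod_eq_of_lt (show k < n by omega), ← h1, mul_comm]
    · rw [Nat.mod_eq_of_lt (by omega), one_mul]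
  refine ⟨(fun g => W (h.idx g))⁻¹, (h.cts₁_comp W).map₂ (h.cts₁_comp W) (fun x _ => x⁻¹),
    fun g hg g' hg' => ?_⟩
  rw [d1_inv, Pi.div_apply, Pi.div_apply, ← key g hg g' hg', div_mul_cancel_left]

/-- A class dying on `Δ` is the standard class of an invariant element. -/
theorem exists_eq_fa {f : GQ → GQ → Qbˣ} (hf : f ∈ Z2 Γ) (hfΔ : f ∈ B2 Δ) :
    ∃ a : Qbˣ, (∀ g ∈ Γ, g • a = a) ∧ f / h.fa a ∈ B2 Γ := by
  classical
  obtain ⟨f₁, hf₁, hdiv, hn⟩ := exists_normalized h.isOpen hf hfΔ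
  -- the values at `(s, g)`, `s ∈ Δ`, are coboundaries
  have hr : ∀ {g g' s : GQ}, g ∈ Γ → g' ∈ Γ → s ∈ Δ → f₁ g (g' * s) = f₁ g g' :=
    fun hg hg' hs => right_invariant_of_normalized h.le hf₁.1 hn hg hg' hs
  have hconjmul : ∀ g ∈ Γ, ∀ s ∈ Δ, s * g = g * (g⁻¹ * s * g) := fun g _ s _ => by group
  have hex : ∀ i : ℕ, ∃ c : Qbˣ, ∀ s ∈ Δ, f₁ s (σ ^ i) = s • c / c := by
    intro i
    obtain ⟨F, hF, hcts⟩ := hf₁.2
    refine hilbert90 ⟨F, hF, fun g hg s hs hsF => ?_⟩ fun g hg s hs => ?_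
    · have := hcts g (h.le hg) _ (h.pow_mem i) s (h.le hs) 1 (one_mem _) hsF (one_mem _)
      rwa [mul_one] at this
    · have := hf₁.1 g (h.le hg) s (h.le hs) _ (h.pow_mem i)
      rwa [hn g (h.le hg) s hs, mul_one, hconjmul _ (h.pow_mem i) s hs,
        hr (h.le hg) (h.pow_mem i) (h.conj _ (h.pow_mem i) s hs)] at this
  choose c hc using hex
  set c' : ℕ → Qbˣ := fun i => if i = 0 then 1 else c i with hc'def
  have hc' : ∀ i < n, ∀ s ∈ Δ, f₁ s (σ ^ i) = s • c' i / c' i := by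
    intro i _ s hs
    rcases eq_or_ne i 0 with rfl | hi
    · simp [hc'def, hn s (h.le hs) 1 (one_mem _)]
    · simp only [hc'def, if_neg hi]
      exact hc i s hs
  set w : GQ → Qbˣ := fun g => c' (h.idx g) with hwdef
  have hw : Cts₁ Γ w := h.cts₁_comp c'
  set f₂ := f₁ / d1 w with hf₂def
  have hf₂ : f₂ ∈ Z2 Γ := div_mem hf₁ (d1_mem_Z2 hw)
  have hwΔ : ∀ s ∈ Δ, w s = 1 := fun s hs => by simp [hwdef, hc'def, h.idx_of_mem hs]
  have hR : ∀ g ∈ Γ, ∀ s ∈ Δ, f₂ g s = 1 := fun g hg s hs => by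
    simp only [hf₂def, Pi.div_apply, d1, hn g hg s hs, hwΔ s hs, smul_one, one_mul]
    simp [hwdef, h.idx_mul_of_mem hg hs]
  have hL : ∀ s ∈ Δ, ∀ g ∈ Γ, f₂ s g = 1 := by
    intro s hs g hg
    have h1 : f₁ s g = s • c' (h.idx g) / c' (h.idx g) := by
      conv_lhs => rw [← mul_inv_cancel_left (σ ^ h.idx g) g]
      rw [hr (h.le hs) (h.pow_mem _) (h.idx_spec hg), hc' _ (h.idx_lt g) s hs]
    have h2 : w (s * g) = w g := by
      simp only [hwdef]
      rw [hconjmul g hg s hs, h.idx_mul_of_mem hg (h.conj g hg s hs)]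
    simp only [hf₂def, Pi.div_apply, d1, h2, hwΔ s hs, mul_one, h1]
    simp [hwdef]
  obtain ⟨hfixA, hcl⟩ := h.eq_fa_of_normalized hf₂ hR hL
  refine ⟨_, hfixA, ?_⟩
  generalize ∏ k ∈ Finset.range n, f₂ (σ ^ k) σ = A at hcl ⊢
  rw [show f / h.fa A = f / f₁ * d1 w * (f₂ / h.fa A) by
    rw [hf₂def, ← mul_div_assoc, mul_assoc (f / f₁), mul_div_cancel, div_mul_cancel]]
  exact mul_mem (mul_mem hdiv (d1_mem_B2 hw)) hcl

/-- The standard class vanishes exactly when the element is a norm. -/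
theorem fa_mem_B2_iff {a : Qbˣ} (ha : ∀ g ∈ Γ, g • a = a) :
    h.fa a ∈ B2 Γ ↔
      ∃ b : Qbˣ, (∀ s ∈ Δ, s • b = b) ∧ ∏ i ∈ Finset.range n, σ ^ i • b = a := by
  constructor
  · rintro ⟨z₀, hz₀, hfa⟩
    rcases eq_or_lt_of_le (show 1 ≤ n from h.pos) with rfl | hn
    · exact ⟨a, fun s hs => ha s (h.le hs), by
        rw [Finset.prod_range_one, pow_zero, one_smul]⟩
    have hΔ0 : ∀ g ∈ Γ, ∀ s ∈ Δ, h.fa a g s = 1 := fun g _ s hs => by
      have := h.idx_lt g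
      simp [fa, h.idx_of_mem hs, this]
    obtain ⟨c, hc⟩ := hilbert90 (hz₀.mono h.le) fun g hg s hs => by
      have := hfa g (h.le hg) s (h.le hs)
      rw [hΔ0 g (h.le hg) s hs, d1, eq_comm, div_eq_one] at this
      exact this.symm
    let z : GQ → Qbˣ := fun g => z₀ g / (g • c / c)
    have hd : ∀ g ∈ Γ, ∀ g' ∈ Γ, z g * g • z g' = h.fa a g g' * z (g * g') := by
      intro g hg g' hg'
      rw [hfa g hg g' hg']
      simp only [z, d1, smul_div', mul_smul]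
      apply Units.ext
      simp only [Units.val_mul, Units.val_div_eq_div_val]
      field_simp
    have hzΔ : ∀ s ∈ Δ, z s = 1 := fun s hs => by simp [z, hc s hs]
    have hzr : ∀ g ∈ Γ, ∀ s ∈ Δ, z (g * s) = z g := fun g hg s hs => by
      have := hd g hg s (h.le hs)
      rwa [hzΔ s hs, smul_one, mul_one, hΔ0 g hg s hs, one_mul, eq_comm] at this
    have hfix : ∀ s ∈ Δ, s • z σ = z σ := fun s hs => by
      have := hd s (h.le hs) σ h.mem
      rw [hzΔ s hs, one_mul] at this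
      have h0 : h.fa a s σ = 1 := by
        have := h.idx_lt σ
        simp [fa, h.idx_of_mem hs, this]
      rwa [h0, one_mul, show s * σ = σ * (σ⁻¹ * s * σ) by group,
        hzr σ h.mem _ (h.conj σ h.mem s hs)] at this
    refine ⟨z σ, hfix, ?_⟩
    have step : ∀ k, k < n → ∏ i ∈ Finset.range k, σ ^ i • z σ = z (σ ^ k) := by
      intro k hk
      induction k with
      | zero => simp [hzΔ 1 (one_mem _)]
      | succ k ih =>
        rw [Finset.prod_range_succ, ih (by omega), hd _ (h.pow_mem k) σ h.mem, ← pow_succ]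
        have : h.fa a (σ ^ k) σ = 1 := by
          simp only [fa, h.idx_pow]
          rw [if_neg]
          have h1 := h.idx_pow 1
          rw [pow_one] at h1
          rw [h1, Nat.mod_eq_of_lt (by omega : k < n), Nat.mod_eq_of_lt hn]
          omega
        rw [this, one_mul]
    obtain ⟨m, rfl⟩ := Nat.exists_eq_add_of_le' h.pos
    rw [Finset.prod_range_succ, step m (by omega), hd _ (h.pow_mem m) σ h.mem, ← pow_succ,
      hzΔ _ ((h.pow_mem_iff _).mpr dvd_rfl), mul_one, fa, if_pos]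
    have h1 := h.idx_pow 1
    rw [pow_one] at h1
    rw [h1, h.idx_pow, Nat.mod_eq_of_lt (by omega : m < m + 1), Nat.mod_eq_of_lt hn]
  · rintro ⟨b, hb, rfl⟩
    let W : ℕ → Qbˣ := fun i => ∏ k ∈ Finset.range i, σ ^ k • b
    refine ⟨fun g => W (h.idx g), h.cts₁_comp W, fun g hg g' hg' => ?_⟩
    have hWfix : ∀ i, ∀ s ∈ Δ, s • W i = W i := fun i s hs => by
      simp only [W, Finset.smul_prod']
      refine Finset.prod_congr rfl fun k _ => ?_
      rw [← mul_smul, show s * σ ^ k = σ ^ k * ((σ ^ k)⁻¹ * s * σ ^ k) by group, mul_smul,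
        hb _ (h.conj _ (h.pow_mem k) s hs)]
    have hWadd : ∀ i j, W (i + j) = W i * σ ^ i • W j := fun i j => by
      simp only [W, Finset.prod_range_add, Finset.smul_prod', ← mul_smul, ← pow_add]
    simp only [d1, h.idx_mul hg hg', h.smul_eq_pow_smul hg (hWfix _), fa]
    rw [eq_div_iff_mul_eq', mul_comm (σ ^ _ • _), ← hWadd]
    have hi := h.idx_lt g
    have hj := h.idx_lt g'
    split_ifs with hc
    · obtain ⟨k, hk⟩ := Nat.exists_eq_add_of_le hc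
      rw [hk, Nat.add_mod_left, Nat.mod_eq_of_lt (show k < n by omega), hWadd n k,
        hWfix k _ ((h.pow_mem_iff n).mpr dvd_rfl)]
    · rw [Nat.mod_eq_of_lt (by omega), one_mul]

end CyclicOver

end Fermat.Agent.CFT.Brauer
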