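import Fermat.Agent.CFT.Brauer.NormBridge

/-!
Hasse–Brauer–Noether for `μ_p`: a class which vanishes at every place vanishes.
-/

set_option autoImplicit false
set_option backward.isDefEq.respectTransparency false

noncomputable section

namespace Fermat.Agent.CFT.Brauer

open ExtCitation
open Fermat.Agent.GalCoh (fullLevels Place)

/-! ### Quadratic steps -/

/-- The quadratic extension generated by a square root of an invariant element. -/
theorem cyclicOver_sqrt {S : Subgroup GQ} {x : Qb} (hx : x ^ 2 ∈ fixF S) {σ : GQ} (hσ : σ ∈ S)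
    (hσx : σ x ≠ x) : CyclicOver S (S ⊓ MulAction.stabilizer GQ x) σ 2 := by
  have hpm : ∀ g ∈ S, g x = x ∨ g x = -x := fun g hg =>
    sq_eq_sq_iff_eq_or_eq_neg.mp (by rw [← map_pow, mem_fixF.mp hx g hg])
  have hσ' : σ x = -x := (hpm σ hσ).resolve_left hσx
  have hpow : ∀ i : ℕ, (σ ^ i) x = (-1) ^ i * x := fun i => by
    induction i with
    | zero => simp
    | succ i ih => rw [pow_succ', AlgEquiv.mul_apply, ih, map_mul, map_pow, map_neg, map_one, hσ',
        pow_succ]; ring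
  have hx0 : x ≠ 0 := fun h0 => hσx (by rw [h0, map_zero])
  obtain ⟨F, hF, -, -, hxF⟩ := exists_normal_level ⊥ {x}
  refine
    { isOpen := ⟨inf_le_left, F, hF, fun g hg hgF =>
        ⟨hg, fix_eq hgF (hxF x (Finset.mem_singleton_self _))⟩⟩
      mem := hσ
      pos := two_pos
      conj := fun g hg s hs => ⟨S.mul_mem (S.mul_mem (S.inv_mem hg) hs.1) hg, ?_⟩
      cover := fun g hg => ?_
      pow_mem_iff := fun i => ?_ }
  · have hs2 : s x = x := hs.2
    have e : s (g x) = g x := by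
      rcases hpm g hg with e | e <;> rw [e]
      · exact hs2
      · rw [map_neg, hs2]
    show (g⁻¹ * s * g) x = x
    rw [AlgEquiv.mul_apply, AlgEquiv.mul_apply, e]
    exact g.symm_apply_apply x
  · rcases hpm g hg with e | e
    · exact ⟨0, by simpa using And.intro hg e⟩
    · refine ⟨1, S.mul_mem (S.inv_mem (_root_.pow_mem hσ 1)) hg, ?_⟩
      show ((σ ^ 1)⁻¹ * g) x = x
      rw [AlgEquiv.mul_apply, e, ← hσ', pow_one]
      exact σ.symm_apply_apply x
  · constructor
    · intro hi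
      have h1 : (σ ^ i) x = x := hi.2
      rw [hpow] at h1
      rw [← even_iff_two_dvd]
      by_contra hodd
      rw [(Nat.not_even_iff_odd.mp hodd).neg_one_pow, neg_one_mul] at h1
      exact hσx (hσ'.trans h1)
    · intro hi
      refine ⟨_root_.pow_mem hσ i, ?_⟩
      show (σ ^ i) x = x
      rw [hpow, (even_iff_two_dvd.mpr hi).neg_one_pow, one_mul]

lemma archConj_sqrt_neg_one {ι : Qb} (hι : ι ^ 2 = -1) (g : GQ) : archConj g ι ≠ ι := by
  intro h
  have h1 := phiAt_archConj g ι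
  rw [h] at h1
  obtain ⟨r, hr⟩ := Complex.conj_eq_iff_real.mp h1.symm
  have h2 : phiAt g ι ^ 2 = -1 := by rw [← map_pow, hι, map_neg, map_one]
  rw [hr] at h2
  have hre := congrArg Complex.re h2
  rw [← Complex.ofReal_pow, Complex.ofReal_re, Complex.neg_re, Complex.one_re] at hre
  nlinarith [sq_nonneg r]

/-! ### The tower -/

/-- A cocycle dying on a normal subgroup of `p`-power index and trivial at all places is trivial,
when no real place ramifies. -/
theorem mem_B2_of_tower {p : ℕ} [hp : Fact p.Prime] : ∀ (k : ℕ) {S Δ : Subgroup GQ},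
    fullLevels.mem S → IsOpenIn Δ S → (∀ x ∈ S, ∀ s ∈ Δ, x⁻¹ * s * x ∈ Δ) →
    Δ.relIndex S = p ^ k → (p = 2 → ∀ g, archConj g ∉ S) →
    ∀ {F : GQ → GQ → Qbˣ}, F ∈ Z2 S → F ∈ B2 Δ →
      (∀ q g, F ∈ B2 (locG S (Sum.inr q) g)) → F ∈ B2 S
  | 0, S, Δ, _, _, _, hidx, _, _, _, hFΔ, _ =>
    B2_anti (Subgroup.relIndex_eq_one.mp (by simpa using hidx)) hFΔ
  | k + 1, S, Δ, hS, hΔ, hconj, hidx, hreal, F, hF, hFΔ, hloc => by
    obtain ⟨M, σ, h, hΔM, hconjM, hidxM⟩ := exists_prime_step hΔ hconj hidx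
    have hFM : F ∈ B2 M := mem_B2_of_tower k (mem_levels_of_isOpenIn hS h.isOpen) hΔM hconjM
      hidxM (fun h2 g hg => hreal h2 g (h.le hg)) (Z2_anti h.le hF) hFΔ
      fun q g => B2_anti (fun x hx => mem_locG.mpr ⟨h.le (mem_locG.mp hx).1, (mem_locG.mp hx).2⟩)
        (hloc q g)
    obtain ⟨a, ha, hdiv⟩ := h.exists_eq_fa hF hFM
    rw [← div_mul_cancel F (h.fa a)]
    refine mul_mem hdiv (fa_mem_B2_of_local hp.out hS h ha (fun g hg => ?_) fun q g => ?_)
    · rcases hp.out.eq_two_or_odd' with h2 | hodd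
      · exact absurd hg (hreal h2 g)
      · have hmem : archConj g ^ p ∈ M := by
          refine h.mem_of_idx_eq_zero (_root_.pow_mem hg p) ?_
          rw [h.idx_npow hg, Nat.mul_mod_right]
        obtain ⟨m, rfl⟩ := hodd
        rwa [pow_succ, pow_mul, pow_two, archConj_mul_self, one_pow, one_mul] at hmem
    · have := div_mem (hloc q g) (B2_anti (locG_le S (Sum.inr q) g) hdiv)
      rwa [div_div_cancel] at this

/-- A `p`-torsion cocycle trivial at all places is trivial, when no real place ramifies. -/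
theorem mem_B2_of_local {p : ℕ} [hp : Fact p.Prime] {H : Subgroup GQ} (hH : fullLevels.mem H)
    (hreal : p = 2 → ∀ g, archConj g ∉ H) {F : GQ → GQ → Qbˣ} (hF : F ∈ Z2 H)
    (hFp : F ^ p ∈ B2 H) (hloc : ∀ q g, F ∈ B2 (locG H (Sum.inr q) g)) : F ∈ B2 H := by
  classical
  obtain ⟨E, hE, hN, hFE⟩ := exists_level_mem_B2 hF
  set Δ := H ⊓ E.fixingSubgroup
  have := normal_fixingSubgroup E
  have := finiteIndex_fixingSubgroup E
  let N : Subgroup ↥H := E.fixingSubgroup.subgroupOf H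
  let Q := ↥H ⧸ N
  have : Finite Q := inferInstance
  let P : Sylow p Q := default
  obtain ⟨k, hk⟩ := IsPGroup.iff_card.mp P.2
  let T : Subgroup ↥H := (P : Subgroup Q).comap (QuotientGroup.mk' N)
  let S : Subgroup GQ := T.map H.subtype
  have hSH : S ≤ H := Subgroup.map_subtype_le T
  have hmemS : ∀ {x : GQ} (hx : x ∈ H), x ∈ S ↔ ((⟨x, hx⟩ : ↥H) : Q) ∈ (P : Subgroup Q) :=
    fun {x} hx => ⟨fun ⟨y, hy, e⟩ => by
        obtain rfl : y = ⟨x, hx⟩ := Subtype.ext e
        exact hy, fun hy => ⟨⟨x, hx⟩, hy, rfl⟩⟩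
  have hΔS : Δ ≤ S := fun x hx => (hmemS hx.1).mpr (by
    rw [(QuotientGroup.eq_one_iff (N := N) ⟨x, hx.1⟩).mpr hx.2]
    exact one_mem _)
  have hΔopen : IsOpenIn Δ S := ⟨hΔS, E, hE, fun g hg hgE => ⟨hSH hg, hgE⟩⟩
  have hSopen : IsOpenIn S H := ⟨hSH, E, hE, fun g hg hgE => hΔS ⟨hg, hgE⟩⟩
  have hidxS : S.relIndex H = (P : Subgroup Q).index := by
    have e : S.subgroupOf H = T := by
      rw [Subgroup.subgroupOf, Subgroup.comap_map_eq_self_of_injective H.subtype_injective]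
    rw [Subgroup.relIndex, e]
    exact Subgroup.index_comap_of_surjective _ (QuotientGroup.mk'_surjective N)
  have hidxΔ : Δ.relIndex S = p ^ k := by
    have h1 := Subgroup.relIndex_mul_relIndex Δ S H hΔS hSH
    have h2 : Δ.relIndex H = Nat.card Q := by
      rw [show Δ.relIndex H = E.fixingSubgroup.relIndex H from Subgroup.inf_relIndex_left _ _]
      rfl
    rw [h2, hidxS, ← Subgroup.card_mul_index (P : Subgroup Q)] at h1
    rw [← hk]
    exact Nat.eq_of_mul_eq_mul_right (Nat.pos_of_ne_zero Subgroup.index_ne_zero_of_finite) h1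
  have hFS : F ∈ B2 S := mem_B2_of_tower k (mem_levels_of_isOpenIn hH hSopen) hΔopen
    (fun x hx s hs => ⟨H.mul_mem (H.mul_mem (H.inv_mem (hSH hx)) hs.1) (hSH hx),
      conj_mem_fixingSubgroup hs.2 x⟩) hidxΔ (fun h2 g hg => hreal h2 g (hSH hg))
    (Z2_anti hSH hF) hFE
    fun q g => B2_anti (fun x hx => mem_locG.mpr ⟨hSH (mem_locG.mp hx).1, (mem_locG.mp hx).2⟩)
      (hloc q g)
  refine mem_B2_of_coprime ?_ (pow_relIndex_mem_B2 hSopen hF hFS) hFp
  rw [hidxS]
  exact (hp.out.coprime_iff_not_dvd.mpr P.not_dvd_index).symm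

/-- `-1` is a local norm from `K(√a)` when `a` is one from `K(i)`. -/
theorem fa_neg_one_local {S D : Subgroup GQ} (hD : D ≤ S) {ι e : Qb} (hι : ι ^ 2 = -1) {σ τ : GQ}
    (h : CyclicOver S (S ⊓ MulAction.stabilizer GQ ι) σ 2)
    (h' : CyclicOver S (S ⊓ MulAction.stabilizer GQ e) τ 2) {a : Qbˣ} (ha : a ∈ fixU S)
    (he : e ^ 2 = (a : Qb)) (hloc : h.fa a ∈ B2 D) : h'.fa (-1) ∈ B2 D := by
  by_cases hDe : D ≤ MulAction.stabilizer GQ e
  · exact B2_anti (le_inf hD hDe) (h'.fa_mem_B2_sub _)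
  obtain ⟨τ₁, hτ₁, hτ₁e⟩ := SetLike.not_le_iff_exists.mp hDe
  have hneg : (-1 : Qbˣ) ∈ fixU S := fun g _ => Units.ext (by simp)
  obtain ⟨d', τ', hd', h'', -, hfa'⟩ := h'.exists_inf hD
  refine (mem_B2_congr (hfa' (-1))).mpr ((h''.fa_mem_B2_iff (fixU_anti hD hneg)).mpr ?_)
  have hd'1 : d' = 1 := by
    rcases (Nat.dvd_prime Nat.prime_two).mp hd' with h1 | h2
    · exact h1
    · exfalso
      have h3 : h''.idx τ₁ = 0 := Nat.lt_one_iff.mp
        (lt_of_lt_of_eq (h''.idx_lt τ₁) (by rw [h2]))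
      exact hτ₁e (h''.mem_of_idx_eq_zero hτ₁ h3).2.2
  have hn2 : 2 / d' = 2 := by rw [hd'1]
  have hτ'e : τ' e = -e := by
    have hτ'S := hD h''.mem
    have hfix : τ' e ≠ e := fun h0 => by
      have := (h''.pow_mem_iff 1).mp (by rw [pow_one]; exact ⟨h''.mem, hτ'S, h0⟩)
      rw [hn2] at this
      omega
    refine (sq_eq_sq_iff_eq_or_eq_neg.mp ?_).resolve_left hfix
    rw [← map_pow, he]
    exact congrArg Units.val (ha τ' hτ'S)
  suffices hb : ∃ b : Qb, (∀ s ∈ D ⊓ (S ⊓ MulAction.stabilizer GQ e), s b = b) ∧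
      b * τ' b = -1 by
    obtain ⟨b, hbfix, hb⟩ := hb
    refine ⟨Units.mk0 b fun h0 => by simp [h0] at hb, fun s hs => Units.ext (hbfix s hs),
      Units.ext ?_⟩
    rw [hn2]
    simpa [Finset.prod_range_succ, units_smul_coe] using hb
  have hι0 : ι ≠ 0 := fun h0 => by simp [h0] at hι
  by_cases hDι : D ≤ MulAction.stabilizer GQ ι
  · refine ⟨ι, fun s hs => hDι hs.1, ?_⟩
    rw [show τ' ι = ι from hDι h''.mem, ← pow_two, hι]
  obtain ⟨σ₁, hσ₁, hσ₁ι⟩ := SetLike.not_le_iff_exists.mp hDι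
  obtain ⟨d, σ', hd, h₁, -, hfa⟩ := h.exists_inf hD
  have hd1 : d = 1 := by
    rcases (Nat.dvd_prime Nat.prime_two).mp hd with h1 | h2
    · exact h1
    · exfalso
      have h3 : h₁.idx σ₁ = 0 := Nat.lt_one_iff.mp
        (lt_of_lt_of_eq (h₁.idx_lt σ₁) (by rw [h2]))
      exact hσ₁ι (h₁.mem_of_idx_eq_zero hσ₁ h3).2.2
  have hm2 : 2 / d = 2 := by rw [hd1]
  obtain ⟨b, hbfix, hb⟩ := (h₁.fa_mem_B2_iff (fixU_anti hD ha)).mp ((mem_B2_congr (hfa a)).mp hloc)
  have hσ'ι : σ' ι = -ι := by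
    have hfix : σ' ι ≠ ι := fun h0 => by
      have := (h₁.pow_mem_iff 1).mp (by rw [pow_one]; exact ⟨h₁.mem, hD h₁.mem, h0⟩)
      rw [hm2] at this
      omega
    refine (sq_eq_sq_iff_eq_or_eq_neg.mp ?_).resolve_left hfix
    rw [← map_pow, hι, map_neg, map_one]
  have hb' : (b : Qb) * σ' b = a := by
    rw [hm2] at hb
    simpa [Finset.prod_range_succ, units_smul_coe] using congrArg Units.val hb
  set x : Qb := ((b : Qb) + σ' b) / 2 with hx
  set y : Qb := ((b : Qb) - σ' b) / (2 * ι) with hy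
  have hxy : (b : Qb) = x + y * ι := by rw [hx, hy]; field_simp; ring
  have hxy' : σ' b = x - y * ι := by rw [hx, hy]; field_simp; ring
  have hsq : σ' (σ' b) = b := by
    have hm : σ' ^ 2 ∈ D ⊓ (S ⊓ MulAction.stabilizer GQ ι) :=
      (h₁.pow_mem_iff 2).mpr (by rw [hm2])
    rw [← AlgEquiv.mul_apply, ← pow_two]
    exact congrArg Units.val (hbfix _ hm)
  have hfixD : ∀ s ∈ D, s x = x ∧ s y = y := fun s hs => by
    obtain ⟨i, hi⟩ := h₁.cover s hs
    have hb1 : ∀ z : Qb, (∀ u ∈ D ⊓ (S ⊓ MulAction.stabilizer GQ ι), u z = z) → σ' z = z →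
        s z = z := fun z hz hσz => by
      have e1 : s = σ' ^ i * ((σ' ^ i)⁻¹ * s) := by group
      rw [e1, AlgEquiv.mul_apply, hz _ hi]
      clear e1 hi
      induction i with
      | zero => rfl
      | succ i ih => rw [pow_succ, AlgEquiv.mul_apply, hσz, ih]
    have hb2 : ∀ u ∈ D ⊓ (S ⊓ MulAction.stabilizer GQ ι), u (b : Qb) = b ∧ u (σ' b) = σ' b :=
      fun u hu => ⟨congrArg Units.val (hbfix u hu), h₁.repSystem.smul_fix h₁.mem
        (mem_fixU.mp hbfix) |> fun hm => mem_fixF.mp hm u hu⟩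
    constructor
    · refine hb1 x (fun u hu => ?_) ?_
      · obtain ⟨e1, e2⟩ := hb2 u hu
        simp only [hx, map_div₀, map_add, map_ofNat, e1, e2]
      · simp only [hx, map_div₀, map_add, map_ofNat, hsq, add_comm]
    · refine hb1 y (fun u hu => ?_) ?_
      · obtain ⟨e1, e2⟩ := hb2 u hu
        simp only [hy, map_div₀, map_sub, map_mul, map_ofNat, e1, e2,
          show u ι = ι from hu.2.2]
      · simp only [hy, map_div₀, map_sub, map_mul, map_ofNat, hsq, hσ'ι, mul_neg, div_neg]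
        rw [← neg_div, neg_sub]
  have haxy : (a : Qb) = x ^ 2 + y ^ 2 := by
    rw [← hb', hxy', hxy]
    linear_combination (-(y ^ 2)) * hι
  have hy0 : y ≠ 0 := fun h0 => by
    rw [h0] at haxy
    have hex : e ^ 2 = x ^ 2 := by rw [he, haxy]; ring
    rcases sq_eq_sq_iff_eq_or_eq_neg.mp hex with hh | hh <;>
      refine hτ₁e ?_ <;> show τ₁ e = e <;> simp [hh, (hfixD τ₁ hτ₁).1]
  refine ⟨(x + e) / y, fun s hs => ?_, ?_⟩
  · obtain ⟨e1, e2⟩ := hfixD s hs.1
    rw [map_div₀, map_add, e1, e2, show s e = e from hs.2.2]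
  · obtain ⟨e1, e2⟩ := hfixD τ' h''.mem
    rw [map_div₀, map_add, e1, e2, hτ'e, div_mul_div_comm, div_eq_iff (mul_ne_zero hy0 hy0)]
    linear_combination (-1 : Qb) * he - haxy

/-! ### Real places -/

/-- A class of order two trivial at all places, real places included, is trivial. -/
theorem mem_B2_of_local_two {H : Subgroup GQ} (hH : fullLevels.mem H) {F : GQ → GQ → Qbˣ}
    (hF : F ∈ Z2 H) (hF2 : F ^ 2 ∈ B2 H) (hloc : ∀ v g, F ∈ B2 (locG H v g)) : F ∈ B2 H := by
  classical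
  have : Fact (Nat.Prime 2) := ⟨Nat.prime_two⟩
  obtain ⟨ι, hι⟩ := IsAlgClosed.exists_pow_nat_eq (-1 : Qb) two_pos
  set S' := H ⊓ MulAction.stabilizer GQ ι with hS'
  obtain ⟨E, hE, -, -, hιE⟩ := exists_normal_level ⊥ {ι}
  have hopen : IsOpenIn S' H := ⟨inf_le_left, E, hE, fun g hg hgE =>
    ⟨hg, fix_eq hgE (hιE ι (Finset.mem_singleton_self _))⟩⟩
  have hFS' : F ∈ B2 S' := mem_B2_of_local (p := 2) (mem_levels_of_isOpenIn hH hopen)
    (fun _ g hg => archConj_sqrt_neg_one hι g hg.2) (Z2_anti inf_le_left hF)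
    (B2_anti inf_le_left hF2) fun q g =>
      B2_anti (fun x hx => mem_locG.mpr ⟨((mem_locG (H := S')).mp hx).1.1, (mem_locG.mp hx).2⟩)
        (hloc (Sum.inr q) g)
  by_cases hall : H ≤ MulAction.stabilizer GQ ι
  · exact B2_anti (le_inf le_rfl hall) hFS'
  obtain ⟨σ, hσ, hσι⟩ := SetLike.not_le_iff_exists.mp hall
  have hι2 : ι ^ 2 ∈ fixF H := mem_fixF.mpr fun g _ => by rw [hι, map_neg, map_one]
  have h := cyclicOver_sqrt hι2 hσ hσι
  obtain ⟨a, ha, hdiv⟩ := h.exists_eq_fa hF hFS'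
  rw [← div_mul_cancel F (h.fa a)]
  refine mul_mem hdiv ?_
  have hloc' : ∀ v g, h.fa a ∈ B2 (locG H v g) := fun v g => by
    have := div_mem (hloc v g) (B2_anti (locG_le H v g) hdiv)
    rwa [div_div_cancel] at this
  obtain ⟨e, he⟩ := IsAlgClosed.exists_pow_nat_eq (a : Qb) two_pos
  have he0 : e ≠ 0 := fun h0 => a.ne_zero (by rw [← he, h0]; simp)
  have he2 : e ^ 2 ∈ fixF H := he ▸ mem_fixU.mp ha
  have hfin : ∀ r t : Qb, r ∈ fixF H → t ∈ fixF H → r ^ 2 + t ^ 2 = (a : Qb) →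
      h.fa a ∈ B2 H := by
    intro r t hr ht hrt
    have hσ' : σ ι = -ι := by
      refine (sq_eq_sq_iff_eq_or_eq_neg.mp ?_).resolve_left hσι
      rw [← map_pow, mem_fixF.mp hι2 σ hσ]
    have hb : (r + t * ι) * σ (r + t * ι) = a := by
      rw [map_add, map_mul, mem_fixF.mp hr σ hσ, mem_fixF.mp ht σ hσ, hσ', ← hrt]
      linear_combination (-(t ^ 2)) * hι
    refine (h.fa_mem_B2_iff ha).mpr ⟨Units.mk0 (r + t * ι) fun h0 => a.ne_zero
      (by rw [← hb, h0, zero_mul]), fun s hs => Units.ext ?_, Units.ext ?_⟩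
    · show s (r + t * ι) = r + t * ι
      rw [map_add, map_mul, mem_fixF.mp hr s hs.1, mem_fixF.mp ht s hs.1,
        show s ι = ι from hs.2]
    · simpa [Finset.prod_range_succ, units_smul_coe] using hb
  by_cases hsq : H ≤ MulAction.stabilizer GQ e
  · exact hfin e 0 (mem_fixF.mpr fun g hg => hsq hg) (zero_mem _) (by rw [← he]; ring)
  obtain ⟨τ, hτ, hτe⟩ := SetLike.not_le_iff_exists.mp hsq
  have h' := cyclicOver_sqrt he2 hτ hτe
  have hneg : (-1 : Qbˣ) ∈ fixU H := fun g _ => Units.ext (by simp)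
  have hnorm : h'.fa (-1) ∈ B2 H := by
    refine fa_mem_B2_of_local Nat.prime_two hH h' hneg (fun g hg => ⟨hg, ?_⟩) fun q g =>
      fa_neg_one_local (locG_le _ _ _) hι h h' ha he (hloc' _ g)
    have hDH : Subgroup.zpowers (archConj g) ≤ H := Subgroup.zpowers_le.mpr hg
    have hD : locG H (Sum.inl ()) g = Subgroup.zpowers (archConj g) := by
      rw [locG_eq, range_conjLoc_inl, inf_eq_right]
      exact hDH
    have hfa := hloc' (Sum.inl ()) g
    rw [hD] at hfa
    have hpos : 0 < (phiAt g (a : Qb)).re := by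
      refine (fa_mem_B2_arch_iff g (fixU_anti hDH ha)).mp ?_
      refine (mem_B2_congr fun x hx y hy => ?_).mp hfa
      have hidx : ∀ z ∈ Subgroup.zpowers (archConj g), h.idx z = (cyclicOver_arch g).idx z :=
        fun z hz => by
          rw [← range_conjLoc_inl g ()] at hz
          rcases eq_one_or_of_mem_range g hz with rfl | rfl
          · rw [h.idx_of_mem (one_mem _), (cyclicOver_arch g).idx_of_mem (one_mem _)]
          · have h1 : h.idx (archConj g) = 1 := by
              have hne : h.idx (archConj g) ≠ 0 := fun h0 =>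
                archConj_sqrt_neg_one hι g (h.mem_of_idx_eq_zero hg h0).2
              have := h.idx_lt (archConj g)
              omega
            rw [h1]
            have := (cyclicOver_arch g).idx_pow 1
            rwa [pow_one, eq_comm] at this
      simp only [CyclicOver.fa, hidx x hx, hidx y hy]
    show archConj g e = e
    refine (phiAt g).injective ?_
    rw [phiAt_archConj, Complex.conj_eq_iff_im]
    have hφ : phiAt g e ^ 2 = phiAt g (a : Qb) := by rw [← map_pow, he]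
    obtain ⟨t, -, ht⟩ := exists_real g (fixU_anti hDH ha)
    rw [ht, Complex.ofReal_re] at hpos
    rw [ht] at hφ
    have h1 := congrArg Complex.re hφ
    have h2 := congrArg Complex.im hφ
    simp only [pow_two, Complex.mul_re, Complex.mul_im, Complex.ofReal_re, Complex.ofReal_im]
      at h1 h2
    by_contra hne
    rcases mul_eq_zero.mp (by linarith : (phiAt g e).re * (phiAt g e).im = 0) with hh | hh
    · rw [hh] at h1
      nlinarith [mul_self_nonneg (phiAt g e).im]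
    · exact hne hh
  obtain ⟨b, hbfix, hb⟩ := (h'.fa_mem_B2_iff hneg).mp hnorm
  have hb1 : (b : Qb) * τ b = -1 := by
    simpa [Finset.prod_range_succ, units_smul_coe] using congrArg Units.val hb
  have hτe' : τ e = -e := by
    refine (sq_eq_sq_iff_eq_or_eq_neg.mp ?_).resolve_left hτe
    rw [← map_pow, mem_fixF.mp he2 τ hτ]
  obtain ⟨hs, ht⟩ : ((b : Qb) + τ b) / 2 ∈ fixF H ∧ ((b : Qb) - τ b) / (2 * e) ∈ fixF H := by
    have hbF : (b : Qb) ∈ fixF (H ⊓ MulAction.stabilizer GQ e) := mem_fixU.mp hbfix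
    have hτb := h'.repSystem.smul_fix h'.mem hbF
    have hττ : τ (τ b) = b := by
      rw [← AlgEquiv.mul_apply, ← pow_two]
      exact mem_fixF.mp hbF _ ((h'.pow_mem_iff 2).mpr dvd_rfl)
    have key : ∀ z : Qb, z ∈ fixF (H ⊓ MulAction.stabilizer GQ e) → τ z = z → z ∈ fixF H :=
      fun z hz hτz => mem_fixF.mpr fun g hg => by
        have hi := h'.idx_spec hg
        rcases Nat.le_one_iff_eq_zero_or_eq_one.mp (Nat.lt_succ_iff.mp (h'.idx_lt g)) with h0 | h1
        · rw [h0, pow_zero, inv_one, one_mul] at hi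
          exact mem_fixF.mp hz g hi
        · rw [h1, pow_one] at hi
          rw [← mul_inv_cancel_left τ g, AlgEquiv.mul_apply, mem_fixF.mp hz _ hi, hτz]
    refine ⟨key _ (div_mem (add_mem hbF hτb) (natCast_mem _ 2)) ?_, key _ ?_ ?_⟩
    · rw [map_div₀, map_add, map_ofNat, hττ, add_comm]
    · exact div_mem (sub_mem hbF hτb)
        (mul_mem (natCast_mem _ 2) (mem_fixF.mpr fun s hs => hs.2))
    · rw [map_div₀, map_sub, map_mul, map_ofNat, hττ, hτe', mul_neg, div_neg, ← neg_div, neg_sub]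
  set s := ((b : Qb) + τ b) / 2 with hsdef
  set t := ((b : Qb) - τ b) / (2 * e) with htdef
  have hmul : s ^ 2 - (a : Qb) * t ^ 2 = -1 := by
    rw [← hb1, ← he, hsdef, htdef]
    field_simp
    ring
  have ht0 : t ≠ 0 := fun h0 => by
    rw [h0] at hmul
    have hsι : s ^ 2 = ι ^ 2 := by rw [hι, ← hmul]; ring
    rcases sq_eq_sq_iff_eq_or_eq_neg.mp hsι with hh | hh
    · exact hσι (show σ ι = ι from hh ▸ mem_fixF.mp hs σ hσ)
    · refine hσι (show σ ι = ι from ?_)
      have := mem_fixF.mp hs σ hσ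
      rw [hh, map_neg, neg_inj] at this
      exact this
  refine hfin (s / t) t⁻¹ (div_mem hs ht) (inv_mem ht) ?_
  field_simp
  linear_combination hmul

/-- Hasse–Brauer–Noether at `p`. -/
theorem hasseInjective (p : ℕ) [Fact p.Prime] : GalCoh.HasseInjective p := by
  intro H hH z hz
  obtain ⟨f, rfl⟩ := GalCoh.H2mk_surjective z
  have hloc : ∀ v g, cocQ f ∈ B2 (locG H v g) := fun v g =>
    (placeMor_eq_zero_iff f v g).mp (hz v g)
  rw [H2mk_eq_zero_iff]
  have hFp : cocQ f ^ p ∈ B2 H := by rw [cocQ_pow]; exact one_mem _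
  by_cases hp2 : p = 2
  · subst hp2
    exact mem_B2_of_local_two hH (cocQ_mem_Z2 f) hFp hloc
  · exact mem_B2_of_local hH (fun h2 => absurd h2 hp2) (cocQ_mem_Z2 f) hFp fun q g => hloc _ g

end Fermat.Agent.CFT.Brauer
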