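import Fermat.Agent.CFT.Brauer.Cyclic
import Mathlib.NumberTheory.Padics.Complex
import Mathlib.NumberTheory.Padics.ProperSpace
import Mathlib.RingTheory.RootsOfUnity.AlgebraicallyClosed
import Mathlib.FieldTheory.KummerExtension
import Mathlib.Analysis.Normed.Module.FiniteDimension
import Mathlib.Topology.LocallyConstant.Basic
import Mathlib.RingTheory.Polynomial.Cyclotomic.Basic
import Mathlib.Algebra.MvPolynomial.Funext
import Mathlib.LinearAlgebra.Dual.Lemmas
import Mathlib.LinearAlgebra.Matrix.Nondegenerate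

/-!
Algebraic henselian local fields: subgroups of the Galois group preserving a `q`-adic absolute
value, with fixed field inside a finite extension of `ℚ_[q]`.
-/

set_option autoImplicit false
set_option backward.isDefEq.respectTransparency false

noncomputable section

namespace Fermat.Agent.CFT.Brauer

/-- The field fixed by `Γ`. -/
abbrev fixF (Γ : Subgroup GQ) : IntermediateField ℚ Qb := IntermediateField.fixedField Γ

lemma mem_fixF {Γ : Subgroup GQ} {x : Qb} : x ∈ fixF Γ ↔ ∀ g ∈ Γ, g x = x :=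
  IntermediateField.mem_fixedField_iff Γ x

lemma fixF_anti {Γ Δ : Subgroup GQ} (h : Δ ≤ Γ) : fixF Γ ≤ fixF Δ :=
  fun _ hx => mem_fixF.mpr fun g hg => mem_fixF.mp hx g (h hg)

/-- The units fixed by `Γ`. -/
def fixU (Γ : Subgroup GQ) : Subgroup Qbˣ where
  carrier := {x | ∀ g ∈ Γ, g • x = x}
  one_mem' g _ := smul_one g
  mul_mem' hx hy g hg := by rw [smul_mul', hx g hg, hy g hg]
  inv_mem' hx g hg := by rw [smul_inv', hx g hg]

lemma mem_fixU {Γ : Subgroup GQ} {x : Qbˣ} : x ∈ fixU Γ ↔ (x : Qb) ∈ fixF Γ := by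
  rw [mem_fixF]
  exact ⟨fun h g hg => congrArg Units.val (h g hg), fun h g hg => Units.ext (h g hg)⟩

lemma fixU_anti {Γ Δ : Subgroup GQ} (h : Δ ≤ Γ) : fixU Γ ≤ fixU Δ :=
  fun _ hx g hg => hx g (h hg)

/-! ### Systems of coset representatives and coordinates -/

/-- A finite system of representatives of `Γ / Δ` for a normal open subgroup `Δ`. -/
structure RepSystem {ι : Type} (Γ Δ : Subgroup GQ) (r : ι → GQ) : Prop where
  isOpen : IsOpenIn Δ Γ
  conj : ∀ g ∈ Γ, ∀ s ∈ Δ, g⁻¹ * s * g ∈ Δ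
  mem : ∀ i, r i ∈ Γ
  cover : ∀ g ∈ Γ, ∃ i, (r i)⁻¹ * g ∈ Δ
  inj : ∀ i k, (r i)⁻¹ * r k ∈ Δ → i = k

namespace RepSystem

variable {ι : Type} {Γ Δ : Subgroup GQ} {r : ι → GQ} (R : RepSystem Γ Δ r)
include R

lemma smul_fix {g : GQ} (hg : g ∈ Γ) {x : Qb} (hx : x ∈ fixF Δ) : g x ∈ fixF Δ := by
  rw [mem_fixF] at hx ⊢
  intro s hs
  calc s (g x) = g ((g⁻¹ * s * g) x) := by
        simp [AlgEquiv.mul_apply]
    _ = g x := by rw [hx _ (R.conj g hg s hs)]

@[nolint unusedArguments]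
lemma apply_eq {g : GQ} {i : ι} (h : (r i)⁻¹ * g ∈ Δ) {x : Qb} (hx : x ∈ fixF Δ) :
    g x = r i x := by
  conv_lhs => rw [← mul_inv_cancel_left (r i) g, AlgEquiv.mul_apply, mem_fixF.mp hx _ h]

lemma exists_perm [Finite ι] {g : GQ} (hg : g ∈ Γ) :
    ∃ π : ι ≃ ι, ∀ i, (r (π i))⁻¹ * (g * r i) ∈ Δ := by
  choose π hπ using fun i => R.cover _ (mul_mem hg (R.mem i))
  refine ⟨Equiv.ofBijective π (Finite.injective_iff_bijective.mp fun i k h => ?_), hπ⟩
  refine R.inj i k ?_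
  have h1 := hπ i
  have h2 := hπ k
  rw [h] at h1
  simpa [mul_inv_rev, mul_assoc] using mul_mem (inv_mem h1) h2

/-- There is an element whose conjugates form a basis. -/
theorem exists_det_ne_zero [Fintype ι] [DecidableEq ι] :
    ∃ θ ∈ fixF Δ, (Matrix.of fun i k => r i (r k θ)).det ≠ 0 := by
  classical
  obtain ⟨hle, F₀, hF₀, hFm₀⟩ := R.isOpen
  obtain ⟨F, hF, hN, hF₀F, -⟩ := exists_normal_level F₀ ∅
  have := hF
  have := hN
  let res := AlgEquiv.restrictNormalHom (F := ℚ) (K₁ := Qb) F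
  let K := IntermediateField.fixedField (Δ.map res)
  let e := Module.finBasis ℚ K
  have hsep : ∀ g ∈ Γ, (∀ x ∈ K, res g x = x) → g ∈ Δ := by
    intro g hg h
    have : res g ∈ Δ.map res := by
      rw [← IntermediateField.fixingSubgroup_fixedField (Δ.map res)]
      exact (IntermediateField.mem_fixingSubgroup_iff _ _).mpr h
    obtain ⟨s, hs, hsg⟩ := this
    have hker : s⁻¹ * g ∈ F.fixingSubgroup := by
      rw [← IntermediateField.restrictNormalHom_ker, MonoidHom.mem_ker, map_mul, map_inv]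
      exact inv_mul_eq_one.mpr hsg
    have := mul_mem hs (hFm₀ _ (mul_mem (inv_mem (hle hs)) hg)
      (IntermediateField.fixingSubgroup_antitone hF₀F hker))
    rwa [mul_inv_cancel_left] at this
  have hKfix : ∀ x : K, ((x : F) : Qb) ∈ fixF Δ := fun x => mem_fixF.mpr fun s hs => by
    exact (AlgEquiv.restrictNormal_commutes s F (x : F)).symm.trans (congrArg _
      ((IntermediateField.mem_fixedField_iff _ _).mp x.2 _ (Subgroup.mem_map_of_mem _ hs)))
  -- the span of the conjugate vectors is everything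
  obtain ⟨i₁, hi₁⟩ := R.cover 1 (one_mem _)
  let χ : ι → (K →* Qb) := fun i =>
    ((r i : Qb →* Qb).comp (F.val : F →* Qb)).comp (K.val : K →* F)
  have hχ : Function.Injective χ := fun i k h => R.inj i k <| hsep _
    (mul_mem (inv_mem (R.mem i)) (R.mem k)) fun x hx => Subtype.ext <| by
      refine (AlgEquiv.restrictNormal_commutes ((r i)⁻¹ * r k) F x).trans ?_
      have := DFunLike.congr_fun h ⟨x, hx⟩
      change r i (x : Qb) = r k (x : Qb) at this
      change ((r i)⁻¹ * r k) (x : Qb) = (x : Qb)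
      rw [AlgEquiv.mul_apply, ← this]
      simp
  have hli : LinearIndependent Qb (fun i => fun k => χ i (e k)) := by
    refine Fintype.linearIndependent_iff.mpr fun a ha => ?_
    refine Fintype.linearIndependent_iff.mp
      ((linearIndependent_monoidHom K Qb).comp χ hχ) a (funext fun x => ?_)
    have hx : x = ∑ k, e.repr x k • e k := (e.sum_repr x).symm
    simp only [Finset.sum_apply, Pi.smul_apply, smul_eq_mul, Pi.zero_apply, Function.comp_apply]
    have hlin : ∀ i, χ i x = ∑ k, (e.repr x k : Qb) * χ i (e k) := fun i => by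
      conv_lhs => rw [hx]
      change (r i) (F.val (K.val (∑ k, e.repr x k • e k))) = _
      simp [χ, Algebra.smul_def]
    simp only [hlin, Finset.mul_sum]
    rw [Finset.sum_comm]
    refine Finset.sum_eq_zero fun k _ => ?_
    have hk := congrFun ha k
    simp only [Finset.sum_apply, Pi.smul_apply, smul_eq_mul, Pi.zero_apply] at hk
    calc ∑ i, a i * ((e.repr x k : Qb) * χ i (e k))
        = (e.repr x k : Qb) * ∑ i, a i * χ i (e k) := by
          rw [Finset.mul_sum]; exact Finset.sum_congr rfl fun i _ => by ring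
      _ = 0 := by rw [hk, mul_zero]
  have hspan : Submodule.span Qb (Set.range fun k i => χ i (e k)) = ⊤ :=
    span_flip_eq_top_iff_linearIndependent.mpr hli
  obtain ⟨y, hy⟩ := (Submodule.mem_span_range_iff_exists_fun _).mp
    (hspan ▸ Submodule.mem_top (x := Pi.single i₁ (1 : Qb)))
  let M : Matrix ι ι (MvPolynomial (Fin (Module.finrank ℚ K)) Qb) :=
    Matrix.of fun i k => ∑ l, MvPolynomial.C (r i (r k ((e l : F) : Qb))) * MvPolynomial.X l
  have hMeval : ∀ c : Fin (Module.finrank ℚ K) → Qb, M.det.eval c =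
      (Matrix.of fun i k => ∑ l, r i (r k ((e l : F) : Qb)) * c l).det := fun c => by
    rw [RingHom.map_det]
    congr 1
    ext i k
    simp [M]
  have hM : M.det ≠ 0 := by
    intro h0
    have := hMeval y
    rw [h0, map_zero] at this
    have hperm : ∀ i, ∃ k, (r i₁)⁻¹ * (r i * r k) ∈ Δ := fun i => by
      obtain ⟨k, hk⟩ := R.cover _ (mul_mem (inv_mem (R.mem i)) (R.mem i₁))
      refine ⟨k, ?_⟩
      have := inv_mem hk
      simpa [mul_inv_rev, mul_assoc] using this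
    choose π hπ using hperm
    have hπinj : Function.Injective π := fun i i' h => by
      have h1 := hπ i
      have h2 := hπ i'
      rw [h] at h1
      have h3 := mul_mem (inv_mem h1) h2
      have h4 : (r i)⁻¹ * r i' ∈ Δ := by
        have := R.conj _ (inv_mem (R.mem (π i'))) _ h3
        simpa [mul_inv_rev, mul_assoc] using this
      exact R.inj i i' h4
    let P := Equiv.ofBijective π (Finite.injective_iff_bijective.mp hπinj)
    have hentry : (Matrix.of fun i k => ∑ l, r i (r k ((e l : F) : Qb)) * y l) =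
        (1 : Matrix ι ι Qb).submatrix P id := by
      ext i k
      obtain ⟨m, hm⟩ := R.cover _ (mul_mem (R.mem i) (R.mem k))
      have hy' := congrFun hy m
      simp only [Finset.sum_apply, Pi.smul_apply, smul_eq_mul, Pi.single_apply] at hy'
      simp only [Matrix.of_apply, Matrix.submatrix_apply, Matrix.one_apply, id_eq]
      have e1 : ∀ l, r i (r k ((e l : F) : Qb)) = r m ((e l : F) : Qb) := fun l => by
        rw [← AlgEquiv.mul_apply]
        exact R.apply_eq hm (hKfix _)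
      rw [show (∑ l, r i (r k ((e l : F) : Qb)) * y l) = ∑ l, y l * χ m (e l) from
        Finset.sum_congr rfl fun l _ => by rw [e1, mul_comm]; rfl, hy']
      refine if_congr ⟨fun h => ?_, fun h => ?_⟩ rfl rfl
      · rw [h] at hm
        refine R.inj _ _ ?_
        have hP := hπ i
        have h5 := mul_mem (inv_mem hP) hm
        simpa [P, mul_inv_rev, mul_assoc] using h5
      · refine R.inj _ _ ?_
        have hP := hπ i
        change π i = k at h
        rw [h] at hP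
        simpa [mul_inv_rev, mul_assoc] using mul_mem hm (inv_mem hP)
    rw [hentry] at this
    have hdet : ((1 : Matrix ι ι Qb).submatrix P id).det = (Equiv.Perm.sign P : ℤ) := by
      rw [Matrix.det_permute]
      simp
    rw [hdet] at this
    rcases Int.units_eq_one_or (Equiv.Perm.sign P) with h | h <;> simp [h] at this
  obtain ⟨b, hb⟩ : ∃ b : Fin (Module.finrank ℚ K) → ℚ,
      M.det.eval (algebraMap ℚ Qb ∘ b) ≠ 0 := by
    by_contra! h
    refine hM (MvPolynomial.funext_set _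
      (fun _ => Set.infinite_range_of_injective (algebraMap ℚ Qb).injective) fun x hx => ?_)
    obtain ⟨x, rfl⟩ := Set.range_piMap _ ▸ hx
    rw [map_zero]
    exact h x
  refine ⟨((∑ l, b l • e l : K) : F), hKfix _, fun hdet => hb ?_⟩
  rw [hMeval, ← hdet]
  congr 1
  ext i k
  simp only [Matrix.of_apply, Function.comp_apply]
  simp [Algebra.smul_def, mul_comm]

variable [Fintype ι] [DecidableEq ι] {θ : Qb}

omit R in
/-- The coordinates with respect to the conjugates of `θ`. -/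
def coord (r : ι → GQ) (θ x : Qb) : ι → Qb :=
  (Matrix.of fun i k => r i (r k θ))⁻¹.mulVec fun i => r i x

lemma coord_spec (hdet : (Matrix.of fun i k => r i (r k θ)).det ≠ 0) (hθ : θ ∈ fixF Δ) {x : Qb}
    (hx : x ∈ fixF Δ) :
    x = ∑ k, coord r θ x k * r k θ ∧ ∀ k, coord r θ x k ∈ fixF Γ := by
  have hu : IsUnit (Matrix.of fun i k => r i (r k θ)).det := Ne.isUnit hdet
  have hsys : (Matrix.of fun i k => r i (r k θ)).mulVec (coord r θ x) = fun i => r i x := by
    rw [coord, Matrix.mulVec_mulVec, Matrix.mul_nonsing_inv _ hu, Matrix.one_mulVec]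
  refine ⟨?_, fun k => mem_fixF.mpr fun g hg => ?_⟩
  · obtain ⟨i, hi⟩ := R.cover 1 (one_mem _)
    have h := congrFun hsys i
    simp only [Matrix.mulVec, dotProduct, Matrix.of_apply] at h
    have e1 : ∀ z ∈ fixF Δ, r i z = z := fun z hz => by
      rw [← R.apply_eq hi hz]
      rfl
    rw [e1 x hx] at h
    exact h.symm.trans
      (Finset.sum_congr rfl fun k _ => by rw [e1 _ (R.smul_fix (R.mem k) hθ), mul_comm])
  · have key : (Matrix.of fun i k => r i (r k θ)).mulVec (fun k => g (coord r θ x k)) =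
        fun i => r i x := by
      obtain ⟨π, hπ⟩ := R.exists_perm hg
      funext m
      obtain ⟨i, rfl⟩ := π.surjective m
      have h := congrArg g (congrFun hsys i)
      simp only [Matrix.mulVec, dotProduct, Matrix.of_apply, map_sum, map_mul] at h ⊢
      have e1 : ∀ z ∈ fixF Δ, g (r i z) = r (π i) z := fun z hz => by
        rw [← AlgEquiv.mul_apply]
        exact R.apply_eq (hπ i) hz
      rw [← e1 x hx, ← h]
      exact Finset.sum_congr rfl fun k _ => by rw [e1 _ (R.smul_fix (R.mem k) hθ)]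
    have : (Matrix.of fun i k => r i (r k θ)).mulVec (fun k => g (coord r θ x k)) =
        (Matrix.of fun i k => r i (r k θ)).mulVec (coord r θ x) := key.trans hsys.symm
    exact congrFun (Matrix.mulVec_injective_iff_isUnit.mpr
      ((Matrix.isUnit_iff_isUnit_det _).mpr hu) this) k

end RepSystem

/-! ### The local setting -/

variable {q : ℕ} [Fact q.Prime]

/-- `Γ` preserves the absolute value given by `j` and its fixed field lies in a finite extension
of `ℚ_[q]`. -/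
structure LocalAt (j : Qb →+* PadicAlgCl q) (Γ : Subgroup GQ) : Prop where
  inv : ∀ g ∈ Γ, ∀ x : Qb, ‖j (g x)‖ = ‖j x‖
  bdd : ∃ E : IntermediateField ℚ_[q] (PadicAlgCl q),
    FiniteDimensional ℚ_[q] E ∧ ∀ x ∈ fixF Γ, j x ∈ E

variable {j : Qb →+* PadicAlgCl q} {Γ : Subgroup GQ}

/-- Open subgroups are again local. -/
theorem LocalAt.of_isOpenIn (hΓ : LocalAt j Γ) {H : Subgroup GQ} (hH : IsOpenIn H Γ) :
    LocalAt j H := by
  classical
  refine ⟨fun g hg => hΓ.inv g (hH.1 hg), ?_⟩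
  obtain ⟨E, hE, hEm⟩ := hΓ.bdd
  obtain ⟨-, F₀, hF₀, hFm⟩ := hH
  obtain ⟨F, hF, hN, hle, -⟩ := exists_normal_level F₀ ∅
  have := hF; have := hN
  let Δ := Γ ⊓ F.fixingSubgroup
  let N := F.fixingSubgroup.subgroupOf Γ
  have := finiteIndex_fixingSubgroup F
  have := Fintype.ofFinite (↥Γ ⧸ N)
  let r : ↥Γ ⧸ N → GQ := fun c => (c.out : ↥Γ)
  have R : RepSystem Γ Δ r :=
    { isOpen := ⟨inf_le_left, F, hF, fun g hg hgF => ⟨hg, hgF⟩⟩
      conj := fun g hg s hs => ⟨Γ.mul_mem (Γ.mul_mem (Γ.inv_mem hg) hs.1) hg,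
        conj_mem_fixingSubgroup hs.2 g⟩
      mem := fun c => (c.out : ↥Γ).2
      cover := fun g hg => ⟨((⟨g, hg⟩ : ↥Γ) : ↥Γ ⧸ N), by
        obtain ⟨n, hn⟩ := QuotientGroup.mk_out_eq_mul N ⟨g, hg⟩
        simp only [r, hn, Subgroup.coe_mul, mul_inv_rev, mul_assoc, inv_mul_cancel, mul_one]
        exact ⟨Γ.inv_mem (n : ↥Γ).2, F.fixingSubgroup.inv_mem n.2⟩⟩
      inj := fun c d h => by
        rw [← QuotientGroup.out_eq' c, ← QuotientGroup.out_eq' d]
        exact QuotientGroup.eq.mpr h.2 }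
  obtain ⟨θ, hθ, hdet⟩ := R.exists_det_ne_zero
  let E' := E ⊔ IntermediateField.adjoin ℚ_[q] (Set.range fun c => j (r c θ))
  have : FiniteDimensional ℚ_[q]
      (IntermediateField.adjoin ℚ_[q] (Set.range fun c => j (r c θ))) :=
    IntermediateField.finiteDimensional_adjoin fun x _ => Algebra.IsIntegral.isIntegral x
  refine ⟨E', IntermediateField.finiteDimensional_sup _ _, fun x hx => ?_⟩
  have hxΔ : x ∈ fixF Δ := mem_fixF.mpr fun g hg =>
    mem_fixF.mp hx g (hFm g hg.1 (IntermediateField.fixingSubgroup_antitone hle hg.2))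
  obtain ⟨heq, hc⟩ := R.coord_spec hdet hθ hxΔ
  rw [heq, map_sum]
  refine sum_mem fun c _ => ?_
  rw [map_mul]
  exact mul_mem ((le_sup_left : E ≤ E') (hEm _ (hc c)))
    ((le_sup_right : _ ≤ E') (IntermediateField.subset_adjoin _ _ ⟨c, rfl⟩))

/-- The absolute value of a sum is at most the largest one. -/
lemma norm_map_sum_le {ι : Type} (s : Finset ι) (f : ι → Qb) {C : ℝ} (hC : 0 ≤ C)
    (h : ∀ i ∈ s, ‖j (f i)‖ ≤ C) : ‖j (∑ i ∈ s, f i)‖ ≤ C := by
  rw [map_sum]
  exact IsUltrametricDist.norm_sum_le_of_forall_le_of_nonneg hC h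

lemma norm_map_add_le (x y : Qb) : ‖j (x + y)‖ ≤ max ‖j x‖ ‖j y‖ := by
  rw [map_add]
  exact IsUltrametricDist.norm_add_le_max _ _

lemma norm_natCast_le_one (n : ℕ) : ‖j (n : Qb)‖ ≤ 1 := by
  rw [map_natCast]
  exact IsUltrametricDist.norm_natCast_le_one _ n

lemma norm_map_q : ‖j (q : Qb)‖ = (q : ℝ)⁻¹ := by
  rw [map_natCast, ← map_natCast (algebraMap ℚ_[q] (PadicAlgCl q)), norm_algebraMap',
    Padic.norm_p]

/-- The absolute values of fixed elements form a cyclic group. -/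
theorem LocalAt.exists_uniformizer (hΓ : LocalAt j Γ) :
    ∃ π ∈ fixF Γ, 0 < ‖j π‖ ∧ ‖j π‖ < 1 ∧
      ∀ x ∈ fixF Γ, x ≠ 0 → ∃ k : ℤ, ‖j x‖ = ‖j π‖ ^ k := by
  obtain ⟨E, hE, hEm⟩ := hΓ.bdd
  have : ProperSpace E := FiniteDimensional.proper ℚ_[q] E
  have hq1 : (1 : ℝ) < q := Nat.one_lt_cast.mpr (Fact.out : q.Prime).one_lt
  let S : Set ℝ := {t | ∃ x ∈ fixF Γ, (q : ℝ)⁻¹ ≤ ‖j x‖ ∧ ‖j x‖ < 1 ∧ ‖j x‖ = t}
  have hSfin : S.Finite := by
    let K : Set E := {y | (q : ℝ)⁻¹ ≤ ‖y‖ ∧ ‖y‖ ≤ 1}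
    have hK : IsCompact K := by
      refine (isCompact_closedBall (0 : E) 1).of_isClosed_subset ?_ fun y hy => by simpa using hy.2
      exact (isClosed_le continuous_const continuous_norm).inter
        (isClosed_le continuous_norm continuous_const)
    have : CompactSpace K := isCompact_iff_compactSpace.mp hK
    have hlc : IsLocallyConstant (fun y : K => ‖(y : E)‖) := by
      refine (IsLocallyConstant.iff_exists_open _).mpr fun y => ?_
      have hy0 : (0 : ℝ) < ‖(y : E)‖ := lt_of_lt_of_le (inv_pos.mpr (by linarith)) y.2.1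
      refine ⟨Metric.ball y ‖(y : E)‖, Metric.isOpen_ball, Metric.mem_ball_self hy0,
        fun z hz => ?_⟩
      rw [Metric.mem_ball, Subtype.dist_eq, dist_eq_norm] at hz
      have hz' : ‖((z : E) : PadicAlgCl q) - ((y : E) : PadicAlgCl q)‖ <
          ‖((y : E) : PadicAlgCl q)‖ := hz
      change ‖((z : E) : PadicAlgCl q)‖ = ‖((y : E) : PadicAlgCl q)‖
      conv_lhs => rw [← sub_add_cancel ((z : E) : PadicAlgCl q) ((y : E) : PadicAlgCl q)]
      rw [IsUltrametricDist.norm_add_eq_max_of_norm_ne_norm hz'.ne, max_eq_right hz'.le]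
    refine hlc.range_finite.subset ?_
    rintro t ⟨x, hx, h1, h2, rfl⟩
    exact ⟨⟨⟨j x, hEm x hx⟩, h1, h2.le⟩, rfl⟩
  have hq : (q : ℝ)⁻¹ ∈ S := ⟨(q : Qb), natCast_mem _ q, norm_map_q.ge,
    norm_map_q.trans_lt (inv_lt_one_of_one_lt₀ hq1), norm_map_q⟩
  obtain ⟨t, htmem, htmax⟩ := hSfin.toFinset.exists_max_image id
    ⟨_, hSfin.mem_toFinset.mpr hq⟩
  obtain ⟨π, hπ, h1, h2, rfl⟩ := hSfin.mem_toFinset.mp htmem
  have hπ0 : 0 < ‖j π‖ := lt_of_lt_of_le (inv_pos.mpr (by linarith)) h1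
  refine ⟨π, hπ, hπ0, h2, fun x hx hx0 => ?_⟩
  obtain ⟨k, hk1, hk2⟩ := exists_mem_Ico_zpow (norm_pos_iff.mpr
    ((map_ne_zero_iff j j.injective).mpr hx0) : 0 < ‖j x‖) (one_lt_inv₀ hπ0 |>.mpr h2)
  refine ⟨-k, le_antisymm ?_ ?_⟩
  · rw [zpow_neg, ← inv_zpow]
    by_contra hlt
    rw [not_le] at hlt
    -- `π ^ (k+1) * x` would have absolute value strictly between `‖π‖` and `1`
    have hy : x * π ^ (k + 1) ∈ fixF Γ := mul_mem hx (zpow_mem hπ _)
    have hval : ‖j (x * π ^ (k + 1))‖ = ‖j x‖ * ‖j π‖ ^ (k + 1) := by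
      rw [map_mul, map_zpow₀, norm_mul, norm_zpow]
    have hlo : ‖j π‖ < ‖j (x * π ^ (k + 1))‖ := by
      rw [hval, zpow_add_one₀ hπ0.ne', ← mul_assoc]
      refine lt_mul_of_one_lt_left hπ0 ?_
      rw [inv_zpow] at hlt
      rw [← inv_mul_cancel₀ (zpow_pos hπ0 k).ne']
      exact mul_lt_mul_of_pos_right hlt (zpow_pos hπ0 k)
    have hhi : ‖j (x * π ^ (k + 1))‖ < 1 := by
      rw [hval]
      rw [inv_zpow] at hk2
      calc ‖j x‖ * ‖j π‖ ^ (k + 1) < (‖j π‖ ^ (k + 1))⁻¹ * ‖j π‖ ^ (k + 1) :=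
            mul_lt_mul_of_pos_right hk2 (zpow_pos hπ0 _)
        _ = 1 := inv_mul_cancel₀ (zpow_pos hπ0 _).ne'
    have := htmax _ (hSfin.mem_toFinset.mpr ⟨_, hy, h1.trans hlo.le, hhi, rfl⟩)
    simp only [id_eq] at this
    linarith
  · rw [zpow_neg, ← inv_zpow]
    exact hk1

/-- Finitely many balls cover the fixed integers. -/
theorem LocalAt.exists_finite_cover (hΓ : LocalAt j Γ) {r : ℝ} (hr : 0 < r) :
    ∃ T : Finset Qb, (∀ t ∈ T, t ∈ fixF Γ ∧ ‖j t‖ ≤ 1) ∧
      ∀ x ∈ fixF Γ, ‖j x‖ ≤ 1 → ∃ t ∈ T, ‖j (x - t)‖ < r := by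
  classical
  obtain ⟨E, hE, hEm⟩ := hΓ.bdd
  have : ProperSpace E := FiniteDimensional.proper ℚ_[q] E
  obtain ⟨C, -, hCfin, hC⟩ :=
    finite_cover_balls_of_compact (isCompact_closedBall (0 : E) 1) hr
  let P : E → Prop := fun c => ∃ t ∈ fixF Γ, ‖j t‖ ≤ 1 ∧ ‖j t - (c : PadicAlgCl q)‖ < r
  let pick : E → Qb := fun c => if h : P c then h.choose else 0
  refine ⟨(hCfin.toFinset.filter P).image pick, ?_, fun x hx hx1 => ?_⟩
  · intro t ht
    simp only [Finset.mem_image, Finset.mem_filter] at ht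
    obtain ⟨c, ⟨-, hc⟩, rfl⟩ := ht
    simp only [pick, dif_pos hc]
    exact ⟨hc.choose_spec.1, hc.choose_spec.2.1⟩
  · obtain ⟨c, hcC, hc⟩ : ∃ c ∈ C, (⟨j x, hEm x hx⟩ : E) ∈ Metric.ball c r := by
      have := hC (show (⟨j x, hEm x hx⟩ : E) ∈ Metric.closedBall (0 : E) 1 by
        simpa [Metric.mem_closedBall] using hx1)
      simpa using this
    rw [Metric.mem_ball, dist_eq_norm] at hc
    have hc' : ‖j x - (c : PadicAlgCl q)‖ < r := hc
    have hP : P c := ⟨x, hx, hx1, hc'⟩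
    refine ⟨pick c, Finset.mem_image.mpr
      ⟨c, Finset.mem_filter.mpr ⟨hCfin.mem_toFinset.mpr hcC, hP⟩, rfl⟩, ?_⟩
    simp only [pick, dif_pos hP]
    rw [map_sub, ← sub_add_sub_cancel (j x) (c : PadicAlgCl q) (j hP.choose)]
    refine (IsUltrametricDist.norm_add_le_max _ _).trans_lt (max_lt hc' ?_)
    rw [norm_sub_rev]
    exact hP.choose_spec.2.2

/-- The radius in Hensel's lemma for `n`-th roots. -/
theorem exists_radius {n : ℕ} (hn : 0 < n) :
    ∃ ρ : ℝ, 0 < ρ ∧ ρ ≤ 1 ∧ ∀ ζ : Qb, ζ ^ n = 1 → ζ ≠ 1 → ρ ≤ ‖j (ζ - 1)‖ := by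
  classical
  let S := insert (1 : ℝ) (((Polynomial.nthRootsFinset n (1 : Qb)).erase 1).image
    fun ζ => ‖j (ζ - 1)‖)
  have hS : S.Nonempty := Finset.insert_nonempty _ _
  refine ⟨S.min' hS, ?_, S.min'_le _ (Finset.mem_insert_self _ _), fun ζ hζ hne => S.min'_le _ ?_⟩
  · obtain h | h := Finset.mem_insert.mp (S.min'_mem hS)
    · rw [h]; exact one_pos
    · obtain ⟨ζ, hζ, he⟩ := Finset.mem_image.mp h
      rw [← he, norm_pos_iff, map_ne_zero_iff j j.injective, sub_ne_zero]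
      exact Finset.ne_of_mem_erase hζ
  · exact Finset.mem_insert_of_mem (Finset.mem_image_of_mem _ (Finset.mem_erase.mpr
      ⟨hne, (Polynomial.mem_nthRootsFinset hn _).mpr hζ⟩))

/-- For exponents prime to `q` the radius is `1`. -/
theorem one_le_norm_zeta_sub_one {n : ℕ} (hn : ¬ q ∣ n) {ζ : Qb} (hζ : ζ ^ n = 1) (hne : ζ ≠ 1) :
    1 ≤ ‖j (ζ - 1)‖ := by
  have hn0 : 0 < n := Nat.pos_of_ne_zero fun h => hn (h ▸ dvd_zero q)
  by_contra! hlt
  -- `n = ∑ (ζ^i - 1) * (-1)` modulo the geometric sum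
  have hgeom : ∑ i ∈ Finset.range n, ζ ^ i = 0 := by
    have := geom_sum_mul ζ n
    rw [hζ, sub_self] at this
    exact (mul_eq_zero.mp this).resolve_right (sub_ne_zero.mpr hne)
  have hn' : (n : Qb) = ∑ i ∈ Finset.range n, (1 - ζ ^ i) := by
    rw [Finset.sum_sub_distrib, hgeom]; simp
  have hζ1 : ‖j ζ‖ = 1 := by
    have := congrArg (fun z => ‖j z‖) hζ
    simp only [map_pow, norm_pow, map_one, norm_one] at this
    exact (pow_eq_one_iff_of_nonneg (norm_nonneg _) hn0.ne').mp this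
  have hsmall : ‖j (n : Qb)‖ ≤ ‖j (ζ - 1)‖ := by
    rw [hn']
    refine norm_map_sum_le _ _ (norm_nonneg _) fun i _ => ?_
    rw [← neg_sub, map_neg, norm_neg, ← geom_sum_mul ζ i, map_mul, norm_mul]
    refine mul_le_of_le_one_left (norm_nonneg _) (norm_map_sum_le _ _ zero_le_one fun k _ => ?_)
    rw [map_pow, norm_pow, hζ1, one_pow]
  have h1 : ‖j (n : Qb)‖ = 1 := by
    rw [map_natCast, ← map_natCast (algebraMap ℚ_[q] (PadicAlgCl q)), norm_algebraMap']
    exact Padic.norm_natCast_eq_one_iff.mpr ((Fact.out : q.Prime).coprime_iff_not_dvd.mpr hn)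
  linarith [hsmall, hlt]

/-- Hensel's lemma for `n`-th roots near `1`. -/
theorem LocalAt.exists_root (hΓ : LocalAt j Γ) {n : ℕ} (hn : 0 < n) {ρ : ℝ} (hρ1 : ρ ≤ 1)
    (hρ : ∀ ζ : Qb, ζ ^ n = 1 → ζ ≠ 1 → ρ ≤ ‖j (ζ - 1)‖) {u : Qb} (hu : u ∈ fixF Γ)
    (hu0 : u ≠ 0) (hρ0 : 0 ≤ ρ) (hclose : ‖j (u - 1)‖ < ρ ^ n) :
    ∃ z ∈ fixF Γ, z ^ n = u ∧ ‖j (z - 1)‖ ^ n ≤ ‖j (u - 1)‖ := by
  obtain ⟨z₀, hz₀⟩ := IsAlgClosed.exists_pow_nat_eq u hn
  have hz00 : z₀ ≠ 0 := fun h => hu0 (by rw [← hz₀, h, zero_pow hn.ne'])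
  have : NeZero (n : Qb) := ⟨Nat.cast_ne_zero.mpr hn.ne'⟩
  obtain ⟨ζ, hζ⟩ := HasEnoughRootsOfUnity.exists_primitiveRoot Qb n
  have hprod := congrArg (Polynomial.eval 1) (X_pow_sub_C_eq_prod hζ hn hz₀)
  simp only [Polynomial.eval_sub, Polynomial.eval_pow, Polynomial.eval_X, one_pow,
    Polynomial.eval_C, Polynomial.eval_prod] at hprod
  obtain ⟨k, -, hk⟩ : ∃ k ∈ Finset.range n,
      ‖j (ζ ^ k * z₀ - 1)‖ ^ n ≤ ‖j (u - 1)‖ := by
    obtain ⟨k, hk, hmin⟩ := (Finset.range n).exists_min_image (fun k => ‖j (ζ ^ k * z₀ - 1)‖)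
      ⟨0, Finset.mem_range.mpr hn⟩
    refine ⟨k, hk, ?_⟩
    rw [← neg_sub (1 : Qb) u, map_neg, norm_neg, hprod, map_prod, norm_prod]
    calc ‖j (ζ ^ k * z₀ - 1)‖ ^ n = ∏ _i ∈ Finset.range n, ‖j (ζ ^ k * z₀ - 1)‖ := by simp
      _ ≤ _ := Finset.prod_le_prod (fun _ _ => norm_nonneg _) fun i hi => by
        rw [show (1 : Qb) - ζ ^ i * z₀ = -(ζ ^ i * z₀ - 1) by ring, map_neg, norm_neg]
        exact hmin i hi
  set z := ζ ^ k * z₀ with hz
  have hzn : z ^ n = u := by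
    rw [hz, mul_pow, ← pow_mul, mul_comm k n, pow_mul, hζ.pow_eq_one, one_pow, one_mul, hz₀]
  have hzlt : ‖j (z - 1)‖ < ρ := lt_of_pow_lt_pow_left₀ n hρ0 (hk.trans_lt hclose)
  have hz1 : ‖j z‖ = 1 := by
    rw [← sub_add_cancel z 1, map_add, map_one,
      IsUltrametricDist.norm_add_eq_max_of_norm_ne_norm (by rw [norm_one]; exact (hzlt.trans_le hρ1).ne),
      norm_one, max_eq_right (hzlt.trans_le hρ1).le]
  have hz0 : z ≠ 0 := fun h => by simp [h] at hz1
  refine ⟨z, mem_fixF.mpr fun g hg => ?_, hzn, hk⟩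
  by_contra hne
  have hroot : (g z / z) ^ n = 1 := by
    rw [div_pow, ← map_pow, hzn, mem_fixF.mp hu g hg, div_self hu0]
  have hne1 : g z / z ≠ 1 := fun h => hne ((div_eq_one_iff_eq hz0).mp h)
  have hb := hρ _ hroot hne1
  rw [div_sub_one hz0, map_div₀, norm_div, hz1, div_one,
    show g z - z = g (z - 1) + -(z - 1) by rw [map_sub, map_one]; ring] at hb
  have := hb.trans (norm_map_add_le _ _)
  rw [map_neg, norm_neg, hΓ.inv g hg, max_self] at this
  linarith

end Fermat.Agent.CFT.Brauer
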