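import Fermat.Agent.CFT.Brauer.LocalUnramified
import Mathlib.GroupTheory.Sylow
import Mathlib.GroupTheory.IndexNormal

/-!
`p`-torsion classes of an algebraic henselian local field: they die in the unramified extension
of degree `p` and form a group of order at most `p`.
-/

set_option autoImplicit false
set_option backward.isDefEq.respectTransparency false

noncomputable section

namespace Fermat.Agent.CFT.Brauer

/-- A subgroup of prime index containing the squares of a normal situation gives a cyclic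
quotient. -/
theorem cyclicOver_of_relIndex_prime {Γ M : Subgroup GQ} {g : GQ} {p : ℕ} [hp : Fact p.Prime]
    (hM : IsOpenIn M Γ) (hconj : ∀ x ∈ Γ, ∀ s ∈ M, x⁻¹ * s * x ∈ M) (hidx : M.relIndex Γ = p)
    (hg : g ∈ Γ) (hgM : g ∉ M) : CyclicOver Γ M g p := by
  have : (M.subgroupOf Γ).Normal := ⟨fun n hn x => by
    have := hconj (x⁻¹ : Γ) (x⁻¹).2 (n : GQ) hn
    simpa [Subgroup.mem_subgroupOf] using this⟩
  set Q := Γ ⧸ M.subgroupOf Γ
  have hcard : Nat.card Q = p := hidx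
  have : Finite Q := Nat.finite_of_card_ne_zero (hcard ▸ hp.out.ne_zero)
  set a : Q := ((⟨g, hg⟩ : Γ) : Q) with ha
  have ha1 : a ≠ 1 := fun h0 => hgM ((QuotientGroup.eq_one_iff (N := M.subgroupOf Γ) (⟨g, hg⟩ : Γ)).mp h0)
  have hord : orderOf a = p := orderOf_eq_prime
    (by rw [← hcard]; exact pow_card_eq_one') ha1
  refine { isOpen := hM, mem := hg, pos := hp.out.pos, conj := hconj, cover := fun x hx => ?_,
           pow_mem_iff := fun i => ?_ }
  · have hmem : (((⟨x, hx⟩ : Γ)) : Q) ∈ Subgroup.zpowers a := mem_zpowers_of_prime_card hcard ha1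
    rw [← mem_powers_iff_mem_zpowers] at hmem
    obtain ⟨i, hi⟩ := hmem
    refine ⟨i, ?_⟩
    change a ^ i = _ at hi
    rw [ha, ← QuotientGroup.mk_pow, QuotientGroup.eq] at hi
    exact hi
  · rw [← hord, orderOf_dvd_iff_pow_eq_one, ha, ← QuotientGroup.mk_pow, QuotientGroup.eq_one_iff]
    exact ⟨fun h0 => h0, fun h0 => h0⟩

/-- A `p`-power normal step contains a cyclic step of degree `p`. -/
theorem exists_prime_step {Γ Δ : Subgroup GQ} {p k : ℕ} [hp : Fact p.Prime] (hΔ : IsOpenIn Δ Γ)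
    (hconj : ∀ x ∈ Γ, ∀ s ∈ Δ, x⁻¹ * s * x ∈ Δ) (hidx : Δ.relIndex Γ = p ^ (k + 1)) :
    ∃ (M : Subgroup GQ) (σ : GQ), CyclicOver Γ M σ p ∧ IsOpenIn Δ M ∧
      (∀ x ∈ M, ∀ s ∈ Δ, x⁻¹ * s * x ∈ Δ) ∧ Δ.relIndex M = p ^ k := by
  have : (Δ.subgroupOf Γ).Normal := ⟨fun n hn x => by
    have := hconj (x⁻¹ : Γ) (x⁻¹).2 (n : GQ) hn
    simpa [Subgroup.mem_subgroupOf] using this⟩
  set G := Γ ⧸ Δ.subgroupOf Γ
  have hcard : Nat.card G = p ^ (k + 1) := hidx
  have : Finite G := Nat.finite_of_card_ne_zero (hcard ▸ pow_ne_zero _ hp.out.ne_zero)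
  obtain ⟨K, hK⟩ := Sylow.exists_subgroup_card_pow_prime (G := G) p (n := k)
    (hcard ▸ pow_dvd_pow p k.le_succ)
  have hKidx : K.index = p := by
    have := K.index_mul_card
    rw [hK, hcard, pow_succ'] at this
    exact Nat.eq_of_mul_eq_mul_right (pow_pos hp.out.pos k) this
  have : K.Normal := Subgroup.normal_of_index_eq_minFac_card (by
    rw [hKidx, hcard, Nat.pow_minFac (Nat.succ_ne_zero k), hp.out.minFac_eq])
  let mk' : Γ →* G := QuotientGroup.mk' _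
  set M := (K.comap mk').map Γ.subtype with hM
  have hMmem : ∀ x, x ∈ M ↔ ∃ hx : x ∈ Γ, mk' ⟨x, hx⟩ ∈ K := fun x => by
    simp [hM, Subgroup.mem_map, Subgroup.mem_comap]
  have hMle : M ≤ Γ := Subgroup.map_subtype_le _
  have hMsub : M.subgroupOf Γ = K.comap mk' :=
    Subgroup.comap_map_eq_self_of_injective Γ.subtype_injective _
  have hΔM : Δ ≤ M := fun x hx => (hMmem x).mpr ⟨hΔ.1 hx, by
    rw [show mk' ⟨x, hΔ.1 hx⟩ = 1 from (QuotientGroup.eq_one_iff _).mpr hx]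
    exact one_mem K⟩
  obtain ⟨-, F, hF, hFm⟩ := hΔ
  have hMidx : M.relIndex Γ = p := by
    rw [Subgroup.relIndex, hMsub,
      Subgroup.index_comap_of_surjective _ (QuotientGroup.mk'_surjective _), hKidx]
  obtain ⟨g, hg, hgM⟩ : ∃ g ∈ Γ, g ∉ M := by
    by_contra! hall
    have := (Subgroup.relIndex_eq_one (H := M) (K := Γ)).mpr hall
    exact hp.out.ne_one (hMidx.symm.trans this)
  refine ⟨M, g, cyclicOver_of_relIndex_prime ⟨hMle, F, hF, fun x hx hxF => hΔM (hFm x hx hxF)⟩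
    (fun x hx s hs => ?_) hMidx hg hgM, ⟨hΔM, F, hF, fun x hx hxF => hFm x (hMle hx) hxF⟩,
    fun x hx s hs => hconj x (hMle hx) s hs, ?_⟩
  · obtain ⟨hsΓ, hsK⟩ := (hMmem s).mp hs
    refine (hMmem _).mpr ⟨Γ.mul_mem (Γ.mul_mem (Γ.inv_mem hx) hsΓ) hx, ?_⟩
    have e : (⟨x⁻¹ * s * x, Γ.mul_mem (Γ.mul_mem (Γ.inv_mem hx) hsΓ) hx⟩ : Γ) =
        ⟨x, hx⟩⁻¹ * ⟨s, hsΓ⟩ * ⟨x, hx⟩ := rfl
    rw [e, map_mul, map_mul, map_inv]
    have := ‹K.Normal›.conj_mem _ hsK (mk' ⟨x, hx⟩)⁻¹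
    rwa [inv_inv] at this
  · have := Subgroup.relIndex_mul_relIndex _ _ _ hΔM hMle
    rw [hidx, hMidx, pow_succ] at this
    exact Nat.eq_of_mul_eq_mul_right hp.out.pos this

lemma d1_const {c : Qbˣ} {g : GQ} (hg : g • c = c) (h : GQ) : d1 (fun _ => c) g h = c := by
  simp only [d1, hg, mul_div_assoc, div_self', mul_one]

lemma B2_le_Z2 (Γ : Subgroup GQ) : B2 Γ ≤ Z2 Γ := by
  rintro f ⟨z, hz, heq⟩
  obtain ⟨-, F, hF, hcts⟩ := d1_mem_Z2 hz
  refine ⟨fun g hg h hh j hj => ?_, F, hF, fun g hg h hh s hs t ht hsF htF => ?_⟩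
  · rw [heq _ (mul_mem hg hh) _ hj, heq _ hg _ hh, heq _ hh _ hj, heq _ hg _ (mul_mem hh hj)]
    exact isCoc_d1 Γ z g hg h hh j hj
  · rw [heq _ (mul_mem hg hs) _ (mul_mem hh ht), heq _ hg _ hh]
    exact hcts g hg h hh s hs t ht hsF htF

/-- Every class dies on a normal open subgroup. -/
theorem exists_level_mem_B2 {Γ : Subgroup GQ} {f : GQ → GQ → Qbˣ} (hf : f ∈ Z2 Γ) :
    ∃ F : IntermediateField ℚ Qb, FiniteDimensional ℚ F ∧ Normal ℚ F ∧
      f ∈ B2 (Γ ⊓ F.fixingSubgroup) := by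
  obtain ⟨-, F₀, hF₀, hcts⟩ := hf
  obtain ⟨F, hF, hN, hle, hmem⟩ := exists_normal_level F₀ {((f 1 1 : Qbˣ) : Qb)}
  refine ⟨F, hF, hN, fun _ => f 1 1, cts₁_const _ _, fun g hg h hh => ?_⟩
  rw [d1_const (smul_units_eq_self (fix_eq hg.2 (hmem _ (Finset.mem_singleton_self _))))]
  have := hcts 1 (one_mem _) 1 (one_mem _) g hg.1 h hh.1
    (IntermediateField.fixingSubgroup_antitone hle hg.2)
    (IntermediateField.fixingSubgroup_antitone hle hh.2)
  rwa [one_mul, one_mul] at this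

/-- Classes dying on `Δ`. -/
abbrev kill (Γ Δ : Subgroup GQ) : Subgroup (GQ → GQ → Qbˣ) := Z2 Γ ⊓ B2 Δ

variable {q : ℕ} [Fact q.Prime] {j : Qb →+* PadicAlgCl q}

/-- The norm index of a cyclic extension of prime degree, and `p ∣ e f`. -/
theorem prime_step {Γ Δ : Subgroup GQ} {σ : GQ} {p : ℕ} (hp : p.Prime) (hΓ : LocalAt j Γ)
    (h : CyclicOver Γ Δ σ p) {π : Qb} (hπ : π ∈ fixF Γ) (hπ0 : 0 < ‖j π‖) (hπ1 : ‖j π‖ < 1)
    (hgen : ∀ x ∈ fixF Γ, x ≠ 0 → ∃ k : ℤ, ‖j x‖ = ‖j π‖ ^ k) :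
    (((fixU Δ).map h.Nm).relIndex (fixU Γ) ≠ 0 ∧ ((fixU Δ).map h.Nm).relIndex (fixU Γ) ≤ p) ∧
      ∃ (π' : Qb) (e d : ℕ), π' ∈ fixF Δ ∧ 0 < ‖j π'‖ ∧ ‖j π'‖ < 1 ∧
        (∀ x ∈ fixF Δ, x ≠ 0 → ∃ k : ℤ, ‖j x‖ = ‖j π'‖ ^ k) ∧
        0 < e ∧ ‖j π‖ = ‖j π'‖ ^ e ∧ resCard j Δ = resCard j Γ ^ d ∧ p ∣ e * d := by
  classical
  have hΔ := hΓ.of_isOpenIn h.isOpen
  obtain ⟨π', hπ', hπ'0, hπ'1, hgen'⟩ := hΔ.exists_uniformizer
  obtain ⟨ez, hez⟩ := hgen' π (fixF_anti h.le hπ) (fun h0 => by simp [h0] at hπ0)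
  have hezpos : 0 < ez := by
    by_contra hle
    rw [not_lt] at hle
    have : 1 ≤ ‖j π'‖ ^ ez := one_le_zpow_of_nonpos₀ hπ'0 hπ'1.le hle
    linarith
  obtain ⟨e, rfl⟩ := Int.eq_ofNat_of_zero_le hezpos.le
  have hepos : 0 < e := by omega
  rw [zpow_natCast] at hez
  have hπ'ne : π' ≠ 0 := fun h0 => by simp [h0] at hπ'0
  set P' := Units.mk0 π' hπ'ne with hP'
  have hP'Δ : P' ∈ fixU Δ := mem_fixU.mpr hπ'
  have hNP : ‖j ((h.Nm P' : Qbˣ) : Qb)‖ = ‖j π'‖ ^ p := by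
    rw [h.Nm_apply, Units.coe_prod, map_prod, norm_prod,
      Finset.prod_congr rfl fun i _ => by rw [units_smul_coe, hΓ.inv _ (h.pow_mem i)],
      Finset.prod_const, Finset.card_range]
    rfl
  have hep : e ∣ p := by
    obtain ⟨k, hk⟩ := hgen _ (mem_fixU.mp (h.Nm_mem hP'Δ)) (Units.ne_zero _)
    rw [hNP, hez, ← zpow_natCast, ← zpow_natCast, ← zpow_mul] at hk
    have := zpow_right_injective₀ hπ'0 hπ'1.ne hk
    exact Int.natCast_dvd_natCast.mp ⟨k, this⟩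
  obtain ⟨c, hc⟩ := hep
  have hcpos : 0 < c := Nat.pos_of_ne_zero fun h0 => hp.ne_zero (by rw [hc, h0, mul_zero])
  refine ⟨?_, π', e, ?_⟩
  · set X := fixU Γ
    set NX := (fixU Δ).map h.Nm
    set UΓ := unitsAt j Γ
    obtain ⟨hu0, hu⟩ := relIndex_units_le hΓ h hπ hπ0 hπ1 hπ' hgen' hepos hez
    have h1 : NX.relIndex UΓ ≠ 0 ∧ NX.relIndex UΓ ≤ e := by
      have hle : (unitsAt j Δ).map h.Nm ≤ NX := Subgroup.map_mono fun x hx => hx.1
      exact ⟨fun h0 => hu0 (Subgroup.relIndex_eq_zero_of_le_left hle h0),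
        (Subgroup.relIndex_le_of_le_left hle hu0).trans hu⟩
    have hπne : π ≠ 0 := fun h0 => by simp [h0] at hπ0
    set P := Units.mk0 π hπne
    have hPX : P ∈ X := mem_fixU.mpr hπ
    have h2 : (NX ⊔ UΓ).relIndex X ≠ 0 ∧ (NX ⊔ UΓ).relIndex X ≤ c := by
      obtain ⟨a, b⟩ := relIndex_le_card_of_cover (H := NX ⊔ UΓ) (K := X)
        ((Finset.range c).image fun i => P ^ i) (by
          intro t ht
          obtain ⟨i, -, rfl⟩ := Finset.mem_image.mp ht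
          exact pow_mem hPX i) (fun x hx => by
        obtain ⟨k, hk⟩ := hgen (x : Qb) (mem_fixU.mp hx) (Units.ne_zero _)
        have hm0 : 0 ≤ k % (c : ℤ) := Int.emod_nonneg _ (by omega)
        refine ⟨P ^ (k % (c : ℤ)).toNat, Finset.mem_image_of_mem _ (Finset.mem_range.mpr ?_), ?_⟩
        · have := Int.emod_lt_of_pos k (show (0 : ℤ) < c by omega)
          omega
        have hN : h.Nm P' ∈ X := h.Nm_mem hP'Δ
        have hxu : x / (P ^ (k % (c : ℤ)).toNat * h.Nm P' ^ (k / (c : ℤ))) ∈ UΓ := by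
          refine ⟨div_mem hx (mul_mem (pow_mem hPX _) (zpow_mem hN _)), ?_⟩
          simp only [Units.val_div_eq_div_val, Units.val_mul, Units.val_pow_eq_pow_val,
            Units.val_zpow_eq_zpow_val, P, Units.val_mk0, map_div₀, map_mul, map_pow, map_zpow₀,
            norm_div, norm_mul, norm_pow, norm_zpow, hk, hNP]
          rw [hez, ← zpow_natCast, ← zpow_natCast, ← zpow_natCast, ← zpow_mul, ← zpow_mul,
            ← zpow_mul, ← zpow_add₀ hπ'0.ne', ← zpow_sub₀ hπ'0.ne', Int.toNat_of_nonneg hm0, hc,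
            Nat.cast_mul]
          rw [show (e : ℤ) * k - ((e : ℤ) * (k % (c : ℤ)) + (e : ℤ) * c * (k / (c : ℤ))) = 0 by
            linear_combination (e : ℤ) * (-(Int.emod_add_mul_ediv k c)), zpow_zero]
        have hmem := mul_mem (Subgroup.mem_sup_left (T := UΓ)
          (zpow_mem (show h.Nm P' ∈ NX from ⟨P', hP'Δ, rfl⟩) (k / (c : ℤ))))
          (Subgroup.mem_sup_right (S := NX) hxu)
        rwa [mul_div_assoc', mul_comm (h.Nm P' ^ _) x, mul_comm (P ^ _) (h.Nm P' ^ _),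
          mul_comm x (h.Nm P' ^ _), mul_div_mul_left_eq_div, div_eq_inv_mul] at hmem)
      exact ⟨a, b.trans (Finset.card_image_le.trans (Finset.card_range c).le)⟩
    have hchain : NX.relIndex X = NX.relIndex UΓ * (NX ⊔ UΓ).relIndex X := by
      rw [← Subgroup.relIndex_mul_relIndex NX (NX ⊔ UΓ) X le_sup_left
        (sup_le (fun x hx => by obtain ⟨b, hb, rfl⟩ := hx; exact h.Nm_mem hb) fun x hx => hx.1),
        sup_comm NX UΓ, Subgroup.relIndex_sup_right]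
    exact ⟨by rw [hchain]; exact mul_ne_zero h1.1 h2.1,
      by rw [hchain, hc]; exact Nat.mul_le_mul h1.2 h2.2⟩
  · obtain ⟨d, hd0, hd⟩ := exists_resCard_pow hΓ hΔ h.le
    refine ⟨d, hπ', hπ'0, hπ'1, hgen', hepos, hez, hd, ?_⟩
    rcases (Nat.dvd_prime hp).mp (⟨c, hc⟩ : e ∣ p) with rfl | rfl
    · rw [one_mul]
      rw [pow_one] at hez
      rcases Nat.lt_or_ge 1 d with hd1 | hd1
      · -- the residue extension is non-trivial
        obtain ⟨ζ, hζ, hm, hζd⟩ := exists_zeta hΓ hd0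
        obtain ⟨σ', -, h'⟩ := exists_cyclicOver_zeta hΓ hm hζ.pow_eq_one
        rw [hζd] at h'
        have hΔle : Δ ≤ Γ ⊓ MulAction.stabilizer GQ ζ := fun s hs => ⟨h.le hs, by
          obtain ⟨i, hi⟩ := exists_pow_frobenius hΔ hm hζ.pow_eq_one hs
          refine MulAction.mem_stabilizer_iff.mpr ?_
          rw [AlgEquiv.smul_def, hi, hd]
          have h1 : ζ ^ (resCard j Γ ^ d) = ζ := by
            have hQ : 1 ≤ resCard j Γ ^ d := Nat.one_le_pow _ _ (zero_lt_one.trans (one_lt_resCard hΓ))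
            rw [show resCard j Γ ^ d = resCard j Γ ^ d - 1 + 1 by omega, pow_succ, hζ.pow_eq_one,
              one_mul]
          clear hi
          induction i with
          | zero => simp
          | succ i ih => rw [pow_succ (resCard j Γ ^ d), pow_mul ζ, ih, h1]⟩
        have hdp : d ∣ p := by
          obtain ⟨t, ht⟩ := h.cover σ' h'.mem
          have e1 : h'.idx (σ' : GQ) = 1 % d := by simpa using h'.idx_pow 1
          have e2 : h'.idx σ' = t * h'.idx σ % d := by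
            refine (congrArg h'.idx (mul_inv_cancel_left (σ ^ t) σ').symm).trans ?_
            rw [h'.idx_mul_of_mem (h.pow_mem t) (hΔle ht), h'.idx_npow h.mem]
          have e3 : p * h'.idx σ % d = 0 := by
            rw [← h'.idx_npow h.mem, h'.idx_of_mem (hΔle ((h.pow_mem_iff p).mpr dvd_rfl))]
          rw [e1] at e2
          have e4 : p * (1 % d) % d = 0 := by
            rw [e2, Nat.mul_mod_mod, mul_left_comm, Nat.mul_mod, e3, mul_zero, Nat.zero_mod]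
          rw [Nat.mul_mod_mod, mul_one] at e4
          exact Nat.dvd_of_mod_eq_zero e4
        rcases (Nat.dvd_prime hp).mp hdp with rfl | rfl
        · exact absurd hd1 (lt_irrefl 1)
        · exact dvd_rfl
      · -- otherwise nothing is new
        exfalso
        have hd1' : d = 1 := by omega
        rw [hd1', pow_one] at hd
        have hres : ∀ x ∈ fixF Δ, ‖j x‖ ≤ 1 → ∃ y ∈ fixF Γ, ‖j (x - y)‖ ≤ ‖j π‖ := by
          intro x hx hx1
          have hmem : resAt j ⟨x, hx1⟩ ∈ resField j Γ := by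
            rw [mem_resField_iff hΓ, ← hd, ← mem_resField_iff hΔ]
            exact ⟨⟨x, hx1⟩, hx, rfl⟩
          obtain ⟨y, hy, hres⟩ := hmem
          rw [eq_comm, res_eq_iff] at hres
          refine ⟨y, hy, ?_⟩
          rcases eq_or_ne (x - (y : Qb)) 0 with h0 | h0
          · rw [h0, map_zero, norm_zero]; exact hπ0.le
          obtain ⟨k, hk⟩ := hgen' _ (sub_mem hx (fixF_anti h.le hy)) h0
          change ‖j (x - (y : Qb))‖ < 1 at hres
          rw [hk, ← hez] at hres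
          rw [hk, ← hez]
          have hk1 : 1 ≤ k := by
            by_contra hle
            exact absurd hres (not_lt.mpr (one_le_zpow_of_nonpos₀ hπ0 hπ1.le (by omega)))
          calc ‖j π‖ ^ k ≤ ‖j π‖ ^ (1 : ℤ) := zpow_le_zpow_right_of_le_one₀ hπ0 hπ1.le hk1
            _ = ‖j π‖ := zpow_one _
        have happrox : ∀ K : ℕ, ∀ x ∈ fixF Δ, ‖j x‖ ≤ 1 →
            ∃ y ∈ fixF Γ, ‖j (x - y)‖ ≤ ‖j π‖ ^ K := by
          intro K
          induction K with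
          | zero => exact fun x _ hx1 => ⟨0, zero_mem _, by simpa using hx1⟩
          | succ K ih =>
            intro x hx hx1
            obtain ⟨y, hy, hle⟩ := ih x hx hx1
            have hπK : π ^ K ≠ 0 := pow_ne_zero _ fun h0 => by simp [h0] at hπ0
            obtain ⟨w, hw, hwle⟩ := hres ((x - y) / π ^ K)
              (div_mem (sub_mem hx (fixF_anti h.le hy)) (pow_mem (fixF_anti h.le hπ) K))
              (by rw [map_div₀, norm_div, map_pow, norm_pow]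
                  exact (div_le_one (pow_pos hπ0 K)).mpr hle)
            refine ⟨y + w * π ^ K, add_mem hy (mul_mem hw (pow_mem hπ K)), ?_⟩
            rw [show x - (y + w * π ^ K) = ((x - y) / π ^ K - w) * π ^ K by field_simp; ring,
              map_mul, norm_mul, map_pow, norm_pow, pow_succ']
            exact mul_le_mul_of_nonneg_right hwle (pow_nonneg (norm_nonneg _) K)
        have hfix : ∀ x ∈ fixF Δ, ‖j x‖ ≤ 1 → x ∈ fixF Γ := by
          intro x hx hx1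
          refine mem_fixF.mpr fun g hg => sub_eq_zero.mp ?_
          by_contra hne
          obtain ⟨K, hK⟩ := exists_pow_lt_of_lt_one
            (norm_pos_iff.mpr ((map_ne_zero_iff j j.injective).mpr hne)) hπ1
          obtain ⟨y, hy, hle⟩ := happrox K x hx hx1
          have : g x - x = g (x - y) + -(x - y) := by
            rw [map_sub, mem_fixF.mp hy g hg]; ring
          rw [this] at hK
          refine absurd hK (not_lt.mpr ((norm_map_add_le _ _).trans (max_le ?_ ?_)))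
          · rw [hΓ.inv g hg]; exact hle
          · rw [map_neg, norm_neg]; exact hle
        obtain ⟨θ, hθ, hdet⟩ := h.repSystem.exists_det_ne_zero
        obtain ⟨K, hK⟩ := exists_pow_lt_of_lt_one
          (show 0 < 1 / (1 + ‖j θ‖) by positivity) hπ1
        have hθΓ : θ ∈ fixF Γ := by
          have h1 := hfix (θ * π ^ K) (mul_mem hθ (pow_mem (fixF_anti h.le hπ) K)) (by
            rw [map_mul, norm_mul, map_pow, norm_pow]
            have hK' := (lt_div_iff₀ (show 0 < 1 + ‖j θ‖ by positivity)).mp hK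
            nlinarith [norm_nonneg (j θ), pow_nonneg (norm_nonneg (j π)) K])
          have := div_mem h1 (pow_mem hπ K)
          rwa [mul_div_assoc, div_self (pow_ne_zero _ fun h0 => by simp [h0] at hπ0), mul_one] at this
        refine hdet (Matrix.det_zero_of_row_eq (i := ⟨0, h.pos⟩) (j := ⟨1, hp.one_lt⟩) ?_ ?_)
        · simp [Fin.ext_iff]
        · ext k
          simp [Matrix.of_apply, mem_fixF.mp hθΓ _ (h.pow_mem _)]
    · exact dvd_mul_right _ _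

/-- A tower of cyclic steps of degree `p`: the classes it kills, and the product `e f`. -/
theorem tower {p : ℕ} [hp : Fact p.Prime] : ∀ (k : ℕ) {Γ Δ : Subgroup GQ}, LocalAt j Γ →
    IsOpenIn Δ Γ → (∀ x ∈ Γ, ∀ s ∈ Δ, x⁻¹ * s * x ∈ Δ) → Δ.relIndex Γ = p ^ k →
    ∀ {π : Qb}, π ∈ fixF Γ → 0 < ‖j π‖ → ‖j π‖ < 1 →
      (∀ x ∈ fixF Γ, x ≠ 0 → ∃ k : ℤ, ‖j x‖ = ‖j π‖ ^ k) →
    ((B2 Γ).relIndex (kill Γ Δ) ≠ 0 ∧ (B2 Γ).relIndex (kill Γ Δ) ≤ p ^ k) ∧
      ∃ (π' : Qb) (e d : ℕ), π' ∈ fixF Δ ∧ 0 < ‖j π'‖ ∧ ‖j π'‖ < 1 ∧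
        (∀ x ∈ fixF Δ, x ≠ 0 → ∃ k : ℤ, ‖j x‖ = ‖j π'‖ ^ k) ∧
        0 < e ∧ ‖j π‖ = ‖j π'‖ ^ e ∧ resCard j Δ = resCard j Γ ^ d ∧ p ^ k ∣ e * d := by
  intro k
  induction k with
  | zero =>
    intro Γ Δ _ hΔ _ hidx π hπ hπ0 hπ1 hgen
    rw [pow_zero] at hidx ⊢
    obtain rfl : Γ = Δ := le_antisymm (Subgroup.relIndex_eq_one.mp hidx) hΔ.1
    have h1 : (B2 Γ).relIndex (kill Γ Γ) = 1 := Subgroup.relIndex_eq_one.mpr inf_le_right
    exact ⟨⟨h1.trans_ne one_ne_zero, h1.le⟩, π, 1, 1, hπ, hπ0, hπ1, hgen, one_pos,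
      (pow_one _).symm, (pow_one _).symm, one_dvd _⟩
  | succ k ih =>
    intro Γ Δ hΓ hΔ hconj hidx π hπ hπ0 hπ1 hgen
    obtain ⟨M, σ, h, hΔM, hconjM, hidxM⟩ := exists_prime_step hΔ hconj hidx
    obtain ⟨⟨hn0, hn⟩, π₁, e₁, d₁, hπ₁, hπ₁0, hπ₁1, hgen₁, he₁, hee₁, hd₁, hdvd₁⟩ :=
      prime_step hp.out hΓ h hπ hπ0 hπ1 hgen
    obtain ⟨⟨hk0, hk⟩, π', e, d, hπ', hπ'0, hπ'1, hgen', he, hee, hd, hdvd⟩ :=
      ih (hΓ.of_isOpenIn h.isOpen) hΔM hconjM hidxM hπ₁ hπ₁0 hπ₁1 hgen₁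
    refine ⟨?_, π', e * e₁, d₁ * d, hπ', hπ'0, hπ'1, hgen', mul_pos he he₁,
      by rw [hee₁, hee, ← pow_mul], by rw [hd, hd₁, ← pow_mul], ?_⟩
    · set A := kill Γ M
      have hA : A ≤ kill Γ Δ := inf_le_inf_left _ (B2_anti hΔM.1)
      have hBA : B2 Γ ≤ A := le_inf (B2_le_Z2 Γ) (B2_anti h.le)
      -- the cyclic step
      have hA1 : (B2 Γ).relIndex A ≠ 0 ∧ (B2 Γ).relIndex A ≤ p := by
        let φ : Qbˣ →* (GQ → GQ → Qbˣ) :=
          { toFun := h.fa, map_one' := h.fa_one, map_mul' := h.fa_mul }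
        have hAle : A ≤ (fixU Γ).map φ ⊔ B2 Γ := by
          rintro f ⟨hf, hfM⟩
          obtain ⟨a, ha, hdiv⟩ := h.exists_eq_fa hf hfM
          rw [← div_mul_cancel f (h.fa a), mul_comm]
          exact mul_mem (Subgroup.mem_sup_left ⟨a, ha, rfl⟩) (Subgroup.mem_sup_right hdiv)
        have hNle : (fixU M).map h.Nm ≤ (B2 Γ).comap φ := by
          rintro _ ⟨b, hb, rfl⟩
          exact (h.fa_mem_B2_iff (h.Nm_mem hb)).mpr ⟨b, hb, rfl⟩
        have h1 : (B2 Γ).relIndex ((fixU Γ).map φ ⊔ B2 Γ) = ((B2 Γ).comap φ).relIndex (fixU Γ) := by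
          rw [Subgroup.relIndex_sup_right, Subgroup.relIndex_comap]
        have h2 : ((B2 Γ).comap φ).relIndex (fixU Γ) ≠ 0 :=
          fun h0 => hn0 (Subgroup.relIndex_eq_zero_of_le_left hNle h0)
        exact ⟨fun h0 => h2 (h1 ▸ Subgroup.relIndex_eq_zero_of_le_right hAle h0),
          (Subgroup.relIndex_le_of_le_right hAle (h1 ▸ h2)).trans
            (h1.le.trans ((Subgroup.relIndex_le_of_le_left hNle hn0).trans hn))⟩
      -- the rest of the tower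
      have hA2 : A.relIndex (kill Γ Δ) ≠ 0 ∧ A.relIndex (kill Γ Δ) ≤ p ^ k := by
        have e1 : A.relIndex (kill Γ Δ) = (B2 M).relIndex (kill Γ Δ) := by
          rw [← Subgroup.inf_relIndex_right A, ← Subgroup.inf_relIndex_right (B2 M)]
          congr 1
          exact le_antisymm (inf_le_inf_right _ inf_le_right)
            (le_inf (le_inf (inf_le_right.trans inf_le_left) inf_le_left) inf_le_right)
        have hle : kill Γ Δ ≤ kill M Δ := inf_le_inf_right _ (Z2_anti h.le)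
        rw [e1]
        exact ⟨fun h0 => hk0 (Subgroup.relIndex_eq_zero_of_le_right hle h0),
          (Subgroup.relIndex_le_of_le_right hle hk0).trans hk⟩
      rw [← Subgroup.relIndex_mul_relIndex _ _ _ hBA hA]
      exact ⟨mul_ne_zero hA1.1 hA2.1, (Nat.mul_le_mul hA1.2 hA2.2).trans_eq (pow_succ' p k).symm⟩
    · rw [pow_succ']
      calc p * p ^ k ∣ e₁ * d₁ * (e * d) := mul_dvd_mul hdvd₁ hdvd
        _ = e * e₁ * (d₁ * d) := by ring

/-- The unramified extension of degree `p`. -/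
theorem exists_unramified {Γ : Subgroup GQ} (hΓ : LocalAt j Γ) {p : ℕ} (hp : 0 < p) :
    ∃ (ζ : Qb) (σ : GQ), IsPrimitiveRoot ζ (resCard j Γ ^ p - 1) ∧ ¬ q ∣ resCard j Γ ^ p - 1 ∧
      σ ζ = ζ ^ resCard j Γ ∧ CyclicOver Γ (Γ ⊓ MulAction.stabilizer GQ ζ) σ p := by
  obtain ⟨ζ, hζ, hm, hd⟩ := exists_zeta hΓ hp
  obtain ⟨σ, hσ, h⟩ := exists_cyclicOver_zeta hΓ hm hζ.pow_eq_one
  exact ⟨ζ, σ, hζ, hm, hσ, hd ▸ h⟩

/-- A `p`-torsion class dies in the unramified extension of degree `p`. -/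
theorem mem_B2_unramified {Γ : Subgroup GQ} (hΓ : LocalAt j Γ) {p : ℕ} [hp : Fact p.Prime]
    {f : GQ → GQ → Qbˣ} (hf : f ∈ Z2 Γ) (hfp : f ^ p ∈ B2 Γ) {ζ : Qb}
    (hζ : IsPrimitiveRoot ζ (resCard j Γ ^ p - 1)) {σ : GQ}
    (h : CyclicOver Γ (Γ ⊓ MulAction.stabilizer GQ ζ) σ p) :
    f ∈ B2 (Γ ⊓ MulAction.stabilizer GQ ζ) := by
  classical
  obtain ⟨F, hF, hN, hfF⟩ := exists_level_mem_B2 hf
  set D := Γ ⊓ F.fixingSubgroup with hD
  have := normal_fixingSubgroup F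
  have := finiteIndex_fixingSubgroup F
  set G := Γ ⧸ D.subgroupOf Γ
  have hsub : D.subgroupOf Γ = F.fixingSubgroup.subgroupOf Γ := Subgroup.inf_subgroupOf_left _ _
  have : (D.subgroupOf Γ).Normal := hsub ▸ inferInstance
  have : (D.subgroupOf Γ).FiniteIndex := hsub ▸ inferInstance
  obtain ⟨P⟩ : Nonempty (Sylow p G) := inferInstance
  let mk' : Γ →* G := QuotientGroup.mk' _
  set Γ₁ := ((P : Subgroup G).comap mk').map Γ.subtype with hΓ₁
  have hΓ₁le : Γ₁ ≤ Γ := Subgroup.map_subtype_le _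
  have hΓ₁sub : Γ₁.subgroupOf Γ = (P : Subgroup G).comap mk' :=
    Subgroup.comap_map_eq_self_of_injective Γ.subtype_injective _
  have hDΓ₁ : D ≤ Γ₁ := fun x hx => ⟨⟨x, hx.1⟩, by
    show mk' ⟨x, hx.1⟩ ∈ (P : Subgroup G)
    rw [show mk' ⟨x, hx.1⟩ = 1 from (QuotientGroup.eq_one_iff _).mpr hx]
    exact one_mem _, rfl⟩
  set m := (P : Subgroup G).index with hm
  have hmidx : Γ₁.relIndex Γ = m := by
    rw [Subgroup.relIndex, hΓ₁sub,
      Subgroup.index_comap_of_surjective _ (QuotientGroup.mk'_surjective _)]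
  have hpm : ¬ p ∣ m := P.not_dvd_index
  have hm0 : m ≠ 0 := fun h0 => hpm (h0 ▸ dvd_zero p)
  obtain ⟨k, hk⟩ := IsPGroup.iff_card.mp P.isPGroup'
  have hDidx : D.relIndex Γ₁ = p ^ k := by
    have h1 := Subgroup.relIndex_mul_relIndex _ _ _ hDΓ₁ hΓ₁le
    rw [hmidx] at h1
    have h2 : (P : Subgroup G).index * Nat.card (P : Subgroup G) = D.relIndex Γ :=
      Subgroup.index_mul_card _
    rw [← h1, hk, mul_comm] at h2
    exact Nat.eq_of_mul_eq_mul_right (Nat.pos_of_ne_zero hm0) h2.symm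
  have hΓ₁open : IsOpenIn Γ₁ Γ := ⟨hΓ₁le, F, hF, fun x hx hxF => hDΓ₁ ⟨hx, hxF⟩⟩
  have hDopen : IsOpenIn D Γ₁ := ⟨hDΓ₁, F, hF, fun x hx hxF => ⟨hΓ₁le hx, hxF⟩⟩
  have hΓ₁loc := hΓ.of_isOpenIn hΓ₁open
  have hfΓ₁ : f ∈ Z2 Γ₁ := Z2_anti hΓ₁le hf
  have hfpΓ₁ : f ^ p ∈ B2 Γ₁ := B2_anti hΓ₁le hfp
  have hcop : m.Coprime p := (hp.out.coprime_iff_not_dvd.mpr hpm).symm
  rcases Nat.eq_zero_or_pos k with rfl | hkpos
  · rw [pow_zero] at hDidx
    have hfΓ : f ∈ B2 Γ₁ := B2_anti (Subgroup.relIndex_eq_one.mp hDidx) hfF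
    have hpow : f ^ m ∈ B2 Γ := hmidx ▸ pow_relIndex_mem_B2 hΓ₁open hf hfΓ
    exact B2_anti h.le (mem_B2_of_coprime hcop hpow hfp)
  -- the unramified extension of degree `N` of the Sylow field
  set N := p ^ k with hN
  have hN0 : 0 < N := pow_pos hp.out.pos k
  obtain ⟨π, hπ, hπ0, hπ1, hgen⟩ := hΓ₁loc.exists_uniformizer
  obtain ⟨⟨hc0, hc⟩, π', e, d, hπ', hπ'0, hπ'1, hgen', he, hee, hd, hdvd⟩ :=
    tower k hΓ₁loc hDopen (fun x hx s hs =>
      ⟨Γ.mul_mem (Γ.mul_mem (Γ.inv_mem (hΓ₁le hx)) hs.1) (hΓ₁le hx),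
        conj_mem_fixingSubgroup hs.2 x⟩) hDidx hπ hπ0 hπ1 hgen
  obtain ⟨ζN, hζN, hmN, hζNd⟩ := exists_zeta hΓ₁loc hN0
  obtain ⟨σN, hσN, hN'⟩ := exists_cyclicOver_zeta hΓ₁loc hmN hζN.pow_eq_one
  rw [hζNd] at hN'
  have hπne : π ≠ 0 := fun h0 => by simp [h0] at hπ0
  set ϖ := Units.mk0 π hπne with hϖ
  have hPifix : ϖ ∈ fixU Γ₁ := mem_fixU.mpr hπ
  have hnormPi : ∀ i : ℤ, ‖j ((ϖ ^ i : Qbˣ) : Qb)‖ = ‖j π‖ ^ i := fun i => by
    simp [ϖ]
  let F0 : Qbˣ →* (GQ → GQ → Qbˣ) :=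
    { toFun := hN'.fa, map_one' := hN'.fa_one, map_mul' := hN'.fa_mul }
  have hF0iff : ∀ i : ℤ, F0 (ϖ ^ i) ∈ B2 Γ₁ ↔ (N : ℤ) ∣ i := fun i =>
    fa_mem_B2_iff_dvd hΓ₁loc hmN hζN.pow_eq_one hN' hπ hπ0 hπ1 hgen (zpow_mem hPifix i) (hnormPi i)
  -- its basic class dies on `D`
  have hF0D : F0 ϖ ∈ B2 D := by
    have hDloc := hΓ₁loc.of_isOpenIn hDopen
    obtain ⟨dd, τ, hddn, h', hidx', hfa⟩ := hN'.exists_inf hDΓ₁
    have hset : D ⊓ (Γ₁ ⊓ MulAction.stabilizer GQ ζN) = D ⊓ MulAction.stabilizer GQ ζN :=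
      by rw [← inf_assoc, inf_of_le_left hDΓ₁]
    have hgcd : Nat.gcd d N ∣ dd := by
      have hτ := hidx' τ h'.mem
      obtain ⟨i, hi⟩ := exists_pow_frobenius hDloc hmN hζN.pow_eq_one h'.mem
      -- `τ` acts on `ζN` through a power of the Frobenius of `D`
      have hτidx : hN'.idx τ = d * i % N := by
        refine hN'.idx_eq (hDΓ₁ h'.mem) ⟨Γ₁.mul_mem (Γ₁.inv_mem (hN'.pow_mem _)) (hDΓ₁ h'.mem), ?_⟩
        refine MulAction.mem_stabilizer_iff.mpr ?_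
        have hiter : ∀ l : ℕ, (σN ^ l) ζN = ζN ^ (resCard j Γ₁ ^ l) := fun l => by
          induction l with
          | zero => simp
          | succ l ih => rw [pow_succ', AlgEquiv.mul_apply, ih, map_pow, hσN, ← pow_mul, ← pow_succ']
        rw [AlgEquiv.smul_def, AlgEquiv.mul_apply, hi, hd, ← pow_mul, ← hiter, ← AlgEquiv.mul_apply,
          inv_mul_cancel, AlgEquiv.one_apply]
      have hidx1 : h'.idx τ = 1 % (N / dd) := by simpa using h'.idx_pow 1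
      have hdvdτ : Nat.gcd d N ∣ hN'.idx τ := by
        rw [hτidx]
        exact (Nat.dvd_mod_iff (Nat.gcd_dvd_right d N)).mpr ((Nat.gcd_dvd_left d N).mul_right i)
      rw [hτ, hidx1] at hdvdτ
      rcases Nat.lt_or_ge 1 (N / dd) with h1 | h1
      · rwa [Nat.mod_eq_of_lt h1, mul_one] at hdvdτ
      · have : N / dd = 1 := le_antisymm h1 h'.pos
        rw [Nat.eq_of_dvd_of_div_eq_one hddn this]
        exact Nat.gcd_dvd_right d N
    have hne : N / dd ∣ e := by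
      have h1 : N ∣ e * dd := by
        have : N ∣ Nat.gcd (e * d) (e * N) := Nat.dvd_gcd hdvd (dvd_mul_left N e)
        rw [Nat.gcd_mul_left] at this
        exact this.trans (mul_dvd_mul_left e hgcd)
      obtain ⟨t, ht⟩ := hddn
      have hdd0 : 0 < dd := Nat.pos_of_ne_zero fun h0 => hN0.ne' (by rw [ht, h0, zero_mul])
      rw [ht, Nat.mul_div_cancel_left _ hdd0]
      rw [ht, mul_comm e dd] at h1
      exact Nat.dvd_of_mul_dvd_mul_left hdd0 h1
    have hmem : h'.fa ϖ ∈ B2 D := by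
      have hfix : ϖ ∈ fixU D := fixU_anti hDΓ₁ hPifix
      obtain ⟨b, hb, hbeq⟩ : ∃ b : Qbˣ, (∀ s ∈ D ⊓ (Γ₁ ⊓ MulAction.stabilizer GQ ζN), s • b = b) ∧
          ∏ i ∈ Finset.range (N / dd), τ ^ i • b = ϖ := by
        have h1 := fa_mem_B2_iff_dvd hDloc hmN hζN.pow_eq_one (σ := τ) (n := N / dd)
          (hset ▸ h') hπ' hπ'0 hπ'1 hgen' hfix (k := (e : ℤ))
          (by rw [zpow_natCast, ← hee]; rfl)
        have h2 := h1.mpr (Int.natCast_dvd_natCast.mpr hne)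
        have h3 := ((hset ▸ h' : CyclicOver D (D ⊓ MulAction.stabilizer GQ ζN) τ (N / dd))
          |>.fa_mem_B2_iff hfix).mp h2
        rwa [hset]
      exact (h'.fa_mem_B2_iff hfix).mpr ⟨b, hb, hbeq⟩
    obtain ⟨z, hz, hzeq⟩ := hmem
    exact ⟨z, hz, fun g hg g' hg' => (hfa ϖ g hg g' hg').trans (hzeq g hg g' hg')⟩
  have hF0K : ∀ i : ℤ, F0 (ϖ ^ i) ∈ kill Γ₁ D := fun i => by
    rw [map_zpow]
    exact zpow_mem (show F0 ϖ ∈ kill Γ₁ D from ⟨hN'.fa_mem_Z2 hPifix, hF0D⟩) i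
  -- these exhaust all classes killed by `D`
  obtain ⟨i, hi⟩ : ∃ i : ℕ, f / F0 (ϖ ^ (i : ℤ)) ∈ B2 Γ₁ := by
    let K := kill Γ₁ D
    let φ : Fin N → K ⧸ (B2 Γ₁).subgroupOf K := fun i =>
      ((⟨F0 (ϖ ^ ((i : ℕ) : ℤ)), hF0K _⟩ : K) : K ⧸ (B2 Γ₁).subgroupOf K)
    have hfin : Finite (K ⧸ (B2 Γ₁).subgroupOf K) := Nat.finite_of_card_ne_zero hc0
    have hinj : Function.Injective φ := fun a b hab => by
      rw [QuotientGroup.eq, Subgroup.mem_subgroupOf] at hab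
      simp only [Subgroup.coe_mul, InvMemClass.coe_inv, ← map_inv, ← map_mul, ← zpow_neg,
        ← zpow_add] at hab
      rw [hF0iff] at hab
      have h1 := Int.eq_zero_of_dvd_of_natAbs_lt_natAbs hab (by
        have := a.2; have := b.2
        omega)
      exact Fin.ext (by omega)
    have hsurj : Function.Surjective φ := (hinj.bijective_of_nat_card_le (by
      rw [Nat.card_fin]; exact hc)).2
    obtain ⟨i, hi⟩ := hsurj ((⟨f, hfΓ₁, hfF⟩ : K) : K ⧸ (B2 Γ₁).subgroupOf K)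
    refine ⟨i, ?_⟩
    rw [QuotientGroup.eq, Subgroup.mem_subgroupOf] at hi
    simp only [Subgroup.coe_mul, InvMemClass.coe_inv] at hi
    rwa [div_eq_inv_mul]
  have hdiv : (N : ℤ) ∣ (i : ℤ) * p := by
    rw [← hF0iff, zpow_mul, map_zpow, zpow_natCast]
    have h1 := div_mem hfpΓ₁ (pow_mem hi p)
    rwa [← div_pow, div_div_cancel] at h1
  obtain ⟨k', rfl⟩ := Nat.exists_eq_add_of_le' hkpos
  obtain ⟨t, rfl⟩ : p ^ k' ∣ i := by
    rw [← Nat.cast_mul, Int.natCast_dvd_natCast, hN, pow_succ] at hdiv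
    exact Nat.dvd_of_mul_dvd_mul_right hp.out.pos hdiv
  -- the wanted subgroup
  set S := Γ ⊓ MulAction.stabilizer GQ ζ with hS
  set H := Γ₁ ⊓ MulAction.stabilizer GQ ζ with hH
  have hHS : Γ₁ ⊓ S = H := by rw [hS, ← inf_assoc, inf_of_le_left hΓ₁le]
  have hnotle : ¬ Γ₁ ≤ MulAction.stabilizer GQ ζ := fun hle => hpm (by
    have h1 := Subgroup.relIndex_mul_relIndex _ _ _ (le_inf hΓ₁le hle) h.le
    rw [h.relIndex_eq, hmidx] at h1
    exact ⟨_, h1.symm.trans (mul_comm _ _)⟩)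
  obtain ⟨d₁, τ₁, hd₁, h₁, -⟩ := h.exists_inf hΓ₁le
  have hd₁eq : p / d₁ = p := by
    rcases (Nat.dvd_prime hp.out).mp hd₁ with rfl | rfl
    · exact Nat.div_one p
    · exfalso
      refine hnotle fun x hx => ?_
      have h0 : h₁.idx x = 0 := by
        have := h₁.idx_lt x
        have e : ∀ a : ℕ, 0 < a → a / a = 1 := fun a ha => Nat.div_self ha
        have e' := e _ hp.out.pos
        omega
      exact (h₁.mem_of_idx_eq_zero hx h0).2.2
  have hFH : f ∈ B2 H := by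
    -- `Γ₁ ⊓ stab ζ` contains the kernel of the degree `N` extension
    have hle : Γ₁ ⊓ MulAction.stabilizer GQ ζN ≤ H := by
      refine le_inf inf_le_left fun x hx => MulAction.mem_stabilizer_iff.mpr ?_
      obtain ⟨dΓ, hdΓ, hQ₁⟩ := exists_resCard_pow hΓ hΓ₁loc hΓ₁le
      have hdvd' : resCard j Γ ^ p - 1 ∣ resCard j Γ₁ ^ p ^ (k' + 1) - 1 := by
        rw [hQ₁, ← pow_mul]
        exact Nat.pow_sub_one_dvd_pow_sub_one _ ((dvd_pow_self p (Nat.succ_ne_zero _)).mul_left _)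
      have hpos : 0 < resCard j Γ₁ ^ p ^ (k' + 1) - 1 := by
        have := Nat.one_lt_pow hN0.ne' (one_lt_resCard hΓ₁loc)
        change 1 < resCard j Γ₁ ^ p ^ (k' + 1) at this
        exact Nat.sub_pos_of_lt this
      have : NeZero (resCard j Γ₁ ^ p ^ (k' + 1) - 1) := ⟨hpos.ne'⟩
      obtain ⟨c, hc'⟩ := hdvd'
      obtain ⟨l, -, hl⟩ := hζN.eq_pow_of_pow_eq_one (ξ := ζ)
        (by rw [hc', pow_mul, hζ.pow_eq_one, one_pow])
      rw [AlgEquiv.smul_def, ← hl, map_pow,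
        show x ζN = ζN from MulAction.mem_stabilizer_iff.mp hx.2]
    obtain ⟨d₂, τ₂, hd₂, h₂, hidx₂, hfa₂⟩ := hN'.exists_inf (H := H) inf_le_left
    have hp2 : p ∣ d₂ := by
      obtain ⟨a, -, rfl⟩ := (Nat.dvd_prime_pow hp.out).mp hd₂
      rcases Nat.eq_zero_or_pos a with rfl | ha
      · exfalso
        -- then `H` would be all of `Γ₁`
        refine hnotle fun x hx => ?_
        have h3 := hN'.idx_spec hx
        have h4 : σN ^ hN'.idx x ∈ H := by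
          have hτ : hN'.idx τ₂ = 1 % (p ^ (k' + 1)) := by
            have h5 : h₂.idx τ₂ = 1 % (p ^ (k' + 1) / p ^ 0) := by simpa using h₂.idx_pow 1
            rw [hidx₂ τ₂ h₂.mem, h5, pow_zero, one_mul, Nat.div_one]
          have h6 : hN'.idx (τ₂ ^ hN'.idx x) = hN'.idx x := by
            rw [hN'.idx_npow (show τ₂ ∈ Γ₁ from (h₂.mem).1), hτ, Nat.mul_mod_mod, mul_one,
              Nat.mod_eq_of_lt (hN'.idx_lt x)]
          have h7 := hN'.idx_spec (_root_.pow_mem (show τ₂ ∈ Γ₁ from (h₂.mem).1) (hN'.idx x))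
          rw [h6] at h7
          have h8 := H.mul_mem (H.pow_mem h₂.mem (hN'.idx x)) (H.inv_mem (hle h7))
          simpa using h8
        have := H.mul_mem h4 (hle h3)
        rw [mul_inv_cancel_left] at this
        exact this.2
      · exact dvd_pow_self p (by omega)
    have hF0H : F0 (ϖ ^ ((p ^ k' * t : ℕ) : ℤ)) ∈ B2 H := by
      have hPiH : ϖ ∈ fixU H := fixU_anti inf_le_left hPifix
      have hbase : h₂.fa (ϖ ^ (p ^ k' * t)) ∈ B2 H := by
        rw [h₂.fa_mem_B2_iff (pow_mem hPiH _)]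
        obtain ⟨c, hc'⟩ := hp2
        obtain ⟨u, hu⟩ := hd₂
        have hd₂0 : 0 < d₂ := Nat.pos_of_ne_zero fun h0 => hN0.ne' (by rw [hu, h0, zero_mul])
        have hcu : c * u = p ^ k' := by
          have h9 : p * p ^ k' = p * (c * u) := by
            rw [← pow_succ', ← mul_assoc, ← hc', ← hu]
          exact (Nat.eq_of_mul_eq_mul_left hp.out.pos h9).symm
        rw [hu, Nat.mul_div_cancel_left _ hd₂0, ← hcu]
        refine ⟨ϖ ^ (c * t), fun s hs => pow_mem hPiH (c * t) s hs.1, ?_⟩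
        rw [Finset.prod_congr rfl fun l _ => pow_mem hPiH (c * t) _ (h₂.pow_mem l),
          Finset.prod_const, Finset.card_range, ← pow_mul]
        congr 1
        ring
      obtain ⟨z, hz, hzeq⟩ := hbase
      refine ⟨z, hz, fun g hg g' hg' => ?_⟩
      rw [zpow_natCast]
      exact (hfa₂ _ g hg g' hg').trans (hzeq g hg g' hg')
    rw [← div_mul_cancel f (F0 (ϖ ^ ((p ^ k' * t : ℕ) : ℤ)))]
    exact mul_mem (B2_anti inf_le_left hi) hF0H
  have hrel : H.relIndex S = m := by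
    have h1 := Subgroup.relIndex_mul_relIndex H Γ₁ Γ inf_le_left hΓ₁le
    have h2 := Subgroup.relIndex_mul_relIndex H S Γ (inf_le_inf_right _ hΓ₁le) h.le
    have h3 : H.relIndex Γ₁ = p := by
      have := h₁.relIndex_eq
      rwa [hHS, hd₁eq] at this
    rw [h3, hmidx, ← h2, h.relIndex_eq, mul_comm] at h1
    exact (Nat.eq_of_mul_eq_mul_right hp.out.pos h1).symm
  have hopen : IsOpenIn H S := by
    rw [← hHS, inf_comm]
    exact hΓ₁open.inf S h.le
  exact mem_B2_of_coprime hcop (hrel ▸ pow_relIndex_mem_B2 hopen (Z2_anti h.le hf) hFH)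
    (B2_anti h.le hfp)

/-- Two `p`-torsion classes are proportional. -/
theorem exists_pow_div_mem_B2 {Γ : Subgroup GQ} (hΓ : LocalAt j Γ) {p : ℕ} [hp : Fact p.Prime]
    {f f' : GQ → GQ → Qbˣ} (hf : f ∈ Z2 Γ) (hfp : f ^ p ∈ B2 Γ) (hfne : f ∉ B2 Γ)
    (hf' : f' ∈ Z2 Γ) (hf'p : f' ^ p ∈ B2 Γ) : ∃ i : ℕ, f' / f ^ i ∈ B2 Γ := by
  obtain ⟨ζ, σ, hζ, hm, -, h⟩ := exists_unramified hΓ hp.out.pos
  obtain ⟨π, hπ, hπ0, hπ1, hgen⟩ := hΓ.exists_uniformizer
  obtain ⟨a, ha, hfa⟩ := h.exists_eq_fa hf (mem_B2_unramified hΓ hf hfp hζ h)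
  obtain ⟨a', ha', hfa'⟩ := h.exists_eq_fa hf' (mem_B2_unramified hΓ hf' hf'p hζ h)
  replace ha : a ∈ fixU Γ := ha
  replace ha' : a' ∈ fixU Γ := ha'
  obtain ⟨k, hk⟩ := hgen (a : Qb) (mem_fixU.mp ha) (Units.ne_zero _)
  obtain ⟨k', hk'⟩ := hgen (a' : Qb) (mem_fixU.mp ha') (Units.ne_zero _)
  have hkne : (k : ZMod p) ≠ 0 := fun h0 => by
    refine hfne ?_
    rw [← div_mul_cancel f (h.fa a)]
    exact mul_mem hfa ((fa_mem_B2_iff_dvd hΓ hm hζ.pow_eq_one h hπ hπ0 hπ1 hgen ha hk).mpr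
      ((ZMod.intCast_zmod_eq_zero_iff_dvd _ _).mp h0))
  set i := ((k' : ZMod p) / k).val
  refine ⟨i, ?_⟩
  have hval : ‖j ((a' / a ^ i : Qbˣ) : Qb)‖ = ‖j π‖ ^ (k' - k * i) := by
    simp only [Units.val_div_eq_div_val, Units.val_pow_eq_pow_val, map_div₀, norm_div, map_pow,
      norm_pow, hk, hk']
    rw [← zpow_natCast, ← zpow_mul, ← zpow_sub₀ hπ0.ne']
  have hdvd : (p : ℤ) ∣ k' - k * i := by
    rw [← ZMod.intCast_zmod_eq_zero_iff_dvd]
    push_cast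
    rw [ZMod.natCast_zmod_val, mul_div_cancel₀ _ hkne, sub_self]
  have hmem := (fa_mem_B2_iff_dvd hΓ hm hζ.pow_eq_one h hπ hπ0 hπ1 hgen
    (div_mem ha' (pow_mem ha i)) hval).mpr hdvd
  let φ : Qbˣ →* (GQ → GQ → Qbˣ) := { toFun := h.fa, map_one' := h.fa_one, map_mul' := h.fa_mul }
  have e1 : f' / f ^ i = (f' / φ a') / (f / φ a) ^ i * φ (a' / a ^ i) := by
    rw [map_div, map_pow, div_pow, div_div_div_comm, div_mul_cancel]
  rw [e1]
  exact mul_mem (div_mem hfa' (pow_mem hfa i)) hmem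

end Fermat.Agent.CFT.Brauer
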