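import Fermat.Agent.CFT.Brauer.LocalBasic

/-!
The norm index of a cyclic extension of an algebraic henselian local field, bounded through a
normal basis lattice and a count in a finite quotient of the units.
-/

set_option autoImplicit false
set_option backward.isDefEq.respectTransparency false

noncomputable section

namespace Fermat.Agent.CFT.Brauer

open Finset in
/-- An index is at most the size of a set of representatives. -/
lemma relIndex_le_card_of_cover {G : Type*} [Group G] {H K : Subgroup G} (T : Finset G)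
    (hT : ∀ t ∈ T, t ∈ K) (h : ∀ x ∈ K, ∃ t ∈ T, t⁻¹ * x ∈ H) :
    H.relIndex K ≠ 0 ∧ H.relIndex K ≤ T.card := by
  classical
  let φ : T → K ⧸ H.subgroupOf K := fun t => ((⟨t, hT t t.2⟩ : K) : K ⧸ H.subgroupOf K)
  have hsurj : Function.Surjective φ := by
    intro c
    obtain ⟨t, ht, htx⟩ := h _ c.out.2
    refine ⟨⟨t, ht⟩, ?_⟩
    conv_rhs => rw [← QuotientGroup.out_eq' c]
    exact QuotientGroup.eq.mpr htx
  have : Finite (K ⧸ H.subgroupOf K) := Finite.of_surjective φ hsurj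
  refine ⟨Nat.card_ne_zero.mpr ⟨⟨(1 : K)⟩, this⟩, ?_⟩
  calc H.relIndex K = Nat.card (K ⧸ H.subgroupOf K) := rfl
    _ ≤ Nat.card T := Nat.card_le_card_of_surjective φ hsurj
    _ = T.card := Nat.card_eq_finsetCard T

/-- The exchange identity behind the Herbrand quotient of a finite module. -/
lemma relIndex_exchange {G : Type*} [CommGroup G] (f g : G →* G) {U W : Subgroup G} (hWU : W ≤ U)
    (hfU : U.map f ≤ U) (hgU : U.map g ≤ U) (hfW : W.map f ≤ W) (hgW : W.map g ≤ W)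
    (hfg : ∀ u ∈ U, f (g u) = 1) (hgf : ∀ u ∈ U, g (f u) = 1) (hfin : W.relIndex U ≠ 0) :
    (U.map f ⊔ W).relIndex (U ⊓ W.comap g) = (U.map g ⊔ W).relIndex (U ⊓ W.comap f) ∧
      (U.map f ⊔ W).relIndex (U ⊓ W.comap g) ≠ 0 := by
  have main : ∀ (f g : G →* G), U.map f ≤ U → W.map g ≤ W → (∀ u ∈ U, g (f u) = 1) →
      W.relIndex U = W.relIndex (U.map f ⊔ W) * (U.map f ⊔ W).relIndex (U ⊓ W.comap g) *
        W.relIndex (U.map g ⊔ W) := by
    intro f g hfU hgW hgf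
    have h1 : U.map f ⊔ W ≤ U ⊓ W.comap g := by
      refine le_inf (sup_le hfU hWU) (sup_le ?_ (Subgroup.map_le_iff_le_comap.mp hgW))
      rintro _ ⟨u, hu, rfl⟩
      simp [hgf u hu]
    rw [Subgroup.relIndex_mul_relIndex _ _ _ le_sup_right h1, Subgroup.relIndex_sup_right,
      ← Subgroup.relIndex_comap, ← Subgroup.inf_relIndex_right (W.comap g) U, inf_comm (W.comap g) U,
      Subgroup.relIndex_mul_relIndex _ _ _ (le_inf hWU (Subgroup.map_le_iff_le_comap.mp hgW))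
        inf_le_left]
  have e1 := main f g hfU hgW hgf
  have e2 := main g f hgU hfW hfg
  have hne : ∀ a b c : ℕ, W.relIndex U = a * b * c → a ≠ 0 ∧ b ≠ 0 ∧ c ≠ 0 := fun a b c h => by
    rw [h] at hfin
    simpa [mul_ne_zero_iff, and_assoc] using hfin
  obtain ⟨ha, hb, hc⟩ := hne _ _ _ e1
  refine ⟨?_, hb⟩
  rw [e2, mul_right_comm, mul_comm (W.relIndex (U.map f ⊔ W))] at e1
  exact (Nat.eq_of_mul_eq_mul_left (Nat.pos_of_ne_zero (mul_ne_zero hc ha))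
    (by linarith [e1, mul_comm (W.relIndex (U.map g ⊔ W)) (W.relIndex (U.map f ⊔ W))])).symm

variable {q : ℕ} [Fact q.Prime]

/-- The units of absolute value one fixed by `Γ`. -/
def unitsAt (j : Qb →+* PadicAlgCl q) (Γ : Subgroup GQ) : Subgroup Qbˣ where
  carrier := {x | x ∈ fixU Γ ∧ ‖j (x : Qb)‖ = 1}
  one_mem' := ⟨one_mem _, by simp⟩
  mul_mem' {x y} hx hy := ⟨mul_mem hx.1 hy.1, by simp [hx.2, hy.2]⟩
  inv_mem' {x} hx := ⟨inv_mem hx.1, by simp [hx.2]⟩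

namespace CyclicOver

variable {Γ Δ : Subgroup GQ} {σ : GQ} {n : ℕ}

/-- The norm. -/
def Nm (_h : CyclicOver Γ Δ σ n) : Qbˣ →* Qbˣ where
  toFun b := ∏ i ∈ Finset.range n, σ ^ i • b
  map_one' := by simp [smul_one]
  map_mul' a b := by simp [smul_mul', Finset.prod_mul_distrib]

/-- `b ↦ σ b / b`. -/
def Dif (_h : CyclicOver Γ Δ σ n) : Qbˣ →* Qbˣ where
  toFun b := σ • b / b
  map_one' := by simp [smul_one]
  map_mul' a b := by simp [smul_mul', mul_div_mul_comm]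

variable (h : CyclicOver Γ Δ σ n)
include h

lemma Nm_apply (b : Qbˣ) : h.Nm b = ∏ i ∈ Finset.range n, σ ^ i • b := rfl

lemma Dif_apply (b : Qbˣ) : h.Dif b = σ • b / b := rfl

lemma smul_mem_fixU {g : GQ} (hg : g ∈ Γ) {b : Qbˣ} (hb : b ∈ fixU Δ) : g • b ∈ fixU Δ :=
  fun s hs => by
    rw [← mul_smul, show s * g = g * (g⁻¹ * s * g) by group, mul_smul, hb _ (h.conj g hg s hs)]

lemma smul_Nm {b : Qbˣ} (hb : b ∈ fixU Δ) : σ • h.Nm b = h.Nm b := by
  have hn : σ ^ n • b = b := hb _ ((h.pow_mem_iff n).mpr dvd_rfl)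
  have h1 := Finset.prod_range_succ' (fun i => σ ^ i • b) n
  rw [Finset.prod_range_succ, hn, pow_zero, one_smul] at h1
  rw [Nm_apply, Finset.smul_prod']
  simp only [← mul_smul, ← pow_succ']
  exact (mul_right_cancel h1).symm

lemma Nm_mem {b : Qbˣ} (hb : b ∈ fixU Δ) : h.Nm b ∈ fixU Γ := by
  have hΔ : h.Nm b ∈ fixU Δ := Subgroup.prod_mem _ fun i _ => h.smul_mem_fixU (h.pow_mem i) hb
  have hσ : ∀ i : ℕ, σ ^ i • h.Nm b = h.Nm b := fun i => by
    induction i with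
    | zero => rw [pow_zero, one_smul]
    | succ i ih => rw [pow_succ, mul_smul, h.smul_Nm hb, ih]
  exact fun g hg => (h.smul_eq_pow_smul hg hΔ).trans (hσ _)

lemma Dif_Nm {b : Qbˣ} (hb : b ∈ fixU Δ) : h.Dif (h.Nm b) = 1 := by
  rw [Dif_apply, h.smul_Nm hb, div_self']

lemma Nm_Dif {b : Qbˣ} (hb : b ∈ fixU Δ) : h.Nm (h.Dif b) = 1 := by
  rw [Dif_apply, map_div, div_eq_one, Nm_apply, Nm_apply]
  have h1 := h.smul_Nm hb
  rw [Nm_apply, Finset.smul_prod'] at h1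
  refine (Finset.prod_congr rfl fun i _ => ?_).trans h1
  rw [← mul_smul, ← mul_smul, ← pow_succ, ← pow_succ']

lemma Nm_of_fixed {a : Qbˣ} (ha : a ∈ fixU Γ) : h.Nm a = a ^ n := by
  rw [Nm_apply, Finset.prod_congr rfl fun i _ => ha _ (h.pow_mem i), Finset.prod_const,
    Finset.card_range]

/-- Hilbert 90 for the cyclic quotient. -/
theorem exists_Dif_eq {y : Qbˣ} (hy : y ∈ fixU Δ) (hN : h.Nm y = 1) :
    ∃ c ∈ fixU Δ, y = h.Dif c := by
  let W : ℕ → Qbˣ := fun i => ∏ k ∈ Finset.range i, σ ^ k • y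
  have hWfix : ∀ i, W i ∈ fixU Δ := fun i =>
    Subgroup.prod_mem _ fun k _ => h.smul_mem_fixU (h.pow_mem k) hy
  have hWadd : ∀ i k, W (i + k) = W i * σ ^ i • W k := fun i k => by
    simp only [W, Finset.prod_range_add, Finset.smul_prod', ← mul_smul, ← pow_add]
  have hWmod : ∀ m, W (m % n) = W m := by
    intro m
    induction m using Nat.strong_induction_on with
    | _ m ih =>
      rcases Nat.lt_or_ge m n with hm | hm
      · rw [Nat.mod_eq_of_lt hm]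
      · obtain ⟨k, rfl⟩ := Nat.exists_eq_add_of_le hm
        have hk : W n = 1 := hN
        rw [Nat.add_mod_left, ih k (by have := h.pos; omega), hWadd, hk, one_mul,
          hWfix k _ ((h.pow_mem_iff n).mpr dvd_rfl)]
  obtain ⟨c, hc⟩ := hilbert90 (h.cts₁_comp W) fun g hg g' hg' => by
    rw [h.idx_mul hg hg', hWmod, h.smul_eq_pow_smul hg (hWfix _), mul_comm, hWadd]
  refine ⟨c, fun s hs => ?_, ?_⟩
  · have := hc s (h.le hs)
    simp only [h.idx_of_mem hs] at this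
    exact (div_eq_one.mp (this.symm.trans (by simp [W])))
  · have h1 := hc σ h.mem
    rw [show h.idx σ = 1 % n by simpa using h.idx_pow 1, hWmod] at h1
    rw [h.Dif_apply, ← h1]
    simp only [W, Finset.prod_range_one, pow_zero, one_smul]

/-- The powers of `σ` as representatives. -/
lemma repSystem : RepSystem Γ Δ (fun i : Fin n => σ ^ (i : ℕ)) where
  isOpen := h.isOpen
  conj := h.conj
  mem i := h.pow_mem i
  cover g hg := ⟨⟨h.idx g, h.idx_lt g⟩, h.idx_spec hg⟩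
  inj i k hik := Fin.ext (by
    have := h.mod_eq_of_mem hik
    rwa [Nat.mod_eq_of_lt i.2, Nat.mod_eq_of_lt k.2] at this)

end CyclicOver

namespace RepSystem

variable {ι : Type} [Fintype ι] [DecidableEq ι] {Γ Δ : Subgroup GQ} {r : ι → GQ}
  (R : RepSystem Γ Δ r) {θ : Qb}
include R

/-- Coordinates are unique. -/
lemma coord_unique (hdet : (Matrix.of fun i k => r i (r k θ)).det ≠ 0) {c : ι → Qb}
    (hc : ∀ k, c k ∈ fixF Γ) {x : Qb} (hx : x = ∑ k, c k * r k θ) : RepSystem.coord r θ x = c := by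
  have key : (Matrix.of fun i k => r i (r k θ)).mulVec c = fun i => r i x := funext fun i => by
    rw [hx, map_sum]
    simp only [Matrix.mulVec, dotProduct, Matrix.of_apply, map_mul,
      mem_fixF.mp (hc _) _ (R.mem i), mul_comm]
  rw [RepSystem.coord, ← key, Matrix.mulVec_mulVec, Matrix.nonsing_inv_mul _ (Ne.isUnit hdet),
    Matrix.one_mulVec]

end RepSystem

/-- A normal basis lattice, small enough to be closed under multiplication. -/
structure NBLattice (j : Qb →+* PadicAlgCl q) {n : ℕ} (Γ Δ : Subgroup GQ) (σ : GQ) where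
  θ : Qb
  mem : θ ∈ fixF Δ
  det : (Matrix.of fun i k : Fin n => (σ ^ (i : ℕ)) ((σ ^ (k : ℕ)) θ)).det ≠ 0
  π : Qb
  π_mem : π ∈ fixF Γ
  π_pos : 0 < ‖j π‖
  π_lt : ‖j π‖ < 1
  C : ℝ
  C_pos : 0 < C
  bound : ∀ x ∈ fixF Δ, ∀ k : Fin n, ‖j (RepSystem.coord (fun i : Fin n => σ ^ (i : ℕ)) θ x k)‖ ≤ C * ‖j x‖
  θ_lt : ‖j θ‖ < 1
  small : C * ‖j θ‖ ^ 2 ≤ ‖j π‖

variable {j : Qb →+* PadicAlgCl q}

theorem exists_nbLattice {Γ Δ : Subgroup GQ} {σ : GQ} {n : ℕ} (hΓ : LocalAt j Γ)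
    (h : CyclicOver Γ Δ σ n) {π : Qb} (hπ : π ∈ fixF Γ) (hπ0 : 0 < ‖j π‖) (hπ1 : ‖j π‖ < 1) :
    ∃ Λ : NBLattice (n := n) j Γ Δ σ, Λ.π = π := by
  classical
  have R := h.repSystem
  set r := fun i : Fin n => σ ^ (i : ℕ) with hr
  obtain ⟨θ, hθ, hdet⟩ := R.exists_det_ne_zero
  set Minv := (Matrix.of fun i k => r i (r k θ))⁻¹ with hMinv
  obtain ⟨C, hC1, hC⟩ : ∃ C : ℝ, 1 ≤ C ∧ ∀ i k, ‖j (Minv i k)‖ ≤ C := by
    refine ⟨1 + ∑ i, ∑ k, ‖j (Minv i k)‖,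
      le_add_of_nonneg_right (Finset.sum_nonneg fun i _ => Finset.sum_nonneg fun k _ =>
        norm_nonneg _), fun i k => ?_⟩
    refine le_add_of_nonneg_of_le zero_le_one ?_
    refine le_trans ?_ (Finset.single_le_sum (f := fun i => ∑ k, ‖j (Minv i k)‖)
      (fun i _ => Finset.sum_nonneg fun k _ => norm_nonneg _) (Finset.mem_univ i))
    exact Finset.single_le_sum (f := fun k => ‖j (Minv i k)‖) (fun k _ => norm_nonneg _)
      (Finset.mem_univ k)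
  have hC0 : (0 : ℝ) < C := lt_of_lt_of_le one_pos hC1
  obtain ⟨m, hm⟩ := exists_pow_lt_of_lt_one (show 0 < min 1 (‖j π‖ / (C * (1 + ‖j θ‖) ^ 2)) from
    lt_min one_pos (div_pos hπ0 (mul_pos hC0 (pow_pos (by positivity) 2)))) hπ1
  have hπm : π ^ m ∈ fixF Γ := pow_mem hπ m
  have hπne : π ^ m ≠ 0 := pow_ne_zero _ fun h0 => by simp [h0] at hπ0
  have hfix : ∀ i : Fin n, r i (π ^ m) = π ^ m := fun i => mem_fixF.mp hπm _ (R.mem i)
  have hdet' : (Matrix.of fun i k => r i (r k (π ^ m * θ))).det ≠ 0 := by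
    have : (Matrix.of fun i k => r i (r k (π ^ m * θ))) =
        π ^ m • (Matrix.of fun i k => r i (r k θ)) := by
      ext i k
      simp only [Matrix.of_apply, Matrix.smul_apply, smul_eq_mul, map_mul, hfix]
    rw [this, Matrix.det_smul]
    exact mul_ne_zero (pow_ne_zero _ hπne) hdet
  have hθm : π ^ m * θ ∈ fixF Δ := mul_mem (fixF_anti h.le hπm) hθ
  have hcoord : ∀ x ∈ fixF Δ, ∀ k, RepSystem.coord r (π ^ m * θ) x k = RepSystem.coord r θ x k / π ^ m := by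
    intro x hx k
    refine congrFun (R.coord_unique hdet' (c := fun k => RepSystem.coord r θ x k / π ^ m)
      (fun k => div_mem ((R.coord_spec hdet hθ hx).2 k) hπm) ?_) k
    conv_lhs => rw [(R.coord_spec hdet hθ hx).1]
    refine Finset.sum_congr rfl fun k _ => ?_
    rw [map_mul, hfix]
    field_simp
  have hpow : ‖j (π ^ m)‖ = ‖j π‖ ^ m := by rw [map_pow, norm_pow]
  have hm1 : ‖j π‖ ^ m < ‖j π‖ / (C * (1 + ‖j θ‖) ^ 2) := hm.trans_le (min_le_right _ _)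
  have hpos : 0 < ‖j π‖ ^ m := pow_pos hπ0 m
  have hm2 : ‖j π‖ ^ m * (C * (1 + ‖j θ‖) ^ 2) < ‖j π‖ :=
    (lt_div_iff₀ (mul_pos hC0 (pow_pos (by positivity) 2))).mp hm1
  refine ⟨⟨π ^ m * θ, hθm, hdet', π, hπ, hπ0, hπ1, C / ‖j π‖ ^ m, div_pos hC0 hpos,
    fun x hx k => ?_, ?_, ?_⟩, rfl⟩
  · rw [hcoord x hx k, map_div₀, norm_div, hpow, div_mul_eq_mul_div]
    refine div_le_div_of_nonneg_right ?_ hpos.le
    simp only [RepSystem.coord, Matrix.mulVec, dotProduct]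
    refine norm_map_sum_le _ _ (by positivity) fun i _ => ?_
    rw [map_mul, norm_mul, hΓ.inv _ (R.mem i)]
    exact mul_le_mul_of_nonneg_right (hC k i) (norm_nonneg _)
  · rw [map_mul, norm_mul, hpow]
    have hb : ‖j θ‖ ≤ C * (1 + ‖j θ‖) ^ 2 := by
      nlinarith [norm_nonneg (j θ), sq_nonneg ‖j θ‖,
        le_mul_of_one_le_left (sq_nonneg (1 + ‖j θ‖)) hC1]
    exact (mul_le_mul_of_nonneg_left hb hpos.le).trans_lt (hm2.trans hπ1)
  · rw [map_mul, norm_mul, hpow, mul_pow]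
    have e : C / ‖j π‖ ^ m * ((‖j π‖ ^ m) ^ 2 * ‖j θ‖ ^ 2) = ‖j π‖ ^ m * (C * ‖j θ‖ ^ 2) := by
      field_simp
    rw [e]
    refine le_trans (mul_le_mul_of_nonneg_left (mul_le_mul_of_nonneg_left ?_ hC0.le) hpos.le) hm2.le
    exact pow_le_pow_left₀ (norm_nonneg _) (by linarith [norm_nonneg (j θ)]) 2

namespace NBLattice

variable {Γ Δ : Subgroup GQ} {σ : GQ} {n : ℕ} (Λ : NBLattice (n := n) j Γ Δ σ)
  (h : CyclicOver Γ Δ σ n) (hΓ : LocalAt j Γ)

/-- The coordinates in the lattice basis. -/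
abbrev co (x : Qb) : Fin n → Qb := RepSystem.coord (fun i : Fin n => σ ^ (i : ℕ)) Λ.θ x

/-- The elements with coordinates of size at most `s`. -/
def V (s : ℝ) (x : Qb) : Prop := x ∈ fixF Δ ∧ ∀ k, ‖j (Λ.co x k)‖ ≤ s

lemma V_add {s : ℝ} {x y : Qb} (hx : Λ.V s x) (hy : Λ.V s y) : Λ.V s (x + y) := by
  refine ⟨add_mem hx.1 hy.1, fun k => ?_⟩
  have e : Λ.co (x + y) k = Λ.co x k + Λ.co y k := by
    have : (fun i : Fin n => (σ ^ (i : ℕ)) (x + y)) =
        (fun i : Fin n => (σ ^ (i : ℕ)) x) + fun i : Fin n => (σ ^ (i : ℕ)) y :=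
      funext fun i => map_add _ x y
    simp only [co, RepSystem.coord, this, Matrix.mulVec_add, Pi.add_apply]
  rw [e]
  exact (norm_map_add_le _ _).trans (max_le (hx.2 k) (hy.2 k))

lemma V_neg {s : ℝ} {x : Qb} (hx : Λ.V s x) : Λ.V s (-x) := by
  refine ⟨neg_mem hx.1, fun k => ?_⟩
  have e : Λ.co (-x) k = -Λ.co x k := by
    have : (fun i : Fin n => (σ ^ (i : ℕ)) (-x)) = -fun i : Fin n => (σ ^ (i : ℕ)) x :=
      funext fun i => map_neg _ x
    simp only [co, RepSystem.coord, this, Matrix.mulVec_neg, Pi.neg_apply]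
  rw [e, map_neg, norm_neg]
  exact hx.2 k

lemma V_of_norm_le {s : ℝ} {x : Qb} (hx : x ∈ fixF Δ) (hle : ‖j x‖ ≤ s / Λ.C) : Λ.V s x :=
  ⟨hx, fun k => (Λ.bound x hx k).trans (by
    have := (le_div_iff₀ Λ.C_pos).mp hle
    linarith)⟩

lemma V_zero {s : ℝ} (hs : 0 ≤ s) : Λ.V s 0 :=
  Λ.V_of_norm_le (zero_mem _) (by rw [map_zero, norm_zero]; exact div_nonneg hs Λ.C_pos.le)

include h hΓ

lemma norm_le_of_V {s : ℝ} (hs : 0 ≤ s) {x : Qb} (hx : Λ.V s x) : ‖j x‖ ≤ s * ‖j Λ.θ‖ := by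
  rw [(h.repSystem.coord_spec Λ.det Λ.mem hx.1).1]
  refine norm_map_sum_le _ _ (mul_nonneg hs (norm_nonneg _)) fun k _ => ?_
  rw [map_mul, norm_mul, hΓ.inv _ (h.pow_mem k)]
  exact mul_le_mul_of_nonneg_right (hx.2 k) (norm_nonneg _)

lemma norm_lt_one_of_V {s : ℝ} (hs : 0 ≤ s) (hs1 : s ≤ 1) {x : Qb} (hx : Λ.V s x) :
    ‖j x‖ < 1 :=
  (Λ.norm_le_of_V h hΓ hs hx).trans_lt
    ((mul_le_of_le_one_left (norm_nonneg _) hs1).trans_lt Λ.θ_lt)

lemma V_mul {s t : ℝ} (hs : 0 ≤ s) (ht : 0 ≤ t) {x y : Qb} (hx : Λ.V s x) (hy : Λ.V t y) :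
    Λ.V (s * t * ‖j Λ.π‖) (x * y) := by
  refine ⟨mul_mem hx.1 hy.1, fun k => (Λ.bound _ (mul_mem hx.1 hy.1) k).trans ?_⟩
  rw [map_mul, norm_mul]
  calc Λ.C * (‖j x‖ * ‖j y‖) ≤ Λ.C * ((s * ‖j Λ.θ‖) * (t * ‖j Λ.θ‖)) :=
        mul_le_mul_of_nonneg_left (mul_le_mul (Λ.norm_le_of_V h hΓ hs hx)
          (Λ.norm_le_of_V h hΓ ht hy) (norm_nonneg _) (by positivity)) Λ.C_pos.le
    _ = s * t * (Λ.C * ‖j Λ.θ‖ ^ 2) := by ring
    _ ≤ s * t * ‖j Λ.π‖ := mul_le_mul_of_nonneg_left Λ.small (mul_nonneg hs ht)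

omit hΓ in
lemma V_smul {s : ℝ} {g : GQ} (hg : g ∈ Γ) {x : Qb} (hx : Λ.V s x) : Λ.V s (g x) := by
  have R := h.repSystem
  obtain ⟨heq, hc⟩ := R.coord_spec Λ.det Λ.mem hx.1
  obtain ⟨π, hπ⟩ := R.exists_perm hg
  refine ⟨R.smul_fix hg hx.1, fun k => ?_⟩
  have e : Λ.co (g x) = fun k => Λ.co x (π.symm k) := by
    refine R.coord_unique Λ.det (fun k => hc _) ?_
    conv_lhs => rw [heq, map_sum]
    refine Fintype.sum_equiv π _ _ fun i => ?_
    rw [map_mul, mem_fixF.mp (hc i) g hg, Equiv.symm_apply_apply, ← AlgEquiv.mul_apply,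
      R.apply_eq (hπ i) Λ.mem]
  rw [e]
  exact hx.2 _

/-- The congruence units. -/
def W {s : ℝ} (hs : 0 ≤ s) (hs1 : s ≤ 1) : Subgroup Qbˣ where
  carrier := {u | Λ.V s ((u : Qb) - 1)}
  one_mem' := by
    show Λ.V s _
    rw [Units.val_one, sub_self]
    exact Λ.V_zero hs
  mul_mem' {u v} hu hv := by
    show Λ.V s _
    rw [Units.val_mul, show (u : Qb) * v - 1 = ((u : Qb) - 1) * ((v : Qb) - 1) +
      (((u : Qb) - 1) + ((v : Qb) - 1)) by ring]
    refine Λ.V_add ?_ (Λ.V_add hu hv)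
    obtain ⟨h1, h2⟩ := Λ.V_mul h hΓ hs hs hu hv
    refine ⟨h1, fun k => (h2 k).trans ?_⟩
    nlinarith [Λ.π_lt, Λ.π_pos, mul_nonneg hs hs]
  inv_mem' {u} hu := by
    show Λ.V s _
    replace hu : Λ.V s ((u : Qb) - 1) := hu
    set y := (u : Qb) - 1 with hy
    have hfy : (u : Qb) ∈ fixF Δ := by
      have := add_mem hu.1 (one_mem (fixF Δ))
      rwa [hy, sub_add_cancel] at this
    have hylt : ‖j y‖ < 1 := Λ.norm_lt_one_of_V h hΓ hs hs1 hu
    have hu1 : ‖j (u : Qb)‖ = 1 := by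
      rw [show (u : Qb) = y + 1 by rw [hy]; ring, map_add, map_one,
        IsUltrametricDist.norm_add_eq_max_of_norm_ne_norm (by rw [norm_one]; exact hylt.ne),
        norm_one, max_eq_right hylt.le]
    rw [Units.val_inv_eq_inv_val, show (u : Qb)⁻¹ - 1 = -y + y * y * (u : Qb)⁻¹ by
      rw [hy]; field_simp; ring]
    refine Λ.V_add (Λ.V_neg hu) ⟨mul_mem (mul_mem hu.1 hu.1) (inv_mem hfy), fun k => ?_⟩
    refine (Λ.bound _ (mul_mem (mul_mem hu.1 hu.1) (inv_mem hfy)) k).trans ?_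
    rw [map_mul, map_mul, norm_mul, norm_mul, map_inv₀, norm_inv, hu1, inv_one, mul_one]
    have h1 := Λ.norm_le_of_V h hΓ hs hu
    have h2 : Λ.C * (‖j y‖ * ‖j y‖) ≤ Λ.C * ((s * ‖j Λ.θ‖) * (s * ‖j Λ.θ‖)) :=
      mul_le_mul_of_nonneg_left (mul_le_mul h1 h1 (norm_nonneg _) (by positivity)) Λ.C_pos.le
    refine h2.trans ?_
    rw [show Λ.C * ((s * ‖j Λ.θ‖) * (s * ‖j Λ.θ‖)) = s * s * (Λ.C * ‖j Λ.θ‖ ^ 2) by ring]
    calc s * s * (Λ.C * ‖j Λ.θ‖ ^ 2) ≤ s * s * ‖j Λ.π‖ :=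
          mul_le_mul_of_nonneg_left Λ.small (mul_nonneg hs hs)
      _ ≤ s * 1 * 1 := by gcongr; exact Λ.π_lt.le
      _ = s := by ring

lemma mem_W {s : ℝ} {hs : 0 ≤ s} {hs1 : s ≤ 1} {u : Qbˣ} :
    u ∈ Λ.W h hΓ hs hs1 ↔ Λ.V s ((u : Qb) - 1) := Iff.rfl

lemma W_le_units : Λ.W h hΓ zero_le_one le_rfl ≤ unitsAt j Δ := fun u hu => by
  have hfy : (u : Qb) ∈ fixF Δ := by
    have := add_mem hu.1 (one_mem (fixF Δ))
    rwa [sub_add_cancel] at this
  have hylt := Λ.norm_lt_one_of_V h hΓ zero_le_one le_rfl hu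
  refine ⟨mem_fixU.mpr hfy, ?_⟩
  rw [show (u : Qb) = ((u : Qb) - 1) + 1 by ring, map_add, map_one,
    IsUltrametricDist.norm_add_eq_max_of_norm_ne_norm (by rw [norm_one]; exact hylt.ne),
    norm_one, max_eq_right hylt.le]

lemma W_smul {s : ℝ} {hs : 0 ≤ s} {hs1 : s ≤ 1} {g : GQ} (hg : g ∈ Γ) {u : Qbˣ}
    (hu : u ∈ Λ.W h hΓ hs hs1) : g • u ∈ Λ.W h hΓ hs hs1 := by
  rw [mem_W, units_smul_coe, show g (u : Qb) - 1 = g ((u : Qb) - 1) by rw [map_sub, map_one]]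
  exact Λ.V_smul h hg hu

/-- An invariant congruence unit is a norm of a congruence unit up to a better one. -/
lemma exists_step {s : ℝ} (hs : 0 ≤ s) (hs1 : s ≤ 1) {u : Qbˣ} (hu : u ∈ fixU Γ)
    (huW : u ∈ Λ.W h hΓ hs hs1) :
    ∃ z ∈ Λ.W h hΓ hs hs1, u / h.Nm z ∈ Λ.W h hΓ (mul_nonneg hs Λ.π_pos.le)
      ((mul_le_of_le_one_left Λ.π_pos.le hs1).trans Λ.π_lt.le) := by
  classical
  have R := h.repSystem
  set y := (u : Qb) - 1 with hy
  have hyΓ : y ∈ fixF Γ := sub_mem (mem_fixU.mp hu) (one_mem _)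
  replace huW : Λ.V s y := huW
  obtain ⟨heq, hc⟩ := R.coord_spec Λ.det Λ.mem huW.1
  let i₀ : Fin n := ⟨0, h.pos⟩
  set c := Λ.co y i₀ with hcdef
  -- all coordinates agree
  have hall : ∀ k, Λ.co y k = c := by
    intro k
    obtain ⟨π, hπ⟩ := R.exists_perm (h.pow_mem (k : ℕ))
    have hπ0 : π i₀ = k := R.inj _ _ (by
      have := hπ i₀
      simpa [i₀] using this)
    have e : Λ.co y = fun m => Λ.co y (π.symm m) := by
      refine R.coord_unique Λ.det (fun m => hc _) ?_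
      conv_lhs => rw [← mem_fixF.mp hyΓ _ (h.pow_mem (k : ℕ)), heq, map_sum]
      refine Fintype.sum_equiv π _ _ fun i => ?_
      rw [map_mul, mem_fixF.mp (hc i) _ (h.pow_mem _), Equiv.symm_apply_apply,
        ← AlgEquiv.mul_apply, R.apply_eq (hπ i) Λ.mem]
    rw [congrFun e k, ← hπ0, Equiv.symm_apply_apply]
  set w := c * Λ.θ with hw
  have hwV : Λ.V s w := by
    have hwΔ : w ∈ fixF Δ := mul_mem (fixF_anti h.le (hc i₀)) Λ.mem
    refine ⟨hwΔ, fun k => ?_⟩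
    have e : Λ.co w = fun k => if k = i₀ then c else 0 := by
      refine R.coord_unique Λ.det (fun k => ?_) ?_
      · split_ifs
        · exact hc i₀
        · exact zero_mem _
      · simp only [ite_mul, zero_mul]
        rw [Finset.sum_ite_eq' Finset.univ i₀, if_pos (Finset.mem_univ _), hw]
        simp [i₀]
    simp only [e]
    split_ifs
    · exact huW.2 _
    · rw [map_zero, norm_zero]; exact hs
  have hz0 : (1 + w : Qb) ≠ 0 := fun h0 => by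
    have := Λ.norm_lt_one_of_V h hΓ hs hs1 hwV
    rw [show w = -1 by linear_combination h0, map_neg, map_one, norm_neg, norm_one] at this
    exact lt_irrefl _ this
  set z := Units.mk0 (1 + w) hz0 with hz
  have hzW : z ∈ Λ.W h hΓ hs hs1 := by
    rw [mem_W, hz, Units.val_mk0, add_sub_cancel_left]
    exact hwV
  refine ⟨z, hzW, ?_⟩
  set s' := s * ‖j Λ.π‖ with hs'
  have hs'0 : 0 ≤ s' := mul_nonneg hs Λ.π_pos.le
  have hs's : s' ≤ s := mul_le_of_le_one_right hs Λ.π_lt.le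
  have hmono : ∀ {t t' : ℝ}, t ≤ t' → ∀ {x}, Λ.V t x → Λ.V t' x := fun ht _ hx =>
    ⟨hx.1, fun k => (hx.2 k).trans ht⟩
  have hexp : ∀ T : Finset ℕ, Λ.V s (∏ i ∈ T, (1 + (σ ^ i) w) - 1) ∧
      Λ.V s' (∏ i ∈ T, (1 + (σ ^ i) w) - 1 - ∑ i ∈ T, (σ ^ i) w) := by
    intro T
    induction T using Finset.induction_on with
    | empty => simp [Λ.V_zero hs, Λ.V_zero hs'0]
    | insert a T ha ih =>
      have hva : Λ.V s ((σ ^ a) w) := Λ.V_smul h (h.pow_mem a) hwV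
      rw [Finset.prod_insert ha, Finset.sum_insert ha]
      set P := ∏ i ∈ T, (1 + (σ ^ i) w)
      set S := ∑ i ∈ T, (σ ^ i) w
      have hss : s * s * ‖j Λ.π‖ ≤ s' :=
        mul_le_mul_of_nonneg_right (mul_le_of_le_one_left hs hs1) Λ.π_pos.le
      have hm : Λ.V s' ((σ ^ a) w * (P - 1)) := hmono hss (Λ.V_mul h hΓ hs hs hva ih.1)
      constructor
      · rw [show (1 + (σ ^ a) w) * P - 1 = (σ ^ a) w * (P - 1) + ((σ ^ a) w + (P - 1)) by ring]
        exact Λ.V_add (hmono hs's hm) (Λ.V_add hva ih.1)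
      · rw [show (1 + (σ ^ a) w) * P - 1 - ((σ ^ a) w + S) =
          (σ ^ a) w * (P - 1) + (P - 1 - S) by ring]
        exact Λ.V_add hm ih.2
  have hNval : ((h.Nm z : Qbˣ) : Qb) = ∏ i ∈ Finset.range n, (1 + (σ ^ i) w) := by
    rw [h.Nm_apply, Units.coe_prod]
    refine Finset.prod_congr rfl fun i _ => ?_
    rw [units_smul_coe, hz, Units.val_mk0, map_add, map_one]
  have hsum : ∑ i ∈ Finset.range n, (σ ^ i) w = y := by
    rw [← Fin.sum_univ_eq_sum_range (fun i => (σ ^ i) w)]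
    conv_rhs => rw [heq]
    refine Finset.sum_congr rfl fun k _ => ?_
    rw [hw, map_mul, mem_fixF.mp (hc i₀) _ (h.pow_mem _)]
    congr 1
    exact (hall k).symm
  have hdiff : Λ.V s' ((u : Qb) - ((h.Nm z : Qbˣ) : Qb)) := by
    have := Λ.V_neg (hexp (Finset.range n)).2
    rw [hsum, ← hNval] at this
    rwa [show (u : Qb) - ((h.Nm z : Qbˣ) : Qb) =
      -(((h.Nm z : Qbˣ) : Qb) - 1 - y) by rw [hy]; ring]
  have hNW : h.Nm z ∈ Λ.W h hΓ hs hs1 :=
    Subgroup.prod_mem _ fun i _ => Λ.W_smul h hΓ (h.pow_mem i) hzW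
  rw [mem_W, Units.val_div_eq_div_val, div_sub_one (Units.ne_zero _), div_eq_mul_inv,
    show ((u : Qb) - (h.Nm z : Qb)) * ((h.Nm z : Qbˣ) : Qb)⁻¹ =
      ((u : Qb) - (h.Nm z : Qb)) * ((((h.Nm z)⁻¹ : Qbˣ) : Qb) - 1) +
        ((u : Qb) - (h.Nm z : Qb)) by rw [Units.val_inv_eq_inv_val]; ring]
  refine Λ.V_add (hmono ?_ (Λ.V_mul h hΓ hs'0 hs hdiff (inv_mem hNW))) hdiff
  calc s' * s * ‖j Λ.π‖ ≤ s' * 1 * 1 := by gcongr; exact Λ.π_lt.le
    _ = s' := by ring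

/-- Invariant congruence units are norms of congruence units. -/
theorem exists_Nm_eq {u : Qbˣ} (hu : u ∈ fixU Γ) (huW : u ∈ Λ.W h hΓ zero_le_one le_rfl) :
    ∃ z ∈ Λ.W h hΓ zero_le_one le_rfl, h.Nm z = u := by
  set W₁ := Λ.W h hΓ zero_le_one le_rfl with hW₁
  set ε := ‖j Λ.π‖ with hε
  have hk : ∀ k : ℕ, ∃ z ∈ W₁, Λ.V (ε ^ k) (((u / h.Nm z : Qbˣ) : Qb) - 1) := by
    intro k
    induction k with
    | zero => exact ⟨1, one_mem _, by rw [map_one, div_one, pow_zero]; exact huW⟩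
    | succ k ih =>
      obtain ⟨z, hz, hzV⟩ := ih
      have hk1 : ε ^ k ≤ 1 := pow_le_one₀ (norm_nonneg _) Λ.π_lt.le
      have hk0 : 0 ≤ ε ^ k := pow_nonneg (norm_nonneg _) k
      obtain ⟨z', hz', hz'V⟩ := Λ.exists_step h hΓ hk0 hk1
        (div_mem hu (h.Nm_mem (mem_fixU.mpr (by
          have := add_mem hz.1 (one_mem (fixF Δ))
          rwa [sub_add_cancel] at this)))) (by rw [mem_W]; exact hzV)
      have hz'1 : z' ∈ W₁ := ⟨hz'.1, fun i => (hz'.2 i).trans hk1⟩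
      refine ⟨z * z', mul_mem hz hz'1, ?_⟩
      rw [map_mul, ← div_div, pow_succ]
      exact hz'V
  obtain ⟨ρ, hρ0, hρ1, hρ⟩ := exists_radius (j := j) h.pos
  set ρ' := min ρ (1 / Λ.C) with hρ'
  have hρ'0 : 0 < ρ' := lt_min hρ0 (one_div_pos.mpr Λ.C_pos)
  obtain ⟨k, hk'⟩ := exists_pow_lt_of_lt_one (pow_pos hρ'0 n) Λ.π_lt
  obtain ⟨z, hz, hzV⟩ := hk k
  have hzΔ : z ∈ fixU Δ := (Λ.W_le_units h hΓ hz).1
  have hclose : ‖j (((u / h.Nm z : Qbˣ) : Qb) - 1)‖ < ρ' ^ n := by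
    refine lt_of_le_of_lt ?_ hk'
    refine (Λ.norm_le_of_V h hΓ (pow_nonneg (norm_nonneg _) k) hzV).trans ?_
    exact mul_le_of_le_one_right (pow_nonneg (norm_nonneg _) k) Λ.θ_lt.le
  obtain ⟨w, hw, hwn, hwle⟩ := hΓ.exists_root (j := j) h.pos ((min_le_left _ _).trans hρ1)
    (fun ζ h1 h2 => (min_le_left _ _).trans (hρ ζ h1 h2))
    (mem_fixU.mp (div_mem hu (h.Nm_mem hzΔ))) (Units.ne_zero _) hρ'0.le hclose
  have hw0 : w ≠ 0 := fun h0 => Units.ne_zero (u / h.Nm z) (by rw [← hwn, h0, zero_pow h.pos.ne'])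
  have hwlt : ‖j (w - 1)‖ < ρ' :=
    lt_of_pow_lt_pow_left₀ n hρ'0.le (hwle.trans_lt hclose)
  have hwW : Units.mk0 w hw0 ∈ W₁ :=
    Λ.V_of_norm_le (sub_mem (fixF_anti h.le hw) (one_mem _))
      (hwlt.le.trans (min_le_right _ _))
  refine ⟨z * Units.mk0 w hw0, mul_mem hz hwW, ?_⟩
  rw [map_mul, h.Nm_of_fixed ((mem_fixU (x := Units.mk0 w hw0)).mpr hw),
    show Units.mk0 w hw0 ^ n = u / h.Nm z from Units.ext (by simpa using hwn), mul_div_cancel]

end NBLattice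

/-- The norm index of the units is at most the ramification index. -/
theorem relIndex_units_le {Γ Δ : Subgroup GQ} {σ : GQ} {n : ℕ} (hΓ : LocalAt j Γ)
    (h : CyclicOver Γ Δ σ n) {π π' : Qb} (hπ : π ∈ fixF Γ) (hπ0 : 0 < ‖j π‖) (hπ1 : ‖j π‖ < 1)
    (hπ' : π' ∈ fixF Δ) (hπ'gen : ∀ x ∈ fixF Δ, x ≠ 0 → ∃ k : ℤ, ‖j x‖ = ‖j π'‖ ^ k)
    {e : ℕ} (he : 0 < e) (hee : ‖j π‖ = ‖j π'‖ ^ e) :
    ((unitsAt j Δ).map h.Nm).relIndex (unitsAt j Γ) ≠ 0 ∧
      ((unitsAt j Δ).map h.Nm).relIndex (unitsAt j Γ) ≤ e := by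
  classical
  obtain ⟨Λ, -⟩ := exists_nbLattice hΓ h hπ hπ0 hπ1
  set U := unitsAt j Δ with hU
  set W := Λ.W h hΓ zero_le_one le_rfl with hW
  have hWU : W ≤ U := Λ.W_le_units h hΓ
  have hUsmul : ∀ g ∈ Γ, ∀ u ∈ U, g • u ∈ U := fun g hg u hu =>
    ⟨h.smul_mem_fixU hg hu.1, by rw [units_smul_coe, hΓ.inv g hg]; exact hu.2⟩
  have hfU : U.map h.Nm ≤ U := by
    rintro _ ⟨u, hu, rfl⟩
    exact Subgroup.prod_mem _ fun i _ => hUsmul _ (h.pow_mem i) u hu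
  have hgU : U.map h.Dif ≤ U := by
    rintro _ ⟨u, hu, rfl⟩
    exact div_mem (hUsmul σ h.mem u hu) hu
  have hfW : W.map h.Nm ≤ W := by
    rintro _ ⟨u, hu, rfl⟩
    exact Subgroup.prod_mem _ fun i _ => Λ.W_smul h hΓ (h.pow_mem i) hu
  have hgW : W.map h.Dif ≤ W := by
    rintro _ ⟨u, hu, rfl⟩
    exact div_mem (Λ.W_smul h hΓ h.mem hu) hu
  have hfin : W.relIndex U ≠ 0 := by
    obtain ⟨T, -, hcov⟩ := (hΓ.of_isOpenIn h.isOpen).exists_finite_cover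
      (one_div_pos.mpr Λ.C_pos)
    let pick : Qb → Qbˣ := fun t =>
      if ht : ∃ u ∈ U, ‖j ((u : Qb) - t)‖ < 1 / Λ.C then ht.choose else 1
    refine (relIndex_le_card_of_cover (T.image pick) ?_ fun x hx => ?_).1
    · intro t ht
      obtain ⟨t, -, rfl⟩ := Finset.mem_image.mp ht
      simp only [pick]
      split_ifs with h1
      · exact h1.choose_spec.1
      · exact one_mem _
    · obtain ⟨t, ht, hxt⟩ := hcov (x : Qb) (mem_fixU.mp hx.1) hx.2.le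
      have h1 : ∃ u ∈ U, ‖j ((u : Qb) - t)‖ < 1 / Λ.C := ⟨x, hx, hxt⟩
      refine ⟨pick t, Finset.mem_image_of_mem _ ht, ?_⟩
      simp only [pick, dif_pos h1]
      obtain ⟨hu, hut⟩ := h1.choose_spec
      set u := h1.choose
      refine Λ.V_of_norm_le (sub_mem (mem_fixU.mp (mul_mem (inv_mem hu.1) hx.1)) (one_mem _)) ?_
      rw [Units.val_mul, Units.val_inv_eq_inv_val,
        show (u : Qb)⁻¹ * (x : Qb) - 1 = (u : Qb)⁻¹ * (((x : Qb) - t) + -((u : Qb) - t)) by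
          field_simp; ring, map_mul, norm_mul, map_inv₀, norm_inv, hu.2, inv_one, one_mul]
      refine (norm_map_add_le _ _).trans (max_le hxt.le ?_)
      rw [map_neg, norm_neg]
      exact hut.le
  obtain ⟨hXY, hX0⟩ := relIndex_exchange h.Nm h.Dif hWU hfU hgU hfW hgW
    (fun u hu => h.Nm_Dif hu.1) (fun u hu => h.Dif_Nm hu.1) hfin
  -- `U_Γ / N U` injects
  have hinj : (U.map h.Nm).relIndex (unitsAt j Γ) =
      (U.map h.Nm ⊔ W).relIndex (unitsAt j Γ) := by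
    rw [← Subgroup.inf_relIndex_right (U.map h.Nm ⊔ W), ← Subgroup.inf_relIndex_right (U.map h.Nm)]
    refine congrArg (fun H : Subgroup Qbˣ => H.relIndex (unitsAt j Γ))
      (le_antisymm (inf_le_inf_right _ le_sup_left) (le_inf ?_ inf_le_right))
    rintro x ⟨hx, hxΓ⟩
    obtain ⟨a, ha, w, hw, rfl⟩ := Subgroup.mem_sup.mp hx
    obtain ⟨b, hb, rfl⟩ := ha
    have hwΓ : w ∈ fixU Γ := by
      have := mul_mem (inv_mem (h.Nm_mem hb.1)) hxΓ.1
      rwa [inv_mul_cancel_left] at this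
    obtain ⟨z, hz, hzw⟩ := Λ.exists_Nm_eq h hΓ hwΓ hw
    exact mul_mem ⟨b, hb, rfl⟩ ⟨z, hWU hz, hzw⟩
  have hle : unitsAt j Γ ≤ U ⊓ W.comap h.Dif := fun x hx =>
    ⟨⟨fixU_anti h.le hx.1, hx.2⟩, by
      show h.Dif x ∈ W
      rw [h.Dif_apply, hx.1 σ h.mem, div_self']
      exact one_mem _⟩
  -- the other side sits inside `σ x / x`
  set X := fixU Δ with hX
  have hkN : U ⊓ W.comap h.Nm ≤ X.map h.Dif ⊔ W := by
    rintro y ⟨hy, hyW⟩
    obtain ⟨z, hz, hzy⟩ := Λ.exists_Nm_eq h hΓ (h.Nm_mem hy.1) hyW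
    have hzX := (hWU hz).1
    obtain ⟨c, hc, hcy⟩ := h.exists_Dif_eq (div_mem hy.1 hzX) (by rw [map_div, hzy, div_self'])
    rw [← div_mul_cancel y z, hcy]
    exact mul_mem (Subgroup.mem_sup_left ⟨c, hc, rfl⟩) (Subgroup.mem_sup_right hz)
  have hval : (U ⊔ fixU Γ).relIndex X ≠ 0 ∧ (U ⊔ fixU Γ).relIndex X ≤ e := by
    have hp1 : 0 < ‖j π'‖ := by
      rcases eq_or_lt_of_le (norm_nonneg (j π')) with h0 | h0
      · rw [hee, ← h0, zero_pow he.ne'] at hπ0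
        exact absurd hπ0 (lt_irrefl _)
      · exact h0
    have hπ'0 : π' ≠ 0 := fun h0 => by simp [h0] at hp1
    have hπne : π ≠ 0 := fun h0 => by simp [h0] at hπ0
    obtain ⟨h1, h2⟩ := relIndex_le_card_of_cover (H := U ⊔ fixU Γ) (K := X)
      ((Finset.range e).image fun k => Units.mk0 π' hπ'0 ^ k) (by
        intro t ht
        obtain ⟨k, -, rfl⟩ := Finset.mem_image.mp ht
        exact pow_mem (mem_fixU.mpr hπ') k) (fun x hx => by
      obtain ⟨k, hk⟩ := hπ'gen (x : Qb) (mem_fixU.mp hx) (Units.ne_zero _)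
      have hm0 : 0 ≤ k % (e : ℤ) := Int.emod_nonneg _ (by omega)
      refine ⟨Units.mk0 π' hπ'0 ^ (k % (e : ℤ)).toNat, Finset.mem_image_of_mem _
        (Finset.mem_range.mpr ?_), ?_⟩
      · have := Int.emod_lt_of_pos k (show (0 : ℤ) < e by omega)
        omega
      set P := Units.mk0 π' hπ'0
      set Q := Units.mk0 π hπne
      have hxu : x / (P ^ (k % (e : ℤ)).toNat * Q ^ (k / (e : ℤ))) ∈ U := by
        refine ⟨div_mem hx (mul_mem (pow_mem (mem_fixU.mpr hπ') _)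
          (zpow_mem (fixU_anti h.le (mem_fixU.mpr hπ)) _)), ?_⟩
        simp only [Units.val_div_eq_div_val, Units.val_mul, Units.val_pow_eq_pow_val,
          Units.val_zpow_eq_zpow_val, P, Q, Units.val_mk0, map_div₀, map_mul, map_pow, map_zpow₀,
          norm_div, norm_mul, norm_pow, norm_zpow, hk, hee]
        rw [← zpow_natCast, ← zpow_natCast, ← zpow_mul, ← zpow_add₀ hp1.ne', ← zpow_sub₀ hp1.ne',
          Int.toNat_of_nonneg hm0,
          show k - (k % (e : ℤ) + (e : ℤ) * (k / (e : ℤ))) = 0 by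
            rw [Int.emod_add_mul_ediv]; ring, zpow_zero]
      have := mul_mem (Subgroup.mem_sup_left (T := fixU Γ) hxu)
        (Subgroup.mem_sup_right (S := U) (zpow_mem (mem_fixU.mpr hπ : Q ∈ fixU Γ) (k / (e : ℤ))))
      rwa [div_mul_eq_mul_div, mul_comm (P ^ _) (Q ^ _), mul_comm x, mul_div_mul_left_eq_div,
        div_eq_inv_mul] at this)
    exact ⟨h1, h2.trans (Finset.card_image_le.trans (Finset.card_range e).le)⟩
  have hY : (U.map h.Dif ⊔ W).relIndex (U ⊓ W.comap h.Nm) ≤ e := by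
    have h2 : (U ⊔ fixU Γ) ≤ (U.map h.Dif ⊔ W).comap h.Dif := by
      refine sup_le (fun u hu => Subgroup.mem_sup_left ⟨u, hu, rfl⟩) fun u hu => ?_
      rw [Subgroup.mem_comap, h.Dif_apply, hu σ h.mem, div_self']
      exact one_mem _
    have h3 := Subgroup.relIndex_le_of_le_left (L := X) h2 hval.1
    have h4 : (U.map h.Dif ⊔ W).relIndex (X.map h.Dif ⊔ W) =
        ((U.map h.Dif ⊔ W).comap h.Dif).relIndex X := by
      rw [Subgroup.relIndex_comap, ← Subgroup.relIndex_sup_right (X.map h.Dif)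
        (U.map h.Dif ⊔ W)]
      congr 1
      rw [sup_comm (X.map h.Dif) (U.map h.Dif ⊔ W), sup_comm (U.map h.Dif) W, sup_assoc,
        sup_of_le_right (Subgroup.map_mono (f := h.Dif) (fun u hu => hu.1 : U ≤ X)), sup_comm]
    have hX0' : ((U.map h.Dif ⊔ W).comap h.Dif).relIndex X ≠ 0 :=
      fun h0 => hval.1 (Subgroup.relIndex_eq_zero_of_le_left h2 h0)
    calc (U.map h.Dif ⊔ W).relIndex (U ⊓ W.comap h.Nm)
        ≤ (U.map h.Dif ⊔ W).relIndex (X.map h.Dif ⊔ W) :=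
          Subgroup.relIndex_le_of_le_right hkN (h4 ▸ hX0')
      _ = _ := h4
      _ ≤ (U ⊔ fixU Γ).relIndex X := h3
      _ ≤ e := hval.2
  rw [hinj]
  refine ⟨fun h0 => hX0 (Subgroup.relIndex_eq_zero_of_le_right hle h0), ?_⟩
  exact ((Subgroup.relIndex_le_of_le_right hle hX0).trans hXY.le).trans hY

end Fermat.Agent.CFT.Brauer
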