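import Fermat.Agent.CFT.Brauer.LocalNorms
import Mathlib.FieldTheory.Finite.Basic
import Mathlib.Dynamics.PeriodicPts.Lemmas
import Mathlib.Algebra.CharP.Frobenius

/-!
Residue fields and unramified extensions of algebraic henselian local fields.
-/

set_option autoImplicit false
set_option backward.isDefEq.respectTransparency false

noncomputable section

namespace Fermat.Agent.CFT.Brauer

/-! ### Cyclic quotients -/

namespace CyclicOver

variable {Γ Δ : Subgroup GQ} {σ : GQ} {n : ℕ} (h : CyclicOver Γ Δ σ n)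
include h

lemma relIndex_eq : Δ.relIndex Γ = n := by
  let φ : Fin n → Γ ⧸ Δ.subgroupOf Γ := fun i =>
    ((⟨σ ^ (i : ℕ), h.pow_mem i⟩ : Γ) : Γ ⧸ Δ.subgroupOf Γ)
  have hbij : Function.Bijective φ := by
    refine ⟨fun i k hik => h.repSystem.inj i k (by simpa [φ, QuotientGroup.eq] using! hik),
      fun c => ?_⟩
    obtain ⟨i, hi⟩ := h.repSystem.cover _ c.out.2
    refine ⟨i, ?_⟩
    conv_rhs => rw [← QuotientGroup.out_eq' c]
    exact QuotientGroup.eq.mpr hi
  exact ((Nat.card_congr (Equiv.ofBijective φ hbij)).symm.trans (Nat.card_fin n))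

lemma mem_of_idx_eq_zero {g : GQ} (hg : g ∈ Γ) (h0 : h.idx g = 0) : g ∈ Δ := by
  simpa [h0] using h.idx_spec hg

lemma idx_npow {g : GQ} (hg : g ∈ Γ) (k : ℕ) : h.idx (g ^ k) = k * h.idx g % n := by
  induction k with
  | zero => simp [h.idx_of_mem (one_mem Δ)]
  | succ k ih => rw [pow_succ, h.idx_mul (_root_.pow_mem hg k) hg, ih, Nat.mod_add_mod, add_one_mul]

/-- Restricting a cyclic quotient to a subgroup. -/
theorem exists_inf {H : Subgroup GQ} (hH : H ≤ Γ) :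
    ∃ (d : ℕ) (τ : GQ), d ∣ n ∧ ∃ h' : CyclicOver H (H ⊓ Δ) τ (n / d),
      (∀ g ∈ H, h.idx g = d * h'.idx g) ∧
        ∀ a : Qbˣ, ∀ g ∈ H, ∀ g' ∈ H, h.fa a g g' = h'.fa a g g' := by
  classical
  have hex : ∃ i, 0 < i ∧ ∃ g ∈ H, h.idx g = i % n :=
    ⟨n, h.pos, 1, one_mem _, by rw [Nat.mod_self, h.idx_of_mem (one_mem Δ)]⟩
  set d := Nat.find hex with hd
  obtain ⟨hd0, τ, hτ, hτd⟩ := Nat.find_spec hex
  rw [← hd] at hτd hd0
  have hdiv : ∀ i, (∃ g ∈ H, h.idx g = i % n) → d ∣ i := by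
    rintro i ⟨g, hg, hgi⟩
    by_contra hnd
    have hpos : 0 < i % d := Nat.pos_of_ne_zero fun h0 => hnd (Nat.dvd_of_mod_eq_zero h0)
    refine Nat.find_min hex (Nat.mod_lt i hd0) ⟨hpos, g * τ ^ ((n - 1) * (i / d)),
      mul_mem hg (_root_.pow_mem hτ _), ?_⟩
    rw [h.idx_mul (hH hg) (_root_.pow_mem (hH hτ) _), h.idx_npow (hH hτ), hgi, hτd,
      Nat.add_mod_mod, Nat.mod_add_mod, Nat.add_mod, Nat.mul_mod_mod, ← Nat.add_mod]
    obtain ⟨m, hm⟩ := Nat.exists_eq_add_of_le' h.pos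
    have e : i + (n - 1) * (i / d) * d = i % d + n * (i / d * d) := by
      rw [hm, Nat.add_sub_cancel]
      conv_lhs => enter [1]; rw [← Nat.mod_add_div i d]
      ring
    rw [e, Nat.add_mul_mod_self_left]
  have hdn : d ∣ n := hdiv n ⟨1, one_mem _, by rw [Nat.mod_self, h.idx_of_mem (one_mem Δ)]⟩
  obtain ⟨c, hc⟩ := hdn
  have hcpos : 0 < c := Nat.pos_of_ne_zero fun h0 => h.pos.ne' (by rw [hc, h0, mul_zero])
  have hnd : n / d = c := by rw [hc, Nat.mul_div_cancel_left _ hd0]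
  have hidxτ : ∀ k, h.idx (τ ^ k) = k * d % n := fun k => by
    rw [h.idx_npow (hH hτ), hτd, Nat.mul_mod_mod]
  have hcover : ∀ g ∈ H, ∀ t, h.idx g = d * t % n → (τ ^ t)⁻¹ * g ∈ H ⊓ Δ := by
    intro g hg t ht
    have hmem : (τ ^ t)⁻¹ * g ∈ H := mul_mem (inv_mem (_root_.pow_mem hτ t)) hg
    refine ⟨hmem, h.mem_of_idx_eq_zero (hH hmem) ?_⟩
    have h1 := h.idx_mul (_root_.pow_mem (hH hτ) t) (hH hmem)
    rw [mul_inv_cancel_left, hidxτ, ht, mul_comm t d, Nat.mod_add_mod] at h1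
    have h2 : h.idx ((τ ^ t)⁻¹ * g) % n = 0 := by
      have h3 := Nat.ModEq.add_left_cancel' (c := d * t) (a := 0)
        (b := h.idx ((τ ^ t)⁻¹ * g)) (n := n) (by simpa [Nat.ModEq] using h1)
      simpa [Nat.ModEq] using h3.symm
    rwa [Nat.mod_eq_of_lt (h.idx_lt _)] at h2
  have h' : CyclicOver H (H ⊓ Δ) τ c :=
    { isOpen := h.isOpen.inf H hH
      mem := hτ
      pos := hcpos
      conj := fun g hg s hs =>
        ⟨H.mul_mem (H.mul_mem (H.inv_mem hg) hs.1) hg, h.conj g (hH hg) s hs.2⟩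
      cover := fun g hg => by
        obtain ⟨t, ht⟩ := hdiv (h.idx g) ⟨g, hg, (Nat.mod_eq_of_lt (h.idx_lt g)).symm⟩
        exact ⟨t, hcover g hg t (by rw [← ht, Nat.mod_eq_of_lt (h.idx_lt g)])⟩
      pow_mem_iff := fun i => by
        constructor
        · intro hi
          have h0 := h.idx_of_mem hi.2
          rw [hidxτ, ← Nat.dvd_iff_mod_eq_zero, hc, mul_comm d c] at h0
          exact Nat.dvd_of_mul_dvd_mul_right hd0 h0
        · rintro ⟨k, rfl⟩
          refine ⟨_root_.pow_mem hτ _, h.mem_of_idx_eq_zero (_root_.pow_mem (hH hτ) _) ?_⟩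
          rw [hidxτ, hc]
          exact Nat.mod_eq_zero_of_dvd ⟨k, by ring⟩ }
  have hidx : ∀ g ∈ H, h.idx g = d * h'.idx g := fun g hg => by
    obtain ⟨t, ht⟩ := hdiv (h.idx g) ⟨g, hg, (Nat.mod_eq_of_lt (h.idx_lt g)).symm⟩
    have ht' : t < c := Nat.lt_of_mul_lt_mul_left (a := d) (hc ▸ ht ▸ h.idx_lt g)
    rw [h'.idx_eq hg (i := t) (hcover g hg t (by rw [← ht, Nat.mod_eq_of_lt (h.idx_lt g)])),
      Nat.mod_eq_of_lt ht', ht]
  refine ⟨d, τ, ⟨c, hc⟩, ?_⟩
  rw [hnd]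
  refine ⟨h', hidx, fun a g hg g' hg' => ?_⟩
  simp only [fa, hidx g hg, hidx g' hg', ← Nat.mul_add]
  refine if_congr ?_ rfl rfl
  rw [hc]
  exact ⟨fun hle => Nat.le_of_mul_le_mul_left hle hd0, fun hle => Nat.mul_le_mul_left d hle⟩

end CyclicOver

/-! ### The residue field -/

variable {q : ℕ} [Fact q.Prime] (j : Qb →+* PadicAlgCl q)

/-- The valuation ring of `ℚ̄` given by `j`. -/
def intsAt : ValuationSubring Qb := (Valued.v : Valuation (PadicAlgCl q) _).valuationSubring.comap j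

lemma mem_intsAt {x : Qb} : x ∈ intsAt j ↔ ‖j x‖ ≤ 1 := Iff.rfl

/-- Its residue field. -/
abbrev ResAt : Type := IsLocalRing.ResidueField (intsAt j)

/-- The reduction map. -/
abbrev resAt : intsAt j →+* ResAt j := IsLocalRing.residue _

variable {j}

lemma res_eq_zero_iff {x : intsAt j} : resAt j x = 0 ↔ ‖j (x : Qb)‖ < 1 := by
  rw [IsLocalRing.residue_eq_zero_iff, IsLocalRing.mem_maximalIdeal, mem_nonunits_iff]
  constructor
  · intro hu
    refine lt_of_le_of_ne x.2 fun h1 => hu ?_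
    have hx0 : (x : Qb) ≠ 0 := fun h0 => by simp [h0] at h1
    exact IsUnit.of_mul_eq_one (⟨(x : Qb)⁻¹, by
      rw [mem_intsAt, map_inv₀, norm_inv, h1, inv_one]⟩ : intsAt j)
      (Subtype.ext (mul_inv_cancel₀ hx0))
  · intro hlt hu
    obtain ⟨u, rfl⟩ := hu
    have h1 := congrArg (fun z : intsAt j => ‖j (z : Qb)‖) u.mul_inv
    simp only [MulMemClass.coe_mul, OneMemClass.coe_one, map_mul, norm_mul, map_one, norm_one]
      at h1
    have h2 : ‖j (((u⁻¹ : (intsAt j)ˣ) : intsAt j) : Qb)‖ ≤ 1 :=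
      ((u⁻¹ : (intsAt j)ˣ) : intsAt j).2
    nlinarith [norm_nonneg (j (((u : intsAt j)) : Qb))]

lemma res_eq_iff {x y : intsAt j} : resAt j x = resAt j y ↔ ‖j ((x : Qb) - y)‖ < 1 := by
  rw [← sub_eq_zero, ← map_sub, res_eq_zero_iff]
  rfl

instance : CharP (ResAt j) q := by
  have hq0 : ((q : ℕ) : ResAt j) = 0 := by
    rw [← map_natCast (resAt j), res_eq_zero_iff]
    have h1 : ((q : intsAt j) : Qb) = (q : Qb) := by push_cast; rfl
    rw [h1, norm_map_q]
    exact inv_lt_one_of_one_lt₀ (Nat.one_lt_cast.mpr (Fact.out : q.Prime).one_lt)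
  exact (CharP.charP_iff_prime_eq_zero Fact.out).mpr hq0

variable (j) in
/-- The residue field of the fixed field of `Γ`. -/
def resField (Γ : Subgroup GQ) : Subfield (ResAt j) where
  carrier := {c | ∃ x : intsAt j, (x : Qb) ∈ fixF Γ ∧ resAt j x = c}
  one_mem' := ⟨1, one_mem _, map_one _⟩
  zero_mem' := ⟨0, zero_mem _, map_zero _⟩
  add_mem' := fun ⟨x, hx, hc⟩ ⟨y, hy, hd⟩ => ⟨x + y, add_mem hx hy, by rw [map_add, hc, hd]⟩
  mul_mem' := fun ⟨x, hx, hc⟩ ⟨y, hy, hd⟩ => ⟨x * y, mul_mem hx hy, by rw [map_mul, hc, hd]⟩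
  neg_mem' := fun ⟨x, hx, hc⟩ => ⟨-x, neg_mem hx, by rw [map_neg, hc]⟩
  inv_mem' := fun c hc' => by
    obtain ⟨x, hx, hc⟩ := hc'
    rcases eq_or_ne c 0 with rfl | hc0
    · exact ⟨0, zero_mem _, by rw [map_zero, inv_zero]⟩
    have hx1 : ‖j (x : Qb)‖ = 1 :=
      le_antisymm x.2 (not_lt.mp fun hlt => hc0 (by rw [← hc, res_eq_zero_iff.mpr hlt]))
    refine ⟨⟨(x : Qb)⁻¹, by rw [mem_intsAt, map_inv₀, norm_inv, hx1, inv_one]⟩, inv_mem hx, ?_⟩
    refine eq_inv_of_mul_eq_one_left ?_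
    rw [← hc, ← map_mul, ← map_one (resAt j)]
    congr 1
    exact Subtype.ext (inv_mul_cancel₀ fun h0 => by simp [h0] at hx1)

variable {Γ : Subgroup GQ}

lemma finite_resField (hΓ : LocalAt j Γ) : Finite (resField j Γ) := by
  classical
  obtain ⟨T, hT, hcov⟩ := hΓ.exists_finite_cover one_pos
  refine Finite.of_surjective (α := T)
    (fun t => ⟨resAt j ⟨t, (hT t t.2).2⟩, _, (hT t t.2).1, rfl⟩) ?_
  rintro ⟨c, x, hx, rfl⟩
  obtain ⟨t, ht, hlt⟩ := hcov (x : Qb) hx x.2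
  exact ⟨⟨t, ht⟩, Subtype.ext (res_eq_iff.mpr (by rw [← norm_neg, ← map_neg, neg_sub]; exact hlt))⟩

variable (j) in
/-- The residue cardinality. -/
def resCard (Γ : Subgroup GQ) : ℕ := Nat.card (resField j Γ)

lemma exists_resCard_eq (hΓ : LocalAt j Γ) : ∃ f : ℕ, 0 < f ∧ resCard j Γ = q ^ f := by
  have := finite_resField hΓ
  have := Fintype.ofFinite (resField j Γ)
  obtain ⟨f, -, hf⟩ := FiniteField.card (resField j Γ) q
  exact ⟨f, f.2, by rw [resCard, Nat.card_eq_fintype_card, hf]⟩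

lemma one_lt_resCard (hΓ : LocalAt j Γ) : 1 < resCard j Γ := by
  obtain ⟨f, hf, h⟩ := exists_resCard_eq hΓ
  rw [h]
  exact Nat.one_lt_pow hf.ne' (Fact.out : q.Prime).one_lt

lemma pow_resCard_add (hΓ : LocalAt j Γ) (a b : ResAt j) :
    (a + b) ^ resCard j Γ = a ^ resCard j Γ + b ^ resCard j Γ := by
  obtain ⟨f, -, h⟩ := exists_resCard_eq hΓ
  rw [h]
  exact add_pow_char_pow a b q f

variable (j) in
/-- The Frobenius of the residue field of `Γ`, on the residue field of `ℚ̄`. -/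
def frobRes (hΓ : LocalAt j Γ) : ResAt j →+* ResAt j where
  toFun x := x ^ resCard j Γ
  map_one' := one_pow _
  map_mul' a b := mul_pow a b _
  map_zero' := zero_pow (one_lt_resCard hΓ).ne_bot
  map_add' := pow_resCard_add hΓ

lemma frobRes_apply (hΓ : LocalAt j Γ) (x : ResAt j) : frobRes j hΓ x = x ^ resCard j Γ := rfl

/-- The residue field consists of the roots of `X ^ Q - X`. -/
lemma mem_resField_iff (hΓ : LocalAt j Γ) {c : ResAt j} :
    c ∈ resField j Γ ↔ c ^ resCard j Γ = c := by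
  classical
  have := finite_resField hΓ
  have := Fintype.ofFinite (resField j Γ)
  have hfix : ∀ d : resField j Γ, (d : ResAt j) ^ resCard j Γ = d := fun d => by
    rw [resCard, Nat.card_eq_fintype_card, ← SubmonoidClass.coe_pow, FiniteField.pow_card]
  refine ⟨fun hc => hfix ⟨c, hc⟩, fun hc => ?_⟩
  by_contra hnot
  set P : Polynomial (ResAt j) := Polynomial.X ^ resCard j Γ - Polynomial.X with hP
  have hdeg : P.natDegree = resCard j Γ :=
    FiniteField.X_pow_card_sub_X_natDegree_eq _ (one_lt_resCard hΓ)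
  have hP0 : P ≠ 0 := FiniteField.X_pow_card_sub_X_ne_zero _ (one_lt_resCard hΓ)
  let S : Finset (ResAt j) := insert c ((Finset.univ : Finset (resField j Γ)).image Subtype.val)
  have hS : S.val ≤ P.roots := by
    refine Multiset.le_iff_subset S.nodup |>.mpr fun x hx => (Polynomial.mem_roots hP0).mpr ?_
    have hx' : x ^ resCard j Γ = x := by
      rcases Finset.mem_insert.mp hx with rfl | hx
      · exact hc
      · obtain ⟨d, -, rfl⟩ := Finset.mem_image.mp hx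
        exact hfix d
    simp [hP, hx']
  have hcard := (Multiset.card_le_card hS).trans (Polynomial.card_roots' P)
  rw [Finset.card_val, Finset.card_insert_of_notMem (by simpa using hnot),
    Finset.card_image_of_injective _ Subtype.val_injective, Finset.card_univ, hdeg, resCard,
    Nat.card_eq_fintype_card] at hcard
  omega

lemma exists_resCard_pow {H : Subgroup GQ} (hΓ : LocalAt j Γ) (hH : LocalAt j H) (hle : H ≤ Γ) :
    ∃ d : ℕ, 0 < d ∧ resCard j H = resCard j Γ ^ d := by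
  have hsub : resField j Γ ≤ resField j H := fun c ⟨x, hx, hc⟩ => ⟨x, fixF_anti hle hx, hc⟩
  let : Algebra (resField j Γ) (resField j H) := (Subfield.inclusion hsub).toAlgebra
  have := finite_resField hΓ
  have := finite_resField hH
  exact ⟨Module.finrank (resField j Γ) (resField j H), Module.finrank_pos,
    Module.natCard_eq_pow_finrank (K := resField j Γ)⟩

/-! ### Roots of unity of order prime to `q` -/

lemma norm_zeta {m : ℕ} (hm : 0 < m) {ζ : Qb} (hζ : ζ ^ m = 1) : ‖j ζ‖ = 1 := by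
  have h1 := congrArg (fun z => ‖j z‖) hζ
  simp only [map_pow, norm_pow, map_one, norm_one] at h1
  exact (pow_eq_one_iff_of_nonneg (norm_nonneg _) hm.ne').mp h1

lemma eq_of_res_eq {m : ℕ} (hm : ¬ q ∣ m) {ζ ζ' : Qb} (hζ : ζ ^ m = 1) (hζ' : ζ' ^ m = 1)
    (hlt : ‖j (ζ - ζ')‖ < 1) : ζ = ζ' := by
  have hm0 : 0 < m := Nat.pos_of_ne_zero fun h0 => hm (h0 ▸ dvd_zero q)
  have hne : ζ' ≠ 0 := fun h0 => by simp [h0, zero_pow hm0.ne'] at hζ'
  by_contra hd
  have := one_le_norm_zeta_sub_one (j := j) hm (ζ := ζ / ζ')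
    (by rw [div_pow, hζ, hζ', div_one]) (fun h => hd ((div_eq_one_iff_eq hne).mp h))
  rw [div_sub_one hne, map_div₀, norm_div, norm_zeta hm0 hζ', div_one] at this
  linarith

variable {m : ℕ} {ζ : Qb}

/-- Some element of `Γ` acts on `ζ` as the Frobenius. -/
theorem exists_frobenius (hΓ : LocalAt j Γ) (hm : ¬ q ∣ m) (hζ : ζ ^ m = 1) :
    ∃ σ ∈ Γ, σ ζ = ζ ^ resCard j Γ := by
  classical
  have hm0 : 0 < m := Nat.pos_of_ne_zero fun h0 => hm (h0 ▸ dvd_zero q)
  let O : Finset Qb := (Polynomial.nthRootsFinset m (1 : Qb)).filter fun x => ∃ g ∈ Γ, g ζ = x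
  have hO : ∀ x, x ∈ O ↔ ∃ g ∈ Γ, g ζ = x := fun x => by
    simp only [O, Finset.mem_filter, Polynomial.mem_nthRootsFinset hm0, and_iff_right_iff_imp]
    rintro ⟨g, -, rfl⟩
    rw [← map_pow, hζ, map_one]
  have hOm : ∀ x ∈ O, x ^ m = 1 := fun x hx =>
    (Polynomial.mem_nthRootsFinset hm0 _).mp (Finset.mem_filter.mp hx).1
  let lift : O → intsAt j := fun x => ⟨x, (norm_zeta hm0 (hOm x x.2)).le⟩
  let P : Polynomial (intsAt j) := ∏ x : O, (Polynomial.X - Polynomial.C (lift x))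
  have hcoef : ∀ i, ((P.coeff i : intsAt j) : Qb) ∈ fixF Γ := by
    intro i
    have hP : P.map (intsAt j).subtype = ∏ x ∈ O, (Polynomial.X - Polynomial.C x) := by
      rw [Polynomial.map_prod, ← Finset.prod_coe_sort O]
      exact Finset.prod_congr rfl fun x _ => by simp [lift]
    refine mem_fixF.mpr fun g hg => ?_
    have hperm : (∏ x ∈ O, (Polynomial.X - Polynomial.C x)).map (g : Qb →+* Qb) =
        ∏ x ∈ O, (Polynomial.X - Polynomial.C x) := by
      rw [Polynomial.map_prod]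
      refine Finset.prod_bij (fun x _ => g x) (fun x hx => ?_) (fun x _ y _ hxy => g.injective hxy)
        (fun x hx => ?_) (fun x _ => by simp)
      · obtain ⟨g', hg', rfl⟩ := (hO x).mp hx
        exact (hO _).mpr ⟨g * g', mul_mem hg hg', rfl⟩
      · obtain ⟨g', hg', rfl⟩ := (hO x).mp hx
        exact ⟨(g⁻¹ * g') ζ, (hO _).mpr ⟨_, mul_mem (inv_mem hg) hg', rfl⟩, by
          rw [← AlgEquiv.mul_apply, mul_inv_cancel_left]⟩
    have := congrArg (fun R => Polynomial.coeff R i) hperm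
    rw [← hP] at this
    simpa [Polynomial.coeff_map] using this
  let z : intsAt j := ⟨ζ, (norm_zeta hm0 hζ).le⟩
  have hζO : ζ ∈ O := (hO ζ).mpr ⟨1, one_mem _, rfl⟩
  have hroot : (P.map (resAt j)).eval (resAt j z ^ resCard j Γ) = 0 := by
    have hmap : (P.map (resAt j)).map (frobRes j hΓ) = P.map (resAt j) := by
      ext i
      rw [Polynomial.coeff_map, Polynomial.coeff_map, frobRes_apply]
      exact (mem_resField_iff hΓ).mp ⟨_, hcoef i, rfl⟩
    have h0 : (P.map (resAt j)).eval (resAt j z) = 0 := by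
      rw [Polynomial.eval_map, Polynomial.eval₂_at_apply]
      simp only [P, Polynomial.eval_prod, map_prod]
      exact Finset.prod_eq_zero (Finset.mem_univ ⟨ζ, hζO⟩) (by simp [lift, z])
    rw [← frobRes_apply hΓ, ← hmap, Polynomial.eval_map, Polynomial.eval₂_at_apply, h0, map_zero]
  simp only [P, Polynomial.map_prod, Polynomial.eval_prod, Finset.prod_eq_zero_iff,
    Polynomial.map_sub, Polynomial.map_X, Polynomial.map_C, Polynomial.eval_sub,
    Polynomial.eval_X, Polynomial.eval_C, sub_eq_zero] at hroot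
  obtain ⟨⟨x, hx⟩, -, hres⟩ := hroot
  obtain ⟨g, hg, rfl⟩ := (hO x).mp hx
  refine ⟨g, hg, ?_⟩
  rw [← map_pow, eq_comm, res_eq_iff] at hres
  exact eq_of_res_eq hm (hOm _ hx) (by rw [← pow_mul, mul_comm, pow_mul, hζ, one_pow])
    (by simpa [lift, z] using hres)

lemma exists_period (hΓ : LocalAt j Γ) (hm : ¬ q ∣ m) (hζ : ζ ^ m = 1) :
    ∃ n, 0 < n ∧ Function.IsPeriodicPt (fun x : Qb => x ^ resCard j Γ) n ζ := by
  have hm0 : 0 < m := Nat.pos_of_ne_zero fun h0 => hm (h0 ▸ dvd_zero q)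
  obtain ⟨f, -, hf⟩ := exists_resCard_eq hΓ
  refine ⟨Nat.totient m, Nat.totient_pos.mpr hm0, ?_⟩
  have hco : Nat.Coprime (resCard j Γ) m :=
    hf ▸ Nat.Coprime.pow_left _ ((Fact.out : q.Prime).coprime_iff_not_dvd.mpr hm)
  have hmod := Nat.ModEq.pow_totient hco
  change (fun x : Qb => x ^ resCard j Γ)^[Nat.totient m] ζ = ζ
  simp only [pow_iterate]
  rw [pow_eq_pow_mod _ hζ, hmod, ← pow_eq_pow_mod _ hζ, pow_one]

variable (j) in
/-- The degree of `ζ` over the fixed field of `Γ`. -/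
def zdeg (Γ : Subgroup GQ) (ζ : Qb) : ℕ :=
  Function.minimalPeriod (fun x : Qb => x ^ resCard j Γ) ζ

lemma pow_iterate_apply (Q i : ℕ) (x : Qb) : (fun y : Qb => y ^ Q)^[i] x = x ^ (Q ^ i) := by
  rw [pow_iterate]

lemma pow_eq_self_iff {Q i : ℕ} :
    ζ ^ (Q ^ i) = ζ ↔ Function.minimalPeriod (fun x : Qb => x ^ Q) ζ ∣ i := by
  rw [← pow_iterate_apply]
  exact Function.isPeriodicPt_iff_minimalPeriod_dvd

/-- Each element of `Γ` acts on `ζ` as a power of Frobenius. -/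
theorem exists_pow_frobenius (hΓ : LocalAt j Γ) (hm : ¬ q ∣ m) (hζ : ζ ^ m = 1) {g : GQ}
    (hg : g ∈ Γ) : ∃ i, g ζ = ζ ^ (resCard j Γ ^ i) := by
  classical
  have hm0 : 0 < m := Nat.pos_of_ne_zero fun h0 => hm (h0 ▸ dvd_zero q)
  set n := zdeg j Γ ζ
  obtain ⟨n', hn', hper⟩ := exists_period hΓ hm hζ
  have hn : 0 < n := Function.IsPeriodicPt.minimalPeriod_pos hn' hper
  set Q := resCard j Γ
  let z : intsAt j := ⟨ζ, (norm_zeta hm0 hζ).le⟩
  let R : Polynomial (ResAt j) :=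
    ∏ i ∈ Finset.range n, (Polynomial.X - Polynomial.C (resAt j z ^ (Q ^ i)))
  have hz : resAt j z ^ (Q ^ n) = resAt j z := by
    rw [← map_pow]
    congr 1
    exact Subtype.ext ((pow_eq_self_iff (ζ := ζ) (Q := Q) (i := n)).mpr dvd_rfl)
  have hR : R.map (frobRes j hΓ) = R := by
    simp only [R, Polynomial.map_prod, Polynomial.map_sub, Polynomial.map_X, Polynomial.map_C,
      frobRes_apply, ← pow_mul]
    obtain ⟨k, hk⟩ := Nat.exists_eq_add_of_le' hn
    rw [hk] at hz ⊢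
    conv_rhs => rw [Finset.prod_range_succ']
    rw [Finset.prod_range_succ]
    congr 2
    rw [pow_zero, pow_one]
    exact congrArg _ (Eq.trans (by rw [pow_succ]) hz)
  have hRmem : ∀ i, R.coeff i ∈ resField j Γ := fun i => by
    rw [mem_resField_iff hΓ]
    conv_rhs => rw [← hR]
    rw [Polynomial.coeff_map, frobRes_apply]
  choose c hc hcres using hRmem
  let Z : intsAt j := ⟨g ζ, by rw [mem_intsAt, hΓ.inv g hg]; exact (norm_zeta hm0 hζ).le⟩
  let S : intsAt j := ∑ i ∈ Finset.range (R.natDegree + 1), c i * z ^ i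
  let S' : intsAt j := ∑ i ∈ Finset.range (R.natDegree + 1), c i * Z ^ i
  have hS : resAt j S = R.eval (resAt j z) := by
    simp [S, Polynomial.eval_eq_sum_range, hcres]
  have hS' : resAt j S' = R.eval (resAt j Z) := by
    simp [S', Polynomial.eval_eq_sum_range, hcres]
  have hgS : (S' : Qb) = g (S : Qb) := by
    simp only [S, S', AddSubmonoidClass.coe_finsetSum, map_sum, MulMemClass.coe_mul,
      SubmonoidClass.coe_pow, map_mul, map_pow]
    exact Finset.sum_congr rfl fun i _ => by rw [mem_fixF.mp (hc i) g hg]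
  have h0 : R.eval (resAt j z) = 0 := by
    simp only [R, Polynomial.eval_prod]
    exact Finset.prod_eq_zero (Finset.mem_range.mpr hn) (by simp)
  rw [← hS, res_eq_zero_iff, ← hΓ.inv g hg, ← hgS, ← res_eq_zero_iff, hS'] at h0
  simp only [R, Polynomial.eval_prod, Finset.prod_eq_zero_iff, Polynomial.eval_sub,
    Polynomial.eval_X, Polynomial.eval_C, sub_eq_zero, ← map_pow, res_eq_iff] at h0
  obtain ⟨i, -, hi⟩ := h0
  refine ⟨i, eq_of_res_eq (j := j) hm (by rw [← map_pow, hζ, map_one])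
    (by rw [← pow_mul, mul_comm, pow_mul, hζ, one_pow]) ?_⟩
  simpa [z, Z] using hi

/-- The unramified extension generated by `ζ`. -/
theorem exists_cyclicOver_zeta (hΓ : LocalAt j Γ) (hm : ¬ q ∣ m) (hζ : ζ ^ m = 1) :
    ∃ σ, σ ζ = ζ ^ resCard j Γ ∧
      CyclicOver Γ (Γ ⊓ MulAction.stabilizer GQ ζ) σ (zdeg j Γ ζ) := by
  obtain ⟨σ, hσ, hσζ⟩ := exists_frobenius hΓ hm hζ
  obtain ⟨n', hn', hper⟩ := exists_period hΓ hm hζ
  have hiter : ∀ i : ℕ, (σ ^ i) ζ = ζ ^ (resCard j Γ ^ i) := fun i => by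
    induction i with
    | zero => simp
    | succ i ih => rw [pow_succ', AlgEquiv.mul_apply, ih, map_pow, hσζ, ← pow_mul, ← pow_succ']
  refine ⟨σ, hσζ,
    { isOpen := ⟨inf_le_left, IntermediateField.adjoin ℚ {ζ},
        IntermediateField.adjoin.finiteDimensional (Algebra.IsIntegral.isIntegral ζ),
        fun g hg hgF => ⟨hg, MulAction.mem_stabilizer_iff.mpr
          (fix_eq hgF (IntermediateField.mem_adjoin_simple_self ℚ ζ))⟩⟩
      mem := hσ
      pos := Function.IsPeriodicPt.minimalPeriod_pos hn' hper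
      conj := fun g hg s hs => ?_
      cover := fun g hg => ?_
      pow_mem_iff := fun i => ?_ }⟩
  · obtain ⟨i, hi⟩ := exists_pow_frobenius hΓ hm hζ hg
    refine ⟨Γ.mul_mem (Γ.mul_mem (Γ.inv_mem hg) hs.1) hg, MulAction.mem_stabilizer_iff.mpr ?_⟩
    have hs' : s ζ = ζ := MulAction.mem_stabilizer_iff.mp hs.2
    rw [AlgEquiv.smul_def, AlgEquiv.mul_apply, AlgEquiv.mul_apply, hi, map_pow, hs', ← hi,
      ← AlgEquiv.mul_apply, inv_mul_cancel, AlgEquiv.one_apply]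
  · obtain ⟨i, hi⟩ := exists_pow_frobenius hΓ hm hζ hg
    refine ⟨i, Γ.mul_mem (Γ.inv_mem (Γ.pow_mem hσ i)) hg, MulAction.mem_stabilizer_iff.mpr ?_⟩
    rw [AlgEquiv.smul_def, AlgEquiv.mul_apply, hi, ← hiter, ← AlgEquiv.mul_apply, inv_mul_cancel,
      AlgEquiv.one_apply]
  · rw [zdeg, ← pow_eq_self_iff, ← hiter]
    exact ⟨fun h => MulAction.mem_stabilizer_iff.mp h.2,
      fun h => ⟨Γ.pow_mem hσ i, MulAction.mem_stabilizer_iff.mpr h⟩⟩

/-- A root of unity whose degree over the fixed field of `Γ` is `N`. -/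
theorem exists_zeta (hΓ : LocalAt j Γ) {N : ℕ} (hN : 0 < N) :
    ∃ ζ : Qb, IsPrimitiveRoot ζ (resCard j Γ ^ N - 1) ∧ ¬ q ∣ resCard j Γ ^ N - 1 ∧
      zdeg j Γ ζ = N := by
  set Q := resCard j Γ with hQ
  have hQ1 : 1 < Q := one_lt_resCard hΓ
  set m := Q ^ N - 1 with hm
  have hQN : 1 < Q ^ N := Nat.one_lt_pow hN.ne' hQ1
  have hm0 : 0 < m := by omega
  have hqm : ¬ q ∣ m := by
    obtain ⟨f, hf, hfQ⟩ := exists_resCard_eq hΓ
    intro hdvd
    have hq : q ∣ Q ^ N := by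
      rw [hQ, hfQ, ← pow_mul]; exact dvd_pow_self q (Nat.mul_ne_zero hf.ne' hN.ne')
    have h1 := Nat.dvd_sub hq hdvd
    rw [show Q ^ N - m = 1 by omega, Nat.dvd_one] at h1
    exact (Fact.out : q.Prime).ne_one h1
  have : NeZero (m : Qb) := ⟨Nat.cast_ne_zero.mpr hm0.ne'⟩
  obtain ⟨ζ, hζ⟩ := HasEnoughRootsOfUnity.exists_primitiveRoot Qb m
  refine ⟨ζ, hζ, hqm, ?_⟩
  have hiff : ∀ i, 0 < i → (ζ ^ (Q ^ i) = ζ ↔ m ∣ Q ^ i - 1) := fun i hi => by
    have h1 : 1 ≤ Q ^ i := Nat.one_le_pow _ _ (by omega)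
    rw [← hζ.pow_eq_one_iff_dvd]
    conv_lhs => rw [show Q ^ i = Q ^ i - 1 + 1 by omega, pow_succ]
    exact mul_eq_right₀ (hζ.ne_zero hm0.ne')
  have hper : Function.IsPeriodicPt (fun x : Qb => x ^ Q) N ζ := by
    change (fun x : Qb => x ^ Q)^[N] ζ = ζ
    rw [pow_iterate_apply, hiff N hN]
  refine Nat.le_antisymm (hper.minimalPeriod_le hN) ?_
  have hd := pow_eq_self_iff (ζ := ζ) (Q := Q) (i := zdeg j Γ ζ) |>.mpr dvd_rfl
  have hpos : 0 < zdeg j Γ ζ := hper.minimalPeriod_pos hN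
  rw [hiff _ hpos] at hd
  by_contra hlt
  rw [not_le] at hlt
  have h2 : Q ^ zdeg j Γ ζ < Q ^ N := Nat.pow_lt_pow_right hQ1 hlt
  have h3 : 0 < Q ^ zdeg j Γ ζ - 1 := by
    have := Nat.one_lt_pow hpos.ne' hQ1
    omega
  have := Nat.le_of_dvd h3 hd
  omega

/-- Unramified extensions have the same uniformisers. -/
theorem exists_norm_zpow (hΓ : LocalAt j Γ) (hm : ¬ q ∣ m) (hζ : ζ ^ m = 1) {π : Qb}
    (hπ : π ∈ fixF Γ) (hπ0 : 0 < ‖j π‖) (hπ1 : ‖j π‖ < 1)
    (hgen : ∀ x ∈ fixF Γ, x ≠ 0 → ∃ k : ℤ, ‖j x‖ = ‖j π‖ ^ k) :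
    ∀ x ∈ fixF (Γ ⊓ MulAction.stabilizer GQ ζ), x ≠ 0 → ∃ k : ℤ, ‖j x‖ = ‖j π‖ ^ k := by
  classical
  obtain ⟨σ, -, h⟩ := exists_cyclicOver_zeta hΓ hm hζ
  set Δ := Γ ⊓ MulAction.stabilizer GQ ζ with hΔ
  set n := zdeg j Γ ζ
  have hm0 : 0 < m := Nat.pos_of_ne_zero fun h0 => hm (h0 ▸ dvd_zero q)
  obtain ⟨π', hπ', hπ'0, hπ'1, hgen'⟩ := (hΓ.of_isOpenIn h.isOpen).exists_uniformizer
  obtain ⟨e, he⟩ := hgen' π (fixF_anti h.le hπ) (fun h0 => by simp [h0] at hπ0)
  have hepos : 0 < e := by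
    by_contra hle
    rw [not_lt] at hle
    have : 1 ≤ ‖j π'‖ ^ e := one_le_zpow_of_nonpos₀ hπ'0 hπ'1.le hle
    linarith
  suffices he1 : e = 1 by
    intro x hx hx0
    obtain ⟨k, hk⟩ := hgen' x hx hx0
    exact ⟨k, by rw [hk, he, he1, zpow_one]⟩
  by_contra he1
  have hlt : ‖j π‖ < ‖j π'‖ := by
    rw [he]
    conv_rhs => rw [← zpow_one ‖j π'‖]
    exact zpow_lt_zpow_right_of_lt_one₀ hπ'0 hπ'1 (by omega)
  -- `n + 1` elements of the `n`-dimensional extension are dependent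
  obtain ⟨θ, hθ, hdet⟩ := h.repSystem.exists_det_ne_zero
  have hζΔ : ζ ∈ fixF Δ := mem_fixF.mpr fun g hg => MulAction.mem_stabilizer_iff.mp hg.2
  let x : Fin (n + 1) → Qb := fun l => if (l : ℕ) < n then ζ ^ (l : ℕ) else π'
  have hx : ∀ l, x l ∈ fixF Δ := fun l => by
    simp only [x]
    split_ifs
    · exact pow_mem hζΔ _
    · exact hπ'
  set r := fun i : Fin n => σ ^ (i : ℕ)
  let v : Fin (n + 1) → (Fin n → fixF Γ) := fun l k =>
    ⟨RepSystem.coord r θ (x l) k, (h.repSystem.coord_spec hdet hθ (hx l)).2 k⟩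
  obtain ⟨c, hc, l₀, hl₀⟩ : ∃ c : Fin (n + 1) → fixF Γ, ∑ l, c l • v l = 0 ∧ ∃ l, c l ≠ 0 := by
    have hdep : ¬ LinearIndependent (fixF Γ) v := fun hli => by
      have := hli.fintype_card_le_finrank
      simp at this
    exact Fintype.not_linearIndependent_iff.mp hdep
  obtain ⟨l₁, -, hl₁⟩ := Finset.univ.exists_max_image (fun l => ‖j (c l : Qb)‖)
    ⟨l₀, Finset.mem_univ _⟩
  have hc1 : (c l₁ : Qb) ≠ 0 := fun h0 => hl₀ (by
    have := hl₁ l₀ (Finset.mem_univ _)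
    rw [h0, map_zero, norm_zero] at this
    exact Subtype.ext ((map_eq_zero_iff j j.injective).mp (norm_le_zero_iff.mp this)))
  let b : Fin (n + 1) → Qb := fun l => (c l : Qb) / c l₁
  have hb : ∀ l, b l ∈ fixF Γ := fun l => div_mem (c l).2 (c l₁).2
  have hb1 : ∀ l, ‖j (b l)‖ ≤ 1 := fun l => by
    simp only [b, map_div₀, norm_div]
    exact (div_le_one (norm_pos_iff.mpr ((map_ne_zero_iff j j.injective).mpr hc1))).mpr
      (hl₁ l (Finset.mem_univ _))
  have hrel : ∑ l, b l * x l = 0 := by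
    have hzero : ∀ k, ∑ l, (c l : Qb) * RepSystem.coord r θ (x l) k = 0 := fun k => by
      have := congrArg (fun w => ((w k : fixF Γ) : Qb)) hc
      simpa [v, Finset.sum_apply] using this
    calc ∑ l, b l * x l = (∑ l, (c l : Qb) * x l) / c l₁ := by
          rw [Finset.sum_div]; exact Finset.sum_congr rfl fun l _ => by simp only [b]; ring
      _ = (∑ k, (∑ l, (c l : Qb) * RepSystem.coord r θ (x l) k) * r k θ) / c l₁ := by
          congr 1
          rw [Finset.sum_congr rfl fun l _ => by rw [(h.repSystem.coord_spec hdet hθ (hx l)).1,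
            Finset.mul_sum], Finset.sum_comm]
          exact Finset.sum_congr rfl fun k _ => by
            rw [Finset.sum_mul]; exact Finset.sum_congr rfl fun l _ => by ring
      _ = 0 := by simp [hzero]
  rw [Fin.sum_univ_castSucc] at hrel
  simp only [x, Fin.val_castSucc, Fin.is_lt, if_true, Fin.val_last, lt_irrefl, if_false] at hrel
  let z : intsAt j := ⟨ζ, (norm_zeta hm0 hζ).le⟩
  let bl : Fin (n + 1) → intsAt j := fun l => ⟨b l, hb1 l⟩
  let P : Polynomial (ResAt j) :=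
    ∑ i : Fin n, Polynomial.C (resAt j (bl i.castSucc)) * Polynomial.X ^ (i : ℕ)
  have hP0 : P.eval (resAt j z) = 0 := by
    have h1 : P.eval (resAt j z) =
        resAt j (∑ i : Fin n, bl i.castSucc * z ^ (i : ℕ)) := by
      simp [P, Polynomial.eval_finsetSum]
    rw [h1, res_eq_zero_iff]
    have h2 : ((∑ i : Fin n, bl i.castSucc * z ^ (i : ℕ) : intsAt j) : Qb) =
        -(b (Fin.last n) * π') := by
      rw [← eq_neg_of_add_eq_zero_left hrel]
      simp [bl, z]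
    rw [h2, map_neg, norm_neg, map_mul, norm_mul]
    exact (mul_le_of_le_one_left (norm_nonneg _) (hb1 _)).trans_lt hπ'1
  have hPfrob : P.map (frobRes j hΓ) = P := by
    simp only [P, Polynomial.map_sum, Polynomial.map_mul, Polynomial.map_C, Polynomial.map_pow,
      Polynomial.map_X, frobRes_apply]
    exact Finset.sum_congr rfl fun i _ => by
      rw [(mem_resField_iff hΓ).mp ⟨bl i.castSucc, hb i.castSucc, rfl⟩]
  have hroots : ∀ i : ℕ, P.eval (resAt j z ^ (resCard j Γ ^ i)) = 0 := fun i => by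
    induction i with
    | zero => simpa using hP0
    | succ i ih =>
      rw [pow_succ, pow_mul, ← frobRes_apply hΓ, ← hPfrob, Polynomial.eval_map,
        Polynomial.eval₂_at_apply, ih, map_zero]
  have hPzero : P = 0 := by
    refine Polynomial.eq_zero_of_natDegree_lt_card_of_eval_eq_zero P
      (f := fun i : Fin n => resAt j z ^ (resCard j Γ ^ (i : ℕ))) ?_ (fun i => hroots i) ?_
    · intro i k hik
      simp only [← map_pow, res_eq_iff] at hik
      have hpow : ∀ a : ℕ, (ζ ^ a) ^ m = 1 := fun a => by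
        rw [← pow_mul, mul_comm, pow_mul, hζ, one_pow]
      have h3 := eq_of_res_eq hm (hpow _) (hpow _) (by simpa [z] using hik)
      rw [← pow_iterate_apply, ← pow_iterate_apply] at h3
      exact Fin.ext (Function.iterate_injOn_Iio_minimalPeriod i.2 k.2 h3)
    · rw [Fintype.card_fin]
      refine (Nat.lt_of_le_of_lt (Polynomial.natDegree_sum_le_of_forall_le _ _ (n := n - 1)
        fun i _ => (Polynomial.natDegree_C_mul_X_pow_le _ _).trans (by have := i.2; omega))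
        (by have := h.pos; omega))
  have hsmall : ∀ i : Fin n, ‖j (b i.castSucc)‖ ≤ ‖j π‖ := fun i => by
    have h1 := congrArg (fun R : Polynomial (ResAt j) => R.coeff i) hPzero
    simp only [P, Polynomial.finsetSum_coeff, Polynomial.coeff_C_mul_X_pow,
      Polynomial.coeff_zero] at h1
    rw [Finset.sum_eq_single i (fun k _ hk => if_neg fun e => hk (Fin.ext e.symm))
      (fun hi => absurd (Finset.mem_univ _) hi), if_pos rfl, res_eq_zero_iff] at h1
    rcases eq_or_ne (b i.castSucc) 0 with h0 | h0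
    · rw [h0, map_zero, norm_zero]; exact hπ0.le
    obtain ⟨k, hk⟩ := hgen _ (hb _) h0
    rw [hk] at h1 ⊢
    have hk1 : 1 ≤ k := by
      by_contra hle
      exact absurd h1 (not_lt.mpr (one_le_zpow_of_nonpos₀ hπ0 hπ1.le (by omega)))
    calc ‖j π‖ ^ k ≤ ‖j π‖ ^ (1 : ℤ) := zpow_le_zpow_right_of_le_one₀ hπ0 hπ1.le hk1
      _ = ‖j π‖ := zpow_one _
  have hbl₁ : b l₁ = 1 := div_self hc1
  rcases Fin.eq_castSucc_or_eq_last l₁ with ⟨i, hi⟩ | hi
  · have := hsmall i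
    rw [← hi, hbl₁, map_one, norm_one] at this
    linarith
  · rw [hi] at hbl₁
    rw [hbl₁, one_mul, add_eq_zero_iff_neg_eq] at hrel
    have h4 : ‖j π'‖ ≤ ‖j π‖ := by
      rw [← hrel, map_neg, norm_neg]
      refine norm_map_sum_le _ _ hπ0.le fun i _ => ?_
      rw [map_mul, norm_mul, map_pow, norm_pow, norm_zeta hm0 hζ, one_pow, mul_one]
      exact hsmall i
    linarith

/-- The classes of the unramified cyclic extension are read off from the valuation. -/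
theorem fa_mem_B2_iff_dvd (hΓ : LocalAt j Γ) (hm : ¬ q ∣ m) (hζ : ζ ^ m = 1) {σ : GQ} {n : ℕ}
    (h : CyclicOver Γ (Γ ⊓ MulAction.stabilizer GQ ζ) σ n) {π : Qb} (hπ : π ∈ fixF Γ)
    (hπ0 : 0 < ‖j π‖) (hπ1 : ‖j π‖ < 1)
    (hgen : ∀ x ∈ fixF Γ, x ≠ 0 → ∃ k : ℤ, ‖j x‖ = ‖j π‖ ^ k)
    {a : Qbˣ} (ha : a ∈ fixU Γ) {k : ℤ} (hk : ‖j (a : Qb)‖ = ‖j π‖ ^ k) :
    h.fa a ∈ B2 Γ ↔ (n : ℤ) ∣ k := by
  have hgen' := exists_norm_zpow hΓ hm hζ hπ hπ0 hπ1 hgen
  rw [h.fa_mem_B2_iff ha]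
  constructor
  · rintro ⟨b, hb, hab⟩
    obtain ⟨l, hl⟩ := hgen' (b : Qb) (mem_fixU.mp hb) (Units.ne_zero _)
    refine ⟨l, ?_⟩
    have h1 : ‖j (a : Qb)‖ = ‖j π‖ ^ ((n : ℤ) * l) := by
      rw [← hab, Units.coe_prod, map_prod, norm_prod,
        Finset.prod_congr rfl fun i _ => by rw [units_smul_coe, hΓ.inv _ (h.pow_mem i), hl],
        Finset.prod_const, Finset.card_range, mul_comm, zpow_mul, zpow_natCast]
    rw [hk] at h1
    exact zpow_right_injective₀ hπ0 hπ1.ne h1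
  · rintro ⟨l, rfl⟩
    have hπne : π ≠ 0 := fun h0 => by simp [h0] at hπ0
    set P := Units.mk0 π hπne
    have hP : P ∈ fixU Γ := mem_fixU.mpr hπ
    obtain ⟨h1, h2⟩ := relIndex_units_le hΓ h hπ hπ0 hπ1 (π' := π) (fixF_anti h.le hπ) hgen'
      one_pos (pow_one _).symm
    have hu : a / (P ^ l) ^ n ∈ unitsAt j Γ := by
      refine ⟨div_mem ha (pow_mem (zpow_mem hP l) n), ?_⟩
      simp only [Units.val_div_eq_div_val, Units.val_pow_eq_pow_val, Units.val_zpow_eq_zpow_val, P,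
        Units.val_mk0, map_div₀, norm_div, map_pow, map_zpow₀, norm_pow, norm_zpow, hk]
      rw [← zpow_natCast, ← zpow_mul, mul_comm l, div_self (zpow_ne_zero _ hπ0.ne')]
    have h1' : ((unitsAt j (Γ ⊓ MulAction.stabilizer GQ ζ)).map h.Nm).relIndex (unitsAt j Γ) = 1 := by omega
    obtain ⟨z, hz, hzu⟩ := Subgroup.relIndex_eq_one.mp h1' hu
    refine ⟨z * P ^ l, mul_mem hz.1 (zpow_mem (fixU_anti h.le hP) l), ?_⟩
    rw [← h.Nm_apply, map_mul, hzu, h.Nm_of_fixed (zpow_mem hP l), div_mul_cancel]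

end Fermat.Agent.CFT.Brauer
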