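import Fermat.Agent.CFT.Brauer.LocalBrauer
import Fermat.Agent.GalCoh.Descent.Mu

/-!
From classes with values in `μ_p`, written additively on a group mapping to `G_ℚ`, to
multiplicative cocycles on the image, and back.
-/

set_option autoImplicit false
set_option backward.isDefEq.respectTransparency false

noncomputable section

namespace Fermat.Agent.CFT.Brauer

open ExtCitation
open Fermat.Agent.GalCoh (Levels fullLevels muRep)
open Fermat.Agent.GalCoh.Descent (mu muLog mu_ne_zero mu_pow mu_muLog mu_injective)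

variable (p : ℕ) [Fact p.Prime]

/-- `ZMod p` as roots of unity among the units. -/
def muU (x : ZMod p) : Qbˣ := Units.mk0 (mu p x) (mu_ne_zero x)

variable {p}

@[simp] lemma coe_muU (x : ZMod p) : (muU p x : Qb) = mu p x := rfl

lemma muU_injective : Function.Injective (muU p) := fun _ _ h =>
  mu_injective (p := p) (congrArg Units.val h)

lemma muU_add (x y : ZMod p) : muU p (x + y) = muU p x * muU p y :=
  Units.ext (GalCoh.Descent.mu_add x y)

lemma muU_zero : muU p (0 : ZMod p) = 1 := Units.ext GalCoh.Descent.mu_zero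

lemma muU_neg (x : ZMod p) : muU p (-x) = (muU p x)⁻¹ :=
  eq_inv_of_mul_eq_one_left (by rw [← muU_add, neg_add_cancel, muU_zero])

lemma muU_sub (x y : ZMod p) : muU p (x - y) = muU p x / muU p y := by
  rw [sub_eq_add_neg, muU_add, muU_neg, div_eq_mul_inv]

lemma muU_pow (x : ZMod p) : muU p x ^ p = 1 := Units.ext (by simpa using mu_pow x)

lemma muU_smul_eq_pow (a x : ZMod p) : muU p (a * x) = muU p x ^ a.val := by
  apply Units.ext
  rw [Units.val_pow_eq_pow_val, coe_muU, coe_muU, ← GalCoh.Descent.mu_natCast_mul,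
    ZMod.natCast_zmod_val]

lemma smul_muU (g : GQ) (x : ZMod p) : g • muU p x = muU p ((cycloChar p g : ZMod p) * x) :=
  Units.ext (GalCoh.Descent.apply_mu g x)

/-- Every `p`-th root of unity is of the form `muU p x`. -/
lemma muU_muLog {u : Qbˣ} (hu : u ^ p = 1) : muU p (muLog p (u : Qb)) = u :=
  Units.ext (mu_muLog (by rw [← Units.val_pow_eq_pow_val, hu, Units.val_one]))

variable (p) in
/-- A chosen `p`-th root. -/
def rootP (u : Qbˣ) : Qbˣ :=
  Units.mk0 (IsAlgClosed.exists_pow_nat_eq (u : Qb) (Nat.pos_of_ne_zero (NeZero.ne p))).choose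
    fun h0 => u.ne_zero <| by
      have h := (IsAlgClosed.exists_pow_nat_eq (u : Qb) (Nat.pos_of_ne_zero (NeZero.ne p))).choose_spec
      rwa [h0, zero_pow (NeZero.ne p), eq_comm] at h

lemma rootP_pow (u : Qbˣ) : rootP p u ^ p = u :=
  Units.ext (IsAlgClosed.exists_pow_nat_eq (u : Qb) (Nat.pos_of_ne_zero (NeZero.ne p))).choose_spec

lemma d1_pow (z : GQ → Qbˣ) (n : ℕ) (g h : GQ) : d1 (z ^ n) g h = d1 z g h ^ n := by
  induction n with
  | zero => simp
  | succ n ih => rw [pow_succ, d1_mul, ih, pow_succ]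

lemma d1_coboundary (c : Qbˣ) (g h : GQ) : d1 (fun r => r • c / c) g h = 1 := by
  simp only [d1, smul_div', ← mul_smul, div_mul_div_cancel, div_self']

lemma Cts₁.comp {Γ : Subgroup GQ} {X Y : Type} {z : GQ → X} (hz : Cts₁ Γ z) (φ : X → Y) :
    Cts₁ Γ (fun g => φ (z g)) := hz.map₂ hz fun x _ => φ x

lemma cts₁_smul (Γ : Subgroup GQ) (c : Qbˣ) : Cts₁ Γ (fun g => g • c) := by
  obtain ⟨F, hF, -, -, hc⟩ := exists_normal_level ⊥ {(c : Qb)}
  exact ⟨F, hF, fun g _ s _ hsF => by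
    simp only
    rw [mul_smul, smul_units_eq_self (fix_eq hsF (hc _ (Finset.mem_singleton_self _)))]⟩

lemma mem_B2_congr {Γ : Subgroup GQ} {F F' : GQ → GQ → Qbˣ}
    (h : ∀ g ∈ Γ, ∀ k ∈ Γ, F g k = F' g k) : F ∈ B2 Γ ↔ F' ∈ B2 Γ :=
  ⟨fun ⟨z, hz, e⟩ => ⟨z, hz, fun g hg k hk => (h g hg k hk).symm.trans (e g hg k hk)⟩,
    fun ⟨z, hz, e⟩ => ⟨z, hz, fun g hg k hk => (h g hg k hk).trans (e g hg k hk)⟩⟩

/-! ### Levels pulled back along a homomorphism -/

variable {G : Type} [Group G]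

/-- The levels `L` are the open subgroups of `G_ℚ` pulled back along `r`. -/
structure Pulled (L : Levels G) (r : G →* GQ) : Prop where
  mem_iff : ∀ U, L.mem U ↔
    ∃ F : IntermediateField ℚ Qb, FiniteDimensional ℚ F ∧ F.fixingSubgroup.comap r ≤ U

lemma pulled_comap (r : G →* GQ) : Pulled (fullLevels.comap r) r :=
  ⟨fun _ => ⟨fun ⟨_, ⟨F, hF, hFU⟩, hUV⟩ => ⟨F, hF, (Subgroup.comap_mono hFU).trans hUV⟩,
    fun ⟨F, hF, hFU⟩ => ⟨F.fixingSubgroup, ⟨F, hF, le_rfl⟩, hFU⟩⟩⟩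

lemma Pulled.comap {L : Levels G} {r : G →* GQ} (hL : Pulled L r) {G' : Type} [Group G']
    (φ : G' →* G) : Pulled (L.comap φ) (r.comp φ) := by
  refine ⟨fun V => ⟨fun ⟨U, hU, hUV⟩ => ?_, fun ⟨F, hF, hFU⟩ =>
    ⟨F.fixingSubgroup.comap r, (hL.mem_iff _).mpr ⟨F, hF, le_rfl⟩, by
      rwa [Subgroup.comap_comap]⟩⟩⟩
  obtain ⟨F, hF, hFU⟩ := (hL.mem_iff U).mp hU
  exact ⟨F, hF, by rw [← Subgroup.comap_comap]; exact (Subgroup.comap_mono hFU).trans hUV⟩

variable {L : Levels G} {r : G →* GQ} (hL : Pulled L r)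

variable (r) in
/-- A cochain on `G` as a multiplicative cochain on the image. -/
def toQ (f : G × G → ZMod p) : GQ → GQ → Qbˣ :=
  fun a b => muU p (f (Function.invFun r a, Function.invFun r b))

lemma toQ_sub (f f' : G × G → ZMod p) : toQ r (f - f') = toQ r f / toQ r f' := by
  funext a b; exact muU_sub _ _

lemma toQ_smul (a : ZMod p) (f : G × G → ZMod p) : toQ r (a • f) = toQ r f ^ a.val := by
  funext x y; exact muU_smul_eq_pow _ _

lemma toQ_pow_p (f : G × G → ZMod p) : toQ r f ^ p = 1 := by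
  funext a b; exact muU_pow _

include hL

lemma Pulled.mem_of_eq {U : Subgroup G} (hU : L.mem U) {x y : G} (h : r x = r y) :
    x⁻¹ * y ∈ U := by
  obtain ⟨F, -, hF⟩ := (hL.mem_iff U).mp hU
  exact hF (by simp [h])

lemma Pulled.cts₂_dep {X : Type} {f : G × G → X} (hf : L.IsCts₂ f) {x x' y y' : G}
    (hx : r x = r x') (hy : r y = r y') : f (x', y') = f (x, y) := by
  obtain ⟨U, hU, h⟩ := hf
  simpa using h x y _ (hL.mem_of_eq hU hx) _ (hL.mem_of_eq hU hy)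

lemma Pulled.toQ_apply {f : G × G → ZMod p} (hf : L.IsCts₂ f) (x y : G) :
    toQ r f (r x) (r y) = muU p (f (x, y)) :=
  congrArg (muU p) (hL.cts₂_dep hf (Function.invFun_eq (f := r) ⟨x, rfl⟩).symm
    (Function.invFun_eq (f := r) ⟨y, rfl⟩).symm)

lemma Pulled.toQ_mem_Z2 {f : G × G → ZMod p} (hf : f ∈ GalCoh.Z2 L ((muRep p).comp r)) :
    toQ r f ∈ Z2 r.range := by
  obtain ⟨hcoc, hcts⟩ := GalCoh.mem_Z2_iff.mp hf
  refine ⟨?_, ?_⟩
  · rintro _ ⟨g, rfl⟩ _ ⟨h, rfl⟩ _ ⟨j, rfl⟩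
    rw [← map_mul, ← map_mul, hL.toQ_apply hcts, hL.toQ_apply hcts, hL.toQ_apply hcts,
      hL.toQ_apply hcts, smul_muU, ← muU_add, ← muU_add]
    refine congrArg (muU p) ((hcoc g h j).trans ?_)
    rw [MonoidHom.comp_apply, GalCoh.muRep_apply]
  · obtain ⟨U, hU, h⟩ := id hcts
    obtain ⟨F, hF, hFU⟩ := (hL.mem_iff U).mp hU
    refine ⟨F, hF, ?_⟩
    rintro _ ⟨g, rfl⟩ _ ⟨k, rfl⟩ _ ⟨s, rfl⟩ _ ⟨t, rfl⟩ hsF htF
    rw [← map_mul, ← map_mul, hL.toQ_apply hcts, hL.toQ_apply hcts,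
      h g k s (hFU hsF) t (hFU htF)]

/-- Additive coboundaries are exactly the multiplicative ones. -/
theorem Pulled.mem_B2_iff {f : G × G → ZMod p} (hf : f ∈ GalCoh.Z2 L ((muRep p).comp r)) :
    f ∈ GalCoh.B2 L ((muRep p).comp r) ↔ toQ r f ∈ B2 r.range := by
  obtain ⟨-, hcts⟩ := GalCoh.mem_Z2_iff.mp hf
  constructor
  · intro h
    obtain ⟨x, ⟨U, hU, hxU⟩, rfl⟩ := GalCoh.mem_B2_iff.mp h
    obtain ⟨F, hF, hFU⟩ := (hL.mem_iff U).mp hU
    have hdep : ∀ {g g' : G}, r g = r g' → x g' = x g := fun {g g'} e => by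
      simpa using hxU g _ (hL.mem_of_eq hU e)
    have hx : ∀ g, muU p (x (Function.invFun r (r g))) = muU p (x g) := fun g =>
      congrArg _ (hdep (Function.invFun_eq (f := r) ⟨g, rfl⟩).symm)
    refine ⟨fun a => muU p (x (Function.invFun r a)), ⟨F, hF, ?_⟩, ?_⟩
    · rintro _ ⟨g, rfl⟩ _ ⟨s, rfl⟩ hsF
      simp only [← map_mul, hx, hxU g s (hFU hsF)]
    · rintro _ ⟨g, rfl⟩ _ ⟨h', rfl⟩
      rw [hL.toQ_apply hcts]
      simp only [d1, ← map_mul, hx, GalCoh.d1_apply, muU_add, muU_sub, MonoidHom.comp_apply,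
        GalCoh.muRep_apply, smul_muU]
      rw [div_mul_eq_mul_div]
  · rintro ⟨z, hz, hfz⟩
    obtain ⟨c, hc⟩ := hilbert90 (hz.comp (· ^ p)) fun a ha b hb => by
      have h := congrArg (· ^ p) (hfz a ha b hb)
      have hp1 : toQ r f a b ^ p = 1 := muU_pow _
      simp only [hp1, d1, div_pow, mul_pow] at h
      rw [smul_pow']
      exact div_eq_one.mp h.symm |>.symm
    let c' := rootP p c
    let w : GQ → Qbˣ := fun a => z a / (a • c' / c')
    have hwp : ∀ a ∈ r.range, w a ^ p = 1 := fun a ha => by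
      simp only [w, div_pow, ← smul_pow', c', rootP_pow, hc a ha, div_self']
    have hw : Cts₁ r.range w := hz.map₂ (cts₁_smul _ c') fun u v => u / (v / c')
    obtain ⟨F, hF, hwF⟩ := hw
    have hfw : ∀ a ∈ r.range, ∀ b ∈ r.range, toQ r f a b = d1 w a b := fun a ha b hb => by
      have : w = z * (fun a => a • c' / c')⁻¹ := funext fun _ => div_eq_mul_inv _ _
      rw [this, d1_mul, d1_inv, d1_coboundary, inv_one, mul_one, hfz a ha b hb]
    have hx : ∀ g, muU p (muLog p (w (r g) : Qb)) = w (r g) := fun g =>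
      muU_muLog (hwp _ ⟨g, rfl⟩)
    refine GalCoh.mem_B2_iff.mpr ⟨fun g => muLog p (w (r g) : Qb),
      ⟨F.fixingSubgroup.comap r, (hL.mem_iff _).mpr ⟨F, hF, le_rfl⟩, fun g s hs => ?_⟩, ?_⟩
    · simp only [map_mul, hwF _ ⟨g, rfl⟩ _ ⟨s, rfl⟩ hs]
    · funext ⟨g, h⟩
      apply muU_injective (p := p)
      rw [← hL.toQ_apply hcts, hfw _ ⟨g, rfl⟩ _ ⟨h, rfl⟩]
      simp only [d1, GalCoh.d1_apply, muU_add, muU_sub, MonoidHom.comp_apply, GalCoh.muRep_apply,
        ← smul_muU, hx, ← map_mul]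
      rw [div_mul_eq_mul_div]

/-- A multiplicative cocycle whose `p`-th power is a coboundary comes from `μ_p`. -/
theorem Pulled.exists_of_pow_mem_B2 {F : GQ → GQ → Qbˣ} (hF : F ∈ Z2 r.range)
    (hFp : F ^ p ∈ B2 r.range) :
    ∃ f ∈ GalCoh.Z2 L ((muRep p).comp r), toQ r f / F ∈ B2 r.range := by
  obtain ⟨z, hz, hzF⟩ := hFp
  let z' : GQ → Qbˣ := fun a => rootP p (z a)
  have hz' : Cts₁ r.range z' := hz.comp (rootP p)
  let F' := F / d1 z'
  have hF' : F' ∈ Z2 r.range := div_mem hF (d1_mem_Z2 hz')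
  have hF'p : ∀ a ∈ r.range, ∀ b ∈ r.range, F' a b ^ p = 1 := fun a ha b hb => by
    have e : z' ^ p = z := funext fun a => rootP_pow _
    simp only [F', Pi.div_apply, div_pow, ← d1_pow, e, div_eq_one]
    exact hzF a ha b hb
  let f : G × G → ZMod p := fun x => muLog p (F' (r x.1) (r x.2) : Qb)
  have hf : ∀ x y, muU p (f (x, y)) = F' (r x) (r y) := fun x y =>
    muU_muLog (hF'p _ ⟨x, rfl⟩ _ ⟨y, rfl⟩)
  obtain ⟨hcoc, E, hE, hcts⟩ := hF'
  have hfcts : L.IsCts₂ f := ⟨E.fixingSubgroup.comap r, (hL.mem_iff _).mpr ⟨E, hE, le_rfl⟩,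
    fun g h s hs t ht => by
      simp only [f, map_mul, hcts _ ⟨g, rfl⟩ _ ⟨h, rfl⟩ _ ⟨s, rfl⟩ _ ⟨t, rfl⟩ hs ht]⟩
  refine ⟨f, GalCoh.mem_Z2_iff.mpr ⟨fun g h j => muU_injective (p := p) ?_, hfcts⟩, ?_⟩
  · simp only [muU_add, MonoidHom.comp_apply, GalCoh.muRep_apply, ← smul_muU, hf, map_mul]
    exact hcoc _ ⟨g, rfl⟩ _ ⟨h, rfl⟩ _ ⟨j, rfl⟩
  · refine (mem_B2_congr (F' := (d1 z')⁻¹) ?_).mpr (inv_mem (d1_mem_B2 hz'))
    rintro _ ⟨g, rfl⟩ _ ⟨h, rfl⟩
    simp only [Pi.div_apply, hL.toQ_apply hfcts, hf, F', div_div_cancel_left, Pi.inv_apply]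

/-- Restriction of cochains is restriction to a smaller image. -/
theorem Pulled.toQ_comp {G' : Type} [Group G'] (φ : G' →* G) {f : G × G → ZMod p}
    (hf : L.IsCts₂ f) {a b : GQ} (ha : a ∈ (r.comp φ).range) (hb : b ∈ (r.comp φ).range) :
    toQ (r.comp φ) (fun x => f (φ x.1, φ x.2)) a b = toQ r f a b := by
  obtain ⟨x, rfl⟩ := ha
  obtain ⟨y, rfl⟩ := hb
  refine congrArg (muU p) (hL.cts₂_dep hf ?_ ?_)
  · refine (Function.invFun_eq (f := r) ⟨φ x, rfl⟩).trans ?_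
    exact (Function.invFun_eq (f := r.comp φ) ⟨x, rfl⟩).symm
  · refine (Function.invFun_eq (f := r) ⟨φ y, rfl⟩).trans ?_
    exact (Function.invFun_eq (f := r.comp φ) ⟨y, rfl⟩).symm

end Fermat.Agent.CFT.Brauer
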