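import Fermat.Agent.CFT.Brauer.Bridge
import Fermat.Agent.CFT.Brauer.Hasse
import Fermat.Agent.CFT.ProductFormula
import Mathlib.NumberTheory.Multiplicity

/-!
No class of order `p` is supported at a single place, finite or real.
-/

set_option autoImplicit false
set_option backward.isDefEq.respectTransparency false

noncomputable section

namespace Fermat.Agent.CFT.Brauer

open ExtCitation NumberField IsDedekindDomain
open scoped Classical
open Fermat.Agent.GalCoh (fullLevels SamePlace conjLoc)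
open Fermat.Agent.GalCoh.Descent (fieldPlace fieldPrime)
open scoped Pointwise

/-! ### Representatives of places -/

lemma placeAt_eq_of_samePlace {H : Subgroup GQ} (_hH : fullLevels.mem H) [NumberField (fixF H)]
    (ℓ : Nat.Primes) (g₀ : GQ) {x : GQ} (hx : x ∈ H) (d : GalCoh.placeGroup (Sum.inr ℓ)) :
    placeAt (fixF H) ℓ (x * g₀ * GalCoh.placeLoc (Sum.inr ℓ) d) = placeAt (fixF H) ℓ g₀ := by
  have : Fact (ℓ : ℕ).Prime := ⟨ℓ.2⟩
  have hd : GalCoh.placeLoc (Sum.inr ℓ) d • primeLocalPlace ℓ = primeLocalPlace ℓ :=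
    localGaloisToGlobal_mem_decompositionSubgroup (ℓ : ℕ) d
  refine HeightOneSpectrum.ext (Ideal.ext fun b => ?_)
  show b ∈ fieldPrime ((x * g₀ * GalCoh.placeLoc (Sum.inr ℓ) d) • primeLocalPlace ℓ) (fixF H) ↔
    b ∈ fieldPrime (g₀ • primeLocalPlace ℓ) (fixF H)
  rw [mul_smul, mul_smul, hd, GalCoh.Descent.mem_fieldPrime, GalCoh.Descent.mem_fieldPrime,
    GalCoh.mem_nonunits_smul_iff]
  have e : x.symm ((b : fixF H) : Qb) = ((b : fixF H) : Qb) := by
    rw [AlgEquiv.symm_apply_eq]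
    exact (mem_fixF.mp (b : fixF H).2 x hx).symm
  rw [e]

lemma phiAt_eq_of_samePlace {H : Subgroup GQ} {g₀ g : GQ} (hg₀ : archConj g₀ ∈ H)
    (hs : SamePlace H (Sum.inl ()) g₀ (Sum.inl ()) g) (y : fixF H) :
    phiAt g (y : Qb) = phiAt g₀ (y : Qb) := by
  obtain ⟨-, x, hx, d, rfl⟩ := hs
  have hc : conjLoc (Sum.inl ()) g₀ d ∈ H := by
    rcases eq_one_or_of_mem_range g₀ ⟨d, rfl⟩ with e | e <;> rw [e]
    · exact H.one_mem
    · exact hg₀
  have e : (x * g₀ * GalCoh.placeLoc (Sum.inl ()) d)⁻¹ =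
      g₀⁻¹ * (x * conjLoc (Sum.inl ()) g₀ d)⁻¹ := by
    show _ = g₀⁻¹ * (x * (g₀ * GalCoh.placeLoc (Sum.inl ()) d * g₀⁻¹))⁻¹
    group
  show complexEmbedding (((x * g₀ * GalCoh.placeLoc (Sum.inl ()) d)⁻¹ : GQ) (y : Qb)) =
    complexEmbedding ((g₀⁻¹ : GQ) (y : Qb))
  rw [e, AlgEquiv.mul_apply, mem_fixF.mp y.2 _ (inv_mem (H.mul_mem hx hc))]

/-- The residue cardinality at `jAt ℓ g` is the norm of the place. -/
theorem resCard_eq_absNorm {H : Subgroup GQ} (hH : fullLevels.mem H) [NumberField (fixF H)]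
    (ℓ : Nat.Primes) [Fact (ℓ : ℕ).Prime] (g : GQ) :
    resCard (jAt ℓ g) (locG H (Sum.inr ℓ) g) =
      Ideal.absNorm (placeAt (fixF H) ℓ g).asIdeal := by
  set v := placeAt (fixF H) ℓ g
  set D := locG H (Sum.inr ℓ) g
  set j := jAt ℓ g
  have hD := localAt_locG ℓ g hH
  obtain ⟨k, hk⟩ := Int.eq_ofNat_of_zero_le (ordv_placeAt_pos (fixF H) ℓ g).le
  have hk0 : k ≠ 0 := fun e => by
    have := ordv_placeAt_pos (fixF H) ℓ g
    omega
  have hl0 : (0 : ℝ) < (ℓ : ℝ)⁻¹ := inv_pos.mpr (Nat.cast_pos.mpr ℓ.2.pos)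
  have hl1 : (ℓ : ℝ)⁻¹ < 1 := inv_lt_one_of_one_lt₀ (Nat.one_lt_cast.mpr ℓ.2.one_lt)
  have hle : ∀ y : fixF H, y ≠ 0 → (‖j (y : Qb)‖ ≤ 1 ↔ 0 ≤ ordv v y) := fun y hy => by
    have h1 := norm_jAt_rel (fixF H) ℓ g hy
    rw [hk, zpow_natCast] at h1
    rw [← pow_le_one_iff_of_nonneg (norm_nonneg _) hk0, h1]
    exact zpow_le_one_iff_right_of_lt_one₀ hl0 hl1
  have hint : ∀ r : 𝓞 (fixF H), ((r : fixF H) : Qb) ∈ intsAt j := fun r => by
    rw [mem_intsAt]
    rcases eq_or_ne (r : fixF H) 0 with h0 | h0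
    · simp [h0]
    · exact (hle _ h0).mpr (ordv_algebraMap_nonneg v r)
  let ι : 𝓞 (fixF H) →+* intsAt j :=
    ((fixF H).val.toRingHom.comp (algebraMap (𝓞 (fixF H)) (fixF H))).codRestrict _ hint
  let φ : 𝓞 (fixF H) →+* resField j D := ((resAt j).comp ι).codRestrict _ fun r =>
    ⟨ι r, fixF_anti (locG_le _ _ _) (r : fixF H).2, rfl⟩
  have hker : ∀ r ∈ v.asIdeal, φ r = 0 := fun r hr => by
    refine Subtype.ext (res_eq_zero_iff.mpr ?_)
    show ‖j ((r : fixF H) : Qb)‖ < 1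
    rcases eq_or_ne r 0 with rfl | h0
    · simp
    have h1 := norm_jAt_rel (fixF H) ℓ g (x := (r : fixF H)) (by simpa using h0)
    have h2 : 1 ≤ ordv v (r : fixF H) := (one_le_ordv_algebraMap_iff v h0).mpr hr
    rw [hk, zpow_natCast] at h1
    refine lt_of_pow_lt_pow_left₀ k zero_le_one ?_
    rw [h1, one_pow]
    exact (zpow_lt_zpow_right_of_lt_one₀ hl0 hl1 (lt_of_lt_of_le (zero_lt_one : (0 : ℤ) < 1) h2)).trans_eq (zpow_zero _)
  let ψ := Ideal.Quotient.lift v.asIdeal φ hker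
  have := v.isMaximal
  let _ : Field (𝓞 (fixF H) ⧸ v.asIdeal) := Ideal.Quotient.field v.asIdeal
  have hψ : Function.Bijective ψ := by
    refine ⟨ψ.injective, fun c => ?_⟩
    obtain ⟨x, hx, hxc⟩ := c.2
    obtain ⟨_, ⟨y, hy, rfl⟩, hy'⟩ := Metric.mem_closure_iff.mp
      (mem_closure_image hH ℓ g hx) 1 one_pos
    rw [dist_eq_norm, ← norm_neg, neg_sub, ← map_sub] at hy'
    have hyle : ‖j y‖ ≤ 1 := by
      rw [← add_sub_cancel (x : Qb) y]
      exact (norm_map_add_le _ _).trans (max_le x.2 hy'.le)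
    have hc : resAt j ⟨y, hyle⟩ = c := hxc ▸ res_eq_iff.mpr hy'
    rcases eq_or_ne (⟨y, hy⟩ : fixF H) 0 with h0 | h0
    · refine ⟨0, Subtype.ext ?_⟩
      rw [map_zero, ← hc, show (⟨y, hyle⟩ : intsAt j) = 0 from
        Subtype.ext (show y = 0 from congrArg Subtype.val h0), map_zero]
      rfl
    have ho : 0 ≤ ordv v (⟨y, hy⟩ : fixF H) := (hle _ h0).mp hyle
    obtain ⟨n, ⟨d, hd⟩, hnd⟩ := v.exists_primeCompl_mul_eq_or_mul_eq (⟨y, hy⟩ : fixF H)
    have hd0 : d ≠ 0 := fun e => hd (e ▸ zero_mem v.asIdeal)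
    obtain ⟨a, b, hb, he⟩ : ∃ a b : 𝓞 (fixF H), b ∉ v.asIdeal ∧
        (⟨y, hy⟩ : fixF H) * (b : fixF H) = (a : fixF H) := by
      rcases hnd with e | e
      · exact ⟨n, d, hd, e⟩
      · refine ⟨d, n, fun hn => ?_, e⟩
        have hn0 : n ≠ 0 := fun e0 => hd0 (by
          simpa [e0] using e.symm)
        have h1 : ordv v ((⟨y, hy⟩ : fixF H) * algebraMap (𝓞 (fixF H)) (fixF H) n) =
            ordv v (algebraMap (𝓞 (fixF H)) (fixF H) d) := congrArg (ordv v) e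
        rw [ordv_mul v h0 (by simpa using hn0)] at h1
        have h2 := (one_le_ordv_algebraMap_iff v hn0).mpr hn
        have h3 := mt (one_le_ordv_algebraMap_iff v hd0).mp hd
        omega
    have hb' : ψ (Ideal.Quotient.mk v.asIdeal b) ≠ 0 := (map_ne_zero_iff _ ψ.injective).mpr
      (mt Ideal.Quotient.eq_zero_iff_mem.mp hb)
    refine ⟨Ideal.Quotient.mk v.asIdeal a * (Ideal.Quotient.mk v.asIdeal b)⁻¹, ?_⟩
    rw [map_mul, map_inv₀, mul_inv_eq_iff_eq_mul₀ hb']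
    refine Subtype.ext ?_
    show resAt j (ι a) = (c : ResAt j) * resAt j (ι b)
    rw [← hc, ← map_mul]
    exact congrArg _ (Subtype.ext (congrArg Subtype.val he).symm)
  rw [resCard, Ideal.absNorm_apply, Submodule.cardQuot_apply]
  exact (Nat.card_eq_of_bijective ψ hψ).symm

/-- Residue degrees are bounded by the degree. -/
theorem exists_resDeg_bound {H : Subgroup GQ} (hH : fullLevels.mem H) [NumberField (fixF H)]
    (ℓ : Nat.Primes) [Fact (ℓ : ℕ).Prime] : ∃ B : ℕ, ∀ g : GQ, ∀ f : ℕ,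
      resCard (jAt ℓ g) (locG H (Sum.inr ℓ) g) = (ℓ : ℕ) ^ f → f ≤ B := by
  refine ⟨Module.finrank ℤ (𝓞 (fixF H)), fun g f hf => ?_⟩
  rw [resCard_eq_absNorm hH] at hf
  have h1 := Ideal.absNorm_dvd_absNorm_of_le ((Ideal.span_singleton_le_iff_mem _).mpr
    (natCast_mem_placeAt (fixF H) ℓ g))
  rw [hf, Ideal.absNorm_span_singleton,
    show (((ℓ : ℕ) : 𝓞 (fixF H))) = algebraMap ℤ (𝓞 (fixF H)) (ℓ : ℕ) by simp,
    Algebra.norm_algebraMap, Int.natAbs_pow, Int.natAbs_natCast] at h1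
  exact (Nat.pow_dvd_pow_iff_le_right ℓ.2.one_lt).mp h1

/-! ### An auxiliary prime -/

/-- A prime modulo which `ℓ` has order `p ^ t`. -/
theorem exists_prime_orderOf {p : ℕ} (hp : p.Prime) {ℓ : ℕ} (hℓ : ℓ.Prime) {t : ℕ} (ht : 2 ≤ t) :
    ∃ q : ℕ, ∃ _ : Fact q.Prime, q ≠ 2 ∧ q ≠ ℓ ∧ orderOf (ℓ : ZMod q) = p ^ t := by
  obtain ⟨s, rfl⟩ : ∃ s, t = s + 1 := ⟨t - 1, by omega⟩
  set x := ℓ ^ p ^ s with hx
  have hx2 : 2 ≤ x := le_trans hℓ.two_le (Nat.le_self_pow (pow_ne_zero _ hp.ne_zero) ℓ)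
  set G := ∑ i ∈ Finset.range p, x ^ i with hG
  have hGp : p < G := by
    calc p = ∑ _i ∈ Finset.range p, 1 := by simp
      _ < G := Finset.sum_lt_sum (fun i _ => Nat.one_le_pow i x (by omega))
        ⟨1, Finset.mem_range.mpr hp.one_lt, by rw [pow_one]; omega⟩
  have hsq : ¬ p ^ 2 ∣ G := by
    intro hdvd
    have := Fact.mk hp
    by_cases hx1 : (x : ZMod p) = 1
    · rcases hp.eq_two_or_odd' with rfl | hodd
      · have hG2 : G = x + 1 := by simp [hG, Finset.sum_range_succ, add_comm]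
        obtain ⟨w, hw⟩ : ∃ w, x = w * w := by
          refine ⟨ℓ ^ 2 ^ (s - 1), ?_⟩
          rw [hx, ← pow_add, ← two_mul, ← pow_succ', Nat.sub_add_cancel (by omega : 1 ≤ s)]
        rw [hG2, hw, ← ZMod.natCast_eq_zero_iff] at hdvd
        push_cast at hdvd
        have key : ∀ y : ZMod (2 ^ 2), y * y + 1 ≠ 0 := by decide
        exact key _ hdvd
      · obtain ⟨y, hy⟩ : (p : ℤ) ∣ (x : ℤ) - 1 := by
          rw [← ZMod.intCast_zmod_eq_zero_iff_dvd]
          push_cast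
          rw [hx1, sub_self]
        have h := odd_sq_dvd_geom_sum₂_sub (R := ℤ) (a := 1) (b := y) hodd
        have hd : (p : ℤ) ^ 2 ∣ (G : ℤ) := by exact_mod_cast hdvd
        have h2 : (∑ i ∈ Finset.range p, ((1 : ℤ) + p * y) ^ i * 1 ^ (p - 1 - i)) = (G : ℤ) := by
          rw [hG, ← hy]
          push_cast
          exact Finset.sum_congr rfl fun i _ => by rw [one_pow, mul_one, add_sub_cancel]
        rw [h2, one_pow, mul_one] at h
        have h3 : (p : ℤ) ^ 2 ∣ (p : ℤ) := by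
          have := dvd_sub hd h
          rwa [sub_sub_cancel] at this
        have h4 : p ^ 2 ∣ p := by exact_mod_cast h3
        have := Nat.le_of_dvd hp.pos h4
        nlinarith [hp.two_le]
    · have hG0 : ((G : ℕ) : ZMod p) = 0 :=
        (ZMod.natCast_eq_zero_iff _ _).mpr ((dvd_pow_self p two_ne_zero).trans hdvd)
      have h := geom_sum_mul (x : ZMod p) p
      rw [hG] at hG0
      push_cast at hG0
      rw [hG0, zero_mul, ZMod.pow_card, eq_comm, sub_eq_zero] at h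
      exact hx1 h
  obtain ⟨q, hq, hqG, hqp⟩ : ∃ q, q.Prime ∧ q ∣ G ∧ q ≠ p := by
    by_contra hno
    push Not at hno
    have hall := Nat.eq_prime_pow_of_unique_prime_dvd (by omega : G ≠ 0)
      (fun {d} hd hdG => hno d hd hdG)
    refine hsq ?_
    rw [hall]
    refine pow_dvd_pow p ?_
    by_contra hlt
    rw [hall] at hGp
    exact absurd hGp (not_lt.mpr (le_trans (Nat.pow_le_pow_right hp.pos
      (show G.primeFactorsList.length ≤ 1 by omega)) (pow_one p).le))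
  have := Fact.mk hq
  have hG0 : ((G : ℕ) : ZMod q) = 0 := (ZMod.natCast_eq_zero_iff _ _).mpr hqG
  rw [hG] at hG0
  push_cast at hG0
  have hx1 : (x : ZMod q) ≠ 1 := fun h1 => by
    simp only [h1, one_pow, Finset.sum_const, Finset.card_range, nsmul_eq_mul, mul_one,
      ZMod.natCast_eq_zero_iff] at hG0
    exact hqp ((Nat.prime_dvd_prime_iff_eq hq hp).mp hG0)
  have hx0 : (x : ZMod q) ≠ 0 := fun h0 => by
    rw [h0, ← Finset.sum_range_add_sum_Ico _ hp.pos, Finset.sum_range_one, pow_zero,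
      Finset.sum_eq_zero fun i hi => zero_pow (by
        have := (Finset.mem_Ico.mp hi).1
        omega), add_zero] at hG0
    exact one_ne_zero hG0
  have hxp : (x : ZMod q) ^ p = 1 := by
    have h := geom_sum_mul (x : ZMod q) p
    rwa [hG0, zero_mul, eq_comm, sub_eq_zero] at h
  refine ⟨q, ⟨hq⟩, fun h2 => ?_, fun hql => hx0 ?_, ?_⟩
  · subst h2
    exact (Fin.forall_fin_two (p := fun y : ZMod 2 => y = 0 ∨ y = 1)).mpr
      ⟨Or.inl rfl, Or.inr rfl⟩ (x : ZMod 2) |>.elim hx0 hx1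
  · rw [hx, Nat.cast_pow]
    subst hql
    rw [ZMod.natCast_self, zero_pow (pow_ne_zero _ hp.ne_zero)]
  · have := Fact.mk hp
    refine orderOf_eq_prime_pow (fun h => hx1 ?_) ?_
    · rw [hx, Nat.cast_pow, h]
    · rw [pow_succ, pow_mul, ← Nat.cast_pow, ← hx, hxp]

/-! ### Cyclotomic pairs -/

/-- `H` over the stabiliser of a root of unity of prime order is cyclic. -/
theorem exists_cyclicOver_root (H : Subgroup GQ) {q : ℕ} [Fact q.Prime] {ζ : Qb}
    (hζ : IsPrimitiveRoot ζ q) :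
    ∃ (σ : GQ) (n : ℕ), CyclicOver H (H ⊓ MulAction.stabilizer GQ ζ) σ n := by
  set χ := hζ.autToPow ℚ
  have hker : ∀ g : GQ, χ g = 1 ↔ g ζ = ζ := fun g => by
    have hs := hζ.autToPow_spec ℚ g
    constructor
    · intro h1
      have : Fact (1 < q) := ⟨(Fact.out : q.Prime).one_lt⟩
      rw [← hs, h1, Units.val_one, ZMod.val_one, pow_one]
    · intro h1
      have : Fact (1 < q) := ⟨(Fact.out : q.Prime).one_lt⟩
      rw [h1] at hs
      have h2 := hζ.pow_inj (ZMod.val_lt _) (Fact.out : q.Prime).one_lt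
        (hs.trans (pow_one ζ).symm)
      refine Units.ext ?_
      rw [Units.val_one, ← ZMod.natCast_zmod_val ((χ g : (ZMod q)ˣ) : ZMod q), h2, Nat.cast_one]
  obtain ⟨⟨y, hy⟩, hgen⟩ := IsCyclic.exists_monoid_generator (α := ↥(H.map χ))
  obtain ⟨σ, hσ, rfl⟩ := hy
  have hmem : ∀ g, g ∈ H ⊓ MulAction.stabilizer GQ ζ ↔ g ∈ H ∧ χ g = 1 := fun g => by
    rw [Subgroup.mem_inf, MulAction.mem_stabilizer_iff, AlgEquiv.smul_def, hker]
  refine ⟨σ, orderOf (χ σ),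
    { isOpen := ⟨inf_le_left, IntermediateField.adjoin ℚ {ζ},
        IntermediateField.adjoin.finiteDimensional (Algebra.IsIntegral.isIntegral ζ),
        fun g hg hgF => ⟨hg, MulAction.mem_stabilizer_iff.mpr
          (fix_eq hgF (IntermediateField.mem_adjoin_simple_self ℚ ζ))⟩⟩
      mem := hσ
      pos := orderOf_pos _
      conj := fun g hg s hs => ?_
      cover := fun g hg => ?_
      pow_mem_iff := fun i => ?_ }⟩
  · obtain ⟨hsH, hs1⟩ := (hmem s).mp hs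
    refine (hmem _).mpr ⟨H.mul_mem (H.mul_mem (H.inv_mem hg) hsH) hg, ?_⟩
    rw [map_mul, map_mul, hs1, mul_one, map_inv, inv_mul_cancel]
  · obtain ⟨i, hi⟩ := Submonoid.mem_powers_iff _ _ |>.mp (hgen ⟨χ g, g, hg, rfl⟩)
    refine ⟨i, (hmem _).mpr ⟨H.mul_mem (H.inv_mem (H.pow_mem hσ i)) hg, ?_⟩⟩
    rw [map_mul, map_inv, map_pow, inv_mul_eq_one]
    exact congrArg Subtype.val hi
  · rw [orderOf_dvd_iff_pow_eq_one, ← map_pow, hmem]
    exact and_iff_right (H.pow_mem hσ i)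

/-! ### Real places and signs -/

/-- The norm as a product over the infinite places. -/
lemma norm_rat_eq_prod {K : Type} [Field K] [NumberField K] (x : K) :
    (Algebra.norm ℚ x : ℝ) = ∏ w : InfinitePlace K,
      if w.IsReal then (w.embedding x).re else Complex.normSq (w.embedding x) := by
  have key : ((Algebra.norm ℚ x : ℚ) : ℂ) = ((∏ w : InfinitePlace K,
      if w.IsReal then (w.embedding x).re else Complex.normSq (w.embedding x) : ℝ) : ℂ) := by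
    rw [← eq_ratCast (algebraMap ℚ ℂ), Algebra.norm_eq_prod_embeddings,
      ← Fintype.prod_equiv (RingHom.equivRatAlgHom K ℂ) (fun φ : K →+* ℂ ↦ φ x)
        (fun φ : K →ₐ[ℚ] ℂ ↦ φ x) fun _ ↦ rfl,
      ← Finset.prod_fiberwise Finset.univ InfinitePlace.mk, Complex.ofReal_prod]
    refine Finset.prod_congr rfl fun w _ ↦ ?_
    have hfib : Finset.univ.filter (fun φ : K →+* ℂ ↦ InfinitePlace.mk φ = w) =
        {w.embedding, ComplexEmbedding.conjugate w.embedding} := by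
      ext φ
      simp only [Finset.mem_filter, Finset.mem_univ, true_and, Finset.mem_insert,
        Finset.mem_singleton]
      conv_lhs => rw [← InfinitePlace.mk_embedding w, eq_comm, InfinitePlace.mk_eq_iff]
      exact ⟨fun h ↦ h.imp Eq.symm Eq.symm, fun h ↦ h.imp Eq.symm Eq.symm⟩
    rw [hfib]
    by_cases hw : w.IsReal
    · have e : ComplexEmbedding.conjugate w.embedding = w.embedding :=
        ComplexEmbedding.isReal_iff.mp (InfinitePlace.isReal_iff.mp hw)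
      rw [if_pos hw, e, Finset.pair_eq_singleton, Finset.prod_singleton]
      exact (Complex.conj_eq_iff_re.mp (congrArg (fun f => f x) e)).symm
    · have hne : ComplexEmbedding.conjugate w.embedding ≠ w.embedding := fun e ↦
        hw (InfinitePlace.isReal_iff.mpr (ComplexEmbedding.isReal_iff.mpr e))
      rw [if_neg hw, Finset.prod_insert (by simpa using hne.symm), Finset.prod_singleton,
        ComplexEmbedding.conjugate_coe_eq, Complex.mul_conj]
  exact_mod_cast key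

lemma norm_rat_pos_of_real {K : Type} [Field K] [NumberField K] {x : K} (hx : x ≠ 0)
    (h : ∀ w : InfinitePlace K, w.IsReal → 0 < (w.embedding x).re) : 0 < Algebra.norm ℚ x := by
  rw [← Rat.cast_pos (K := ℝ), norm_rat_eq_prod]
  refine Finset.prod_pos fun w _ => ?_
  split_ifs with hw
  · exact h w hw
  · exact Complex.normSq_pos.mpr (by simpa using hx)

lemma norm_rat_neg_of_single {K : Type} [Field K] [NumberField K] {x : K} (hx : x ≠ 0)
    {w₀ : InfinitePlace K} (hw₀ : w₀.IsReal) (h₀ : (w₀.embedding x).re < 0)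
    (h : ∀ w : InfinitePlace K, w.IsReal → w ≠ w₀ → 0 < (w.embedding x).re) :
    Algebra.norm ℚ x < 0 := by
  rw [← Rat.cast_lt_zero (K := ℝ), norm_rat_eq_prod,
    ← Finset.mul_prod_erase _ _ (Finset.mem_univ w₀), if_pos hw₀]
  refine mul_neg_of_neg_of_pos h₀ (Finset.prod_pos fun w hw => ?_)
  split_ifs with hwr
  · exact h w hwr (Finset.ne_of_mem_erase hw)
  · exact Complex.normSq_pos.mpr (by simpa using hx)

/-- A real place of a fixed field comes from a conjugate of complex conjugation inside the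
group. -/
theorem exists_archConj_of_isReal {H : Subgroup GQ} (hH : fullLevels.mem H) {w : InfinitePlace (fixF H)}
    (hw : w.IsReal) :
    ∃ g, archConj g ∈ H ∧ ∀ x : fixF H, phiAt g (x : Qb) = w.embedding x := by
  obtain ⟨g, hg⟩ := exists_phiAt_eq_embedding (K := fixF H) w.embedding
  refine ⟨g, mem_of_fix hH fun x hx => (phiAt g).injective ?_, fun x => hg x⟩
  have h1 : starRingEnd ℂ (w.embedding ⟨x, hx⟩) = w.embedding ⟨x, hx⟩ :=
    RingHom.congr_fun (ComplexEmbedding.isReal_iff.mp (InfinitePlace.isReal_iff.mp hw)) ⟨x, hx⟩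
  rw [phiAt_archConj, show phiAt g x = w.embedding ⟨x, hx⟩ from hg ⟨x, hx⟩]
  exact h1

/-! ### The cyclotomic quotient -/

section Cyclotomic

variable {H : Subgroup GQ} {q : ℕ} [Fact q.Prime] {ζ : Qb} (hζ : IsPrimitiveRoot ζ q) {σ : GQ}
  {n : ℕ} (h : CyclicOver H (H ⊓ MulAction.stabilizer GQ ζ) σ n)

include hζ in
lemma archConj_not_mem_root (hq2 : q ≠ 2) (g : GQ) :
    archConj g ∉ MulAction.stabilizer GQ ζ := fun hc => by
  have hq3 : 2 < q := lt_of_le_of_ne (Fact.out : q.Prime).two_le hq2.symm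
  have hc' : archConj g ζ = ζ := hc
  have h1 := phiAt_archConj g ζ
  rw [hc'] at h1
  obtain ⟨r, hr⟩ := Complex.conj_eq_iff_real.mp h1.symm
  have hr' : IsPrimitiveRoot r q := by
    refine IsPrimitiveRoot.of_map_of_injective (f := Complex.ofRealHom) ?_ Complex.ofReal_injective
    show IsPrimitiveRoot (r : ℂ) q
    exact hr ▸ hζ.map_of_injective (phiAt g).injective
  have habs : |r| = 1 := by
    refine (pow_eq_one_iff_of_nonneg (abs_nonneg r) (show q ≠ 0 by omega)).mp ?_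
    rw [← abs_pow, hr'.pow_eq_one, abs_one]
  have := Nat.le_of_dvd two_pos (hr'.dvd_of_pow_eq_one 2 (by rw [← sq_abs, habs, one_pow]))
  omega

include hζ in
/-- The sign at a real place of the element of a class trivial there. -/
lemma pos_iff_mem_B2 (hq2 : q ≠ 2) {a : Qbˣ} (ha : a ∈ fixU H) {g : GQ} (hg : archConj g ∈ H)
    (u : Unit) : h.fa a ∈ B2 (locG H (Sum.inl u) g) ↔ 0 < (phiAt g (a : Qb)).re := by
  set C := Subgroup.zpowers (archConj g)
  have hCH : C ≤ H := Subgroup.zpowers_le.mpr hg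
  have hD : locG H (Sum.inl u) g = C := by
    rw [locG_eq, range_conjLoc_inl, inf_eq_right]; exact hCH
  rw [hD]
  obtain ⟨d, τ, -, h', hidx, hfa⟩ := h.exists_inf hCH
  have hbot : C ⊓ (H ⊓ MulAction.stabilizer GQ ζ) = ⊥ := by
    rw [eq_bot_iff]
    rintro x ⟨hx, -, hxs⟩
    have hx' : x ∈ (conjLoc (Sum.inl u) g).range := by rwa [range_conjLoc_inl]
    rcases eq_one_or_of_mem_range g hx' with rfl | rfl
    · exact one_mem _
    · exact absurd hxs (archConj_not_mem_root hζ hq2 g)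
  have hn2 : n / d = 2 := by
    have := h'.relIndex_eq
    rwa [hbot, relIndex_bot_zpowers_archConj, eq_comm] at this
  have key : ∀ x ∈ C, h'.idx x = (cyclicOver_arch g).idx x := fun x hx => by
    have hx' : x ∈ (conjLoc (Sum.inl u) g).range := by rwa [range_conjLoc_inl]
    rcases eq_one_or_of_mem_range g hx' with rfl | rfl
    · rw [h'.idx_of_mem (one_mem _), (cyclicOver_arch g).idx_of_mem (one_mem _)]
    · have h1 : h'.idx (archConj g) = 1 := by
        have hne : h'.idx (archConj g) ≠ 0 := fun h0 => by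
          have hmem := h'.mem_of_idx_eq_zero hx h0
          rw [hbot, Subgroup.mem_bot] at hmem
          exact archConj_ne_one g hmem
        have := h'.idx_lt (archConj g)
        omega
      rw [h1]
      have := (cyclicOver_arch g).idx_pow 1
      rwa [pow_one, eq_comm] at this
  rw [← fa_mem_B2_arch_iff g (fixU_anti hCH ha)]
  refine mem_B2_congr fun x hx y hy => ?_
  rw [hfa a x hx y hy]
  simp only [CyclicOver.fa]
  rw [key x hx, key y hy, hn2]

variable (hH : fullLevels.mem H)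

include hH in
/-- The product formula for classes split by a root of unity. -/
theorem prod_rmod_of_mem_B2 [NumberField (fixF H)] (hζ : IsPrimitiveRoot ζ q) (hq2 : q ≠ 2)
    {a : Qbˣ} (ha : a ∈ fixU H) (T : Finset (HeightOneSpectrum (𝓞 (fixF H))))
    (hTq : ∀ u ∈ T, (q : 𝓞 (fixF H)) ∉ u.asIdeal)
    (hloc : ∀ (ℓ : Nat.Primes) (g : GQ), placeAt (fixF H) ℓ g ∉ T →
      h.fa a ∈ B2 (locG H (Sum.inr ℓ) g)) :
    ∏ u ∈ T, rmod q u ^ ordv u (⟨(a : Qb), mem_fixU.mp ha⟩ : fixF H) =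
      if 0 < Algebra.norm ℚ (⟨(a : Qb), mem_fixU.mp ha⟩ : fixF H) then 1 else -1 := by
  have := h.numberField_top hH
  obtain ⟨hgal, hdeg, -⟩ := h.top_spec hH
  let ζM : h.top := ⟨ζ, (IntermediateField.mem_extendScalars _).mpr
    (mem_fixF.mpr fun s hs => hs.2)⟩
  have hζM : IsPrimitiveRoot ζM q :=
    IsPrimitiveRoot.of_map_of_injective (f := h.top.val) hζ Subtype.val_injective
  have hgen : ∀ τ : h.top ≃ₐ[fixF H] h.top, τ ζM = ζM → τ = 1 := by
    intro τ hτ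
    let γ : GQ := (τ.restrictScalars ℚ).liftNormal Qb
    have hγ : ∀ x : h.top, γ (x : Qb) = ((τ x : h.top) : Qb) := fun x =>
      AlgEquiv.liftNormal_commutes (τ.restrictScalars ℚ) Qb x
    have hγH : γ ∈ H := mem_of_fix hH fun x hx => by
      have := hγ (algebraMap (fixF H) h.top ⟨x, hx⟩)
      rwa [τ.commutes] at this
    have hγζ : γ ζ = ζ := by
      have := hγ ζM
      rwa [hτ] at this
    refine AlgEquiv.ext fun x => Subtype.ext ?_
    rw [← hγ x]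
    exact mem_fixF.mp (h.coe_top_mem x) γ ⟨hγH, hγζ⟩
  have key : ∀ u, u ∉ T → IsLocalNormAt (fixF H) h.top u ⟨(a : Qb), mem_fixU.mp ha⟩ := by
    intro u hu
    obtain ⟨ℓ, g, rfl⟩ := exists_placeAt_eq (fixF H) u
    exact h.isLocalNormAt_of_mem_B2 hH ha ℓ g (hloc ℓ g hu)
  refine prod_rmod_zpow hζM hq2 hgen (fun e => a.ne_zero (congrArg Subtype.val e)) T hTq
    (fun u hu huq => ?_) fun u hu => key u fun huT => hTq u huT hu
  obtain ⟨b, hb, hbn⟩ := isLocalNormAt_iff.mp (key u hu) 1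
  rw [Near.ordv_eq le_rfl hbn (norm_ne_zero' hb)]
  exact rmod_pow_ordv_norm hζM hgen huq hb

include hH in
/-- Trivial symbol gives local vanishing. -/
theorem mem_B2_of_rmod_pow [NumberField (fixF H)] (hζ : IsPrimitiveRoot ζ q) {a : Qbˣ}
    (ha : a ∈ fixU H) (ℓ : Nat.Primes) (hℓq : (ℓ : ℕ) ≠ q) (g : GQ)
    (hr : rmod q (placeAt (fixF H) ℓ g) ^
      ordv (placeAt (fixF H) ℓ g) (⟨(a : Qb), mem_fixU.mp ha⟩ : fixF H) = 1) :
    h.fa a ∈ B2 (locG H (Sum.inr ℓ) g) := by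
  have : Fact (ℓ : ℕ).Prime := ⟨ℓ.2⟩
  set v := placeAt (fixF H) ℓ g
  set D := locG H (Sum.inr ℓ) g
  set j := jAt ℓ g
  have hD := localAt_locG ℓ g hH
  have hm : ¬ (ℓ : ℕ) ∣ q := fun hd => hℓq ((Nat.prime_dvd_prime_iff_eq ℓ.2 Fact.out).mp hd)
  obtain ⟨d, τ, -, h₁, -, hfa₁⟩ := h.exists_inf (locG_le H (Sum.inr ℓ) g)
  obtain ⟨n', h₀, hfa⟩ : ∃ n', ∃ h₀ : CyclicOver D (D ⊓ MulAction.stabilizer GQ ζ) τ n',
      ∀ x ∈ D, ∀ y ∈ D, h.fa a x y = h₀.fa a x y := by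
    have e : D ⊓ (H ⊓ MulAction.stabilizer GQ ζ) = D ⊓ MulAction.stabilizer GQ ζ := by
      rw [← inf_assoc, inf_eq_left.mpr (locG_le H (Sum.inr ℓ) g)]
    revert h₁
    rw [e]
    exact fun h₁ hfa₁ => ⟨_, h₁, hfa₁ a⟩
  obtain ⟨σ₁, -, h₂⟩ := exists_cyclicOver_zeta hD hm hζ.pow_eq_one
  have hn' : n' = zdeg j D ζ := h₀.relIndex_eq.symm.trans h₂.relIndex_eq
  obtain ⟨π, hπ, hπ0, hπ1, hgen⟩ := hD.exists_uniformizer
  obtain ⟨k, hk⟩ := hgen (a : Qb) (fixF_anti (locG_le _ _ _) (mem_fixU.mp ha)) a.ne_zero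
  refine (mem_B2_congr hfa).mpr ((fa_mem_B2_iff_dvd hD hm hζ.pow_eq_one h₀ hπ hπ0 hπ1 hgen
    (fixU_anti (locG_le _ _ _) ha) hk).mpr ?_)
  -- compare the local valuation with the valuation at the place
  set e := ordv v ((ℓ : ℕ) : fixF H)
  have hq0 : (0 : ℝ) < (ℓ : ℝ)⁻¹ := inv_pos.mpr (Nat.cast_pos.mpr ℓ.2.pos)
  have hq1 : (ℓ : ℝ)⁻¹ < 1 := inv_lt_one_of_one_lt₀ (Nat.one_lt_cast.mpr ℓ.2.one_lt)
  obtain ⟨y, hy, hyπ⟩ : ∃ y ∈ fixF H, ‖j y‖ = ‖j π‖ := by
    obtain ⟨_, ⟨y, hy, rfl⟩, hy'⟩ := Metric.mem_closure_iff.mp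
      (mem_closure_image hH ℓ g hπ) _ hπ0
    refine ⟨y, hy, ?_⟩
    rw [dist_eq_norm, norm_sub_rev] at hy'
    conv_lhs => rw [← add_sub_cancel (j π) (j y)]
    rw [IsUltrametricDist.norm_add_eq_max_of_norm_ne_norm hy'.ne', max_eq_left hy'.le]
  have hy0 : (⟨y, hy⟩ : fixF H) ≠ 0 := fun e0 => by
    rw [show y = 0 from congrArg Subtype.val e0, map_zero, norm_zero] at hyπ
    exact hπ0.ne hyπ
  have hyrel : ‖j π‖ ^ e = ((ℓ : ℝ)⁻¹) ^ ordv v (⟨y, hy⟩ : fixF H) := by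
    have h := norm_jAt_rel (fixF H) ℓ g hy0
    dsimp only at h
    rw [← hyπ]
    exact h
  have hrel : ∀ (x : fixF H), x ≠ 0 → ∀ i : ℤ, ‖j (x : Qb)‖ = ‖j π‖ ^ i →
      ordv v x = ordv v (⟨y, hy⟩ : fixF H) * i := fun x hx i hi => by
    refine zpow_right_injective₀ hq0 hq1.ne ?_
    show ((ℓ : ℝ)⁻¹) ^ ordv v x = ((ℓ : ℝ)⁻¹) ^ (ordv v (⟨y, hy⟩ : fixF H) * i)
    rw [← norm_jAt_rel (fixF H) ℓ g hx, hi, ← zpow_mul, mul_comm, zpow_mul, hyrel, zpow_mul]
  obtain ⟨πv, hπv0, hπv⟩ := exists_ordv_eq_one v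
  obtain ⟨k₁, hk₁⟩ := hgen (πv : Qb) (fixF_anti (locG_le _ _ _) πv.2)
    (fun e0 => hπv0 (Subtype.ext e0))
  have h1 := hrel πv hπv0 k₁ hk₁
  rw [hπv] at h1
  have hka := hrel ⟨(a : Qb), mem_fixU.mp ha⟩ (fun e0 => a.ne_zero (congrArg Subtype.val e0)) k hk
  have hrk : rmod q v ^ k.natAbs = 1 := by
    rw [← zpow_natCast]
    have hnat : ∀ i : ℤ, rmod q v ^ i = 1 → rmod q v ^ (i.natAbs : ℤ) = 1 := fun i hi => by
      rcases Int.natAbs_eq i with e' | e'
      · rwa [← e']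
      · rw [← inv_inj, inv_one, ← zpow_neg, ← e', hi]
    refine hnat k ?_
    rcases Int.eq_one_or_neg_one_of_mul_eq_one h1.symm with hy1 | hy1
    · rwa [hka, hy1, one_mul] at hr
    · rw [hka, hy1, neg_one_mul, zpow_neg, inv_eq_one] at hr
      exact hr
  have ht := resCard_eq_absNorm hH ℓ g
  have hQ : ((resCard j D ^ k.natAbs : ℕ) : ZMod q) = ((1 : ℕ) : ZMod q) := by
    rw [Nat.cast_pow, ht, Nat.cast_one]
    exact hrk
  have hfix : ζ ^ (resCard j D ^ k.natAbs) = ζ :=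
    (pow_congr_zmod hζ.pow_eq_one hQ).trans (pow_one ζ)
  rw [hn', ← Int.dvd_natAbs, Int.natCast_dvd_natCast]
  exact pow_eq_self_iff.mp hfix

end Cyclotomic

/-- An element of the local group fixing `ζ_q` fixes the unramified extension of degree `p` when
the residue cardinality has order divisible by `p` modulo `q`. -/
theorem locG_inf_stab_le {H : Subgroup GQ} (hH : fullLevels.mem H) (ℓ : Nat.Primes)
    [Fact (ℓ : ℕ).Prime] (g : GQ) {p q : ℕ} [Fact q.Prime] (hℓq : (ℓ : ℕ) ≠ q) {ζ ζ' : Qb}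
    (hζ : IsPrimitiveRoot ζ q)
    (hord : p ∣ orderOf ((resCard (jAt ℓ g) (locG H (Sum.inr ℓ) g) : ℕ) : ZMod q))
    (hζ' : ζ' ^ (resCard (jAt ℓ g) (locG H (Sum.inr ℓ) g) ^ p - 1) = 1)
    (hm' : ¬ (ℓ : ℕ) ∣ resCard (jAt ℓ g) (locG H (Sum.inr ℓ) g) ^ p - 1) :
    locG H (Sum.inr ℓ) g ⊓ MulAction.stabilizer GQ ζ ≤ MulAction.stabilizer GQ ζ' := by
  set D := locG H (Sum.inr ℓ) g
  set j := jAt ℓ g
  set Q := resCard j D
  set m' := Q ^ p - 1
  intro x hx
  obtain ⟨hxD, hxζ⟩ := Subgroup.mem_inf.mp hx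
  have hxζ' : x ζ = ζ := hxζ
  have hD := localAt_locG ℓ g hH
  have hm'0 : m' ≠ 0 := fun e => hm' (e ▸ dvd_zero _)
  have hq0 : q ≠ 0 := (Fact.out : q.Prime).ne_zero
  have : NeZero ((q * m' : ℕ) : Qb) := ⟨Nat.cast_ne_zero.mpr (mul_ne_zero hq0 hm'0)⟩
  obtain ⟨ξ, hξ⟩ := HasEnoughRootsOfUnity.exists_primitiveRoot Qb (q * m')
  have hm : ¬ (ℓ : ℕ) ∣ q * m' := fun hd => (ℓ.2.dvd_mul.mp hd).elim
    (fun h1 => hℓq ((Nat.prime_dvd_prime_iff_eq ℓ.2 Fact.out).mp h1)) hm'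
  obtain ⟨i, hi⟩ := exists_pow_frobenius hD hm hξ.pow_eq_one hxD
  have hpow : ∀ z : Qb, z ^ (q * m') = 1 → x z = z ^ (Q ^ i) := fun z hz => by
    have : NeZero (q * m') := ⟨mul_ne_zero hq0 hm'0⟩
    obtain ⟨c, -, rfl⟩ := hξ.eq_pow_of_pow_eq_one hz
    rw [map_pow, hi, ← pow_mul, ← pow_mul, mul_comm]
  have h1 : ζ ^ (Q ^ i) = ζ ^ 1 := by
    rw [← hpow ζ (by rw [pow_mul, hζ.pow_eq_one, one_pow]), hxζ', pow_one]
  have hQi : ((Q : ℕ) : ZMod q) ^ i = 1 := by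
    rw [pow_eq_pow_mod _ hζ.pow_eq_one, pow_eq_pow_mod 1 hζ.pow_eq_one] at h1
    have h2 := (ZMod.natCast_eq_natCast_iff _ _ _).mpr
      (hζ.pow_inj (Nat.mod_lt _ (Nat.pos_of_ne_zero hq0)) (Nat.mod_lt _ (Nat.pos_of_ne_zero hq0)) h1)
    push_cast at h2
    exact h2
  obtain ⟨c, rfl⟩ := hord.trans (orderOf_dvd_of_pow_eq_one hQi)
  show x ζ' = ζ'
  rw [hpow ζ' (by rw [mul_comm, pow_mul, hζ', one_pow])]
  have hmod : Q ^ (p * c) ≡ 1 [MOD m'] := by
    rw [pow_mul]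
    have hQ : 1 < Q := one_lt_resCard hD
    have hQ1 : 1 ≤ Q ^ p := Nat.one_le_pow _ _ (by omega)
    simpa using (Nat.modEq_iff_dvd' hQ1).mpr (dvd_refl m') |>.symm.pow c
  rw [pow_eq_pow_mod _ hζ', hmod, ← pow_eq_pow_mod _ hζ', pow_one]

/-- No class is supported at a single finite place. -/
theorem noSingle_finite {p : ℕ} [hp : Fact p.Prime] {H : Subgroup GQ} (hH : fullLevels.mem H)
    {F : GQ → GQ → Qbˣ} (hF : F ∈ Z2 H) (hFp : F ^ p ∈ B2 H) (ℓ : Nat.Primes) (g₀ : GQ)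
    (hreal : ∀ g, F ∈ B2 (locG H (Sum.inl ()) g))
    (hoth : ∀ (ℓ' : Nat.Primes) (g : GQ), ¬ SamePlace H (Sum.inr ℓ) g₀ (Sum.inr ℓ') g →
      F ∈ B2 (locG H (Sum.inr ℓ') g)) :
    F ∈ B2 (locG H (Sum.inr ℓ) g₀) := by
  have := numberField_fixF hH
  have hℓ : Fact (ℓ : ℕ).Prime := ⟨ℓ.2⟩
  -- an exponent larger than every local residue degree at `ℓ`
  obtain ⟨B, hB⟩ := exists_resDeg_bound hH ℓ
  obtain ⟨q, hq, hq2, hqℓ, hord⟩ := exists_prime_orderOf hp.out ℓ.2 (t := B + 2) (by omega)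
  have : NeZero (q : Qb) := ⟨Nat.cast_ne_zero.mpr hq.out.ne_zero⟩
  obtain ⟨ζ, hζ⟩ := HasEnoughRootsOfUnity.exists_primitiveRoot Qb q
  obtain ⟨σ, n, h⟩ := exists_cyclicOver_root H hζ
  set Δ := H ⊓ MulAction.stabilizer GQ ζ
  have hΔ := mem_levels_of_isOpenIn hH h.isOpen
  have hQord : ∀ g, p ∣ orderOf ((resCard (jAt ℓ g) (locG H (Sum.inr ℓ) g) : ℕ) : ZMod q) := by
    intro g
    obtain ⟨f, hf0, hf⟩ := exists_resCard_eq (localAt_locG ℓ g hH)
    rw [hf, Nat.cast_pow, orderOf_pow' _ hf0.ne', hord]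
    obtain ⟨i, hi, hgcd⟩ := (Nat.dvd_prime_pow hp.out).mp (Nat.gcd_dvd_left (p ^ (B + 2)) f)
    rw [hgcd, Nat.pow_div hi hp.out.pos]
    refine dvd_pow_self p fun h0 => ?_
    have h1 : p ^ (B + 2) ∣ f := by
      have := Nat.gcd_dvd_right (p ^ (B + 2)) f
      rwa [hgcd, show i = B + 2 by omega] at this
    have h2 := Nat.le_of_dvd hf0 h1
    have h3 := Nat.lt_pow_self hp.out.one_lt (n := B + 2)
    have h4 := hB g f hf
    omega
  have hlocΔ : ∀ ℓ' g, F ∈ B2 (locG Δ (Sum.inr ℓ') g) := by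
    intro ℓ' g
    by_cases hs : SamePlace H (Sum.inr ℓ) g₀ (Sum.inr ℓ') g
    · obtain ⟨he, -⟩ := id hs
      obtain rfl : ℓ = ℓ' := Sum.inr.inj he
      set D := locG H (Sum.inr ℓ) g
      have hD := localAt_locG ℓ g hH
      obtain ⟨ζ', σ', hζ', hm', -, hcyc⟩ := exists_unramified hD hp.out.pos
      have hdie := mem_B2_unramified hD (Z2_anti (locG_le _ _ _) hF)
        (B2_anti (locG_le _ _ _) hFp) hζ' hcyc
      refine B2_anti ?_ hdie
      intro x hx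
      obtain ⟨⟨hxH, hxζ⟩, hxr⟩ := (mem_locG.mp hx)
      have hxD : x ∈ D := mem_locG.mpr ⟨hxH, hxr⟩
      exact ⟨hxD, locG_inf_stab_le hH ℓ g hqℓ.symm hζ (hQord g) hζ'.pow_eq_one hm' ⟨hxD, hxζ⟩⟩
    · exact B2_anti (fun x hx => mem_locG.mpr ⟨(Subgroup.mem_inf.mp (mem_locG.mp hx).1).1, (mem_locG.mp hx).2⟩)
        (hoth ℓ' g hs)
  have hFΔ : F ∈ B2 Δ := mem_B2_of_local hΔ
    (fun _ g hg => archConj_not_mem_root hζ hq2 g hg.2) (Z2_anti h.le hF) (B2_anti h.le hFp) hlocΔ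
  obtain ⟨a, ha, hdiv⟩ := h.exists_eq_fa hF hFΔ
  have hfa : ∀ {D : Subgroup GQ}, D ≤ H → F ∈ B2 D → h.fa a ∈ B2 D := fun {D} hD hFD => by
    have := div_mem hFD (B2_anti hD hdiv)
    rwa [div_div_cancel] at this
  rw [← div_mul_cancel F (h.fa a)]
  refine mul_mem (B2_anti (locG_le _ _ _) hdiv) (mem_B2_of_rmod_pow h hH hζ ha ℓ hqℓ.symm g₀ ?_)
  have hprod := prod_rmod_of_mem_B2 h hH hζ hq2 ha {placeAt (fixF H) ℓ g₀}
    (fun u hu hm => by
      rw [Finset.mem_singleton] at hu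
      subst hu
      exact hqℓ (congrArg Subtype.val (GalCoh.Descent.prime_unique _ (q := ⟨q, hq.out⟩) (q' := ℓ)
        hm (natCast_mem_placeAt (fixF H) ℓ g₀))))
    fun ℓ' g hne => by
      refine hfa (locG_le _ _ _) (hoth ℓ' g fun hs => hne (Finset.mem_singleton.mpr ?_))
      obtain ⟨he, x, hx, d, rfl⟩ := hs
      obtain rfl : ℓ = ℓ' := Sum.inr.inj he
      exact placeAt_eq_of_samePlace hH ℓ g₀ hx d
  rw [Finset.prod_singleton, if_pos] at hprod
  · exact hprod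
  refine norm_rat_pos_of_real (fun e => a.ne_zero (congrArg Subtype.val e)) fun w hw => ?_
  obtain ⟨g, hg, hgw⟩ := exists_archConj_of_isReal hH hw
  rw [← hgw]
  exact (pos_iff_mem_B2 hζ h hq2 ha hg ()).mp (hfa (locG_le _ _ _) (hreal g))

/-- No class is supported at a single real place. -/
theorem noSingle_real {p : ℕ} [hp : Fact p.Prime] {H : Subgroup GQ} (hH : fullLevels.mem H)
    {F : GQ → GQ → Qbˣ} (hF : F ∈ Z2 H) (hFp : F ^ p ∈ B2 H) (g₀ : GQ)
    (hg₀ : archConj g₀ ∈ H)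
    (hfin : ∀ (ℓ : Nat.Primes) (g : GQ), F ∈ B2 (locG H (Sum.inr ℓ) g))
    (hoth : ∀ g, ¬ SamePlace H (Sum.inl ()) g₀ (Sum.inl ()) g →
      F ∈ B2 (locG H (Sum.inl ()) g)) :
    F ∈ B2 (locG H (Sum.inl ()) g₀) := by
  have := numberField_fixF hH
  have : Fact (Nat.Prime 3) := ⟨Nat.prime_three⟩
  have : NeZero ((3 : ℕ) : Qb) := ⟨Nat.cast_ne_zero.mpr three_ne_zero⟩
  obtain ⟨ζ, hζ⟩ := HasEnoughRootsOfUnity.exists_primitiveRoot Qb 3
  obtain ⟨σ, n, h⟩ := exists_cyclicOver_root H hζ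
  have hΔ := mem_levels_of_isOpenIn hH h.isOpen
  have hFΔ := mem_B2_of_local hΔ (fun _ g hg => archConj_not_mem_root hζ (by norm_num) g hg.2)
    (Z2_anti h.le hF) (B2_anti h.le hFp) fun ℓ g =>
      B2_anti (fun x hx => mem_locG.mpr ⟨(Subgroup.mem_inf.mp (mem_locG.mp hx).1).1, (mem_locG.mp hx).2⟩) (hfin ℓ g)
  obtain ⟨a, ha, hdiv⟩ := h.exists_eq_fa hF hFΔ
  have hfa : ∀ {D : Subgroup GQ}, D ≤ H → F ∈ B2 D → h.fa a ∈ B2 D := fun {D} hD hFD => by
    have := div_mem hFD (B2_anti hD hdiv)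
    rwa [div_div_cancel] at this
  rw [← div_mul_cancel F (h.fa a)]
  refine mul_mem (B2_anti (locG_le _ _ _) hdiv) ?_
  by_contra hne
  rw [pos_iff_mem_B2 hζ h (by norm_num) ha hg₀ (), not_lt] at hne
  have hprod := prod_rmod_of_mem_B2 h hH hζ (by norm_num) ha ∅
    (fun u hu => absurd hu (Finset.notMem_empty u))
    (fun ℓ g _ => hfa (locG_le _ _ _) (hfin ℓ g))
  let φ₀ : fixF H →+* ℂ := (phiAt g₀).comp (fixF H).val.toRingHom
  have hφ₀ : ComplexEmbedding.IsReal φ₀ := by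
    rw [ComplexEmbedding.isReal_iff]
    refine RingHom.ext fun x => ?_
    show starRingEnd ℂ (phiAt g₀ (x : Qb)) = phiAt g₀ (x : Qb)
    rw [← phiAt_archConj, mem_fixF.mp x.2 _ hg₀]
  have hw₀ : (InfinitePlace.mk φ₀).IsReal := InfinitePlace.isReal_mk_iff.mpr hφ₀
  have hemb : (InfinitePlace.mk φ₀).embedding = φ₀ := InfinitePlace.embedding_mk_eq_of_isReal hφ₀
  have hneg : Algebra.norm ℚ (⟨(a : Qb), mem_fixU.mp ha⟩ : fixF H) < 0 := by
    refine norm_rat_neg_of_single (fun e => a.ne_zero (congrArg Subtype.val e)) hw₀ ?_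
      fun w hw hwne => ?_
    · rw [hemb]
      show (phiAt g₀ (a : Qb)).re < 0
      obtain ⟨t, ht0, ht⟩ := exists_real g₀ (fixU_anti (Subgroup.zpowers_le.mpr hg₀) ha)
      rw [ht, Complex.ofReal_re] at hne ⊢
      exact lt_of_le_of_ne hne ht0
    obtain ⟨g, hg, hgw⟩ := exists_archConj_of_isReal hH hw
    rw [← hgw]
    refine (pos_iff_mem_B2 hζ h (by norm_num) ha hg ()).mp (hfa (locG_le _ _ _) (hoth g fun hs => hwne ?_))
    rw [← InfinitePlace.mk_embedding w]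
    refine congrArg InfinitePlace.mk (RingHom.ext fun x => ?_)
    rw [← hgw]
    exact phiAt_eq_of_samePlace hg₀ hs x
  rw [Finset.prod_empty, if_neg hneg.not_gt] at hprod
  have h2 : ((2 : ℕ) : ZMod 3) = 0 := by push_cast; linear_combination hprod
  exact absurd ((ZMod.natCast_eq_zero_iff _ _).mp h2) (by norm_num)

end Fermat.Agent.CFT.Brauer
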