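import Fermat.Agent.CFT.Brauer.Places
import Fermat.Agent.CFT.Hasse
import Fermat.Agent.GalCoh.Descent.Divisor
import Fermat.Agent.GalCoh.Descent.LocalClass

/-!
From local triviality of a cyclic class to a global norm, through Hasse's norm theorem.
-/

set_option autoImplicit false
set_option backward.isDefEq.respectTransparency false

noncomputable section

namespace Fermat.Agent.CFT.Brauer

open ExtCitation NumberField IsDedekindDomain Filter
open scoped Topology
open Fermat.Agent.GalCoh (fullLevels Place conjLoc)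
open Fermat.Agent.GalCoh.Descent (fieldPlace fixingSubgroup_fixedField_of_mem
  finiteDimensional_fixedField)

/-! ### Fixed fields of open subgroups -/

lemma mem_levels_of_isOpenIn {H H' : Subgroup GQ} (hH : fullLevels.mem H) (h : IsOpenIn H' H) :
    fullLevels.mem H' := by
  obtain ⟨F, hF, hFH⟩ := hH
  obtain ⟨-, F', hF', hF'm⟩ := h
  have := hF; have := hF'
  exact ⟨F ⊔ F', inferInstance, fun g hg =>
    hF'm g (hFH (IntermediateField.fixingSubgroup_antitone le_sup_left hg))
      (IntermediateField.fixingSubgroup_antitone le_sup_right hg)⟩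

lemma fixingSubgroup_fixF {H : Subgroup GQ} (hH : fullLevels.mem H) :
    (fixF H).fixingSubgroup = H := fixingSubgroup_fixedField_of_mem hH

lemma mem_of_fix {H : Subgroup GQ} (hH : fullLevels.mem H) {g : GQ}
    (h : ∀ x ∈ fixF H, g x = x) : g ∈ H := by
  rw [← fixingSubgroup_fixF hH]
  exact (IntermediateField.mem_fixingSubgroup_iff _ _).mpr h

lemma numberField_fixF {H : Subgroup GQ} (hH : fullLevels.mem H) : NumberField (fixF H) :=
  have := finiteDimensional_fixedField hH
  { to_charZero := inferInstance, to_finiteDimensional := this }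

lemma finrank_fixF {H : Subgroup GQ} (hH : fullLevels.mem H) :
    Module.finrank ℚ (fixF H) = H.index := by
  have := finiteDimensional_fixedField hH
  rw [IntermediateField.finrank_eq_fixingSubgroup_index, fixingSubgroup_fixF hH]

/-! ### Places of number fields and embeddings -/

/-- Every prime of a number field inside `ℚ̄` comes from one of the embeddings `jAt q g`. -/
theorem exists_jAt_of_place (K : IntermediateField ℚ Qb) [NumberField K]
    (v : HeightOneSpectrum (𝓞 K)) :
    ∃ (q : Nat.Primes) (g : GQ), ∃ _ : Fact (q : ℕ).Prime, 0 < ordv v (q : K) ∧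
      ∀ x : K, x ≠ 0 → ‖jAt q g (x : Qb)‖ ^ ordv v (q : K) = ((q : ℝ)⁻¹) ^ ordv v x := by
  obtain ⟨q, A, hA, hAv⟩ := GalCoh.Descent.exists_place_over v
  have hq : Fact (q : ℕ).Prime := ⟨q.2⟩
  obtain ⟨g, hg⟩ := Frobenius.exists_smul_eq_of_liesOverPrime_qbar q.2
    (GalCoh.Descent.primeLocalPlace_liesOver q) hA
  have hv : fieldPlace q.2 hA K = v := HeightOneSpectrum.ext hAv
  refine ⟨q, g, hq, hv ▸ GalCoh.Descent.ordv_natCast_pos q.2 hA K, fun x hx => ?_⟩
  have hq0 : ((q : ℕ) : K) ≠ 0 := Nat.cast_ne_zero.mpr q.2.ne_zero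
  set e := ordv v ((q : ℕ) : K)
  set o := ordv v x
  have h0 : ordv (fieldPlace q.2 hA K) (x ^ e / ((q : ℕ) : K) ^ o) = 0 := by
    rw [hv, ordv_div v (zpow_ne_zero _ hx) (zpow_ne_zero _ hq0), ordv_zpow, ordv_zpow]
    ring
  have h1 := GalCoh.Descent.valuation_eq_one_of_ordv q.2 hA K
    (div_ne_zero (zpow_ne_zero _ hx) (zpow_ne_zero _ hq0)) h0
  set y : Qb := ((x ^ e / ((q : ℕ) : K) ^ o : K) : Qb) with hy
  have hy1 : y ∈ A := (A.valuation_le_one_iff y).mp h1.le
  have hy2 : y⁻¹ ∈ A := (A.valuation_le_one_iff y⁻¹).mp (by rw [map_inv₀, h1, inv_one])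
  have hmem : ∀ z, z ∈ A → ‖jAt q g z‖ ≤ 1 := fun z hz => by
    rw [← hg, ValuationSubring.mem_pointwise_smul_iff_inv_smul_mem] at hz
    exact hz
  have hy0 : y ≠ 0 := fun h => by rw [h, map_zero] at h1; exact zero_ne_one h1
  have hn : ‖jAt q g y‖ = 1 := by
    refine le_antisymm (hmem _ hy1) ?_
    have h := hmem _ hy2
    rwa [map_inv₀, norm_inv, inv_le_one₀ (norm_pos_iff.mpr ((map_ne_zero _).mpr hy0))] at h
  have hcoe : y = (x : Qb) ^ e / ((q : ℕ) : Qb) ^ o := by
    rw [hy]; push_cast; rfl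
  rw [hcoe, map_div₀, map_zpow₀, map_zpow₀, norm_div, norm_zpow, norm_zpow, norm_map_q,
    div_eq_one_iff_eq (zpow_ne_zero _ (inv_ne_zero (Nat.cast_ne_zero.mpr q.2.ne_zero)))] at hn
  exact hn

/-- Elements of the fixed field of a local group are limits of elements of the global field. -/
theorem mem_closure_image {S : Subgroup GQ} (hS : fullLevels.mem S) (q : Nat.Primes)
    [Fact (q : ℕ).Prime] (g : GQ) {x : Qb} (hx : x ∈ fixF (locG S (Sum.inr q) g)) :
    jAt q g x ∈ closure (jAt q g '' (fixF S : Set Qb)) := by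
  classical
  set j := jAt q g
  have hK := finiteDimensional_fixedField hS
  let B := Module.finBasis ℚ (fixF S)
  set E := IntermediateField.adjoin ℚ_[(q : ℕ)] (Set.range fun i => j ((B i : fixF S) : Qb))
  have : FiniteDimensional ℚ_[(q : ℕ)] E :=
    IntermediateField.finiteDimensional_adjoin fun z _ => Algebra.IsIntegral.isIntegral z
  have hKE : ∀ k ∈ fixF S, j k ∈ E := fun k hk => by
    have e : k = ∑ i, (B.repr ⟨k, hk⟩ i : Qb) * ((B i : fixF S) : Qb) := by
      have h := congrArg (Subtype.val : fixF S → Qb) (B.sum_repr ⟨k, hk⟩).symm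
      simpa [Algebra.smul_def] using h
    rw [e, map_sum]
    refine sum_mem fun i _ => ?_
    rw [map_mul, map_ratCast]
    exact mul_mem (SubfieldClass.ratCast_mem E _) (IntermediateField.subset_adjoin _ _ ⟨i, rfl⟩)
  have hjx : j x ∈ E := by
    have : Normal ℚ_[(q : ℕ)] (PadicAlgCl (q : ℕ)) := IsAlgClosure.normal _ _
    have : IsGalois ℚ_[(q : ℕ)] (PadicAlgCl (q : ℕ)) := IsGalois.mk
    rw [← InfiniteGalois.fixedField_fixingSubgroup E, IntermediateField.mem_fixedField_iff]
    intro τ hτ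
    have hmem : conjLoc (Sum.inr q) g τ ∈ locG S (Sum.inr q) g :=
      mem_locG.mpr ⟨mem_of_fix hS fun k hk => j.injective (by
        rw [jAt_conjLoc]
        exact (IntermediateField.mem_fixingSubgroup_iff _ _).mp hτ _ (hKE k hk)), τ, rfl⟩
    rw [← jAt_conjLoc, mem_fixF.mp hx _ hmem]
  let C : Subring (PadicAlgCl (q : ℕ)) := (Subring.map j (fixF S).toSubring).topologicalClosure
  have hC : (C : Set (PadicAlgCl (q : ℕ))) = closure (j '' (fixF S : Set Qb)) := rfl
  rw [← hC]
  have hjx' : j x ∈ E.toSubalgebra := hjx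
  rw [IntermediateField.adjoin_toSubalgebra_of_isAlgebraic
    (fun z _ => Algebra.IsAlgebraic.isAlgebraic z)] at hjx'
  generalize j x = y at hjx' ⊢
  induction hjx' using Algebra.adjoin_induction with
  | mem z hz =>
    obtain ⟨i, rfl⟩ := hz
    exact Subring.le_topologicalClosure _ ⟨_, (B i).2, rfl⟩
  | algebraMap c =>
    show algebraMap _ _ c ∈ closure (j '' (fixF S : Set Qb))
    rw [Metric.mem_closure_iff]
    intro ε hε
    obtain ⟨r, hr⟩ := Padic.rat_dense (q : ℕ) c hε
    refine ⟨j (r : Qb), ⟨_, SubfieldClass.ratCast_mem (fixF S) r, rfl⟩, ?_⟩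
    rw [dist_eq_norm, map_ratCast, ← map_ratCast (algebraMap ℚ_[(q : ℕ)] (PadicAlgCl (q : ℕ))),
      ← map_sub, norm_algebraMap']
    exact hr
  | add y z _ _ hy hz => exact add_mem hy hz
  | mul y z _ _ hy hz => exact mul_mem hy hz

/-! ### Approximating local norms -/

namespace CyclicOver

variable {Γ Δ : Subgroup GQ} {σ τ : GQ} {n : ℕ}

/-- The norm does not depend on the generator. -/
lemma prod_eq (h : CyclicOver Γ Δ σ n) (h' : CyclicOver Γ Δ τ n) {b : Qb} (hb : b ∈ fixF Δ) :
    ∏ i ∈ Finset.range n, (τ ^ i) b = ∏ i ∈ Finset.range n, (σ ^ i) b := by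
  rw [Finset.prod_range, Finset.prod_range]
  let e : Fin n → Fin n := fun i => ⟨h.idx (τ ^ (i : ℕ)), h.idx_lt _⟩
  have he : Function.Bijective e := Finite.injective_iff_bijective.mp fun i k hik => by
    have hi := h.idx_spec (h'.pow_mem (i : ℕ))
    have hk := h.idx_spec (h'.pow_mem (k : ℕ))
    rw [show h.idx (τ ^ (i : ℕ)) = h.idx (τ ^ (k : ℕ)) from congrArg Fin.val hik] at hi
    have := h'.mod_eq_of_mem (i := i) (j := k) (by
      simpa [mul_inv_rev, mul_assoc] using mul_mem (inv_mem hi) hk)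
    rw [Nat.mod_eq_of_lt i.2, Nat.mod_eq_of_lt k.2] at this
    exact Fin.ext this
  refine Fintype.prod_bijective e he _ _ fun i => ?_
  exact h.repSystem.apply_eq (i := e i) (h.idx_spec (h'.pow_mem (i : ℕ))) hb

end CyclicOver

/-- A local norm is a limit of norms of global elements. -/
theorem exists_seq_norm {S M : Subgroup GQ} {σ : GQ} {p : ℕ} (hp : p.Prime)
    (hS : fullLevels.mem S) (h : CyclicOver S M σ p) {a : Qbˣ} (ha : a ∈ fixU S)
    (q : Nat.Primes) [Fact (q : ℕ).Prime] (g : GQ)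
    (hloc : h.fa a ∈ B2 (locG S (Sum.inr q) g)) :
    ∃ b : ℕ → Qb, (∀ m, b m ∈ fixF M) ∧
      Tendsto (fun m => jAt q g (∏ i ∈ Finset.range p, (σ ^ i) (b m))) atTop
        (𝓝 (jAt q g a)) := by
  classical
  have := Fact.mk hp
  set j := jAt q g
  set D := locG S (Sum.inr q) g
  suffices key : ∃ (τ : GQ) (_ : CyclicOver S M τ p) (θ : Qb) (c : Fin p → Qb), θ ∈ fixF M ∧
      (∀ k, c k ∈ fixF D) ∧
      ∏ i ∈ Finset.range p, ∑ k : Fin p, c k * (τ ^ i) ((τ ^ (k : ℕ)) θ) = (a : Qb) by
    obtain ⟨τ, hτ, θ, c, hθ, hc, hprod⟩ := key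
    choose u hu hulim using fun k =>
      mem_closure_iff_seq_limit.mp (mem_closure_image hS q g (hc k))
    choose v hv hvu using hu
    refine ⟨fun m => ∑ k, v k m * (τ ^ (k : ℕ)) θ, fun m => sum_mem fun k _ =>
      mul_mem (fixF_anti hτ.le (hv k m)) (hτ.repSystem.smul_fix (hτ.pow_mem _) hθ), ?_⟩
    have e1 : ∀ m, j (∏ i ∈ Finset.range p, (σ ^ i) (∑ k, v k m * (τ ^ (k : ℕ)) θ)) =
        ∏ i ∈ Finset.range p, ∑ k : Fin p, u k m * j ((τ ^ i) ((τ ^ (k : ℕ)) θ)) := fun m => by
      rw [← h.prod_eq hτ (sum_mem fun k _ => mul_mem (fixF_anti hτ.le (hv k m))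
        (hτ.repSystem.smul_fix (hτ.pow_mem _) hθ)), map_prod]
      refine Finset.prod_congr rfl fun i _ => ?_
      rw [map_sum, map_sum]
      refine Finset.sum_congr rfl fun k _ => ?_
      rw [map_mul, map_mul, mem_fixF.mp (hv k m) _ (hτ.pow_mem i), hvu]
    simp only [e1]
    have hlim : j (a : Qb) =
        ∏ i ∈ Finset.range p, ∑ k : Fin p, j (c k) * j ((τ ^ i) ((τ ^ (k : ℕ)) θ)) := by
      rw [← hprod, map_prod]
      simp only [map_sum, map_mul]
    rw [hlim]
    exact tendsto_finsetProd _ fun i _ => tendsto_finsetSum _ fun k _ =>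
      (hulim k).mul_const _
  obtain ⟨d, τ, hd, h₀, -, hfa₀⟩ := h.exists_inf (locG_le S (Sum.inr q) g)
  obtain ⟨n', hn', h', hfa⟩ : ∃ n', p / d = n' ∧ ∃ h' : CyclicOver D (D ⊓ M) τ n',
      ∀ a : Qbˣ, ∀ x ∈ D, ∀ y ∈ D, h.fa a x y = h'.fa a x y := ⟨_, rfl, h₀, hfa₀⟩
  have haD : a ∈ fixU D := fixU_anti (locG_le _ _ _) ha
  rcases (Nat.dvd_prime hp).mp hd with hd1 | hdp
  · -- the place does not split
    rw [hd1, Nat.div_one] at hn'
    subst hn'
    obtain ⟨b, hbfix, hb⟩ := (h'.fa_mem_B2_iff haD).mp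
      ((mem_B2_congr (hfa a)).mp hloc)
    have hτM : τ ∉ M := fun hm => hp.ne_one (Nat.dvd_one.mp
      ((h'.pow_mem_iff 1).mp (by rw [pow_one]; exact ⟨h'.mem, hm⟩)))
    have hτ : CyclicOver S M τ p := cyclicOver_of_relIndex_prime h.isOpen h.conj h.relIndex_eq
      (locG_le _ _ _ h'.mem) hτM
    obtain ⟨θ, hθ, hdet⟩ := hτ.repSystem.exists_det_ne_zero
    have hbF : (b : Qb) ∈ fixF (D ⊓ M) := mem_fixU.mp hbfix
    obtain ⟨hsum, hc⟩ := h'.repSystem.coord_spec hdet (fixF_anti inf_le_right hθ) hbF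
    refine ⟨τ, hτ, θ, RepSystem.coord (fun i : Fin p => τ ^ (i : ℕ)) θ (b : Qb), hθ, hc, ?_⟩
    rw [← congrArg Units.val hb, Units.coe_prod]
    refine Finset.prod_congr rfl fun i _ => ?_
    rw [units_smul_coe]
    conv_rhs => rw [hsum, map_sum]
    refine Finset.sum_congr rfl fun k _ => ?_
    rw [map_mul, mem_fixF.mp (hc k) _ (h'.pow_mem i)]
  · -- the place splits completely
    rw [hdp, Nat.div_self hp.pos] at hn'
    subst hn'
    have hDM : D ≤ M := fun x hx =>
      (h'.mem_of_idx_eq_zero hx (Nat.lt_one_iff.mp (h'.idx_lt x))).2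
    obtain ⟨θ, hθ, hdet⟩ := h.repSystem.exists_det_ne_zero
    set A : Matrix (Fin p) (Fin p) Qb :=
      Matrix.of fun i k => (σ ^ (i : ℕ)) ((σ ^ (k : ℕ)) θ)
    have hu : IsUnit A.det := Ne.isUnit hdet
    let t : Fin p → Qb := fun i => if (i : ℕ) = 0 then (a : Qb) else 1
    obtain ⟨c, hsys⟩ : ∃ c, A.mulVec c = t := ⟨A⁻¹.mulVec t, by
      rw [Matrix.mulVec_mulVec, Matrix.mul_nonsing_inv _ hu, Matrix.one_mulVec]⟩
    refine ⟨σ, h, θ, c, hθ, fun k => mem_fixF.mpr fun x hx => ?_, ?_⟩
    · have hfix : A.mulVec (fun k => x (c k)) = A.mulVec c := by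
        rw [hsys]
        funext i
        have h1 := congrArg x (congrFun hsys i)
        simp only [Matrix.mulVec, dotProduct, A, Matrix.of_apply, map_sum, map_mul] at h1 ⊢
        refine ((Finset.sum_congr rfl fun k _ => ?_).trans h1).trans ?_
        · rw [mem_fixF.mp (h.repSystem.smul_fix (h.pow_mem _)
            (h.repSystem.smul_fix (h.pow_mem _) hθ)) x (hDM hx)]
        · simp only [t]
          split_ifs
          · exact congrArg Units.val (haD x hx)
          · exact map_one x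
      exact congrFun (Matrix.mulVec_injective_iff_isUnit.mpr
        ((Matrix.isUnit_iff_isUnit_det _).mpr hu) hfix) k
    · have hrow : ∀ i : Fin p,
          ∑ k : Fin p, c k * (σ ^ (i : ℕ)) ((σ ^ (k : ℕ)) θ) = t i := fun i => by
        have h1 := congrFun hsys i
        simp only [Matrix.mulVec, dotProduct, A, Matrix.of_apply] at h1 ⊢
        rw [← h1]
        exact Finset.sum_congr rfl fun k _ => mul_comm _ _
      rw [Finset.prod_range]
      simp only [hrow, t]
      rw [Fintype.prod_eq_single (⟨0, hp.pos⟩ : Fin p) fun i hi =>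
        if_neg fun h0 => hi (Fin.ext h0)]
      exact if_pos rfl

/-! ### Complex embeddings -/

/-- Every complex embedding of `ℚ̄` is one of the `phiAt g`. -/
theorem exists_phiAt_eq (ψ : Qb →+* ℂ) : ∃ g : GQ, ∀ x, ψ x = phiAt g x := by
  let _ : Algebra Qb ℂ := complexEmbedding.toRingHom.toAlgebra
  have : IsScalarTower ℚ Qb ℂ := IsScalarTower.of_algebraMap_eq' (Subsingleton.elim _ _)
  refine ⟨(AlgHom.restrictNormal' ψ.toRatAlgHom Qb)⁻¹, fun x => ?_⟩
  show ψ x = complexEmbedding
    (((AlgHom.restrictNormal' ψ.toRatAlgHom Qb)⁻¹)⁻¹ x)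
  rw [inv_inv]
  exact (AlgHom.restrictNormal_commutes ψ.toRatAlgHom Qb x).symm

/-- An embedding of a subfield of the algebraic closure is the restriction of a conjugate of the
standard one. -/
theorem exists_phiAt_eq_embedding {K : Type*} [Field K] [Algebra K Qb] [Algebra.IsAlgebraic K Qb]
    (e : K →+* ℂ) : ∃ g, ∀ x : K, phiAt g (algebraMap K Qb x) = e x := by
  let _ := e.toAlgebra
  have : Module.IsTorsionFree K ℂ :=
    .of_smul_eq_zero fun r m h => by rwa [Algebra.smul_def, mul_eq_zero, map_eq_zero] at h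
  obtain ⟨g, hg⟩ := exists_phiAt_eq (IsAlgClosed.lift : Qb →ₐ[K] ℂ).toRingHom
  exact ⟨g, fun x => (hg _).symm.trans (AlgHom.commutes (IsAlgClosed.lift : Qb →ₐ[K] ℂ) x)⟩

/-! ### The extension of a cyclic pair -/

variable {S M : Subgroup GQ} {σ : GQ} {n : ℕ}

/-- The fixed field of the smaller group, over that of the larger one. -/
abbrev CyclicOver.top (h : CyclicOver S M σ n) : IntermediateField (fixF S) Qb :=
  IntermediateField.extendScalars (fixF_anti h.le)

namespace CyclicOver

variable (h : CyclicOver S M σ n)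
include h

lemma coe_top_mem (x : h.top) : (x : Qb) ∈ fixF M := IntermediateField.mem_extendScalars _ |>.mp x.2

lemma finiteDimensional_top (hS : fullLevels.mem S) : FiniteDimensional (fixF S) h.top :=
  have := numberField_fixF hS
  have := finiteDimensional_fixedField (mem_levels_of_isOpenIn hS h.isOpen)
  have : FiniteDimensional ℚ h.top := this
  Module.Finite.of_restrictScalars_finite ℚ (fixF S) h.top

lemma numberField_top (hS : fullLevels.mem S) : NumberField h.top :=
  have := numberField_fixF hS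
  have := h.finiteDimensional_top hS
  NumberField.of_module_finite (fixF S) h.top

/-- The extension is Galois of degree `n`, and norms are the products over the powers of `σ`. -/
theorem top_spec (hS : fullLevels.mem S) :
    IsGalois (fixF S) h.top ∧ Module.finrank (fixF S) h.top = n ∧
      ∀ b : h.top, ((Algebra.norm (fixF S) b : fixF S) : Qb) =
        ∏ i ∈ Finset.range n, (σ ^ i) (b : Qb) := by
  classical
  have hM := mem_levels_of_isOpenIn hS h.isOpen
  have := numberField_fixF hS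
  have := finiteDimensional_fixedField hM
  have := h.finiteDimensional_top hS
  have hdeg : Module.finrank (fixF S) h.top = n := by
    have h1 := Module.finrank_mul_finrank ℚ (fixF S) h.top
    have h2 : Module.finrank ℚ h.top = M.index := finrank_fixF hM
    rw [h2, finrank_fixF hS, ← Subgroup.relIndex_mul_index h.le, h.relIndex_eq, mul_comm n] at h1
    have : 0 < S.index := finrank_fixF hS ▸ Module.finrank_pos
    exact Nat.eq_of_mul_eq_mul_left this h1
  let σL₀ : h.top →ₐ[fixF S] h.top :=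
    { toFun := fun x => ⟨σ x, (IntermediateField.mem_extendScalars _).mpr
        (h.repSystem.smul_fix h.mem (h.coe_top_mem x))⟩
      map_one' := Subtype.ext (map_one σ)
      map_mul' := fun x y => Subtype.ext (map_mul σ _ _)
      map_zero' := Subtype.ext (map_zero σ)
      map_add' := fun x y => Subtype.ext (map_add σ _ _)
      commutes' := fun r => Subtype.ext (mem_fixF.mp r.2 σ h.mem) }
  let σL : h.top ≃ₐ[fixF S] h.top :=
    AlgEquiv.ofBijective σL₀ (Algebra.IsAlgebraic.algHom_bijective σL₀)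
  have hσL : ∀ (i : ℕ) (x : h.top), (((σL ^ i) x : h.top) : Qb) = (σ ^ i) (x : Qb) := by
    intro i
    induction i with
    | zero => intro x; rfl
    | succ i ih =>
      intro x
      rw [pow_succ, pow_succ, AlgEquiv.mul_apply, AlgEquiv.mul_apply, ih]
      rfl
  let e : Fin n → (h.top ≃ₐ[fixF S] h.top) := fun i => σL ^ (i : ℕ)
  have hinj : Function.Injective e := fun i k hik => by
    have hm : (σ ^ (i : ℕ))⁻¹ * σ ^ (k : ℕ) ∈ M := mem_of_fix hM fun x hx => by
      have h1 : ((e i ⟨x, hx⟩ : h.top) : Qb) = (e k ⟨x, hx⟩ : h.top) := by rw [hik]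
      simp only [e, hσL] at h1
      rw [AlgEquiv.mul_apply, ← h1]
      exact (σ ^ (i : ℕ)).symm_apply_apply x
    have := h.mod_eq_of_mem hm
    rw [Nat.mod_eq_of_lt i.2, Nat.mod_eq_of_lt k.2] at this
    exact Fin.ext this
  have hcard : Nat.card (h.top ≃ₐ[fixF S] h.top) = Module.finrank (fixF S) h.top := by
    refine le_antisymm ?_ ?_
    · rw [Nat.card_eq_fintype_card]; exact AlgEquiv.card_le
    · exact hdeg.le.trans ((Nat.card_fin n).symm.le.trans (Nat.card_le_card_of_injective e hinj))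
  have : IsGalois (fixF S) h.top := IsGalois.of_card_aut_eq_finrank _ _ hcard
  have hbij : Function.Bijective e := (Nat.bijective_iff_injective_and_card e).mpr
    ⟨hinj, by rw [Nat.card_fin, hcard, hdeg]⟩
  refine ⟨‹_›, hdeg, fun b => ?_⟩
  have h1 : ((algebraMap (fixF S) h.top (Algebra.norm (fixF S) b) : h.top) : Qb) =
      ((Algebra.norm (fixF S) b : fixF S) : Qb) := rfl
  rw [← h1, Algebra.norm_eq_prod_automorphisms, Finset.prod_range,
    ← Fintype.prod_bijective e hbij (fun i => e i b) (fun τ => τ b) fun _ => rfl]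
  push_cast
  simp only [e, hσL]

/-- The extension is unramified at infinity when no complex conjugation of the larger group leaves
the smaller one. -/
theorem isUnramifiedAtInfinitePlaces_top (hS : fullLevels.mem S) [NumberField h.top]
    (hreal : ∀ g, archConj g ∈ S → archConj g ∈ M) :
    IsUnramifiedAtInfinitePlaces (fixF S) h.top := ⟨fun w => by
  by_contra hw
  obtain ⟨hwc, hwr⟩ := InfinitePlace.not_isUnramified_iff.mp hw
  obtain ⟨g, hg⟩ := exists_phiAt_eq_embedding (K := h.top) w.embedding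
  rw [← InfinitePlace.mk_embedding w, InfinitePlace.comap_mk,
    InfinitePlace.isReal_mk_iff] at hwr
  have hS' : archConj g ∈ S := mem_of_fix hS fun x hx => (phiAt g).injective <| by
    have h1 := RingHom.congr_fun hwr ⟨x, hx⟩
    rw [phiAt_archConj, show phiAt g x = w.embedding (algebraMap (fixF S) h.top ⟨x, hx⟩) from
      hg (algebraMap (fixF S) h.top ⟨x, hx⟩)]
    exact h1
  apply InfinitePlace.not_isReal_iff_isComplex.mpr hwc
  rw [InfinitePlace.isReal_iff, ComplexEmbedding.isReal_iff]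
  refine RingHom.ext fun x => ?_
  show starRingEnd ℂ (w.embedding x) = w.embedding x
  rw [← show phiAt g (x : Qb) = w.embedding x from hg x, ← phiAt_archConj,
    mem_fixF.mp (h.coe_top_mem x) _ (hreal g hS')]⟩

end CyclicOver

/-! ### Hasse's norm theorem, for classes -/

/-- A cyclic class of prime degree which is trivial at all finite places is trivial, provided no
real place ramifies. -/
theorem fa_mem_B2_of_local {S M : Subgroup GQ} {σ : GQ} {p : ℕ} (hp : p.Prime)
    (hS : fullLevels.mem S) (h : CyclicOver S M σ p) {a : Qbˣ} (ha : a ∈ fixU S)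
    (hreal : ∀ g, archConj g ∈ S → archConj g ∈ M)
    (hloc : ∀ q g, h.fa a ∈ B2 (locG S (Sum.inr q) g)) : h.fa a ∈ B2 S := by
  classical
  have := numberField_fixF hS
  have := h.finiteDimensional_top hS
  have := h.numberField_top hS
  obtain ⟨hgal, hdeg, hnorm⟩ := h.top_spec hS
  have := h.isUnramifiedAtInfinitePlaces_top hS hreal
  let aK : fixF S := ⟨(a : Qb), mem_fixU.mp ha⟩
  have haK : aK ≠ 0 := fun h0 => a.ne_zero (congrArg Subtype.val h0)
  obtain ⟨b, hb⟩ := CFT.hasse_norm (L := h.top) hp hdeg haK fun v n => by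
    obtain ⟨q, g, hq, he, hv⟩ := exists_jAt_of_place (fixF S) v
    obtain ⟨b, hbM, hblim⟩ := exists_seq_norm hp hS h ha q g (hloc q g)
    have hmem : ∀ m, b m ∈ h.top := fun m => (IntermediateField.mem_extendScalars _).mpr (hbM m)
    have hja : jAt q g (a : Qb) ≠ 0 := (map_ne_zero _).mpr a.ne_zero
    have hlim : Tendsto (fun m => jAt q g (a : Qb) /
        jAt q g (∏ i ∈ Finset.range p, (σ ^ i) (b m)) - 1) atTop (𝓝 0) := by
      have := ((tendsto_const_nhds (x := jAt q g (a : Qb))).div hblim hja).sub_const 1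
      rwa [div_self hja, sub_self] at this
    have hε : (0 : ℝ) < ((q : ℝ)⁻¹) ^ n := by
      have : (0 : ℝ) < (q : ℝ) := Nat.cast_pos.mpr q.2.pos
      positivity
    obtain ⟨m, hm, hm0⟩ := ((tendsto_zero_iff_norm_tendsto_zero.mp hlim).eventually
      (gt_mem_nhds hε)).and (hblim.eventually_ne hja) |>.exists
    have hb0 : (⟨b m, hmem m⟩ : h.top) ≠ 0 := fun h0 => by
      refine hm0 ?_
      have e0 : b m = 0 := congrArg Subtype.val h0
      simp only [e0, map_zero, Finset.prod_const, Finset.card_range, zero_pow hp.ne_zero]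
    refine ⟨⟨b m, hmem m⟩, hb0, ?_⟩
    set x : fixF S := aK / Algebra.norm (fixF S) (⟨b m, hmem m⟩ : h.top) - 1
    show v.valuation (fixF S) x ≤ _
    rcases eq_or_ne x 0 with hx0 | hx0
    · rw [hx0, map_zero]; exact zero_le
    rw [valuation_le_exp_iff v hx0]
    have hx : ‖jAt q g (x : Qb)‖ < ((q : ℝ)⁻¹) ^ n := by
      rwa [show (x : Qb) = (a : Qb) / (∏ i ∈ Finset.range p, (σ ^ i) (b m)) - 1 by
        rw [← hnorm ⟨b m, hmem m⟩]; rfl, map_sub, map_div₀, map_one]
    have hq0 : (0 : ℝ) < (q : ℝ)⁻¹ := inv_pos.mpr (Nat.cast_pos.mpr q.2.pos)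
    have hq1 : (q : ℝ)⁻¹ < 1 := inv_lt_one_of_one_lt₀ (Nat.one_lt_cast.mpr q.2.one_lt)
    have h1 := hv x hx0
    by_contra hlt
    rw [not_le] at hlt
    obtain ⟨k, hk⟩ := Int.eq_ofNat_of_zero_le he.le
    rw [hk, zpow_natCast] at h1
    have h2 : ((q : ℝ)⁻¹) ^ (n : ℤ) < ((q : ℝ)⁻¹) ^ ordv v x :=
      zpow_lt_zpow_right_of_lt_one₀ hq0 hq1 hlt
    rw [← h1, zpow_natCast] at h2
    have h3 : ‖jAt q g (x : Qb)‖ ^ k < ((q : ℝ)⁻¹) ^ n :=
      (pow_le_of_le_one (norm_nonneg _) (hx.le.trans (pow_le_one₀ hq0.le hq1.le))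
        (by omega)).trans_lt hx
    exact lt_asymm h2 h3
  refine (h.fa_mem_B2_iff ha).mpr ⟨Units.mk0 (b : Qb) fun h0 => ?_,
    fun s hs => Units.ext (mem_fixF.mp (h.coe_top_mem b) s hs), Units.ext ?_⟩
  · apply haK
    rw [← hb, show b = 0 from Subtype.ext h0]
    simp
  · rw [Units.coe_prod]
    simp only [units_smul_coe, Units.val_mk0]
    rw [← hnorm b, hb]

end Fermat.Agent.CFT.Brauer
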