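import Fermat.Agent.CFT.Brauer.Mu

/-!
The local groups at the places of a number field, and `H²(μ_p)` of a local group.
-/

set_option autoImplicit false
set_option backward.isDefEq.respectTransparency false

noncomputable section

namespace Fermat.Agent.CFT.Brauer

open ExtCitation
open Fermat.Agent.GalCoh (Levels fullLevels muRep Place placeGroup placeLoc conjLoc decompIn
  decompToH levelsOn muOn placeMor)

/-- The local group at `(v, g)` of the field fixed by `H`, inside `G_ℚ`. -/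
def locG (H : Subgroup GQ) (v : Place) (g : GQ) : Subgroup GQ :=
  (H.subtype.comp (decompToH H v g)).range

lemma mem_locG {H : Subgroup GQ} {v : Place} {g x : GQ} :
    x ∈ locG H v g ↔ x ∈ H ∧ x ∈ (conjLoc v g).range :=
  ⟨fun ⟨y, hy⟩ => hy ▸ ⟨((decompToH H v g) y).2, ⟨y.1, rfl⟩⟩,
    fun ⟨hH, y, hy⟩ => ⟨⟨y, show conjLoc v g y ∈ H by rwa [hy]⟩, hy⟩⟩

lemma locG_eq (H : Subgroup GQ) (v : Place) (g : GQ) :
    locG H v g = H ⊓ (conjLoc v g).range := Subgroup.ext fun _ => mem_locG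

lemma locG_le (H : Subgroup GQ) (v : Place) (g : GQ) : locG H v g ≤ H :=
  fun _ hx => (mem_locG.mp hx).1

lemma isOpenIn_inf_of_mem {H : Subgroup GQ} (hH : fullLevels.mem H) (D : Subgroup GQ) :
    IsOpenIn (H ⊓ D) D := by
  obtain ⟨F, hF, hFH⟩ := hH
  exact ⟨inf_le_right, F, hF, fun g hg hgF => ⟨hFH hgF, hg⟩⟩

/-! ### From `H²` to cocycles -/

section Classes

variable {p : ℕ} [Fact p.Prime] {H : Subgroup GQ}

lemma pulled_on (H : Subgroup GQ) : Pulled (levelsOn H) H.subtype := pulled_comap _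

lemma pulled_loc (H : Subgroup GQ) (v : Place) (g : GQ) :
    Pulled ((levelsOn H).comap (decompToH H v g)) (H.subtype.comp (decompToH H v g)) :=
  (pulled_on H).comap _

/-- The multiplicative cocycle of a class on `H`. -/
abbrev cocQ (f : ↥(GalCoh.Z2 (levelsOn H) (muOn p H))) : GQ → GQ → Qbˣ :=
  toQ H.subtype (f : ↥H × ↥H → ZMod p)

lemma cocQ_mem_Z2 (f : ↥(GalCoh.Z2 (levelsOn H) (muOn p H))) : cocQ f ∈ Z2 H := by
  simpa [Subgroup.range_subtype] using (pulled_on H).toQ_mem_Z2 f.2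

lemma cocQ_pow (f : ↥(GalCoh.Z2 (levelsOn H) (muOn p H))) : cocQ f ^ p = 1 := toQ_pow_p _

lemma H2mk_eq_zero_iff (f : ↥(GalCoh.Z2 (levelsOn H) (muOn p H))) :
    GalCoh.H2mk (levelsOn H) (muOn p H) f = 0 ↔ cocQ f ∈ B2 H := by
  refine GalCoh.H2mk_eq_zero_iff.trans (((pulled_on H).mem_B2_iff f.2).trans ?_)
  rw [Subgroup.range_subtype]

/-- Vanishing at a place, in terms of cocycles. -/
theorem placeMor_eq_zero_iff (f : ↥(GalCoh.Z2 (levelsOn H) (muOn p H))) (v : Place) (g : GQ) :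
    (placeMor p H v g).map₂ (GalCoh.H2mk (levelsOn H) (muOn p H) f) = 0 ↔ cocQ f ∈ B2 (locG H v g) := by
  rw [GalCoh.Mor.map₂_mk]
  refine GalCoh.H2mk_eq_zero_iff.trans
    (((pulled_loc H v g).mem_B2_iff ((placeMor p H v g).cochain₂_mem_Z2 f.2)).trans ?_)
  exact mem_B2_congr fun a ha b hb =>
    (pulled_on H).toQ_comp (decompToH H v g) (GalCoh.mem_Z2_iff.mp f.2).2 ha hb

/-- Every cocycle killed by `p` is the cocycle of a class. -/
theorem exists_cocQ_eq {F : GQ → GQ → Qbˣ} (hF : F ∈ Z2 H) (hFp : F ^ p ∈ B2 H) :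
    ∃ f : ↥(GalCoh.Z2 (levelsOn H) (muOn p H)), cocQ f / F ∈ B2 H := by
  have hr : H.subtype.range = H := Subgroup.range_subtype H
  obtain ⟨f, hf, h⟩ := (pulled_on H).exists_of_pow_mem_B2 (p := p) (by rwa [hr]) (by rwa [hr])
  exact ⟨⟨f, hf⟩, by rwa [hr] at h⟩

end Classes

/-! ### Finite places -/

section Finite

variable (q : Nat.Primes) (g : GQ)

/-- The embedding at the place `(q, g)`. -/
def jAt [Fact (q : ℕ).Prime] : Qb →+* PadicAlgCl (q : ℕ) :=
  (padicEmbedding (q : ℕ)).toRingHom.comp ((g⁻¹ : GQ) : Qb →+* Qb)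

variable [Fact (q : ℕ).Prime]

lemma jAt_apply (x : Qb) : jAt q g x = padicEmbedding (q : ℕ) ((g⁻¹ : GQ) x) := rfl

lemma jAt_conjLoc (τ : PadicAlgCl (q : ℕ) ≃ₐ[ℚ_[(q : ℕ)]] PadicAlgCl (q : ℕ)) (x : Qb) :
    jAt q g (conjLoc (Sum.inr q) g τ x) = τ (jAt q g x) := by
  have e : (g⁻¹ : GQ) (conjLoc (Sum.inr q) g τ x) =
      localGaloisToGlobal (q : ℕ) τ ((g⁻¹ : GQ) x) := by
    show (g⁻¹ * (g * localGaloisToGlobal (q : ℕ) τ * g⁻¹) : GQ) x = _
    rw [← mul_assoc, inv_mul_cancel_left, AlgEquiv.mul_apply]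
  rw [jAt_apply, e, padicEmbedding_localGaloisToGlobal]
  rfl

/-- A local group is an algebraic henselian local field. -/
theorem localAt_range : LocalAt (jAt q g) (conjLoc (Sum.inr q) g).range := by
  refine ⟨?_, ⊥, inferInstance, fun x hx => ?_⟩
  · rintro _ ⟨τ, rfl⟩ x
    rw [jAt_conjLoc]
    exact congrArg NNReal.toReal (nnnorm_padicAlgCl_algEquiv (q : ℕ) τ _)
  · have : Normal ℚ_[(q : ℕ)] (PadicAlgCl (q : ℕ)) := IsAlgClosure.normal _ _
    have : IsGalois ℚ_[(q : ℕ)] (PadicAlgCl (q : ℕ)) := IsGalois.mk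
    rw [IntermediateField.mem_bot]
    refine (InfiniteGalois.mem_range_algebraMap_iff_fixed _).mpr fun τ => ?_
    rw [← jAt_conjLoc, mem_fixF.mp hx _ ⟨τ, rfl⟩]

theorem localAt_locG {H : Subgroup GQ} (hH : fullLevels.mem H) :
    LocalAt (jAt q g) (locG H (Sum.inr q) g) := by
  rw [locG_eq]
  exact (localAt_range q g).of_isOpenIn (isOpenIn_inf_of_mem hH _)

end Finite

/-! ### Infinite places -/

section Infinite

variable (g : GQ)

/-- Complex conjugation at the real place `g` of `ℚ̄`. -/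
def archConj : GQ := g * complexConjugation * g⁻¹

/-- The complex embedding at the place `g`. -/
def phiAt : Qb →+* ℂ := complexEmbedding.toRingHom.comp ((g⁻¹ : GQ) : Qb →+* Qb)

lemma phiAt_archConj (x : Qb) : phiAt g (archConj g x) = starRingEnd ℂ (phiAt g x) := by
  show complexEmbedding ((g⁻¹ * (g * complexConjugation * g⁻¹) : GQ) x) = _
  rw [← mul_assoc, inv_mul_cancel_left, AlgEquiv.mul_apply,
    complexEmbedding_complexConjugation]
  rfl

lemma archConj_mul_self : archConj g * archConj g = 1 := by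
  simp only [archConj]
  rw [show g * complexConjugation * g⁻¹ * (g * complexConjugation * g⁻¹) =
      g * (complexConjugation * complexConjugation) * g⁻¹ by group, complexConjugation_mul_self]
  group

lemma archConj_ne_one : archConj g ≠ 1 := by
  intro h
  obtain ⟨i, hi⟩ := IsAlgClosed.exists_pow_nat_eq (-1 : Qb) two_pos
  have hreal := phiAt_archConj g i
  rw [h, AlgEquiv.one_apply] at hreal
  have hsq : phiAt g i ^ 2 = -1 := by rw [← map_pow, hi, map_neg, map_one]
  obtain ⟨r, hr⟩ := Complex.conj_eq_iff_real.mp hreal.symm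
  rw [hr] at hsq
  have hre := congrArg Complex.re hsq
  rw [← Complex.ofReal_pow, Complex.ofReal_re, Complex.neg_re, Complex.one_re] at hre
  nlinarith [sq_nonneg r]

lemma range_conjLoc_inl (u : Unit) :
    (conjLoc (Sum.inl u) g).range = Subgroup.zpowers (archConj g) := by
  refine le_antisymm ?_ (Subgroup.zpowers_le.mpr ⟨archimedeanGen, rfl⟩)
  rintro _ ⟨⟨x, hx⟩, rfl⟩
  obtain ⟨k, rfl⟩ := Subgroup.mem_zpowers_iff.mp hx
  refine ⟨k, ?_⟩
  show archConj g ^ k = g * complexConjugation ^ k * g⁻¹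
  rw [archConj, conj_zpow]

lemma eq_one_or_of_mem_range {u : Unit} {x : GQ} (hx : x ∈ (conjLoc (Sum.inl u) g).range) :
    x = 1 ∨ x = archConj g := by
  rw [range_conjLoc_inl] at hx
  obtain ⟨k, rfl⟩ := Subgroup.mem_zpowers_iff.mp hx
  have h2 : archConj g ^ (2 : ℤ) = 1 := by rw [zpow_two, archConj_mul_self]
  rcases Int.even_or_odd k with ⟨m, rfl⟩ | ⟨m, rfl⟩
  · left; rw [← two_mul, zpow_mul, h2, one_zpow]
  · right; rw [zpow_add, zpow_mul, h2, one_zpow, one_mul, zpow_one]

lemma relIndex_bot_zpowers_archConj :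
    (⊥ : Subgroup GQ).relIndex (Subgroup.zpowers (archConj g)) = 2 := by
  rw [Subgroup.relIndex_bot_left, Nat.card_zpowers]
  exact orderOf_eq_prime (by rw [pow_two, archConj_mul_self]) (archConj_ne_one g)

lemma isOpenIn_bot_zpowers_archConj : IsOpenIn ⊥ (Subgroup.zpowers (archConj g)) := by
  obtain ⟨x, hx⟩ : ∃ x, archConj g x ≠ x := by
    by_contra! h
    exact archConj_ne_one g (AlgEquiv.ext h)
  obtain ⟨F, hF, -, -, hxF⟩ := exists_normal_level ⊥ {x}
  refine ⟨bot_le, F, hF, fun y hy hyF => ?_⟩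
  rw [← range_conjLoc_inl g ()] at hy
  rcases eq_one_or_of_mem_range g hy with rfl | rfl
  · exact one_mem _
  · exact absurd (fix_eq hyF (hxF x (Finset.mem_singleton_self _))) hx

theorem cyclicOver_arch :
    CyclicOver (Subgroup.zpowers (archConj g)) ⊥ (archConj g) 2 :=
  haveI : Fact (Nat.Prime 2) := ⟨Nat.prime_two⟩
  cyclicOver_of_relIndex_prime (isOpenIn_bot_zpowers_archConj g)
    (fun x _ s hs => by rw [Subgroup.mem_bot.mp hs]; simp)
    (relIndex_bot_zpowers_archConj g) (Subgroup.mem_zpowers _) (by simpa using archConj_ne_one g)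

lemma exists_real {a : Qbˣ} (ha : a ∈ fixU (Subgroup.zpowers (archConj g))) :
    ∃ t : ℝ, t ≠ 0 ∧ phiAt g (a : Qb) = (t : ℂ) := by
  have h := phiAt_archConj g (a : Qb)
  rw [← units_smul_coe, ha _ (Subgroup.mem_zpowers _)] at h
  obtain ⟨t, ht⟩ := Complex.conj_eq_iff_real.mp h.symm
  refine ⟨t, fun h0 => a.ne_zero ((phiAt g).injective ?_), ht⟩
  rw [ht, h0, map_zero, Complex.ofReal_zero]

/-- At a real place the class of `a` vanishes iff `a` is positive. -/
theorem fa_mem_B2_arch_iff {a : Qbˣ} (ha : a ∈ fixU (Subgroup.zpowers (archConj g))) :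
    (cyclicOver_arch g).fa a ∈ B2 (Subgroup.zpowers (archConj g)) ↔
      0 < (phiAt g (a : Qb)).re := by
  obtain ⟨t, ht0, ht⟩ := exists_real g ha
  rw [(cyclicOver_arch g).fa_mem_B2_iff ha, ht, Complex.ofReal_re]
  simp only [Finset.prod_range_succ, Finset.prod_range_zero, one_mul, pow_zero, pow_one, one_smul]
  constructor
  · rintro ⟨b, -, hb⟩
    have h := congrArg (fun u : Qbˣ => phiAt g (u : Qb)) hb
    simp only [Units.val_mul, units_smul_coe, map_mul, phiAt_archConj] at h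
    rw [ht, Complex.mul_conj, Complex.ofReal_inj] at h
    rw [← h]
    exact Complex.normSq_pos.mpr ((map_ne_zero _).mpr b.ne_zero)
  · intro hpos
    obtain ⟨s, hs⟩ := IsAlgClosed.exists_pow_nat_eq (a : Qb) two_pos
    have hs0 : s ≠ 0 := fun h0 => a.ne_zero (by rw [← hs, h0]; simp)
    refine ⟨Units.mk0 s hs0, fun x hx => by rw [Subgroup.mem_bot.mp hx, one_smul], Units.ext ?_⟩
    have hφ : phiAt g s ^ 2 = (t : ℂ) := by rw [← map_pow, hs, ht]
    have him : (phiAt g s).im = 0 := by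
      have h1 := congrArg Complex.re hφ
      have h2 := congrArg Complex.im hφ
      simp only [pow_two, Complex.mul_re, Complex.mul_im, Complex.ofReal_re,
        Complex.ofReal_im] at h1 h2
      by_contra hne
      have : (phiAt g s).re = 0 := by
        rcases mul_eq_zero.mp (by linarith : (phiAt g s).re * (phiAt g s).im = 0) with h | h
        · exact h
        · exact absurd h hne
      rw [this] at h1
      nlinarith [mul_self_nonneg (phiAt g s).im]
    have : archConj g s = s := (phiAt g).injective <| by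
      rw [phiAt_archConj, Complex.conj_eq_iff_im.mpr him]
    simp only [Units.val_mul, units_smul_coe, Units.val_mk0, this]
    rw [← hs, pow_two]

/-- Every class at an infinite place is killed by two, and at most one is non-zero. -/
theorem arch_cases (H : Subgroup GQ) (u : Unit) :
    locG H (Sum.inl u) g = ⊥ ∨ locG H (Sum.inl u) g = Subgroup.zpowers (archConj g) := by
  by_cases hc : archConj g ∈ H
  · right
    rw [locG_eq, range_conjLoc_inl, inf_eq_right, Subgroup.zpowers_le]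
    exact hc
  · left
    rw [eq_bot_iff]
    intro x hx
    obtain ⟨hxH, hxr⟩ := mem_locG.mp hx
    rcases eq_one_or_of_mem_range g hxr with rfl | rfl
    · exact one_mem _
    · exact absurd hxH hc

lemma mem_B2_bot {F : GQ → GQ → Qbˣ} : F ∈ B2 ⊥ := by
  refine ⟨fun _ => F 1 1, cts₁_const _ _, fun a ha b hb => ?_⟩
  rw [Subgroup.mem_bot.mp ha, Subgroup.mem_bot.mp hb, d1_const (one_smul _ _)]

theorem mem_B2_sq {H : Subgroup GQ} {u : Unit} {F : GQ → GQ → Qbˣ}
    (hF : F ∈ Z2 (locG H (Sum.inl u) g)) : F ^ 2 ∈ B2 (locG H (Sum.inl u) g) := by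
  rcases arch_cases g H u with e | e <;> rw [e] at hF ⊢
  · exact mem_B2_bot
  · have := pow_relIndex_mem_B2 (isOpenIn_bot_zpowers_archConj g) hF mem_B2_bot
    rwa [relIndex_bot_zpowers_archConj] at this

theorem arch_exists_pow_div {H : Subgroup GQ} {u : Unit} {F F' : GQ → GQ → Qbˣ}
    (hF : F ∈ Z2 (locG H (Sum.inl u) g)) (hne : F ∉ B2 (locG H (Sum.inl u) g))
    (hF' : F' ∈ Z2 (locG H (Sum.inl u) g)) : ∃ i : ℕ, F' / F ^ i ∈ B2 (locG H (Sum.inl u) g) := by
  rcases arch_cases g H u with e | e <;> rw [e] at hF hne hF' ⊢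
  · exact absurd mem_B2_bot hne
  have h := cyclicOver_arch g
  obtain ⟨a, ha, hfa⟩ := h.exists_eq_fa hF mem_B2_bot
  obtain ⟨a', ha', hfa'⟩ := h.exists_eq_fa hF' mem_B2_bot
  obtain ⟨t, ht0, ht⟩ := exists_real g ha
  obtain ⟨t', ht'0, ht'⟩ := exists_real g ha'
  have htneg : t < 0 := by
    refine lt_of_le_of_ne (not_lt.mp fun hpos => hne ?_) ht0
    rw [← div_mul_cancel F (h.fa a)]
    exact mul_mem hfa ((fa_mem_B2_arch_iff g ha).mpr (by rwa [ht, Complex.ofReal_re]))
  rcases lt_or_gt_of_ne ht'0 with hneg | hpos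
  · refine ⟨1, ?_⟩
    have hquot : h.fa (a' / a) ∈ B2 (Subgroup.zpowers (archConj g)) := by
      refine (fa_mem_B2_arch_iff g (div_mem ha' ha)).mpr ?_
      rw [Units.val_div_eq_div_val, map_div₀, ht', ht, ← Complex.ofReal_div, Complex.ofReal_re]
      exact div_pos_of_neg_of_neg hneg htneg
    have e1 : F' / F ^ 1 = (F' / h.fa a') / (F / h.fa a) * h.fa (a' / a) := by
      rw [pow_one, div_eq_mul_inv a' a, h.fa_mul,
        show h.fa a⁻¹ = (h.fa a)⁻¹ from eq_inv_of_mul_eq_one_left (by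
          rw [← h.fa_mul, inv_mul_cancel, h.fa_one]), ← div_eq_mul_inv,
        div_div_div_comm, div_mul_cancel]
    rw [e1]
    exact mul_mem (div_mem hfa' hfa) hquot
  · refine ⟨0, ?_⟩
    rw [pow_zero, div_one, ← div_mul_cancel F' (h.fa a')]
    exact mul_mem hfa' ((fa_mem_B2_arch_iff g ha').mpr (by rwa [ht', Complex.ofReal_re]))

end Infinite

/-! ### `H²` of local groups -/

variable (p : ℕ) [Fact p.Prime]

/-- At a place, `H²(μ_p)` is generated by any non-zero class. -/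
theorem localH2Cyclic : GalCoh.LocalH2Cyclic p := by
  intro H hH v g x y hx
  obtain ⟨f, rfl⟩ := GalCoh.H2mk_surjective x
  obtain ⟨f', rfl⟩ := GalCoh.H2mk_surjective y
  set r := H.subtype.comp (decompToH H v g) with hr
  have hP : Pulled ((levelsOn H).comap (decompToH H v g)) r := pulled_loc H v g
  have hF := hP.toQ_mem_Z2 f.2
  have hF' := hP.toQ_mem_Z2 f'.2
  have hne : toQ r (f : _ → ZMod p) ∉ B2 r.range := fun h =>
    hx (GalCoh.H2mk_eq_zero_iff.mpr ((hP.mem_B2_iff f.2).mpr h))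
  have hp0 : ∀ k : ↥(GalCoh.Z2 ((levelsOn H).comap (decompToH H v g))
      ((muOn p H).comp (decompToH H v g))), toQ r (k : _ → ZMod p) ^ p ∈ B2 r.range := fun k => by
    rw [toQ_pow_p]; exact one_mem _
  obtain ⟨i, hi⟩ : ∃ i : ℕ, toQ r (f' : _ → ZMod p) / toQ r (f : _ → ZMod p) ^ i ∈ B2 r.range := by
    rcases v with u | q
    · rcases (Fact.out : p.Prime).eq_two_or_odd' with rfl | hodd
      · exact arch_exists_pow_div g hF hne hF'
      · exact absurd (mem_B2_of_coprime (Nat.coprime_two_right.mpr hodd).symm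
          (mem_B2_sq g hF) (hp0 f)) hne
    · have : Fact (q : ℕ).Prime := ⟨q.2⟩
      exact exists_pow_div_mem_B2 (localAt_locG q g hH) hF (hp0 f) hne hF' (hp0 f')
  refine ⟨(i : ZMod p), ?_⟩
  rw [← map_smul, GalCoh.H2mk_eq_iff]
  refine (hP.mem_B2_iff (sub_mem f'.2 (Submodule.smul_mem _ _ f.2))).mpr ?_
  have hpow : toQ r (f : _ → ZMod p) ^ (i : ZMod p).val = toQ r (f : _ → ZMod p) ^ i := by
    rw [ZMod.val_natCast]
    exact (pow_eq_pow_mod i (toQ_pow_p _)).symm
  rw [toQ_sub, toQ_smul, hpow]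
  exact hi

end Fermat.Agent.CFT.Brauer
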