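import Fermat.Agent.CFT.Brauer.PsiChar

/-!
The product formula for the classes of the characters of conductor `l`.
-/

set_option autoImplicit false
set_option linter.unusedSectionVars false
set_option backward.isDefEq.respectTransparency false

noncomputable section

namespace Fermat.Agent.CFT.Brauer

/-- A rational number as a unit of `ℚ̄`. -/
def ratU (A : ℚ) (hA : A ≠ 0) : Qbˣ := Units.mk0 (A : Qb) (Rat.cast_ne_zero.mpr hA)

lemma ratU_mem_fixU (A : ℚ) (hA : A ≠ 0) (Γ : Subgroup GQ) : ratU A hA ∈ fixU Γ :=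
  fun g _ => Units.ext (by simp [ratU])

lemma exists_ratU {a : Qbˣ} (ha : a ∈ fixU (⊤ : Subgroup GQ)) :
    ∃ (A : ℚ) (hA : A ≠ 0), a = ratU A hA := by
  obtain ⟨A, hA⟩ := (InfiniteGalois.mem_range_algebraMap_iff_fixed (k := ℚ) (a : Qb)).mpr
    fun g => congrArg Units.val (ha g (Subgroup.mem_top g))
  rw [eq_ratCast] at hA
  exact ⟨A, fun h0 => a.ne_zero (by rw [← hA, h0, Rat.cast_zero]), Units.ext hA.symm⟩

lemma ratU_natCast (m : ℕ) (hm : (m : ℚ) ≠ 0) :
    ratU m hm = Units.mk0 ((m : ℕ) : Qb) (Nat.cast_ne_zero.mpr (by simpa using hm)) :=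
  Units.ext (by simp [ratU])

lemma norm_jAt_rat (r : Nat.Primes) [Fact (r : ℕ).Prime] (g : GQ) {A : ℚ} (hA : A ≠ 0) :
    ‖jAt r g (A : Qb)‖ = (((r : ℕ) : ℝ)⁻¹) ^ padicValRat r A := by
  rw [map_ratCast, ← map_ratCast (algebraMap ℚ_[(r : ℕ)] (PadicAlgCl (r : ℕ))), norm_algebraMap',
    Padic.eq_padicNorm, padicNorm.eq_zpow_of_nonzero hA]
  push_cast
  rw [zpow_neg, inv_zpow]

/-- A rational of absolute value one at `l` which is close to `x` is congruent to it modulo `l`. -/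
lemma intCast_eq_of_norm_lt (r : Nat.Primes) [Fact (r : ℕ).Prime] (g : GQ) {z : ℤ}
    (h : ‖jAt r g (z : Qb)‖ < 1) : (z : ZMod r) = 0 := by
  rw [map_intCast, ← map_intCast (algebraMap ℚ_[(r : ℕ)] (PadicAlgCl (r : ℕ))),
    norm_algebraMap', Padic.norm_intCast_lt_one_iff] at h
  exact (ZMod.intCast_zmod_eq_zero_iff_dvd _ _).mpr h

namespace AuxChar

variable {l n : ℕ} [Fact l.Prime] [NeZero n] (Ψ : AuxChar l n)

lemma cls_mul (a b : Qbˣ) : Ψ.cls (a * b) = Ψ.cls a * Ψ.cls b := Ψ.cyclic.fa_mul a b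

lemma cls_zpow (a : Qbˣ) (k : ℤ) : Ψ.cls (a ^ k) = Ψ.cls a ^ k := map_zpow Ψ.clsHom a k

lemma indF_prod {ι : Type} (T : Finset ι) (f : ι → ZMod l) (hf : ∀ i ∈ T, f i ≠ 0) :
    Ψ.indF (∏ i ∈ T, f i) = ∑ i ∈ T, Ψ.indF (f i) := by
  classical
  induction T using Finset.induction_on with
  | empty => simpa using Ψ.indF_one
  | insert i T hi ih =>
    rw [Finset.prod_insert hi, Finset.sum_insert hi,
      Ψ.indF_mul (hf i (Finset.mem_insert_self _ _))
        (Finset.prod_ne_zero_iff.mpr fun k hk => hf k (Finset.mem_insert_of_mem hk)),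
      ih fun k hk => hf k (Finset.mem_insert_of_mem hk)]

lemma indF_natCast_eq_sum {m : ℕ} (hm : m ≠ 0) (_hlm : ¬ l ∣ m) {T : Finset ℕ}
    (hT : m.primeFactors ⊆ T) (hlT : l ∉ T) (hTp : ∀ r ∈ T, Nat.Prime r) :
    Ψ.indF (m : ZMod l) = ∑ r ∈ T, (padicValNat r m : ZMod n) * Ψ.indF (r : ZMod l) := by
  have hr0 : ∀ r ∈ T, (r : ZMod l) ≠ 0 := fun r hr h0 =>
    hlT ((Nat.prime_dvd_prime_iff_eq Fact.out (hTp r hr)).mp
      ((ZMod.natCast_eq_zero_iff _ _).mp h0) ▸ hr)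
  have hprod : ∏ r ∈ T, r ^ m.factorization r = m := by
    conv_rhs => rw [← Nat.prod_factorization_pow_eq_self hm]
    rw [Finsupp.prod_of_support_subset _ (by simpa using hT) _ fun i _ => pow_zero i]
  conv_lhs => rw [← hprod]
  rw [Nat.cast_prod, Ψ.indF_prod T _ fun r hr => by
    rw [Nat.cast_pow]; exact pow_ne_zero _ (hr0 r hr)]
  refine Finset.sum_congr rfl fun r hr => ?_
  rw [Nat.cast_pow, Ψ.indF_pow (hr0 r hr), Nat.factorization_def _ (hTp r hr)]

lemma indF_intCast {z : ℤ} (hz : (z : ZMod l) ≠ 0) :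
    Ψ.indF (z : ZMod l) = (if z < 0 then Ψ.indF (-1) else 0) + Ψ.indF (z.natAbs : ZMod l) := by
  rcases Int.natAbs_eq z with h | h
  · have hnn : ¬ z < 0 := by omega
    rw [if_neg hnn, zero_add]
    conv_lhs => rw [h]
    rw [Int.cast_natCast]
  · have hne : (z.natAbs : ZMod l) ≠ 0 := fun h0 => hz (by
      rw [h, Int.cast_neg, Int.cast_natCast, h0, neg_zero])
    have hneg : z < 0 := by
      have : z.natAbs ≠ 0 := fun h0 => hne (by simp [h0])
      omega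
    rw [if_pos hneg]
    conv_lhs => rw [h]
    rw [Int.cast_neg, Int.cast_natCast, neg_eq_neg_one_mul,
      Ψ.indF_mul (by simp) hne]

/-- Triviality of the class of a rational, at a prime different from `l`. -/
lemma cls_rat_iff (r : Nat.Primes) [Fact (r : ℕ).Prime] (g : GQ) (hrl : (r : ℕ) ≠ l) {A : ℚ}
    (hA : A ≠ 0) : Ψ.cls (ratU A hA) ∈ B2 (Dec r g) ↔
      (padicValRat r A : ZMod n) * Ψ.indF ((r : ℕ) : ZMod l) = 0 :=
  Ψ.cls_mem_B2_iff g hrl (ratU_mem_fixU A hA _) (norm_jAt_rat r g hA)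

lemma cls_rat_arch (g : GQ) {A : ℚ} (hA : A ≠ 0) :
    Ψ.cls (ratU A hA) ∈ B2 (Subgroup.zpowers (archConj g)) ↔ Ψ.indF (-1) = 0 ∨ 0 < A := by
  rw [Ψ.cls_mem_B2_arch g (ratU_mem_fixU A hA _)]
  simp [ratU]

/-- At `l`, the class of an `l`-unit is trivial when the unit is congruent to an `n`-th power. -/
lemma cls_int_mem_B2_l (r : Nat.Primes) [Fact (r : ℕ).Prime] (g : GQ) (hrl : (r : ℕ) = l) {z : ℤ}
    (hz : z ≠ 0) (hzl : (z : ZMod l) ≠ 0) (hind : Ψ.indF (z : ZMod l) = 0) :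
    Ψ.cls (ratU z (Int.cast_ne_zero.mpr hz)) ∈ B2 (Dec r g) := by
  obtain ⟨y, hy0, hy⟩ := Ψ.exists_pow_of_indF hzl hind
  have hyd : ¬ l ∣ y.val := fun h => hy0 (by
    rw [← ZMod.natCast_zmod_val y]; exact (ZMod.natCast_eq_zero_iff _ _).mpr h)
  refine Ψ.cls_mem_B2_l_of_pow g hrl (ratU_mem_fixU _ _ _) hyd ?_
  have e : ((ratU (z : ℚ) (Int.cast_ne_zero.mpr hz) : Qbˣ) : Qb) - (y.val : Qb) ^ n =
      (((z - (y.val : ℤ) ^ n) : ℤ) : Qb) := by
    push_cast [ratU, Units.val_mk0]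
    simp
  rw [e, map_intCast, ← map_intCast (algebraMap ℚ_[(r : ℕ)] (PadicAlgCl (r : ℕ))),
    norm_algebraMap', Padic.norm_intCast_lt_one_iff, hrl,
    ← ZMod.intCast_zmod_eq_zero_iff_dvd]
  push_cast
  rw [ZMod.natCast_zmod_val, hy, sub_self]

/-- The product formula: a class trivial at all places but `q` is trivial at `q`. -/
theorem cls_product_formula {A : ℚ} (hA : A ≠ 0) (q : Nat.Primes) (hql : (q : ℕ) ≠ l)
    (hfin : ∀ (r : Nat.Primes) [Fact (r : ℕ).Prime], r ≠ q →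
      ∃ g, Ψ.cls (ratU A hA) ∈ B2 (Dec r g))
    (hinf : ∃ g, Ψ.cls (ratU A hA) ∈ B2 (Subgroup.zpowers (archConj g))) :
    (padicValRat q A : ZMod n) * Ψ.indF ((q : ℕ) : ZMod l) = 0 := by
  classical
  have hl : l.Prime := Fact.out
  obtain ⟨lp, hlp⟩ : ∃ lp : Nat.Primes, (lp : ℕ) = l := ⟨⟨l, hl⟩, rfl⟩
  have : Fact (lp : ℕ).Prime := ⟨lp.2⟩
  -- remove the power of `l`
  set v := padicValRat l A
  have hl0 : (l : ℚ) ≠ 0 := Nat.cast_ne_zero.mpr hl.ne_zero
  set U : ℚ := A * ((l : ℚ) ^ v)⁻¹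
  have hU : U ≠ 0 := mul_ne_zero hA (inv_ne_zero (zpow_ne_zero _ hl0))
  have hdiff : Ψ.cls (ratU U hU) / Ψ.cls (ratU A hA) ∈ B2 ⊤ := by
    have e : ratU U hU = ratU A hA * (ratU l hl0) ^ (-v) := Units.ext (by
      simp [U, ratU, zpow_neg])
    rw [e, Ψ.cls_mul, Ψ.cls_zpow, mul_div_cancel_left, ratU_natCast]
    exact zpow_mem Ψ.cls_l_mem_B2 _
  have htrans : ∀ X : Subgroup GQ, Ψ.cls (ratU A hA) ∈ B2 X → Ψ.cls (ratU U hU) ∈ B2 X :=
    fun X hX => by
      have := mul_mem (B2_anti (le_top : X ≤ ⊤) hdiff) hX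
      rwa [div_mul_cancel] at this
  have hval : ∀ r : Nat.Primes, padicValRat r U =
      padicValRat r A - if (r : ℕ) = l then v else 0 := fun r => by
    have : Fact (r : ℕ).Prime := ⟨r.2⟩
    rw [padicValRat.mul hA (inv_ne_zero (zpow_ne_zero _ hl0)), padicValRat.inv,
      padicValRat.zpow]
    split_ifs with h
    · rw [h, padicValRat.self hl.one_lt]; ring
    · rw [padicValRat.of_nat,
        padicValNat_primes h, Nat.cast_zero]; ring
  have hUl : padicValRat l U = 0 := by rw [← hlp, hval lp, if_pos hlp, hlp, sub_self]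
  have hnd : ¬ (l : ℤ) ∣ U.num ∧ ¬ l ∣ U.den := by
    have hnum : U.num.natAbs ≠ 0 := by simpa using hU
    have hdisj : ¬ (l ∣ U.num.natAbs ∧ l ∣ U.den) := fun h =>
      hl.ne_one (Nat.dvd_one.mp (U.reduced ▸ Nat.dvd_gcd h.1 h.2))
    have hdef : padicValRat l U = (padicValNat l U.num.natAbs : ℤ) - padicValNat l U.den := by
      rw [padicValRat_def, padicValInt]
    rw [hdef, sub_eq_zero, Nat.cast_inj] at hUl
    have hiff : ∀ m, m ≠ 0 → (l ∣ m ↔ padicValNat l m ≠ 0) := fun m hm =>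
      ⟨fun hd h0 => by
        rcases padicValNat.eq_zero_iff.mp h0 with h | h | h
        · exact hl.ne_one h
        · exact hm h
        · exact h hd, dvd_of_one_le_padicValNat ∘ Nat.one_le_iff_ne_zero.mpr⟩
    have h1 : ¬ l ∣ U.num.natAbs := fun h => hdisj ⟨h, (hiff _ U.den_nz).mpr
      (hUl ▸ (hiff _ hnum).mp h)⟩
    exact ⟨fun h => h1 (Int.natCast_dvd.mp h), fun h => h1 ((hiff _ hnum).mpr
      (hUl.symm ▸ (hiff _ U.den_nz).mp h))⟩
  have hnum0 : (U.num : ZMod l) ≠ 0 := fun h => hnd.1 ((ZMod.intCast_zmod_eq_zero_iff_dvd _ _).mp h)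
  have hden0 : (U.den : ZMod l) ≠ 0 := fun h => hnd.2 ((ZMod.natCast_eq_zero_iff _ _).mp h)
  -- the place `l`
  have hindeq : Ψ.indF (U.num : ZMod l) = Ψ.indF (U.den : ZMod l) := by
    obtain ⟨g, hg⟩ := hfin lp fun e => hql (e ▸ hlp)
    have h1 : ‖jAt lp g ((ratU U hU : Qbˣ) : Qb)‖ = 1 := by
      show ‖jAt lp g (U : Qb)‖ = 1
      rw [norm_jAt_rat lp g hU, hlp, hUl, zpow_zero]
    obtain ⟨x₀, hx₀⟩ := Ψ.exists_pow_of_cls_mem_B2 g hlp (ratU_mem_fixU U hU _) h1 (htrans _ hg)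
    have hz : ((U.num - (x₀ : ℤ) ^ n * U.den : ℤ) : ZMod lp) = 0 := by
      refine intCast_eq_of_norm_lt lp g ?_
      have hd : ((U.den : ℕ) : Qb) ≠ 0 := Nat.cast_ne_zero.mpr U.den_nz
      have e : ((U.num - (x₀ : ℤ) ^ n * U.den : ℤ) : Qb) =
          ((U : Qb) - (x₀ : Qb) ^ n) * (U.den : Qb) := by
        push_cast
        rw [Rat.cast_def U, sub_mul, div_mul_cancel₀ _ hd]
      rw [e, map_mul, norm_mul]
      exact mul_lt_one_of_nonneg_of_lt_one_left (norm_nonneg _) hx₀ (norm_natCast_le_one _)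
    rw [ZMod.intCast_zmod_eq_zero_iff_dvd, hlp, ← ZMod.intCast_zmod_eq_zero_iff_dvd] at hz
    push_cast at hz
    rw [sub_eq_zero] at hz
    have hx0 : (x₀ : ZMod l) ≠ 0 := fun h0 => hnum0 (by
      rw [hz, h0, zero_pow (NeZero.ne n), zero_mul])
    rw [hz, Ψ.indF_mul (pow_ne_zero _ hx0) hden0, Ψ.indF_pow_self hx0, zero_add]
  -- the sign
  have hsign : (if U.num < 0 then Ψ.indF (-1) else 0) = 0 := by
    split_ifs with hneg
    · obtain ⟨g, hg⟩ := hinf
      rcases (Ψ.cls_rat_arch g hU).mp (htrans _ hg) with h | h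
      · exact h
      · exact absurd (Rat.num_neg.mp hneg) (not_lt.mpr h.le)
    · rfl
  -- factorisation
  set T : Finset ℕ := insert (q : ℕ) (U.num.natAbs.primeFactors ∪ U.den.primeFactors)
  have hTp : ∀ r ∈ T, r.Prime := fun r hr => by
    rcases Finset.mem_insert.mp hr with rfl | hr
    · exact q.2
    · rcases Finset.mem_union.mp hr with hr | hr <;> exact Nat.prime_of_mem_primeFactors hr
  have hlT : l ∉ T := fun h => by
    rcases Finset.mem_insert.mp h with h | h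
    · exact hql h.symm
    rcases Finset.mem_union.mp h with h | h
    · exact hnd.1 (Int.natCast_dvd.mpr (Nat.dvd_of_mem_primeFactors h))
    · exact hnd.2 (Nat.dvd_of_mem_primeFactors h)
  rw [Ψ.indF_intCast hnum0, hsign, zero_add,
    Ψ.indF_natCast_eq_sum (by simpa using hU) (fun h => hnd.1 (Int.natCast_dvd.mpr h))
      (Finset.subset_union_left.trans (Finset.subset_insert _ _)) hlT hTp,
    Ψ.indF_natCast_eq_sum U.den_nz hnd.2
      (Finset.subset_union_right.trans (Finset.subset_insert _ _)) hlT hTp,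
    ← sub_eq_zero, ← Finset.sum_sub_distrib] at hindeq
  rw [Finset.sum_eq_single (q : ℕ) (fun r hr hne => ?_)
    (fun h => absurd (Finset.mem_insert_self _ _) h)] at hindeq
  · have hv : padicValRat q A = padicValRat q U := by rw [hval q, if_neg hql, sub_zero]
    rw [hv, padicValRat_def, padicValInt, Int.cast_sub, Int.cast_natCast, Int.cast_natCast]
    rw [sub_mul]
    exact hindeq
  · obtain ⟨rp, rfl⟩ : ∃ rp : Nat.Primes, (rp : ℕ) = r := ⟨⟨r, hTp r hr⟩, rfl⟩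
    have : Fact (rp : ℕ).Prime := ⟨rp.2⟩
    obtain ⟨g, hg⟩ := hfin rp fun e => hne (congrArg Subtype.val e)
    have h := (Ψ.cls_rat_iff rp g (fun e => hlT (e ▸ hr)) hU).mp (htrans _ hg)
    rw [padicValRat_def, padicValInt, Int.cast_sub, Int.cast_natCast, Int.cast_natCast] at h
    rwa [sub_mul] at h

end AuxChar

end Fermat.Agent.CFT.Brauer
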