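import Fermat.Agent.CFT.Brauer.Places

/-!
The characters of `l`-power conductor of order `n ∣ l - 1`, and their cyclic classes at every
place of `ℚ`.
-/

set_option autoImplicit false
set_option linter.unusedSectionVars false
set_option backward.isDefEq.respectTransparency false

noncomputable section

namespace Fermat.Agent.CFT.Brauer

open ExtCitation
open Fermat.Agent.GalCoh (Place conjLoc)
open Fermat.Agent.GalCoh.Descent (zetaP zetaP_spec mu apply_mu mu_injective cycloChar_eq_one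
  exists_mu_eq)

/-! ### Rational local fields -/

section RatLocal

variable (r : Nat.Primes) (g : GQ) [Fact (r : ℕ).Prime]

/-- The decomposition group at `(r, g)`. -/
abbrev Dec : Subgroup GQ := (conjLoc (Sum.inr r) g).range

lemma exists_padic {x : Qb} (hx : x ∈ fixF (Dec r g)) :
    ∃ c : ℚ_[(r : ℕ)], jAt r g x = algebraMap _ _ c := by
  have : Normal ℚ_[(r : ℕ)] (PadicAlgCl (r : ℕ)) := IsAlgClosure.normal _ _
  have : IsGalois ℚ_[(r : ℕ)] (PadicAlgCl (r : ℕ)) := IsGalois.mk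
  obtain ⟨c, hc⟩ := (InfiniteGalois.mem_range_algebraMap_iff_fixed (k := ℚ_[(r : ℕ)])
    (jAt r g x)).mpr fun τ => by rw [← jAt_conjLoc, mem_fixF.mp hx _ ⟨τ, rfl⟩]
  exact ⟨c, hc.symm⟩

lemma norm_natCast_self : ‖jAt r g ((r : ℕ) : Qb)‖ = ((r : ℕ) : ℝ)⁻¹ := norm_map_q

lemma exists_norm_eq {x : Qb} (hx : x ∈ fixF (Dec r g)) (hx0 : x ≠ 0) :
    ∃ k : ℤ, ‖jAt r g x‖ = (((r : ℕ) : ℝ)⁻¹) ^ k := by
  obtain ⟨c, hc⟩ := exists_padic r g hx
  have hc0 : c ≠ 0 := fun h0 => hx0 ((jAt r g).injective (by rw [hc, h0, map_zero, map_zero]))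
  refine ⟨c.valuation, ?_⟩
  rw [hc, norm_algebraMap', Padic.norm_eq_zpow_neg_valuation hc0, zpow_neg, inv_zpow]

/-- The uniformiser `r`. -/
lemma hgen_nat : ∀ x ∈ fixF (Dec r g), x ≠ 0 →
    ∃ k : ℤ, ‖jAt r g x‖ = ‖jAt r g ((r : ℕ) : Qb)‖ ^ k :=
  fun x hx hx0 => by rw [norm_natCast_self]; exact exists_norm_eq r g hx hx0

lemma exists_nat_near {x : Qb} (hx : x ∈ fixF (Dec r g)) (hx1 : ‖jAt r g x‖ ≤ 1) :
    ∃ i : ℕ, i < r ∧ ‖jAt r g (x - (i : Qb))‖ < 1 := by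
  obtain ⟨c, hc⟩ := exists_padic r g hx
  rw [hc, norm_algebraMap'] at hx1
  obtain ⟨i, hi, hmem⟩ := PadicInt.existsUnique_mem_range (⟨c, hx1⟩ : ℤ_[(r : ℕ)]) |>.exists
  refine ⟨i, hi, ?_⟩
  rw [IsLocalRing.mem_maximalIdeal, PadicInt.mem_nonunits] at hmem
  rw [map_sub, hc, map_natCast, ← map_natCast (algebraMap ℚ_[(r : ℕ)] (PadicAlgCl (r : ℕ))),
    ← map_sub, norm_algebraMap']
  exact hmem

lemma resCard_dec : resCard (jAt r g) (Dec r g) = (r : ℕ) := by
  classical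
  have hΓ := localAt_range r g
  obtain ⟨f, hf, hfeq⟩ := exists_resCard_eq hΓ
  let φ : Fin r → resField (jAt r g) (Dec r g) := fun i =>
    ⟨resAt (jAt r g) ⟨((i : ℕ) : Qb), norm_natCast_le_one _⟩, _, natCast_mem _ _, rfl⟩
  have hφ : Function.Surjective φ := by
    rintro ⟨c, ⟨y, hy1⟩, hy, rfl⟩
    obtain ⟨i, hi, hlt⟩ := exists_nat_near r g hy hy1
    exact ⟨⟨i, hi⟩, Subtype.ext (res_eq_iff.mpr (by rwa [← norm_neg, ← map_neg, neg_sub]))⟩
  have hle : resCard (jAt r g) (Dec r g) ≤ (r : ℕ) := by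
    simpa [resCard] using Nat.card_le_card_of_surjective φ hφ
  rw [hfeq] at hle ⊢
  rcases Nat.lt_or_ge 1 f with h1 | h1
  · exact absurd hle (not_le.mpr (by simpa using Nat.pow_lt_pow_right r.2.one_lt h1))
  · obtain rfl : f = 1 := by omega
    rw [pow_one]

end RatLocal

/-- The criterion `fa_mem_B2_iff_dvd`, for a subextension of an unramified one. -/
theorem fa_mem_B2_iff_dvd_of_le {q : ℕ} [Fact q.Prime] {j : Qb →+* PadicAlgCl q}
    {Γ Δ : Subgroup GQ} (hΓ : LocalAt j Γ) {m : ℕ} {ζ : Qb} (hm : ¬ q ∣ m) (hζ : ζ ^ m = 1)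
    {σ : GQ} {n : ℕ} (h : CyclicOver Γ Δ σ n) (hle : Γ ⊓ MulAction.stabilizer GQ ζ ≤ Δ) {π : Qb}
    (hπ : π ∈ fixF Γ) (hπ0 : 0 < ‖j π‖) (hπ1 : ‖j π‖ < 1)
    (hgen : ∀ x ∈ fixF Γ, x ≠ 0 → ∃ k : ℤ, ‖j x‖ = ‖j π‖ ^ k)
    {a : Qbˣ} (ha : a ∈ fixU Γ) {k : ℤ} (hk : ‖j (a : Qb)‖ = ‖j π‖ ^ k) :
    h.fa a ∈ B2 Γ ↔ (n : ℤ) ∣ k := by
  have hgen' : ∀ x ∈ fixF Δ, x ≠ 0 → ∃ k : ℤ, ‖j x‖ = ‖j π‖ ^ k := fun x hx =>
    exists_norm_zpow hΓ hm hζ hπ hπ0 hπ1 hgen x (fixF_anti hle hx)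
  rw [h.fa_mem_B2_iff ha]
  constructor
  · rintro ⟨b, hb, hab⟩
    obtain ⟨l, hl⟩ := hgen' (b : Qb) (mem_fixU.mp hb) (Units.ne_zero _)
    refine ⟨l, ?_⟩
    have h1 : ‖j (a : Qb)‖ = ‖j π‖ ^ ((n : ℤ) * l) := by
      rw [← hab, Units.coe_prod, map_prod, norm_prod,
        Finset.prod_congr rfl fun i _ => by rw [units_smul_coe, hΓ.inv _ (h.pow_mem i), hl],
        Finset.prod_const, Finset.card_range, mul_comm, zpow_mul, zpow_natCast]
    rw [hk] at h1
    exact zpow_right_injective₀ hπ0 hπ1.ne h1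
  · rintro ⟨l, rfl⟩
    have hπne : π ≠ 0 := fun h0 => by simp [h0] at hπ0
    set P := Units.mk0 π hπne
    have hP : P ∈ fixU Γ := mem_fixU.mpr hπ
    obtain ⟨h1, h2⟩ := relIndex_units_le hΓ h hπ hπ0 hπ1 (π' := π) (fixF_anti h.le hπ)
      hgen' one_pos (pow_one _).symm
    have hu : a / (P ^ l) ^ n ∈ unitsAt j Γ := by
      refine ⟨div_mem ha (pow_mem (zpow_mem hP l) n), ?_⟩
      simp only [Units.val_div_eq_div_val, Units.val_pow_eq_pow_val, Units.val_zpow_eq_zpow_val, P,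
        Units.val_mk0, map_div₀, norm_div, map_pow, map_zpow₀, norm_pow, norm_zpow, hk]
      rw [← zpow_natCast, ← zpow_mul, mul_comm l, div_self (zpow_ne_zero _ hπ0.ne')]
    have h1' : ((unitsAt j Δ).map h.Nm).relIndex (unitsAt j Γ) = 1 := by omega
    obtain ⟨z, hz, hzu⟩ := Subgroup.relIndex_eq_one.mp h1' hu
    refine ⟨z * P ^ l, mul_mem hz.1 (zpow_mem (fixU_anti h.le hP) l), ?_⟩
    rw [← h.Nm_apply, map_mul, hzu, h.Nm_of_fixed (zpow_mem hP l), div_mul_cancel]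

/-! ### The characters -/

/-- An index map modulo `n` for the prime `l`. -/
structure AuxChar (l n : ℕ) where
  ind : (ZMod l)ˣ →* Multiplicative (ZMod n)
  surj : Function.Surjective ind
  ker_pow : ∀ u, ind u = 1 → ∃ x, x ^ n = u

theorem exists_auxChar {l n : ℕ} [Fact l.Prime] (hn : n ∣ l - 1) : Nonempty (AuxChar l n) := by
  have hcard : Nat.card (ZMod l)ˣ = l - 1 := by
    rw [Nat.card_eq_fintype_card, ZMod.card_units]
  let e := zmodCyclicMulEquiv (inferInstance : IsCyclic (ZMod l)ˣ)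
  have hn' : n ∣ Nat.card (ZMod l)ˣ := hcard ▸ hn
  let c := ZMod.castHom hn' (ZMod n)
  refine ⟨⟨(AddMonoidHom.toMultiplicative c.toAddMonoidHom).comp e.symm.toMonoidHom,
    fun y => ?_, fun u hu => ?_⟩⟩
  · obtain ⟨x, hx⟩ := ZMod.ringHom_surjective c y.toAdd
    exact ⟨e (Multiplicative.ofAdd x), by simp [hx]⟩
  · have h0 : c (e.symm u).toAdd = 0 := congrArg Multiplicative.toAdd hu
    have : NeZero (Nat.card (ZMod l)ˣ) := ⟨Nat.card_pos.ne'⟩
    rw [← ZMod.natCast_zmod_val (e.symm u).toAdd, map_natCast, ZMod.natCast_eq_zero_iff] at h0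
    obtain ⟨t, ht⟩ := h0
    refine ⟨e (Multiplicative.ofAdd (t : ZMod _)), ?_⟩
    rw [← map_pow, ← e.apply_symm_apply u]
    congr 1
    apply Multiplicative.toAdd.injective
    rw [toAdd_pow, toAdd_ofAdd, nsmul_eq_mul, ← Nat.cast_mul, ← ht, ZMod.natCast_zmod_val]

theorem cycloChar_surjective (l : ℕ) [Fact l.Prime] : Function.Surjective (cycloChar l) := by
  intro u
  have hζ := zetaP_spec l
  have hl : l.Prime := Fact.out
  have hu : (u : ZMod l).val.Coprime l := by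
    refine (Nat.coprime_comm.mp (hl.coprime_iff_not_dvd.mpr fun hd => u.ne_zero ?_))
    rw [← ZMod.natCast_zmod_val (u : ZMod l)]
    exact (ZMod.natCast_eq_zero_iff _ _).mpr hd
  have hmin : minpoly ℚ (zetaP l) = Polynomial.cyclotomic l ℚ :=
    (Polynomial.cyclotomic_eq_minpoly_rat hζ hl.pos).symm
  have hev : (Polynomial.aeval (zetaP l ^ (u : ZMod l).val)) (minpoly ℚ (zetaP l)) = 0 := by
    rw [hmin, Polynomial.aeval_def, Polynomial.eval₂_eq_eval_map, Polynomial.map_cyclotomic]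
    exact ((hζ.pow_of_coprime _ hu).isRoot_cyclotomic hl.pos).eq_zero
  obtain ⟨g, hg⟩ := minpoly.exists_algEquiv_of_root' (Algebra.IsAlgebraic.isAlgebraic _) hev
  refine ⟨g, Units.ext (mu_injective (p := l) ?_)⟩
  have h := apply_mu g (1 : ZMod l)
  rw [mul_one] at h
  rw [← h]
  show g (zetaP l ^ (1 : ZMod l).val) = _
  have : Fact (1 < l) := ⟨hl.one_lt⟩
  rw [ZMod.val_one, pow_one, hg]
  rfl

namespace AuxChar

variable {l n : ℕ} [Fact l.Prime] [NeZero n] (Ψ : AuxChar l n)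

/-- The index, extended by zero. -/
def indF (x : ZMod l) : ZMod n := if hx : x = 0 then 0 else (Ψ.ind (Units.mk0 x hx)).toAdd

lemma indF_coe (u : (ZMod l)ˣ) : Ψ.indF (u : ZMod l) = (Ψ.ind u).toAdd := by
  rw [indF, dif_neg u.ne_zero, Units.mk0_val]

lemma indF_one : Ψ.indF 1 = 0 := by
  simpa using Ψ.indF_coe 1

lemma indF_mul {x y : ZMod l} (hx : x ≠ 0) (hy : y ≠ 0) :
    Ψ.indF (x * y) = Ψ.indF x + Ψ.indF y := by
  lift x to (ZMod l)ˣ using hx.isUnit
  lift y to (ZMod l)ˣ using hy.isUnit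
  rw [← Units.val_mul, Ψ.indF_coe, Ψ.indF_coe, Ψ.indF_coe, map_mul, toAdd_mul]

lemma indF_pow {x : ZMod l} (hx : x ≠ 0) (i : ℕ) : Ψ.indF (x ^ i) = i * Ψ.indF x := by
  induction i with
  | zero => simp [indF_one]
  | succ i ih => rw [pow_succ, Ψ.indF_mul (pow_ne_zero _ hx) hx, ih]; push_cast; ring

lemma exists_pow_of_indF {x : ZMod l} (hx : x ≠ 0) (h : Ψ.indF x = 0) :
    ∃ y, y ≠ 0 ∧ y ^ n = x := by
  lift x to (ZMod l)ˣ using hx.isUnit
  rw [Ψ.indF_coe, toAdd_eq_zero] at h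
  obtain ⟨y, hy⟩ := Ψ.ker_pow x h
  exact ⟨y, y.ne_zero, by rw [← hy, Units.val_pow_eq_pow_val]⟩

lemma indF_pow_self {x : ZMod l} (hx : x ≠ 0) : Ψ.indF (x ^ n) = 0 := by
  rw [Ψ.indF_pow hx, ZMod.natCast_self, zero_mul]

/-- The character of `G_ℚ`. -/
def psi : GQ →* Multiplicative (ZMod n) := Ψ.ind.comp (cycloChar l)

/-- Its kernel. -/
abbrev M : Subgroup GQ := Ψ.psi.ker

lemma toAdd_psi (g : GQ) : (Ψ.psi g).toAdd = Ψ.indF (cycloChar l g : ZMod l) :=
  (Ψ.indF_coe _).symm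

lemma stab_le_M : MulAction.stabilizer GQ (zetaP l) ≤ Ψ.M := fun g hg => by
  have hg' : g (zetaP l) = zetaP l := hg
  simp [psi, cycloChar_eq_one hg']

/-- A generator. -/
def sigma : GQ :=
  ((Ψ.surj.comp (cycloChar_surjective l)) (Multiplicative.ofAdd 1)).choose

lemma psi_sigma : Ψ.psi Ψ.sigma = Multiplicative.ofAdd 1 :=
  ((Ψ.surj.comp (cycloChar_surjective l)) (Multiplicative.ofAdd 1)).choose_spec

lemma toAdd_psi_sigma_pow (i : ℕ) : (Ψ.psi (Ψ.sigma ^ i)).toAdd = i := by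
  rw [map_pow, Ψ.psi_sigma, toAdd_pow, toAdd_ofAdd, nsmul_one]

theorem cyclic : CyclicOver ⊤ Ψ.M Ψ.sigma n := by
  obtain ⟨F, hF, -, -, hζF⟩ := exists_normal_level ⊥ {zetaP l}
  refine
    { isOpen := ⟨le_top, F, hF, fun g _ hgF => Ψ.stab_le_M
        (show g (zetaP l) = zetaP l from fix_eq hgF (hζF _ (Finset.mem_singleton_self _)))⟩
      mem := Subgroup.mem_top _
      pos := Nat.pos_of_ne_zero (NeZero.ne n)
      conj := fun g _ s hs => by
        simpa using (inferInstance : Ψ.M.Normal).conj_mem s hs g⁻¹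
      cover := fun g _ => ⟨(Ψ.psi g).toAdd.val, ?_⟩
      pow_mem_iff := fun i => ?_ }
  · rw [MonoidHom.mem_ker, map_mul, map_inv, inv_mul_eq_one]
    apply Multiplicative.toAdd.injective
    rw [toAdd_psi_sigma_pow, ZMod.natCast_zmod_val]
  · rw [MonoidHom.mem_ker, ← ZMod.natCast_eq_zero_iff, ← toAdd_psi_sigma_pow Ψ, toAdd_eq_zero]

lemma cast_idx (g : GQ) : (Ψ.cyclic.idx g : ZMod n) = (Ψ.psi g).toAdd := by
  have h := Ψ.cyclic.idx_spec (Subgroup.mem_top g)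
  rw [MonoidHom.mem_ker, map_mul, map_inv, inv_mul_eq_one] at h
  rw [← h, toAdd_psi_sigma_pow]

/-- The class of `a`. -/
abbrev cls (a : Qbˣ) : GQ → GQ → Qbˣ := Ψ.cyclic.fa a

/-- `a ↦ cls a` as a homomorphism. -/
def clsHom : Qbˣ →* (GQ → GQ → Qbˣ) where
  toFun := Ψ.cls
  map_one' := Ψ.cyclic.fa_one
  map_mul' := Ψ.cyclic.fa_mul

/-! #### Places away from `l` -/

section Away

variable {r : Nat.Primes} [Fact (r : ℕ).Prime] (g : GQ)

/-- At a prime different from `l`. -/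
theorem cls_mem_B2_iff (hrl : (r : ℕ) ≠ l) {a : Qbˣ} (ha : a ∈ fixU (Dec r g)) {k : ℤ}
    (hk : ‖jAt r g (a : Qb)‖ = (((r : ℕ) : ℝ)⁻¹) ^ k) :
    Ψ.cls a ∈ B2 (Dec r g) ↔ (k : ZMod n) * Ψ.indF ((r : ℕ) : ZMod l) = 0 := by
  set D := Dec r g
  have hl : l.Prime := Fact.out
  have hΓ := localAt_range r g
  have hrl' : ¬ (r : ℕ) ∣ l := fun h => hrl ((Nat.prime_dvd_prime_iff_eq r.2 hl).mp h)
  have hr0 : ((r : ℕ) : ZMod l) ≠ 0 := fun h =>
    hrl ((Nat.prime_dvd_prime_iff_eq hl r.2).mp ((ZMod.natCast_eq_zero_iff _ _).mp h)).symm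
  have hζ := (zetaP_spec l).pow_eq_one
  set i0 := Ψ.indF ((r : ℕ) : ZMod l)
  have hpow : ∀ x : GQ, ∀ i : ℕ, x (zetaP l) = zetaP l ^ ((r : ℕ) ^ i) →
      (Ψ.cyclic.idx x : ZMod n) = i * i0 := fun x i hx => by
    rw [Ψ.cast_idx, Ψ.toAdd_psi, ← Ψ.indF_pow hr0]
    congr 1
    apply mu_injective (p := l)
    have h := apply_mu x (1 : ZMod l)
    rw [mul_one] at h
    rw [← h, GalCoh.Descent.mu_eq_pow (x := ((r : ℕ) : ZMod l) ^ i) (k := (r : ℕ) ^ i) (by simp),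
      ← hx]
    have : Fact (1 < l) := ⟨hl.one_lt⟩
    rw [mu, ZMod.val_one, pow_one]
  obtain ⟨σF, hσF, hσFζ⟩ := exists_frobenius hΓ hrl' hζ
  rw [resCard_dec] at hσFζ
  obtain ⟨d, τ, hd, h', hidx, hfa⟩ := Ψ.cyclic.exists_inf (le_top : D ≤ ⊤)
  have hr : 0 < ‖jAt r g ((r : ℕ) : Qb)‖ ∧ ‖jAt r g ((r : ℕ) : Qb)‖ < 1 := by
    rw [norm_natCast_self]
    exact ⟨inv_pos.mpr (Nat.cast_pos.mpr r.2.pos),
      inv_lt_one_of_one_lt₀ (Nat.one_lt_cast.mpr r.2.one_lt)⟩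
  have hle : D ⊓ MulAction.stabilizer GQ (zetaP l) ≤ D ⊓ Ψ.M := inf_le_inf_left _ Ψ.stab_le_M
  rw [mem_B2_congr (hfa a), fa_mem_B2_iff_dvd_of_le hΓ hrl' hζ h' hle (natCast_mem _ _) hr.1 hr.2
    (hgen_nat r g) ha (k := k) (by rw [norm_natCast_self]; exact hk)]
  have e1 : i0 = (h'.idx σF : ZMod n) * d := by
    have h1 := hpow σF 1 (by rw [pow_one]; exact hσFζ)
    rw [Nat.cast_one, one_mul, hidx σF hσF, Nat.cast_mul] at h1
    rw [← h1, mul_comm]
  obtain ⟨t, ht⟩ := exists_pow_frobenius hΓ hrl' hζ h'.mem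
  rw [resCard_dec] at ht
  obtain ⟨m, hm⟩ := hd
  have hd0 : 0 < d := Nat.pos_of_ne_zero fun h0 => NeZero.ne n (by rw [hm, h0, zero_mul])
  have hmd : n / d = m := by rw [hm, Nat.mul_div_cancel_left _ hd0]
  have e2 : (d : ZMod n) = t * i0 := by
    have h2 := hpow τ t ht
    have h3 : h'.idx τ = 1 % (n / d) := by simpa using h'.idx_pow 1
    rw [hidx τ h'.mem, h3, hmd] at h2
    rw [← h2]
    rcases Nat.eq_zero_or_pos m with h0 | hpos
    · exact absurd (hm.trans (by rw [h0, mul_zero])) (NeZero.ne n)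
    rcases eq_or_ne m 1 with h1 | h1
    · subst h1
      rw [Nat.mod_self, mul_zero, Nat.cast_zero, (ZMod.natCast_eq_zero_iff d n)]
      rw [hm, mul_one]
    · rw [Nat.mod_eq_of_lt (by omega : 1 < m), mul_one]
  constructor
  · intro h
    have : ((k * d : ℤ) : ZMod n) = 0 := by
      rw [ZMod.intCast_zmod_eq_zero_iff_dvd, hm, Nat.cast_mul, mul_comm (d : ℤ)]
      exact mul_dvd_mul_right (hmd ▸ h) _
    push_cast at this
    rw [e1, ← mul_assoc, mul_comm (k : ZMod n), mul_assoc, this, mul_zero]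
  · intro h
    have : ((k * d : ℤ) : ZMod n) = 0 := by
      push_cast
      rw [e2, mul_left_comm, h, mul_zero]
    rw [ZMod.intCast_zmod_eq_zero_iff_dvd, hm, Nat.cast_mul, mul_comm (d : ℤ)] at this
    rw [hmd]
    exact Int.dvd_of_mul_dvd_mul_right (by exact_mod_cast hd0.ne') this

end Away

/-! #### Infinite places -/

section Arch

variable (g : GQ)

lemma cycloChar_archConj : (cycloChar l (archConj g) : ZMod l) = -1 := by
  apply mu_injective (p := l)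
  have h := apply_mu (archConj g) (1 : ZMod l)
  rw [mul_one] at h
  rw [← h, GalCoh.Descent.mu_neg]
  refine (phiAt g).injective ?_
  rw [phiAt_archConj, map_inv₀]
  have h1 : phiAt g (mu l (1 : ZMod l)) ^ l = 1 := by
    rw [← map_pow, GalCoh.Descent.mu_pow, map_one]
  exact (Complex.inv_eq_conj (Complex.norm_eq_one_of_pow_eq_one h1 (NeZero.ne l))).symm

/-- At a real place. -/
theorem cls_mem_B2_arch {a : Qbˣ} (ha : a ∈ fixU (Subgroup.zpowers (archConj g))) :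
    Ψ.cls a ∈ B2 (Subgroup.zpowers (archConj g)) ↔
      Ψ.indF (-1) = 0 ∨ 0 < (phiAt g (a : Qb)).re := by
  set D := Subgroup.zpowers (archConj g)
  have hpsi : (Ψ.psi (archConj g)).toAdd = Ψ.indF (-1) := by
    rw [Ψ.toAdd_psi, cycloChar_archConj]
  by_cases h0 : Ψ.indF (-1) = 0
  · have hle : D ≤ Ψ.M := Subgroup.zpowers_le.mpr (toAdd_eq_zero.mp (hpsi.trans h0))
    exact iff_of_true (B2_anti hle (Ψ.cyclic.fa_mem_B2_sub a)) (Or.inl h0)
  simp only [h0, false_or]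
  obtain ⟨d, τ, hd, h', hidx, hfa⟩ := Ψ.cyclic.exists_inf (le_top : D ≤ ⊤)
  have hmem : ∀ z ∈ D, z = 1 ∨ z = archConj g := fun z hz => by
    have hz' : z ∈ (conjLoc (Sum.inl ()) g).range := by rw [range_conjLoc_inl]; exact hz
    exact eq_one_or_of_mem_range g hz'
  have hbot : D ⊓ Ψ.M = ⊥ := by
    refine eq_bot_iff.mpr fun z hz => ?_
    rcases hmem z hz.1 with rfl | rfl
    · exact one_mem _
    · exact absurd (hpsi.symm.trans (toAdd_eq_zero.mpr hz.2)) h0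
  have hn2 : n / d = 2 := by
    rw [← h'.relIndex_eq, hbot]
    exact relIndex_bot_zpowers_archConj g
  rw [mem_B2_congr (hfa a), ← fa_mem_B2_arch_iff g ha]
  refine mem_B2_congr fun x hx y hy => ?_
  have key : ∀ z ∈ D, h'.idx z = (cyclicOver_arch g).idx z := fun z hz => by
    rcases hmem z hz with rfl | rfl
    · rw [h'.idx_of_mem (one_mem _), (cyclicOver_arch g).idx_of_mem (one_mem _)]
    · have h1 : h'.idx (archConj g) ≠ 0 := fun e => archConj_ne_one g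
        (Subgroup.mem_bot.mp (hbot ▸ h'.mem_of_idx_eq_zero hz e))
      have h2 := h'.idx_lt (archConj g)
      have h3 := (cyclicOver_arch g).idx_pow 1
      rw [pow_one] at h3
      rw [h3]
      omega
  show (if n / d ≤ h'.idx x + h'.idx y then a else 1) = _
  rw [key x hx, key y hy, hn2]
  rfl

end Arch

/-! #### The place `l` -/

/-- `∏ (1 - ζ^u)` over the kernel of the index map. -/
def kerNorm : Qb := ∏ u ∈ Finset.univ.filter (fun u : (ZMod l)ˣ => Ψ.ind u = 1), (1 - mu l (u : ZMod l))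

lemma one_sub_mu_ne_zero {x : ZMod l} (hx : x ≠ 0) : (1 : Qb) - mu l x ≠ 0 := fun h =>
  hx (mu_injective ((sub_eq_zero.mp h).symm.trans GalCoh.Descent.mu_zero.symm))

lemma kerNorm_ne_zero : Ψ.kerNorm ≠ 0 :=
  Finset.prod_ne_zero_iff.mpr fun u _ => one_sub_mu_ne_zero u.ne_zero

lemma apply_kerNorm (x : GQ) : x Ψ.kerNorm =
    ∏ u ∈ Finset.univ.filter (fun u : (ZMod l)ˣ => Ψ.ind u = Ψ.psi x), (1 - mu l (u : ZMod l)) := by
  rw [kerNorm, map_prod]
  refine Finset.prod_nbij' (fun u => cycloChar l x * u) (fun u => (cycloChar l x)⁻¹ * u)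
    (fun u hu => ?_) (fun u hu => ?_) (fun u _ => inv_mul_cancel_left _ _)
    (fun u _ => mul_inv_cancel_left _ _) fun u _ => ?_
  · simp only [Finset.mem_filter, Finset.mem_univ, true_and] at hu ⊢
    rw [map_mul, hu, mul_one]; rfl
  · simp only [Finset.mem_filter, Finset.mem_univ, true_and] at hu ⊢
    rw [map_mul, hu, map_inv]; exact inv_mul_cancel _
  · rw [map_sub, map_one, apply_mu, Units.val_mul]

lemma kerNorm_fixed : Units.mk0 Ψ.kerNorm Ψ.kerNorm_ne_zero ∈ fixU Ψ.M := fun x hx =>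
  Units.ext (by
    rw [units_smul_coe, Units.val_mk0, apply_kerNorm, hx.out]
    rfl)

lemma prod_one_sub_mu : ∏ u : (ZMod l)ˣ, (1 - mu l (u : ZMod l)) = (l : Qb) := by
  classical
  have h := Polynomial.eval_one_cyclotomic_prime (R := Qb) (p := l)
  rw [Polynomial.cyclotomic_eq_prod_X_sub_primitiveRoots (zetaP_spec l), Polynomial.eval_prod] at h
  rw [← h]
  have hl : l.Prime := Fact.out
  refine Finset.prod_bij (fun u _ => mu l (u : ZMod l)) (fun u _ => ?_)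
    (fun u _ v _ e => Units.ext (mu_injective e)) (fun x hx => ?_) fun u _ => by simp
  · rw [mem_primitiveRoots hl.pos]
    exact IsPrimitiveRoot.iff_orderOf.mpr (orderOf_eq_prime (GalCoh.Descent.mu_pow _)
      fun e => u.ne_zero (mu_injective (e.trans GalCoh.Descent.mu_zero.symm)))
  · rw [mem_primitiveRoots hl.pos] at hx
    obtain ⟨y, rfl⟩ := exists_mu_eq hx.pow_eq_one
    exact ⟨Units.mk0 y fun e => hx.ne_one hl.one_lt (by rw [e, GalCoh.Descent.mu_zero]),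
      Finset.mem_univ _, rfl⟩

/-- The class of `l` vanishes. -/
theorem cls_l_mem_B2 :
    Ψ.cls (Units.mk0 ((l : ℕ) : Qb) (Nat.cast_ne_zero.mpr (NeZero.ne l))) ∈ B2 ⊤ := by
  classical
  refine (Ψ.cyclic.fa_mem_B2_iff fun x _ => Units.ext (by simp)).mpr
    ⟨_, Ψ.kerNorm_fixed, Units.ext ?_⟩
  rw [Units.coe_prod, Units.val_mk0, ← prod_one_sub_mu (l := l),
    ← Finset.prod_fiberwise Finset.univ (fun u : (ZMod l)ˣ => Ψ.ind u), Finset.prod_range]
  refine Fintype.prod_bijective (fun i : Fin n => Ψ.psi (Ψ.sigma ^ (i : ℕ))) ?_ _ _ fun i => ?_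
  · refine (Fintype.bijective_iff_injective_and_card _).mpr ⟨fun i k h => ?_, by simp⟩
    have h' := congrArg Multiplicative.toAdd h
    rw [Ψ.toAdd_psi_sigma_pow, Ψ.toAdd_psi_sigma_pow, ZMod.natCast_eq_natCast_iff',
      Nat.mod_eq_of_lt i.2, Nat.mod_eq_of_lt k.2] at h'
    exact Fin.ext h'
  · rw [units_smul_coe, Units.val_mk0, apply_kerNorm]

section AtL

variable {r : Nat.Primes} [Fact (r : ℕ).Prime] (g : GQ) (hrl : (r : ℕ) = l)
include hrl

omit hrl in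
lemma norm_one_sub_le {x y : ZMod l} (hx : x ≠ 0) :
    ‖jAt r g (1 - mu l y)‖ ≤ ‖jAt r g (1 - mu l x)‖ := by
  have hy : mu l y = mu l x ^ (y / x).val := by
    rw [← GalCoh.Descent.mu_natCast_mul, ZMod.natCast_zmod_val, div_mul_cancel₀ _ hx]
  rw [hy, ← mul_neg_geom_sum (mu l x) (y / x).val, map_mul, norm_mul]
  refine mul_le_of_le_one_right (norm_nonneg _) (norm_map_sum_le _ _ zero_le_one fun i _ => ?_)
  rw [map_pow, norm_pow]
  exact pow_le_one₀ (norm_nonneg _)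
    (norm_zeta (NeZero.pos l) (GalCoh.Descent.mu_pow x)).le

lemma norm_one_sub_pow {x : ZMod l} (hx : x ≠ 0) :
    ‖jAt r g (1 - mu l x)‖ ^ (l - 1) = (((r : ℕ) : ℝ))⁻¹ := by
  have e : ((l : ℕ) : Qb) = ((r : ℕ) : Qb) := by rw [hrl]
  rw [← norm_natCast_self r g, ← e, ← prod_one_sub_mu (l := l), map_prod, norm_prod,
    ← ZMod.card_units l, ← Finset.card_univ, ← Finset.prod_const]
  exact Finset.prod_congr rfl fun u _ => le_antisymm
    (norm_one_sub_le g u.ne_zero) (norm_one_sub_le g hx)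

lemma norm_one_sub_mu_lt (x : ZMod l) (hx : x ≠ 0) :
    0 < ‖jAt r g (1 - mu l x)‖ ∧ ‖jAt r g (1 - mu l x)‖ < 1 := by
  have hl : l.Prime := Fact.out
  have h0 : 0 < ‖jAt r g (1 - mu l x)‖ :=
    norm_pos_iff.mpr ((map_ne_zero _).mpr (one_sub_mu_ne_zero hx))
  refine ⟨h0, not_le.mp fun h1 => ?_⟩
  have := one_le_pow₀ (n := l - 1) h1
  rw [norm_one_sub_pow g hrl hx] at this
  exact absurd this (not_le.mpr (inv_lt_one_of_one_lt₀ (Nat.one_lt_cast.mpr r.2.one_lt)))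

/-- The decomposition group at `l` surjects onto the character group. -/
theorem exists_inf_l : ∃ (τ : GQ) (h' : CyclicOver (Dec r g) (Dec r g ⊓ Ψ.M) τ n),
    ∀ a : Qbˣ, ∀ x ∈ Dec r g, ∀ y ∈ Dec r g, Ψ.cls a x y = h'.fa a x y := by
  obtain ⟨d, τ, hd, h', -, hfa⟩ := Ψ.cyclic.exists_inf (le_top : Dec r g ≤ ⊤)
  suffices hd1 : d = 1 by
    obtain ⟨m, hm, h'', hfa''⟩ : ∃ m, n / d = m ∧ ∃ h'' : CyclicOver (Dec r g) (Dec r g ⊓ Ψ.M) τ m,
        ∀ a : Qbˣ, ∀ x ∈ Dec r g, ∀ y ∈ Dec r g, Ψ.cls a x y = h''.fa a x y :=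
      ⟨_, rfl, h', hfa⟩
    rw [hd1, Nat.div_one] at hm
    subst hm
    exact ⟨τ, h'', hfa''⟩
  classical
  have hl : l.Prime := Fact.out
  set B := Units.mk0 Ψ.kerNorm Ψ.kerNorm_ne_zero
  have hB : B ∈ fixU (Dec r g ⊓ Ψ.M) := fixU_anti inf_le_right Ψ.kerNorm_fixed
  obtain ⟨k, hk⟩ := exists_norm_eq r g (mem_fixU.mp (h'.Nm_mem hB)) (Units.ne_zero _)
  set ϖ := ‖jAt r g (1 - mu l (1 : ZMod l))‖ with hϖ
  obtain ⟨hϖ0, hϖ1⟩ := norm_one_sub_mu_lt g hrl (1 : ZMod l) one_ne_zero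
  set c := (Finset.univ.filter (fun u : (ZMod l)ˣ => Ψ.ind u = 1)).card with hc
  have hBn : ‖jAt r g (B : Qb)‖ = ϖ ^ c := by
    show ‖jAt r g Ψ.kerNorm‖ = _
    rw [kerNorm, map_prod, norm_prod, hc, ← Finset.prod_const]
    exact Finset.prod_congr rfl fun u _ => le_antisymm
      (norm_one_sub_le g one_ne_zero) (norm_one_sub_le g u.ne_zero)
  rw [h'.Nm_apply, Units.coe_prod, map_prod, norm_prod,
    Finset.prod_congr rfl fun i _ => by rw [units_smul_coe, (localAt_range r g).inv _ (h'.pow_mem i)],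
    Finset.prod_const, Finset.card_range, hBn, ← pow_mul,
    ← norm_one_sub_pow g hrl (one_ne_zero : (1 : ZMod l) ≠ 0), ← hϖ, ← zpow_natCast, ← zpow_natCast,
    ← zpow_mul] at hk
  have hk' := zpow_right_injective₀ hϖ0 hϖ1.ne hk
  have hcn : c * n = l - 1 := by
    have h := Ψ.ind.ker.card_mul_index
    rw [Subgroup.index_ker, MonoidHom.range_eq_top.mpr Ψ.surj, Subgroup.card_top,
      Nat.card_congr (Multiplicative.toAdd : Multiplicative (ZMod n) ≃ ZMod n), Nat.card_zmod,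
      Nat.card_eq_fintype_card (α := (ZMod l)ˣ), ZMod.card_units,
      Nat.card_eq_fintype_card] at h
    rw [hc, ← Fintype.card_subtype]
    exact (congrArg (· * n) (Fintype.card_congr
      (Equiv.subtypeEquivRight fun u => (MonoidHom.mem_ker (f := Ψ.ind)).symm))).trans h
  obtain ⟨m, hm⟩ := hd
  have hd0 : 0 < d := Nat.pos_of_ne_zero fun h0 => NeZero.ne n (by rw [hm, h0, zero_mul])
  have hc0 : c ≠ 0 := fun h0 => by rw [h0, zero_mul] at hcn; have := hl.two_le; omega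
  rw [show n / d = m by rw [hm, Nat.mul_div_cancel_left _ hd0], ← hcn, hm] at hk'
  push_cast at hk'
  have hm0 : m ≠ 0 := fun h0 => NeZero.ne n (by rw [hm, h0, mul_zero])
  have h1 : (1 : ℤ) = d * k := by
    have hcm : (c : ℤ) * m ≠ 0 := by positivity
    refine mul_left_cancel₀ hcm ?_
    linear_combination hk'
  exact Nat.dvd_one.mp (Int.natCast_dvd_natCast.mp (by exact_mod_cast Dvd.intro k h1.symm))

/-- At `l`, `n`-th powers modulo `l` give trivial classes. -/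
theorem cls_mem_B2_l_of_pow {a : Qbˣ} (ha : a ∈ fixU (Dec r g)) {x₀ : ℕ} (hx₀ : ¬ l ∣ x₀)
    (hclose : ‖jAt r g ((a : Qb) - (x₀ : Qb) ^ n)‖ < 1) : Ψ.cls a ∈ B2 (Dec r g) := by
  have hl : l.Prime := Fact.out
  obtain ⟨τ, h', hfa⟩ := Ψ.exists_inf_l g hrl
  have hnl : ¬ (r : ℕ) ∣ n := by
    intro hd
    have hdl : n ∣ l - 1 := by
      have h := Subgroup.card_subgroup_dvd_card Ψ.ind.range
      have h2 : Nat.card Ψ.ind.range ∣ Nat.card (ZMod l)ˣ := Subgroup.card_range_dvd Ψ.ind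
      rw [MonoidHom.range_eq_top.mpr Ψ.surj, Subgroup.card_top,
        Nat.card_congr (Multiplicative.toAdd : Multiplicative (ZMod n) ≃ ZMod n), Nat.card_zmod,
        Nat.card_eq_fintype_card, ZMod.card_units] at h2
      exact h2
    have h2 := hl.two_le
    have := Nat.le_of_dvd (by omega) (hd.trans hdl)
    omega
  have hx1 : ‖jAt r g (x₀ : Qb)‖ = 1 := by
    rw [map_natCast, ← map_natCast (algebraMap ℚ_[(r : ℕ)] (PadicAlgCl (r : ℕ))),
      norm_algebraMap']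
    exact Padic.norm_natCast_eq_one_iff.mpr (r.2.coprime_iff_not_dvd.mpr (by rwa [hrl]))
  have hx0 : (x₀ : Qb) ≠ 0 := fun h0 => by rw [h0, map_zero, norm_zero] at hx1; exact zero_ne_one hx1
  have hn0 : 0 < n := Nat.pos_of_ne_zero (NeZero.ne n)
  obtain ⟨z, hz, hzn, -⟩ := (localAt_range r g).exists_root hn0 le_rfl
    (fun ζ hζ hne => one_le_norm_zeta_sub_one hnl hζ hne)
    (u := (a : Qb) / (x₀ : Qb) ^ n)
    (div_mem (mem_fixU.mp ha) (pow_mem (natCast_mem _ _) _))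
    (div_ne_zero a.ne_zero (pow_ne_zero _ hx0)) zero_le_one (by
      rw [one_pow, div_sub_one (pow_ne_zero _ hx0), map_div₀, norm_div, map_pow, norm_pow, hx1,
        one_pow, div_one]
      exact hclose)
  have hzx : ((x₀ : Qb) * z) ^ n = (a : Qb) := by
    rw [mul_pow, hzn, mul_div_cancel₀ _ (pow_ne_zero _ hx0)]
  have hne : (x₀ : Qb) * z ≠ 0 := fun h0 => a.ne_zero (by rw [← hzx, h0, zero_pow hn0.ne'])
  rw [mem_B2_congr (hfa a), h'.fa_mem_B2_iff ha]
  refine ⟨Units.mk0 _ hne, fun s hs => Units.ext (mem_fixF.mp (mul_mem (natCast_mem _ x₀) hz) s hs.1),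
    Units.ext ?_⟩
  rw [Units.coe_prod, ← hzx, Finset.prod_congr rfl fun i _ => by
    rw [units_smul_coe, Units.val_mk0, mem_fixF.mp (mul_mem (natCast_mem _ x₀) hz) _ (h'.pow_mem i)],
    Finset.prod_const, Finset.card_range]

/-- An element of the cyclotomic extension at `l` is congruent to a fixed one. -/
theorem exists_congr {x : Qb} (hx : x ∈ fixF (Dec r g ⊓ MulAction.stabilizer GQ (zetaP l)))
    (hx1 : ‖jAt r g x‖ ≤ 1) :
    ∃ c ∈ fixF (Dec r g), ‖jAt r g c‖ ≤ 1 ∧ ‖jAt r g (x - c)‖ < 1 := by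
  classical
  have hl : l.Prime := Fact.out
  set D := Dec r g
  let U : Subgroup (ZMod l)ˣ := D.map (cycloChar l)
  have hU : ∀ u : U, ∃ x ∈ D, cycloChar l x = (u : (ZMod l)ˣ) := fun u => u.2
  choose rep hrepD hrep using hU
  set m := Fintype.card U
  let e : Fin m ≃ U := (Fintype.equivFin U).symm
  let v : Fin m → Qb := fun i => mu l ((e i : (ZMod l)ˣ) : ZMod l) - 1
  have hv : Function.Injective v := fun i k h =>
    e.injective (Subtype.ext (Units.ext (mu_injective (sub_left_inj.mp h))))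
  have hdet : IsUnit (Matrix.vandermonde v).det :=
    (Matrix.det_vandermonde_ne_zero_iff.mpr hv).isUnit
  obtain ⟨c, hsys⟩ : ∃ c, (Matrix.vandermonde v).mulVec c = fun i => rep (e i) x :=
    ⟨(Matrix.vandermonde v)⁻¹.mulVec _, by
      rw [Matrix.mulVec_mulVec, Matrix.mul_nonsing_inv _ hdet, Matrix.one_mulVec]⟩
  have hζfix : ∀ y : GQ, cycloChar l y = 1 → y (zetaP l) = zetaP l := fun y hy => by
    have h := GalCoh.Descent.apply_mu_eq hy (1 : ZMod l)
    have : Fact (1 < l) := ⟨hl.one_lt⟩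
    rwa [mu, ZMod.val_one, pow_one] at h
  have hxrep : ∀ y ∈ D, ∀ u : U, cycloChar l y = (u : (ZMod l)ˣ) → y x = rep u x := by
    intro y hy u hu
    have hmem : (rep u)⁻¹ * y ∈ D ⊓ MulAction.stabilizer GQ (zetaP l) :=
      ⟨D.mul_mem (D.inv_mem (hrepD u)) hy,
        hζfix _ (by rw [map_mul, map_inv, hrep, hu, inv_mul_cancel])⟩
    conv_lhs => rw [← mul_inv_cancel_left (rep u) y, AlgEquiv.mul_apply,
      mem_fixF.mp hx _ hmem]
  have hcfix : ∀ k, c k ∈ fixF D := fun k => mem_fixF.mpr fun y hy => by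
    have key : (Matrix.vandermonde v).mulVec (fun k => y (c k)) =
        (Matrix.vandermonde v).mulVec c := by
      rw [hsys]
      funext i'
      let u' : U := ⟨cycloChar l y, y, hy, rfl⟩
      obtain ⟨i, hi⟩ : ∃ i, u' * e i = e i' := ⟨e.symm (u'⁻¹ * e i'), by simp⟩
      have h := congrArg y (congrFun hsys i)
      simp only [Matrix.mulVec, dotProduct, Matrix.vandermonde_apply, map_sum, map_mul] at h ⊢
      rw [← AlgEquiv.mul_apply, hxrep _ (D.mul_mem hy (hrepD (e i))) (e i') (by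
        rw [map_mul, hrep, ← hi]; rfl)] at h
      rw [← h]
      refine Finset.sum_congr rfl fun k _ => ?_
      congr 1
      simp only [v, map_pow, map_sub, map_one, apply_mu, ← hi]
      rfl
    exact congrFun (Matrix.mulVec_injective_iff_isUnit.mpr
      ((Matrix.isUnit_iff_isUnit_det _).mpr hdet) key) k
  set i₁ := e.symm 1
  set t : Fin m → Qb := fun k => v i₁ ^ (k : ℕ) * c k with ht
  have hsum : ∑ k, t k = x := by
    have h := congrFun hsys i₁
    simp only [Matrix.mulVec, dotProduct, Matrix.vandermonde_apply] at h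
    rw [ht, h, ← hxrep 1 D.one_mem (e i₁) (by simp [i₁]), AlgEquiv.one_apply]
  set ϖ := ‖jAt r g (1 - mu l (1 : ZMod l))‖ with hϖ
  obtain ⟨hϖ0, hϖ1⟩ := norm_one_sub_mu_lt g hrl (1 : ZMod l) one_ne_zero
  have hval : ∀ k, t k ≠ 0 → ∃ a : ℤ,
      ‖jAt r g (t k)‖ = ϖ ^ (a * ((l - 1 : ℕ) : ℤ) + (k : ℕ)) := fun k hk => by
    have hck : c k ≠ 0 := fun h0 => hk (by simp [ht, h0])
    obtain ⟨a, ha⟩ := exists_norm_eq r g (hcfix k) hck
    refine ⟨a, ?_⟩
    rw [ht]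
    simp only [v, i₁, Equiv.apply_symm_apply, OneMemClass.coe_one, Units.val_one]
    rw [map_mul, norm_mul, map_pow, norm_pow, ← norm_neg, ← map_neg, neg_sub, ← hϖ, ha,
      ← norm_one_sub_pow g hrl (one_ne_zero : (1 : ZMod l) ≠ 0), ← hϖ, zpow_add₀ hϖ0.ne',
      mul_comm a, zpow_mul, zpow_natCast, zpow_natCast, mul_comm]
  have hm : m ≤ l - 1 := (Fintype.card_subtype_le _).trans (ZMod.card_units l).le
  have hdist : ∀ k k', t k ≠ 0 → t k' ≠ 0 → ‖jAt r g (t k)‖ = ‖jAt r g (t k')‖ → k = k' := by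
    intro k k' hk hk' he
    obtain ⟨a, ha⟩ := hval k hk
    obtain ⟨b, hb⟩ := hval k' hk'
    rw [ha, hb] at he
    have h := zpow_right_injective₀ hϖ0 hϖ1.ne he
    have h1 := congrArg (· % ((l - 1 : ℕ) : ℤ)) h
    simp only [Int.add_comm (a * _), Int.add_comm (b * _), Int.add_mul_emod_self_right] at h1
    rw [← Int.natCast_mod, ← Int.natCast_mod, Nat.mod_eq_of_lt (k.2.trans_le hm),
      Nat.mod_eq_of_lt (k'.2.trans_le hm), Nat.cast_inj] at h1
    exact Fin.ext h1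
  -- every term is bounded by the sum
  have hall : ∀ k, ‖jAt r g (t k)‖ ≤ 1 := by
    obtain ⟨k₀, -, hmax⟩ := Finset.univ.exists_max_image (fun k => ‖jAt r g (t k)‖)
      ⟨i₁, Finset.mem_univ _⟩
    refine fun k => (hmax k (Finset.mem_univ k)).trans ?_
    by_contra hbig
    rw [not_le] at hbig
    have hk0 : t k₀ ≠ 0 := fun h0 => by rw [h0, map_zero, norm_zero] at hbig; linarith
    have hrest : ‖jAt r g (∑ k ∈ Finset.univ.erase k₀, t k)‖ < ‖jAt r g (t k₀)‖ := by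
      rcases (Finset.univ.erase k₀).eq_empty_or_nonempty with he | hne
      · rw [he, Finset.sum_empty, map_zero, norm_zero]; linarith
      obtain ⟨k₁, hk₁, hmax₁⟩ := (Finset.univ.erase k₀).exists_max_image
        (fun k => ‖jAt r g (t k)‖) hne
      refine (norm_map_sum_le _ _ (norm_nonneg _) fun k hk => hmax₁ k hk).trans_lt
        (lt_of_le_of_ne (hmax k₁ (Finset.mem_univ _)) fun he => ?_)
      rcases eq_or_ne (t k₁) 0 with h0 | h0
      · rw [h0, map_zero, norm_zero] at he; linarith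
      · exact Finset.ne_of_mem_erase hk₁ (hdist _ _ h0 hk0 he)
    rw [← hsum, ← Finset.add_sum_erase _ _ (Finset.mem_univ k₀), map_add,
      IsUltrametricDist.norm_add_eq_max_of_norm_ne_norm hrest.ne',
      max_eq_left hrest.le] at hx1
    linarith
  have hsmall : ∀ k : Fin m, (k : ℕ) ≠ 0 → ‖jAt r g (t k)‖ < 1 := fun k hk => by
    rcases eq_or_ne (t k) 0 with h0 | h0
    · rw [h0, map_zero, norm_zero]; exact one_pos
    refine lt_of_le_of_ne (hall k) fun he => ?_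
    obtain ⟨a, ha⟩ := hval k h0
    rw [he, ← zpow_zero ϖ] at ha
    have h := zpow_right_injective₀ hϖ0 hϖ1.ne ha
    have h1 := congrArg (· % ((l - 1 : ℕ) : ℤ)) h
    simp only [Int.add_comm (a * _), Int.add_mul_emod_self_right, Int.zero_emod] at h1
    rw [← Int.natCast_mod, Nat.mod_eq_of_lt (k.2.trans_le hm)] at h1
    omega
  have hm0 : 0 < m := Fintype.card_pos
  set z : Fin m := ⟨0, hm0⟩
  refine ⟨t z, ?_, hall z, ?_⟩
  · simp only [ht, z, pow_zero, one_mul]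
    exact hcfix _
  · rw [← hsum, ← Finset.add_sum_erase _ _ (Finset.mem_univ z), add_sub_cancel_left]
    rcases (Finset.univ.erase z).eq_empty_or_nonempty with he | hne
    · rw [he, Finset.sum_empty, map_zero, norm_zero]; exact one_pos
    obtain ⟨k₁, hk₁, hmax₁⟩ := (Finset.univ.erase z).exists_max_image
      (fun k => ‖jAt r g (t k)‖) hne
    refine (norm_map_sum_le _ _ (norm_nonneg _) fun k hk => hmax₁ k hk).trans_lt
      (hsmall k₁ fun h0 => Finset.ne_of_mem_erase hk₁ (Fin.ext h0))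

/-- At `l`, a trivial class of a unit comes from an `n`-th power modulo `l`. -/
theorem exists_pow_of_cls_mem_B2 {a : Qbˣ} (ha : a ∈ fixU (Dec r g))
    (ha1 : ‖jAt r g (a : Qb)‖ = 1) (h : Ψ.cls a ∈ B2 (Dec r g)) :
    ∃ x₀ : ℕ, ‖jAt r g ((a : Qb) - (x₀ : Qb) ^ n)‖ < 1 := by
  obtain ⟨τ, h', hfa⟩ := Ψ.exists_inf_l g hrl
  obtain ⟨b, hb, hab⟩ := (h'.fa_mem_B2_iff ha).mp ((mem_B2_congr (hfa a)).mp h)
  have hΓ := localAt_range r g
  have hb1 : ‖jAt r g (b : Qb)‖ = 1 := by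
    have h1 := ha1
    rw [← hab, Units.coe_prod, map_prod, norm_prod,
      Finset.prod_congr rfl fun i _ => by rw [units_smul_coe, hΓ.inv _ (h'.pow_mem i)],
      Finset.prod_const, Finset.card_range] at h1
    exact (pow_eq_one_iff_of_nonneg (norm_nonneg _) (NeZero.ne n)).mp h1
  obtain ⟨c, hc, hc1, hbc⟩ := exists_congr g hrl
    (fixF_anti (inf_le_inf_left _ Ψ.stab_le_M) (mem_fixU.mp hb)) hb1.le
  obtain ⟨x₀, -, hcx⟩ := exists_nat_near r g hc hc1
  refine ⟨x₀, ?_⟩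
  set y : intsAt (jAt r g) := ⟨(x₀ : Qb), norm_natCast_le_one _⟩
  have hres : ∀ i, resAt (jAt r g) (⟨(τ ^ i) (b : Qb),
      by rw [mem_intsAt, hΓ.inv _ (h'.pow_mem i)]; exact hb1.le⟩ : intsAt (jAt r g)) =
      resAt (jAt r g) y := fun i => by
    rw [res_eq_iff]
    show ‖jAt r g ((τ ^ i) (b : Qb) - (x₀ : Qb))‖ < 1
    have e : (τ ^ i) (b : Qb) - (x₀ : Qb) = (τ ^ i) ((b : Qb) - c) + (c - (x₀ : Qb)) := by
      rw [map_sub, mem_fixF.mp hc _ (h'.pow_mem i)]; ring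
    rw [e]
    exact (norm_map_add_le _ _).trans_lt (max_lt (by rwa [hΓ.inv _ (h'.pow_mem i)]) hcx)
  have key : resAt (jAt r g) ⟨(a : Qb), ha1.le⟩ = resAt (jAt r g) (y ^ n) := by
    have e : (⟨(a : Qb), ha1.le⟩ : intsAt (jAt r g)) = ∏ i ∈ Finset.range n,
        (⟨(τ ^ i) (b : Qb), by rw [mem_intsAt, hΓ.inv _ (h'.pow_mem i)]; exact hb1.le⟩ :
          intsAt (jAt r g)) := Subtype.ext (by
      push_cast
      rw [← hab, Units.coe_prod]
      rfl)
    rw [e, map_prod, Finset.prod_congr rfl fun i _ => hres i, Finset.prod_const,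
      Finset.card_range, map_pow]
  have := res_eq_iff.mp key
  simpa [y] using this

end AtL

end AuxChar

end Fermat.Agent.CFT.Brauer
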