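import Fermat.Agent.CFT.Brauer.PsiChar
import Fermat.Agent.CFT.Brauer.Bridge
import Fermat.Agent.FreyReducible.InertiaLift

/-!
Global cocycles on the local groups: invariance under conjugation, and vanishing at the places
where they are unramified.
-/

set_option autoImplicit false
set_option backward.isDefEq.respectTransparency false

noncomputable section

namespace Fermat.Agent.CFT.Brauer

open ExtCitation NumberField
open scoped Pointwise
open Fermat.Agent.GalCoh (fullLevels Place conjLoc)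

/-! ### Conjugation -/

/-- A global cocycle trivial on `D` is trivial on the conjugates of `D`. -/
theorem mem_B2_conj {F : GQ → GQ → Qbˣ} (hF : F ∈ Z2 ⊤) {D : Subgroup GQ} (h : F ∈ B2 D)
    (g : GQ) : F ∈ B2 (D.map (MulAut.conj g).toMonoidHom) := by
  obtain ⟨w, ⟨E₁, hE₁, hw⟩, hwF⟩ := h
  obtain ⟨hcoc, E₂, hE₂, hcts⟩ := hF
  have : FiniteDimensional ℚ (E₁ ⊔ E₂ : IntermediateField ℚ Qb) :=
    IntermediateField.finiteDimensional_sup _ _
  obtain ⟨E, hE, hN, hle, -⟩ := exists_normal_level (E₁ ⊔ E₂) ∅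
  have := normal_fixingSubgroup E
  have hs1 : E.fixingSubgroup ≤ E₁.fixingSubgroup :=
    IntermediateField.fixingSubgroup_antitone (le_sup_left.trans hle)
  have hs2 : E.fixingSubgroup ≤ E₂.fixingSubgroup :=
    IntermediateField.fixingSubgroup_antitone (le_sup_right.trans hle)
  have coc : ∀ a b c, F (a * b) c * F a b = a • F b c * F a (b * c) := fun a b c =>
    hcoc a (Subgroup.mem_top a) b (Subgroup.mem_top b) c (Subgroup.mem_top c)
  have inv : ∀ a b, ∀ s ∈ E.fixingSubgroup, ∀ t ∈ E.fixingSubgroup,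
      F (a * s) (b * t) = F a b := fun a b s hs t ht =>
    hcts a (Subgroup.mem_top a) b (Subgroup.mem_top b) s (Subgroup.mem_top s) t (Subgroup.mem_top t)
      (hs2 hs) (hs2 ht)
  set c : GQ → GQ := fun x => g⁻¹ * x * g with hc
  have hcmul : ∀ x y, c (x * y) = c x * c y := fun x y => by simp only [hc]; group
  set z : GQ → Qbˣ := fun x => F g (c x) / F x g with hz
  let w' : GQ → Qbˣ := fun x => g • w (c x)
  have key : ∀ x y, g • F (c x) (c y) = F x y * d1 z x y := by
    intro x y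
    have ex : g * c x = x * g := by simp only [hc]; group
    have ey : g * c y = y * g := by simp only [hc]; group
    have h1 := coc g (c x) (c y)
    have h2 := coc x g (c y)
    have h3 := coc x y g
    rw [ex, ← hcmul] at h1
    rw [ey] at h2
    have e1 : g • F (c x) (c y) = F (x * g) (c y) * F g (c x) / F g (c (x * y)) :=
      eq_div_iff_mul_eq'.mpr h1.symm
    have e2 : F (x * g) (c y) = x • F g (c y) * F x (y * g) / F x g :=
      eq_div_iff_mul_eq'.mpr h2
    have e3 : F x (y * g) = F (x * y) g * F x y / x • F y g :=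
      eq_div_iff_mul_eq'.mpr (by rw [h3, mul_comm])
    rw [e1, e2, e3]
    simp only [d1, hz, smul_div']
    apply Units.ext
    simp only [Units.val_mul, Units.val_div_eq_div_val]
    field_simp
  refine ⟨w' / z, ⟨E, hE, fun x hx s hs hsE => ?_⟩, ?_⟩
  · obtain ⟨x₀, hx₀, rfl⟩ := hx
    obtain ⟨s₀, hs₀, rfl⟩ := hs
    have e : ∀ u, c ((MulAut.conj g).toMonoidHom u) = u := fun u => by
      simp only [hc, MulEquiv.coe_toMonoidHom, MulAut.conj_apply]; group
    have hs₀E : s₀ ∈ E.fixingSubgroup := by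
      have := (inferInstance : E.fixingSubgroup.Normal).conj_mem _ hsE g⁻¹
      simpa [mul_assoc] using this
    simp only [Pi.div_apply, w', hz, hcmul, e, hw x₀ hx₀ s₀ hs₀ (hs1 hs₀E)]
    congr 2
    · simpa using inv g x₀ 1 (one_mem _) s₀ hs₀E
    · simpa using inv ((MulAut.conj g).toMonoidHom x₀) g _ hsE 1 (one_mem _)
  · rintro _ ⟨x₀, hx₀, rfl⟩ _ ⟨y₀, hy₀, rfl⟩
    have hk := key ((MulAut.conj g).toMonoidHom x₀) ((MulAut.conj g).toMonoidHom y₀)
    have e : ∀ u, c ((MulAut.conj g).toMonoidHom u) = u := fun u => by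
      simp only [hc, MulEquiv.coe_toMonoidHom, MulAut.conj_apply]; group
    rw [e, e, hwF x₀ hx₀ y₀ hy₀] at hk
    rw [div_eq_mul_inv, d1_mul, d1_inv, ← div_eq_mul_inv, eq_div_iff_mul_eq', ← hk]
    simp only [d1, w', ← map_mul, e, smul_mul', smul_div', ← mul_smul]
    simp only [MulEquiv.coe_toMonoidHom, MulAut.conj_apply, inv_mul_cancel_right]

lemma range_conjLoc_eq_map (v : Place) (g : GQ) :
    (conjLoc v g).range = (conjLoc v 1).range.map (MulAut.conj g).toMonoidHom := by
  rw [MonoidHom.range_eq_map, MonoidHom.range_eq_map, Subgroup.map_map]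
  congr 1

/-- A global cocycle trivial at a place of `ℚ` is trivial at all the conjugate places. -/
theorem mem_B2_range_conjLoc {F : GQ → GQ → Qbˣ} (hF : F ∈ Z2 ⊤) {v : Place}
    (h : F ∈ B2 (conjLoc v 1).range) (g : GQ) : F ∈ B2 (conjLoc v g).range := by
  rw [range_conjLoc_eq_map]
  exact mem_B2_conj hF h g

/-! ### Unramified cocycles -/

variable (q : Nat.Primes) [Fact (q : ℕ).Prime] (g : GQ)

lemma norm_map_sub_lt {x y : Qb} (hx : ‖jAt q g x‖ < 1) (hy : ‖jAt q g y‖ < 1) :
    ‖jAt q g (x - y)‖ < 1 := by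
  rw [sub_eq_add_neg]
  exact (norm_map_add_le _ _).trans_lt (max_lt hx (by rwa [map_neg, norm_neg]))

lemma mem_nonunits_of_norm_lt {y : Qb} (hy : ‖jAt q g y‖ < 1) :
    y ∈ (g • primeLocalPlace q).nonunits := by
  rw [ValuationSubring.mem_nonunits_iff]
  by_contra hle
  rw [not_lt] at hle
  have hinv : y⁻¹ ∈ g • primeLocalPlace q := by
    rw [← ValuationSubring.valuation_le_one_iff, map_inv₀]
    exact inv_le_one_of_one_le₀ hle
  have hy0 : y ≠ 0 := fun h0 => by rw [h0, map_zero] at hle; exact not_lt.mpr hle zero_lt_one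
  have h1 := norm_jAt_le_one q g hinv
  rw [map_inv₀, norm_inv, inv_le_one₀ (norm_pos_iff.mpr ((map_ne_zero _).mpr hy0))] at h1
  exact not_le.mpr hy h1

/-- A field unramified at `q` is generated locally by roots of unity of order prime to `q`. -/
theorem exists_zeta_le_fixing {E : IntermediateField ℚ Qb} [FiniteDimensional ℚ E] [Normal ℚ E]
    (hI : (g • primeLocalPlace q).inertiaSubgroupIn ℚ ≤ E.fixingSubgroup) :
    ∃ (m : ℕ) (ζ : Qb), ¬ (q : ℕ) ∣ m ∧ ζ ^ m = 1 ∧
      Dec q g ⊓ MulAction.stabilizer GQ ζ ≤ E.fixingSubgroup := by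
  classical
  have : IsGalois ℚ E := IsGalois.mk
  set j := jAt q g
  set Δ := E.fixingSubgroup ⊓ Dec q g
  have hΔ : LocalAt j Δ :=
    (localAt_range q g).of_isOpenIn (isOpenIn_inf_of_mem ⟨E, inferInstance, le_rfl⟩ _)
  obtain ⟨ζ, hζ, hqm, -⟩ := exists_zeta hΔ one_pos
  rw [pow_one] at hζ hqm
  set Q := resCard j Δ
  have hQ1 : 1 < Q := one_lt_resCard hΔ
  have : NeZero (Q - 1) := ⟨by omega⟩
  refine ⟨Q - 1, ζ, hqm, hζ.pow_eq_one, fun x hx => ?_⟩
  have hxζ : x ζ = ζ := MulAction.mem_stabilizer_iff.mp hx.2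
  let z : intsAt j := ⟨ζ, (norm_zeta (by omega) hζ.pow_eq_one).le⟩
  have hz : IsPrimitiveRoot (resAt j z) (Q - 1) := by
    refine ⟨?_, fun i hi => ?_⟩
    · rw [← map_pow, ← map_one (resAt j)]
      congr 1
      exact Subtype.ext hζ.pow_eq_one
    · rw [← map_pow, ← map_one (resAt j), res_eq_iff] at hi
      refine hζ.dvd_of_pow_eq_one i (eq_of_res_eq (j := j) hqm ?_ (one_pow _) (by simpa [z] using hi))
      rw [← pow_mul, mul_comm, pow_mul, hζ.pow_eq_one, one_pow]
  let x' : E ≃ₐ[ℚ] E := AlgEquiv.restrictNormalHom E x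
  have hx' : ∀ y : E, x (y : Qb) = (x' y : Qb) := fun y => (x.restrictNormal_commutes E y).symm
  obtain ⟨σ, hσ, hσx⟩ := FreyReducible.exists_mem_inertiaSubgroupIn_extending q.2.ne_zero
    (liesOverPrime_at q g) E x' fun b => by
    refine mem_nonunits_of_norm_lt q g ?_
    show ‖j ((x' (b : E) : Qb) - ((b : E) : Qb))‖ < 1
    rw [← hx']
    have hb : ((b : E) : Qb) ∈ g • primeLocalPlace q :=
      FreyReducible.mem_of_isIntegral_int _
        (b.isIntegral_coe.map (E.val.restrictScalars ℤ))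
    let β : intsAt j := ⟨((b : E) : Qb), norm_jAt_le_one q g hb⟩
    have hβ : resAt j β ^ Q = resAt j β := (mem_resField_iff hΔ).mp
      ⟨β, mem_fixF.mpr fun s hs => (IntermediateField.mem_fixingSubgroup_iff _ _).mp hs.1 _ (b : E).2,
        rfl⟩
    by_cases h0 : resAt j β = 0
    · have h1 := res_eq_zero_iff.mp h0
      refine norm_map_sub_lt q g ?_ h1
      rwa [(localAt_range q g).inv x hx.1]
    · have h1 : resAt j β ^ (Q - 1) = 1 := by
        refine mul_right_cancel₀ h0 ?_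
        rw [← pow_succ, show Q - 1 + 1 = Q by omega, hβ, one_mul]
      obtain ⟨i, -, hi⟩ := hz.eq_pow_of_pow_eq_one h1
      rw [← map_pow, eq_comm, res_eq_iff] at hi
      have e : x ((b : E) : Qb) - ((b : E) : Qb) =
          x (((b : E) : Qb) - ζ ^ i) - (((b : E) : Qb) - ζ ^ i) := by
        rw [map_sub, map_pow, hxζ]; ring
      have hi' : ‖j (((b : E) : Qb) - ζ ^ i)‖ < 1 := by simpa [z, β] using hi
      rw [e]
      refine norm_map_sub_lt q g ?_ hi'
      rwa [(localAt_range q g).inv x hx.1]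
  refine (IntermediateField.mem_fixingSubgroup_iff _ _).mpr fun y hy => ?_
  have h2 := hσx ⟨y, hy⟩
  rw [(IntermediateField.mem_fixingSubgroup_iff _ _).mp (hI hσ) y hy, ← hx'] at h2
  exact h2.symm

/-- A cocycle with values in roots of unity which comes from a field unramified at `q` is trivial
at `q`. -/
theorem mem_B2_of_unramified {E : IntermediateField ℚ Qb} [FiniteDimensional ℚ E] [Normal ℚ E]
    (hI : (g • primeLocalPlace q).inertiaSubgroupIn ℚ ≤ E.fixingSubgroup)
    {F : GQ → GQ → Qbˣ} (hF : F ∈ Z2 ⊤)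
    (hinv : ∀ a b, ∀ s ∈ E.fixingSubgroup, ∀ t ∈ E.fixingSubgroup, F (a * s) (b * t) = F a b)
    {p : ℕ} (hp : 0 < p) (hFp : ∀ a b, F a b ^ p = 1) : F ∈ B2 (Dec q g) := by
  obtain ⟨m, ζ, hm, hζ, hle⟩ := exists_zeta_le_fixing q g hI
  obtain ⟨σ, -, h⟩ := exists_cyclicOver_zeta (localAt_range q g) hm hζ
  set D := Dec q g
  set c := F 1 1 with hc
  have coc : ∀ a b e, F (a * b) e * F a b = a • F b e * F a (b * e) := fun a b e =>
    hF.1 a (Subgroup.mem_top a) b (Subgroup.mem_top b) e (Subgroup.mem_top e)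
  have hr1 : ∀ a, F a 1 = a • c := fun a => by
    have := coc a 1 1
    rw [mul_one, mul_one] at this
    exact mul_right_cancel this
  have hl1 : ∀ a, F 1 a = c := fun a => by
    have := coc 1 1 a
    rw [one_mul, one_mul, one_smul] at this
    exact (mul_left_cancel this).symm
  set F' := F / d1 fun _ => c
  have hd : ∀ a b, d1 (fun _ => c) a b = a • c := fun a b => by simp [d1]
  have hF' : F' ∈ Z2 D :=
    div_mem ⟨fun a _ b _ e _ => coc a b e, by
      obtain ⟨E', hE', hcts⟩ := hF.2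
      exact ⟨E', hE', fun a _ b _ s _ t _ => hcts a (Subgroup.mem_top a) b (Subgroup.mem_top b) s
        (Subgroup.mem_top s) t (Subgroup.mem_top t)⟩⟩ (d1_mem_Z2 (cts₁_const _ c))
  have hR : ∀ a ∈ D, ∀ s ∈ D ⊓ MulAction.stabilizer GQ ζ, F' a s = 1 := fun a _ s hs => by
    have e := hinv a 1 1 (one_mem _) s (hle hs)
    rw [mul_one, one_mul] at e
    simp only [F', Pi.div_apply, hd, e, hr1, div_self']
  have hL : ∀ s ∈ D ⊓ MulAction.stabilizer GQ ζ, ∀ a ∈ D, F' s a = 1 := fun s hs a _ => by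
    have e := hinv 1 a s (hle hs) 1 (one_mem _)
    have e' := hinv 1 1 s (hle hs) 1 (one_mem _)
    rw [mul_one, one_mul] at e e'
    simp only [F', Pi.div_apply, hd, e, hl1, ← hr1 s, e', div_self']
  obtain ⟨hfix, hcl⟩ := h.eq_fa_of_normalized hF' hR hL
  set A := ∏ k ∈ Finset.range (zdeg (jAt q g) D ζ), F' (σ ^ k) σ
  have hA : (A : Qb) ^ p = 1 := by
    rw [← Units.val_pow_eq_pow_val, ← Finset.prod_pow, Finset.prod_eq_one fun k _ => ?_,
      Units.val_one]
    simp only [F', Pi.div_apply, hd, div_pow, hFp, ← smul_pow', smul_one, div_one, c]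
  have hfa : h.fa A ∈ B2 D := by
    refine (fa_mem_B2_iff_dvd_of_le (localAt_range q g) hm hζ h le_rfl (π := ((q : ℕ) : Qb))
      (natCast_mem _ _) ?_ ?_ (hgen_nat q g) hfix (k := 0) ?_).mpr (dvd_zero _)
    · rw [norm_natCast_self]
      exact inv_pos.mpr (Nat.cast_pos.mpr q.2.pos)
    · rw [norm_natCast_self]
      exact inv_lt_one_of_one_lt₀ (Nat.one_lt_cast.mpr q.2.one_lt)
    · rw [zpow_zero, norm_zeta hp hA]
  have := mul_mem (mul_mem hcl hfa) (d1_mem_B2 (cts₁_const D c))
  rwa [div_mul_cancel, div_mul_cancel] at this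

end Fermat.Agent.CFT.Brauer
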