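import Fermat.Agent.CFT.Brauer.Hasse
import Fermat.Agent.CFT.Brauer.AuxPrime
import Fermat.Agent.CFT.Brauer.Product
import Fermat.Agent.CFT.Brauer.Unramified

/-!
Reciprocity over `ℚ` for `H²(μ_p)`: invariants at all places with vanishing sum.
-/

set_option autoImplicit false
set_option linter.unusedSectionVars false
set_option backward.isDefEq.respectTransparency false

noncomputable section

namespace Fermat.Agent.CFT.Brauer

open ExtCitation
open Fermat.Agent.GalCoh (Levels fullLevels levelsS localLevels muRep Place placeGroup placeLoc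
  conjLoc toPlace compat_levelsS)

variable (p : ℕ) [Fact p.Prime]

/-- The local `H²`. -/
abbrev LocH2 (v : Place) : Type :=
  GalCoh.H2 (localLevels (placeLoc v)) ((muRep p).comp (placeLoc v))

/-- Restriction of global classes to the places of `ℚ`. -/
def locV (v : Place) : GalCoh.H2 fullLevels (muRep p) →ₗ[ZMod p] LocH2 p v :=
  (GalCoh.Mor.res fullLevels (localLevels (placeLoc v)) (muRep p) (placeLoc v)
    (fullLevels.compat_comap _)).map₂

/-- The place of `p`. -/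
abbrev plP : Place := Sum.inr (pPrime p)

variable {p}

lemma pulled_id : Pulled fullLevels (MonoidHom.id GQ) := ⟨fun _ => Iff.rfl⟩

/-- The cocycle of a global class. -/
abbrev cocT (f : ↥(GalCoh.Z2 fullLevels (muRep p))) : GQ → GQ → Qbˣ :=
  toQ (MonoidHom.id GQ) (f : GQ × GQ → ZMod p)

lemma range_id_GQ : (MonoidHom.id GQ).range = ⊤ :=
  MonoidHom.range_eq_top.mpr fun x => ⟨x, rfl⟩

lemma cocT_mem_Z2 (f : ↥(GalCoh.Z2 fullLevels (muRep p))) : cocT f ∈ Z2 ⊤ := by
  have h := pulled_id.toQ_mem_Z2 (p := p) f.2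
  rwa [range_id_GQ] at h

lemma range_placeLoc (v : Place) : (placeLoc v).range = (conjLoc v 1).range := by
  congr 1

/-- Vanishing at a place, in terms of cocycles. -/
theorem locV_eq_zero_iff (f : ↥(GalCoh.Z2 fullLevels (muRep p))) (v : Place) :
    locV p v (GalCoh.H2mk fullLevels (muRep p) f) = 0 ↔ cocT f ∈ B2 (conjLoc v 1).range := by
  rw [locV, GalCoh.Mor.map₂_mk]
  refine GalCoh.H2mk_eq_zero_iff.trans (((pulled_comap (placeLoc v)).mem_B2_iff
    ((GalCoh.Mor.res fullLevels (localLevels (placeLoc v)) (muRep p) (placeLoc v)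
      (fullLevels.compat_comap _)).cochain₂_mem_Z2 f.2)).trans ?_)
  rw [range_placeLoc]
  refine mem_B2_congr fun a ha b hb => ?_
  rw [← range_placeLoc] at ha hb
  exact pulled_id.toQ_comp (placeLoc v) (GalCoh.mem_Z2_iff.mp f.2).2 ha hb

theorem locV_eq_zero_iff_forall (f : ↥(GalCoh.Z2 fullLevels (muRep p))) (v : Place) :
    locV p v (GalCoh.H2mk fullLevels (muRep p) f) = 0 ↔
      ∀ g, cocT f ∈ B2 (conjLoc v g).range :=
  ⟨fun h g => mem_B2_range_conjLoc (cocT_mem_Z2 f) ((locV_eq_zero_iff f v).mp h) g,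
    fun h => (locV_eq_zero_iff f v).mpr (h 1)⟩

/-- Every cocycle killed by `p` is that of a global class. -/
theorem exists_class {F : GQ → GQ → Qbˣ} (hF : F ∈ Z2 ⊤) (hFp : F ^ p ∈ B2 ⊤) :
    ∃ z : GalCoh.H2 fullLevels (muRep p), ∀ v, locV p v z = 0 ↔
      ∀ g, F ∈ B2 (conjLoc v g).range := by
  obtain ⟨f, hf, h⟩ := pulled_id.exists_of_pow_mem_B2 (p := p) (F := F)
    (by rwa [range_id_GQ]) (by rwa [range_id_GQ])
  rw [range_id_GQ] at h
  refine ⟨GalCoh.H2mk fullLevels (muRep p) ⟨f, hf⟩, fun v =>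
    (locV_eq_zero_iff_forall _ v).trans (forall_congr' fun g => ?_)⟩
  have h' := B2_anti (le_top : (conjLoc v g).range ≤ ⊤) h
  constructor
  · intro h1
    have := mul_mem (inv_mem h') h1
    rwa [inv_div, div_mul_cancel] at this
  · intro h1
    have := mul_mem h' h1
    rwa [div_mul_cancel] at this

/-! ### The local groups -/

lemma locG_top (v : Place) (g : GQ) : locG ⊤ v g = (conjLoc v g).range := by
  rw [locG_eq, top_inf_eq]

/-- `H²` of a place of `ℚ` is generated by any non-zero class. -/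
theorem locH2_cyclic (v : Place) {x : LocH2 p v} (hx : x ≠ 0) (y : LocH2 p v) :
    ∃ a : ZMod p, y = a • x := by
  obtain ⟨f, rfl⟩ := GalCoh.H2mk_surjective x
  obtain ⟨f', rfl⟩ := GalCoh.H2mk_surjective y
  have hP : Pulled (localLevels (placeLoc v)) (placeLoc v) := pulled_comap _
  have hF := hP.toQ_mem_Z2 f.2
  have hF' := hP.toQ_mem_Z2 f'.2
  have hne : toQ (placeLoc v) (f : _ → ZMod p) ∉ B2 (placeLoc v).range := fun h =>
    hx (GalCoh.H2mk_eq_zero_iff.mpr ((hP.mem_B2_iff f.2).mpr h))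
  have hp0 : ∀ k : ↥(GalCoh.Z2 (localLevels (placeLoc v)) ((muRep p).comp (placeLoc v))),
      toQ (placeLoc v) (k : _ → ZMod p) ^ p ∈ B2 (placeLoc v).range := fun k => by
    rw [toQ_pow_p]; exact one_mem _
  have hr : (placeLoc v).range = locG ⊤ v 1 := by rw [range_placeLoc, locG_top]
  obtain ⟨i, hi⟩ : ∃ i : ℕ, toQ (placeLoc v) (f' : _ → ZMod p) /
      toQ (placeLoc v) (f : _ → ZMod p) ^ i ∈ B2 (placeLoc v).range := by
    rw [hr] at hF hF' hne hp0 ⊢
    rcases v with u | q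
    · rcases (Fact.out : p.Prime).eq_two_or_odd' with rfl | hodd
      · exact arch_exists_pow_div 1 hF hne hF'
      · exact absurd (mem_B2_of_coprime (Nat.coprime_two_right.mpr hodd).symm
          (mem_B2_sq 1 hF) (hp0 f)) hne
    · have : Fact (q : ℕ).Prime := ⟨q.2⟩
      exact exists_pow_div_mem_B2 (localAt_locG q 1 fullLevels.top_mem) hF (hp0 f) hne hF' (hp0 f')
  refine ⟨(i : ZMod p), ?_⟩
  rw [← map_smul, GalCoh.H2mk_eq_iff]
  refine (hP.mem_B2_iff (sub_mem f'.2 (Submodule.smul_mem _ _ f.2))).mpr ?_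
  have hpow : toQ (placeLoc v) (f : _ → ZMod p) ^ (i : ZMod p).val =
      toQ (placeLoc v) (f : _ → ZMod p) ^ i := by
    rw [ZMod.val_natCast]
    exact (pow_eq_pow_mod i (toQ_pow_p _)).symm
  rw [toQ_sub, toQ_smul, hpow]
  exact hi

/-- At the real place only `p = 2` matters. -/
theorem locH2_arch_eq_zero (hp2 : p ≠ 2) (u : Unit) (x : LocH2 p (Sum.inl u)) : x = 0 := by
  obtain ⟨f, rfl⟩ := GalCoh.H2mk_surjective x
  have hP : Pulled (localLevels (placeLoc (Sum.inl u))) (placeLoc (Sum.inl u)) := pulled_comap _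
  have hF := hP.toQ_mem_Z2 f.2
  refine GalCoh.H2mk_eq_zero_iff.mpr ((hP.mem_B2_iff f.2).mpr ?_)
  rw [range_placeLoc, ← locG_top] at hF ⊢
  exact mem_B2_of_coprime ((Fact.out : p.Prime).coprime_iff_not_dvd.mpr fun h =>
      hp2 ((Nat.prime_dvd_prime_iff_eq Fact.out Nat.prime_two).mp h)).symm
    (mem_B2_sq 1 hF) (by rw [toQ_pow_p]; exact one_mem _)

/-- An injective functional on a local group with a prescribed value. -/
theorem exists_functional (v : Place) {x : LocH2 p v} (hx : x ≠ 0) {t : ZMod p} (ht : t ≠ 0) :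
    ∃ φ : LocH2 p v →ₗ[ZMod p] ZMod p, Function.Injective φ ∧ φ x = t := by
  let e : ZMod p ≃ₗ[ZMod p] LocH2 p v :=
    LinearEquiv.ofBijective (LinearMap.toSpanSingleton (ZMod p) (LocH2 p v) x)
      ⟨smul_left_injective (ZMod p) hx, fun y => by
        obtain ⟨a, rfl⟩ := locH2_cyclic v hx y
        exact ⟨a, rfl⟩⟩
  refine ⟨t • e.symm.toLinearMap, fun a b h => e.symm.injective ?_, ?_⟩
  · simp only [LinearMap.smul_apply, LinearEquiv.coe_coe, smul_eq_mul] at h
    exact mul_left_cancel₀ ht h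
  · have h1 : e.symm x = 1 :=
      e.injective (by rw [LinearEquiv.apply_symm_apply]; simp [e])
    simp [h1]

/-! ### Classes ramified at two places -/

lemma zmod_three_facts : ((2 : ℕ) : ZMod 3) ≠ 0 ∧ (-1 : ZMod 3) = ((2 : ℕ) : ZMod 3) ∧
    (∀ x : ZMod 3, x ^ 2 ≠ ((2 : ℕ) : ZMod 3)) ∧ ((-2 : ℤ) : ZMod 3) = 1 := by decide

section Pairs

variable {l : ℕ} [Fact l.Prime] (Ψ : AuxChar l p)

lemma cls_mem_Z2 {A : ℚ} (hA : A ≠ 0) : Ψ.cls (ratU A hA) ∈ Z2 ⊤ :=
  Ψ.cyclic.fa_mem_Z2 (ratU_mem_fixU A hA ⊤)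

lemma cls_pow_mem_B2 {A : ℚ} (hA : A ≠ 0) : Ψ.cls (ratU A hA) ^ p ∈ B2 ⊤ := by
  rw [show Ψ.cls (ratU A hA) ^ p = Ψ.cls (ratU A hA ^ p) from (map_pow Ψ.clsHom _ p).symm]
  refine (Ψ.cyclic.fa_mem_B2_iff (pow_mem (ratU_mem_fixU A hA ⊤) p)).mpr
    ⟨ratU A hA, fun s _ => ratU_mem_fixU A hA ⊤ s (Subgroup.mem_top s), ?_⟩
  rw [Finset.prod_congr rfl fun i _ => ratU_mem_fixU A hA ⊤ _ (Subgroup.mem_top _),
    Finset.prod_const, Finset.card_range]

lemma indF_ne_zero {r : ℕ} (hr : r.Prime) (hrl : l ≠ r) (h : ∀ x : ZMod l, x ^ p ≠ (r : ZMod l)) :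
    (r : ZMod l) ≠ 0 ∧ Ψ.indF (r : ZMod l) ≠ 0 := by
  have h0 : (r : ZMod l) ≠ 0 := fun h0 =>
    hrl ((Nat.prime_dvd_prime_iff_eq Fact.out hr).mp ((ZMod.natCast_eq_zero_iff _ _).mp h0))
  exact ⟨h0, fun hi => (Ψ.exists_pow_of_indF h0 hi).elim fun y hy => h y hy.2⟩

end Pairs

/-- A finite place other than `p`, paired with `p`. -/
theorem exists_pair (q : Nat.Primes) (hq : q ≠ pPrime p) :
    ∃ c : GalCoh.H2 fullLevels (muRep p), locV p (Sum.inr q) c ≠ 0 ∧ locV p (plP p) c ≠ 0 ∧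
      ∀ w, w ≠ Sum.inr q → w ≠ plP p → locV p w c = 0 := by
  have hp : p.Prime := Fact.out
  have hqp : (q : ℕ) ≠ p := fun h => hq (Subtype.ext h)
  obtain ⟨l, hl, hlq, hlp, hdvd, hq', hp'⟩ := exists_aux_prime (p := p) q.2 hp
  have : Fact l.Prime := ⟨hl⟩
  obtain ⟨Ψ⟩ := exists_auxChar hdvd
  obtain ⟨hq0, hiq⟩ := indF_ne_zero Ψ q.2 hlq hq'
  obtain ⟨hp0, hip⟩ := indF_ne_zero Ψ hp hlp hp'
  set iq := Ψ.indF ((q : ℕ) : ZMod l)
  set ip := Ψ.indF ((p : ℕ) : ZMod l)
  obtain ⟨k, hk⟩ : ∃ k : ℕ, (k : ZMod p) * ip = -iq :=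
    ⟨(-iq / ip).val, by rw [ZMod.natCast_zmod_val, div_mul_cancel₀ _ hip]⟩
  set z : ℕ := (q : ℕ) * p ^ k with hz
  have hz0 : z ≠ 0 := mul_ne_zero q.2.ne_zero (pow_ne_zero _ hp.ne_zero)
  have hA : ((z : ℤ) : ℚ) ≠ 0 := by exact_mod_cast hz0
  obtain ⟨c, hc⟩ := exists_class (cls_mem_Z2 Ψ hA) (cls_pow_mem_B2 Ψ hA)
  have hzl : ((z : ℤ) : ZMod l) ≠ 0 := by
    rw [hz, Int.cast_natCast, Nat.cast_mul, Nat.cast_pow]
    exact mul_ne_zero hq0 (pow_ne_zero _ hp0)
  have hzi : Ψ.indF ((z : ℤ) : ZMod l) = 0 := by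
    rw [hz, Int.cast_natCast, Nat.cast_mul, Nat.cast_pow, Ψ.indF_mul hq0 (pow_ne_zero _ hp0),
      Ψ.indF_pow hp0, hk, add_neg_cancel]
  have hval : ∀ r : Nat.Primes, (padicValRat r ((z : ℤ) : ℚ) : ZMod p) =
      (if (r : ℕ) = q then 1 else 0) + if (r : ℕ) = p then (k : ZMod p) else 0 := fun r => by
    have : Fact (r : ℕ).Prime := ⟨r.2⟩
    rw [Int.cast_natCast, padicValRat.of_nat, Int.cast_natCast, hz,
      padicValNat.mul q.2.ne_zero (pow_ne_zero _ hp.ne_zero), padicValNat.pow]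
    have h1 : ∀ s : ℕ, s.Prime → (r : ℕ) ≠ s → padicValNat r s = 0 := fun s hs hne => by
      have : Fact s.Prime := ⟨hs⟩
      exact padicValNat_primes hne
    rcases eq_or_ne (r : ℕ) q with hrq | hrq
    · rw [if_pos hrq, if_neg (hrq ▸ hqp), ← hrq, padicValNat.self r.2.one_lt,
        h1 p hp (hrq ▸ hqp), mul_zero]
      simp
    · rw [if_neg hrq, h1 _ q.2 hrq]
      rcases eq_or_ne (r : ℕ) p with hrp | hrp
      · rw [if_pos hrp, congrArg (fun s => padicValNat s p) hrp, padicValNat.self hp.one_lt]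
        simp
      · rw [if_neg hrp, h1 p hp hrp]; simp
  refine ⟨c, fun h0 => ?_, fun h0 => ?_, fun w hwq hwp => (hc w).mpr fun g => ?_⟩
  · have : Fact (q : ℕ).Prime := ⟨q.2⟩
    have h := (Ψ.cls_rat_iff q 1 hlq.symm hA).mp ((hc _).mp h0 1)
    rw [hval, if_pos rfl, if_neg hqp, add_zero, one_mul] at h
    exact hiq h
  · have : Fact ((pPrime p : Nat.Primes) : ℕ).Prime := ⟨hp⟩
    have h := (Ψ.cls_rat_iff (pPrime p) 1 hlp.symm hA).mp ((hc _).mp h0 1)
    rw [hval, if_neg (show ((pPrime p : Nat.Primes) : ℕ) ≠ q from hqp.symm),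
      if_pos (show ((pPrime p : Nat.Primes) : ℕ) = p from rfl), zero_add] at h
    exact hiq (neg_eq_zero.mp (hk.symm.trans h))
  · rcases w with u | r
    · rw [range_conjLoc_inl]
      refine (Ψ.cls_rat_arch g hA).mpr (Or.inr ?_)
      exact_mod_cast Nat.pos_of_ne_zero hz0
    · have : Fact (r : ℕ).Prime := ⟨r.2⟩
      by_cases hrl : (r : ℕ) = l
      · exact Ψ.cls_int_mem_B2_l r g hrl (by exact_mod_cast hz0) hzl hzi
      · refine (Ψ.cls_rat_iff r g hrl hA).mpr ?_
        rw [hval, if_neg (fun h => hwq (congrArg Sum.inr (Subtype.ext h))),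
          if_neg (fun h : (r : ℕ) = p => hwp (congrArg Sum.inr (Subtype.ext h))), add_zero, zero_mul]

/-- The real place, paired with `2`. -/
theorem exists_pair_arch [Fact (Nat.Prime 2)] :
    ∃ c : GalCoh.H2 fullLevels (muRep 2), locV 2 (Sum.inl ()) c ≠ 0 ∧ locV 2 (plP 2) c ≠ 0 ∧
      ∀ w, w ≠ Sum.inl () → w ≠ plP 2 → locV 2 w c = 0 := by
  have : Fact (Nat.Prime 3) := ⟨Nat.prime_three⟩
  obtain ⟨Ψ⟩ := exists_auxChar (l := 3) (n := 2) (by norm_num)
  obtain ⟨h20, hneg, hsq, hm2⟩ := zmod_three_facts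
  have hne : Ψ.indF ((2 : ℕ) : ZMod 3) ≠ 0 :=
    (indF_ne_zero Ψ Nat.prime_two (by norm_num) hsq).2
  have hm1 : Ψ.indF (-1 : ZMod 3) ≠ 0 := by
    rwa [hneg]
  have hz : (-2 : ℤ) ≠ 0 := by norm_num
  have hA : ((-2 : ℤ) : ℚ) ≠ 0 := by norm_num
  obtain ⟨c, hc⟩ := exists_class (cls_mem_Z2 Ψ hA) (cls_pow_mem_B2 Ψ hA)
  have hval : ∀ r : Nat.Primes, padicValRat r ((-2 : ℤ) : ℚ) = (padicValNat r 2 : ℤ) := fun r => by
    rw [padicValRat.of_int, padicValInt]
    rfl
  refine ⟨c, fun h0 => ?_, fun h0 => ?_, fun w hwi hwp => (hc w).mpr fun g => ?_⟩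
  · have h := (hc _).mp h0 1
    rw [range_conjLoc_inl] at h
    rcases (Ψ.cls_rat_arch 1 hA).mp h with h | h
    · exact hm1 h
    · norm_num at h
  · have : Fact ((pPrime 2 : Nat.Primes) : ℕ).Prime := ⟨Nat.prime_two⟩
    have h := (Ψ.cls_rat_iff (pPrime 2) 1 (show (2 : ℕ) ≠ 3 by norm_num) hA).mp ((hc _).mp h0 1)
    rw [hval, show ((pPrime 2 : Nat.Primes) : ℕ) = 2 from rfl, padicValNat.self one_lt_two] at h
    exact hne (by simpa using h)
  · rcases w with u | r
    · exact absurd rfl hwi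
    · have : Fact (r : ℕ).Prime := ⟨r.2⟩
      have hr2 : (r : ℕ) ≠ 2 := fun h => hwp (congrArg Sum.inr (Subtype.ext h))
      by_cases hrl : (r : ℕ) = 3
      · refine Ψ.cls_int_mem_B2_l r g hrl hz (by rw [hm2]; exact one_ne_zero) ?_
        rw [hm2, Ψ.indF_one]
      · refine (Ψ.cls_rat_iff r g hrl hA).mpr ?_
        rw [hval, padicValNat_primes hr2]
        simp

/-! ### No class at the place `p` alone -/

/-- A class vanishing away from `p` vanishes at `p`. -/
theorem locV_eq_zero_of_others {z : GalCoh.H2 fullLevels (muRep p)}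
    (h : ∀ v, v ≠ plP p → locV p v z = 0) : locV p (plP p) z = 0 := by
  classical
  have hp : p.Prime := Fact.out
  obtain ⟨f, rfl⟩ := GalCoh.H2mk_surjective z
  set F := cocT f
  have hF := cocT_mem_Z2 f
  have hother : ∀ v, v ≠ plP p → ∀ g, F ∈ B2 (conjLoc v g).range := fun v hv =>
    (locV_eq_zero_iff_forall f v).mp (h v hv)
  obtain ⟨l, hl, hlp, -, hdvd, hp', -⟩ := exists_aux_prime (p := p) hp hp
  have : Fact l.Prime := ⟨hl⟩
  obtain ⟨Ψ⟩ := exists_auxChar hdvd
  obtain ⟨hp0, hip⟩ := indF_ne_zero Ψ hp hlp hp'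
  set P := pPrime p
  have : Fact (P : ℕ).Prime := ⟨hp⟩
  have hpQ : (p : ℚ) ≠ 0 := Nat.cast_ne_zero.mpr hp.ne_zero
  have hFp : ∀ X : Subgroup GQ, F ^ p ∈ B2 X := fun X => by
    rw [toQ_pow_p]; exact one_mem _
  -- `F` dies on the kernel of the character
  have hM : fullLevels.mem Ψ.M := mem_levels_of_isOpenIn fullLevels.top_mem Ψ.cyclic.isOpen
  have hPloc : ∀ g, F ∈ B2 (Ψ.M ⊓ Dec P g) := fun g => by
    have hne : Ψ.cls (ratU p hpQ) ∉ B2 (Dec P g) := fun hb => hip <| by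
      have h := (Ψ.cls_rat_iff P g hlp.symm hpQ).mp hb
      rwa [show ((P : ℕ)) = p from rfl, padicValRat.self hp.one_lt, Int.cast_one, one_mul] at h
    obtain ⟨i, hi⟩ := exists_pow_div_mem_B2 (localAt_range P g) (Z2_anti le_top (cls_mem_Z2 Ψ hpQ))
      (B2_anti le_top (cls_pow_mem_B2 Ψ hpQ)) hne (Z2_anti le_top hF) (hFp _)
    have := mul_mem (B2_anti inf_le_right hi)
      (pow_mem (B2_anti (inf_le_left : Ψ.M ⊓ Dec P g ≤ Ψ.M)
        (Ψ.cyclic.fa_mem_B2_sub (ratU p hpQ))) i)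
    rwa [div_mul_cancel] at this
  have hlocM : ∀ v g, F ∈ B2 (locG Ψ.M v g) := fun v g => by
    rw [locG_eq]
    rcases eq_or_ne v (plP p) with rfl | hv
    · exact hPloc g
    · exact B2_anti inf_le_right (hother v hv g)
  have hFM : F ∈ B2 Ψ.M := by
    rcases eq_or_ne p 2 with rfl | hp2
    · exact mem_B2_of_local_two hM (Z2_anti le_top hF) (hFp _) hlocM
    · exact mem_B2_of_local hM (fun h => absurd h hp2) (Z2_anti le_top hF) (hFp _)
        fun q g => hlocM _ g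
  obtain ⟨a, ha, hFa⟩ := Ψ.cyclic.exists_eq_fa hF hFM
  obtain ⟨A, hA, rfl⟩ := exists_ratU ha
  have htr : ∀ {X : Subgroup GQ}, F ∈ B2 X ↔ Ψ.cls (ratU A hA) ∈ B2 X := fun {X} => by
    have h' := B2_anti (le_top : X ≤ ⊤) hFa
    constructor
    · intro h1
      have := mul_mem (inv_mem h') h1
      rwa [inv_div, div_mul_cancel] at this
    · intro h1
      have := mul_mem h' h1
      rwa [div_mul_cancel] at this
  have hprod := Ψ.cls_product_formula hA P hlp.symm
    (fun r _ hr => ⟨1, htr.mp (hother _ (fun e => hr (Sum.inr_injective e)) 1)⟩)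
    ⟨1, by
      have := hother (Sum.inl ()) Sum.inl_ne_inr 1
      rw [range_conjLoc_inl] at this
      exact htr.mp this⟩
  exact (locV_eq_zero_iff f _).mpr (htr.mpr ((Ψ.cls_rat_iff P 1 hlp.symm hA).mpr hprod))

/-! ### Classes unramified outside `S` -/

/-- From `S`-levels to all levels. -/
def inflS (S : Finset Nat.Primes) :
    GalCoh.H2 (levelsS S) (muRep p) →ₗ[ZMod p] GalCoh.H2 fullLevels (muRep p) :=
  (GalCoh.Mor.res (levelsS S) fullLevels (muRep p) (MonoidHom.id GQ) (compat_levelsS S)).map₂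

theorem res_eq_locV_inflS {S : Finset Nat.Primes} (v : Place)
    (z : GalCoh.H2 (levelsS S) (muRep p)) :
    (GalCoh.Mor.res (levelsS S) (localLevels (placeLoc v)) (muRep p) (placeLoc v)
      ((compat_levelsS S).comp (fullLevels.compat_comap _))).map₂ z = locV p v (inflS S z) := by
  obtain ⟨f, rfl⟩ := GalCoh.H2mk_surjective z
  rfl

/-- Classes unramified outside `S` vanish at the finite places outside `S`. -/
theorem locV_inflS_eq_zero {S : Finset Nat.Primes} (z : GalCoh.H2 (levelsS S) (muRep p))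
    {q : Nat.Primes} (hq : q ∉ S) : locV p (Sum.inr q) (inflS S z) = 0 := by
  obtain ⟨f, rfl⟩ := GalCoh.H2mk_surjective z
  have : Fact (q : ℕ).Prime := ⟨q.2⟩
  refine (locV_eq_zero_iff_forall ⟨_, (GalCoh.Mor.res (levelsS S) fullLevels (muRep p)
    (MonoidHom.id GQ) (compat_levelsS S)).cochain₂_mem_Z2 f.2⟩ _).mpr fun g => ?_
  obtain ⟨-, U, ⟨E₀, hE₀, hU⟩, hfU⟩ := GalCoh.mem_Z2_iff.mp f.2
  have := hE₀.1
  have hNC := GalCoh.isUnramifiedOutside_normalClosure hE₀
  set E := IntermediateField.normalClosure ℚ E₀ Qb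
  have : Normal ℚ E := normalClosure.normal ℚ E₀ Qb
  have := hNC.1
  have hE : E.fixingSubgroup ≤ U :=
    (IntermediateField.fixingSubgroup_antitone E₀.le_normalClosure).trans hU
  refine mem_B2_of_unramified q g (E := E) (hNC.2 q hq _ (liesOverPrime_at q g)) (cocT_mem_Z2 _)
    (fun a b s hs t ht => ?_) (Fact.out : p.Prime).pos fun a b => muU_pow _
  have hcts := (GalCoh.mem_Z2_iff.mp
    ((GalCoh.Mor.res (levelsS S) fullLevels (muRep p) (MonoidHom.id GQ)
      (compat_levelsS S)).cochain₂_mem_Z2 f.2)).2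
  refine (pulled_id.toQ_apply hcts (a * s) (b * t)).trans (Eq.trans ?_
    (pulled_id.toQ_apply hcts a b).symm)
  exact congrArg (muU p) (hfU a b s (hE hs) t (hE ht))

/-! ### The invariants -/

lemma exists_prime_ne : ∃ q : Nat.Primes, q ≠ pPrime p := by
  rcases eq_or_ne p 2 with rfl | h
  · exact ⟨⟨3, Nat.prime_three⟩, fun e => by simpa [pPrime] using congrArg Subtype.val e⟩
  · exact ⟨⟨2, Nat.prime_two⟩, fun e => h (congrArg Subtype.val e).symm⟩

variable (p) in
theorem exists_inv_P : ∃ φ : LocH2 p (plP p) →ₗ[ZMod p] ZMod p, Function.Injective φ := by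
  obtain ⟨q, hq⟩ := exists_prime_ne (p := p)
  obtain ⟨c, -, hc, -⟩ := exists_pair q hq
  obtain ⟨φ, hφ, -⟩ := exists_functional _ hc (one_ne_zero : (1 : ZMod p) ≠ 0)
  exact ⟨φ, hφ⟩

variable (p) in
/-- The invariant at `p`. -/
def invP : LocH2 p (plP p) →ₗ[ZMod p] ZMod p := (exists_inv_P p).choose

lemma invP_injective : Function.Injective (invP p) := (exists_inv_P p).choose_spec

/-- At every place but `p`: an invariant and a class pairing the place with `p`. -/
theorem exists_inv (v : Place) : ∃ (φ : LocH2 p v →ₗ[ZMod p] ZMod p)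
    (c : GalCoh.H2 fullLevels (muRep p)), Function.Injective φ ∧
      φ (locV p v c) + invP p (locV p (plP p) c) = 0 ∧
      (∀ w, w ≠ v → w ≠ plP p → locV p w c = 0) ∧
      (v ≠ plP p → ∀ y, ∃ a : ZMod p, y = a • locV p v c) ∧
      ∀ h : plP p = v, φ = h ▸ invP p := by
  have hmain : (∃ c : GalCoh.H2 fullLevels (muRep p), locV p v c ≠ 0 ∧ locV p (plP p) c ≠ 0 ∧
      ∀ w, w ≠ v → w ≠ plP p → locV p w c = 0) → plP p ≠ v →
      ∃ (φ : LocH2 p v →ₗ[ZMod p] ZMod p) (c : GalCoh.H2 fullLevels (muRep p)),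
        Function.Injective φ ∧ φ (locV p v c) + invP p (locV p (plP p) c) = 0 ∧
        (∀ w, w ≠ v → w ≠ plP p → locV p w c = 0) ∧
        (v ≠ plP p → ∀ y, ∃ a : ZMod p, y = a • locV p v c) ∧
        ∀ h : plP p = v, φ = h ▸ invP p := by
    rintro ⟨c, hcv, hcP, hc⟩ hne
    have ht : -invP p (locV p (plP p) c) ≠ 0 :=
      neg_ne_zero.mpr fun h0 => hcP (invP_injective (h0.trans (map_zero _).symm))
    obtain ⟨φ, hφ, hφc⟩ := exists_functional v hcv ht
    exact ⟨φ, c, hφ, by rw [hφc, neg_add_cancel], hc, fun _ y => locH2_cyclic v hcv y,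
      fun h => absurd h hne⟩
  rcases v with u | q
  · rcases eq_or_ne p 2 with rfl | hp2
    · exact hmain exists_pair_arch Sum.inr_ne_inl
    · exact ⟨0, 0, fun a b _ => by
          rw [locH2_arch_eq_zero hp2 u a, locH2_arch_eq_zero hp2 u b],
        by simp, fun w _ _ => map_zero _,
        fun _ y => ⟨0, by rw [zero_smul]; exact locH2_arch_eq_zero hp2 u y⟩,
        fun h => absurd h Sum.inr_ne_inl⟩
  · rcases eq_or_ne q (pPrime p) with rfl | hq
    · exact ⟨invP p, 0, invP_injective, by simp, fun w _ _ => map_zero _,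
        fun h => absurd rfl h, fun _ => rfl⟩
    · exact hmain (exists_pair q hq) fun h => hq (Sum.inr_injective h).symm

variable (p) in
/-- Reciprocity over `ℚ`. -/
theorem reciprocity : GalCoh.Reciprocity p := by
  classical
  choose φ c hφ hsum hoth hspan hP using exists_inv (p := p)
  refine ⟨φ, hφ, fun S hpS z => ?_⟩
  simp only [res_eq_locV_inflS]
  set z₀ := inflS S z
  let u₀ : extArithIndex S := Sum.inr ⟨pPrime p, hpS⟩
  have hinj : Function.Injective (toPlace : extArithIndex S → Place) := by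
    rintro (a | a) (b | b) h
    · rfl
    · exact absurd h Sum.inl_ne_inr
    · exact absurd h Sum.inr_ne_inl
    · exact congrArg Sum.inr (Subtype.ext (Sum.inr_injective h))
  have hne : ∀ {u : extArithIndex S}, u ≠ u₀ → toPlace u ≠ plP p := fun hu h => hu (hinj h)
  choose! a ha using fun (u : extArithIndex S) (hu : u ≠ u₀) =>
    hspan _ (hne hu) (locV p (toPlace u) z₀)
  set s := (Finset.univ : Finset (extArithIndex S)).erase u₀
  set z' := z₀ - ∑ u ∈ s, a u • c (toPlace u) with hz'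
  have hz'0 : ∀ v, v ≠ plP p → locV p v z' = 0 := by
    intro v hv
    by_cases hu : ∃ u, toPlace (S := S) u = v
    · obtain ⟨u, rfl⟩ := hu
      have hu0 : u ≠ u₀ := fun h => hv (congrArg toPlace h)
      rw [hz', map_sub, map_sum, Finset.sum_eq_single u (fun w _ hw => ?_)
        (fun h => absurd (Finset.mem_erase.mpr ⟨hu0, Finset.mem_univ u⟩) h), map_smul, ← ha u hu0,
        sub_self]
      rw [map_smul, hoth _ _ (fun h => hw (hinj h).symm) hv, smul_zero]
    · rw [not_exists] at hu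
      rw [hz', map_sub, map_sum, Finset.sum_eq_zero fun w _ => by
        rw [map_smul, hoth _ _ (fun h => hu w h.symm) hv, smul_zero], sub_zero]
      rcases v with w | q
      · exact absurd rfl (hu (Sum.inl w))
      · exact locV_inflS_eq_zero z fun hq => hu (Sum.inr ⟨q, hq⟩) rfl
  have hP0 : φ (toPlace u₀) (locV p (toPlace u₀) z') = 0 := by
    rw [show locV p (toPlace u₀) z' = 0 from locV_eq_zero_of_others hz'0, map_zero]
  have hφP : φ (toPlace u₀) = invP p := hP _ rfl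
  rw [hz', map_sub, map_sub, map_sum, map_sum] at hP0
  rw [← Finset.add_sum_erase _ _ (Finset.mem_univ u₀)]
  rw [sub_eq_zero] at hP0
  rw [hP0, ← Finset.sum_add_distrib]
  refine Finset.sum_eq_zero fun u hu => ?_
  rw [ha u (Finset.ne_of_mem_erase hu), map_smul, map_smul, map_smul, hφP, ← smul_add, add_comm]
  exact (congrArg (a u • ·) (hsum (toPlace u))).trans (smul_zero _)

end Fermat.Agent.CFT.Brauer
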