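import Fermat.Agent.CFT.Brauer.NoSingle
import Fermat.Agent.GalCoh.Places

/-!
Classes supported at exactly two given places of a field containing `μ_p`.
-/

set_option autoImplicit false
set_option backward.isDefEq.respectTransparency false

noncomputable section

namespace Fermat.Agent.CFT.Brauer

open ExtCitation NumberField IsDedekindDomain
open scoped Classical
open Fermat.Agent.GalCoh (fullLevels Place SamePlace IsRelevantPlace placeMor muOn levelsOn)

/-- A cocycle non-trivial at exactly the two given places. -/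
def IsPairClass (p : ℕ) (H : Subgroup GQ) (v : Place) (g : GQ) (v' : Place) (g' : GQ)
    (F : GQ → GQ → Qbˣ) : Prop :=
  F ∈ Z2 H ∧ F ^ p ∈ B2 H ∧ F ∉ B2 (locG H v g) ∧ F ∉ B2 (locG H v' g') ∧
    ∀ v'' g'', ¬ SamePlace H v g v'' g'' → ¬ SamePlace H v' g' v'' g'' → F ∈ B2 (locG H v'' g'')

variable {p : ℕ} [hp : Fact p.Prime] {H : Subgroup GQ}

/-- Vanishing at a place does not depend on its representative. -/
theorem mem_B2_of_samePlace (hmu : ∀ σ ∈ H, cycloChar p σ = 1) {F : GQ → GQ → Qbˣ}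
    (hF : F ∈ Z2 H) (hFp : F ^ p ∈ B2 H) {v v' : Place} {g g' : GQ}
    (hs : SamePlace H v g v' g') (h : F ∈ B2 (locG H v g)) : F ∈ B2 (locG H v' g') := by
  obtain ⟨f, hf⟩ := exists_cocQ_eq hF hFp
  obtain ⟨rfl, -⟩ := id hs
  have h1 : cocQ f ∈ B2 (locG H v g) := by
    rw [← div_mul_cancel (cocQ f) F]
    exact mul_mem (B2_anti (locG_le _ _ _) hf) h
  have h2 := (placeMor_eq_zero_iff f v g').mp
    (GalCoh.placeMor_eq_zero_of_samePlace hmu hs ((placeMor_eq_zero_iff f v g).mpr h1))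
  rw [← div_div_cancel (cocQ f) F]
  exact div_mem h2 (B2_anti (locG_le _ _ _) hf)

/-- Roots of unity of order `p` are in the fixed field. -/
lemma apply_root_of_unity (hmu : ∀ σ ∈ H, cycloChar p σ = 1) {ω : Qb} (hω : ω ^ p = 1) {g : GQ}
    (hg : g ∈ H) : g ω = ω := by
  rw [← GalCoh.Descent.mu_muLog (p := p) hω, GalCoh.Descent.apply_mu, hmu g hg, Units.val_one,
    one_mul]

/-- For odd `p` a field with `μ_p` has no real place. -/
lemma archConj_not_mem (hmu : ∀ σ ∈ H, cycloChar p σ = 1) (hp2 : p ≠ 2) (g : GQ) :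
    archConj g ∉ H := fun hg => by
  have : NeZero (p : Qb) := ⟨Nat.cast_ne_zero.mpr hp.out.ne_zero⟩
  obtain ⟨ω, hω⟩ := HasEnoughRootsOfUnity.exists_primitiveRoot Qb p
  exact archConj_not_mem_root hω hp2 g (apply_root_of_unity hmu hω.pow_eq_one hg)

/-- A Kummer pair. -/
theorem exists_cyclicOver_kummer (hmu : ∀ σ ∈ H, cycloChar p σ = 1) {β : Qb}
    (hβ : β ^ p ∈ fixF H) (hne : β ∉ fixF H) :
    ∃ σ, CyclicOver H (H ⊓ MulAction.stabilizer GQ β) σ p := by
  have hβ0 : β ≠ 0 := fun h0 => hne (h0 ▸ zero_mem _)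
  obtain ⟨σ, hσ, hσβ⟩ : ∃ σ ∈ H, σ β ≠ β := by
    by_contra hall
    push Not at hall
    exact hne (mem_fixF.mpr hall)
  have hroot : ∀ g ∈ H, (g β / β) ^ p = 1 := fun g hg => by
    rw [div_pow, ← map_pow, mem_fixF.mp hβ g hg, div_self (pow_ne_zero _ hβ0)]
  set ω := σ β / β
  have hω1 : ω ≠ 1 := fun h1 => hσβ ((div_eq_one_iff_eq hβ0).mp h1)
  have hωord : orderOf ω = p := orderOf_eq_prime (hroot σ hσ) hω1
  have hω : IsPrimitiveRoot ω p := hωord ▸ IsPrimitiveRoot.orderOf ω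
  have hσω : σ β = ω * β := (div_mul_cancel₀ _ hβ0).symm
  have hpow : ∀ i : ℕ, (σ ^ i) β = ω ^ i * β := fun i => by
    induction i with
    | zero => simp
    | succ i ih =>
      rw [pow_succ, AlgEquiv.mul_apply, hσω, map_mul, ih,
        apply_root_of_unity hmu (hroot σ hσ) (H.pow_mem hσ i), pow_succ]
      ring
  obtain ⟨E, hE, -, -, hβE⟩ := exists_normal_level ⊥ {β}
  refine ⟨σ,
    { isOpen := ⟨inf_le_left, E, hE, fun g hg hgE =>
        ⟨hg, fix_eq hgE (hβE β (Finset.mem_singleton_self _))⟩⟩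
      mem := hσ
      pos := hp.out.pos
      conj := fun g hg s hs => ⟨H.mul_mem (H.mul_mem (H.inv_mem hg) hs.1) hg, ?_⟩
      cover := fun g hg => ?_
      pow_mem_iff := fun i => ?_ }⟩
  · have hs2 : s β = β := hs.2
    have e : s (g β) = g β := by
      rw [← div_mul_cancel₀ (g β) hβ0, map_mul, hs2, apply_root_of_unity hmu (hroot g hg) hs.1]
    show (g⁻¹ * s * g) β = β
    rw [AlgEquiv.mul_apply, AlgEquiv.mul_apply, e]
    exact g.symm_apply_apply β
  · have : NeZero p := ⟨hp.out.ne_zero⟩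
    obtain ⟨i, -, hi⟩ := hω.eq_pow_of_pow_eq_one (hroot g hg)
    refine ⟨i, H.mul_mem (H.inv_mem (H.pow_mem hσ i)) hg, ?_⟩
    show ((σ ^ i)⁻¹ * g) β = β
    rw [AlgEquiv.mul_apply, ← div_mul_cancel₀ (g β) hβ0, ← hi, ← hpow]
    exact (σ ^ i).symm_apply_apply β
  · rw [← hω.pow_eq_one_iff_dvd]
    constructor
    · intro h
      have h1 : (σ ^ i) β = β := h.2
      rw [hpow] at h1
      exact (mul_eq_right₀ hβ0).mp h1
    · intro h
      exact ⟨H.pow_mem hσ i, show (σ ^ i) β = β by rw [hpow, h, one_mul]⟩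

/-- An element with valuation one at two given primes, positive at the real places. -/
theorem exists_kummer_element {K : Type} [Field K] [NumberField K]
    (u u' : HeightOneSpectrum (𝓞 K)) {ℓ ℓ' : ℕ} (hℓ : ℓ.Prime) (hℓ' : ℓ'.Prime)
    (hu : (ℓ : 𝓞 K) ∈ u.asIdeal) (hu' : (ℓ' : 𝓞 K) ∈ u'.asIdeal) :
    ∃ b : K, b ≠ 0 ∧ ordv u b = 1 ∧ ordv u' b = 1 ∧
      ∀ w : InfinitePlace K, w.IsReal → 0 < (w.embedding b).re := by
  choose π hπ0 hπ using fun v : HeightOneSpectrum (𝓞 K) => exists_ordv_eq_one v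
  obtain ⟨b₀, hb₀, hnear⟩ := exists_near_div' ({u, u'} : Finset (HeightOneSpectrum (𝓞 K))) π
    (fun v _ => hπ0 v) 1
  have h1 : ∀ v ∈ ({u, u'} : Finset (HeightOneSpectrum (𝓞 K))), ordv v b₀ = 1 := fun v hv => by
    rw [Near.ordv_eq le_rfl (hnear v hv) (hπ0 v), hπ]
  obtain ⟨T, hT⟩ : ∃ T : ℕ, ∀ w : InfinitePlace K, -(w.embedding b₀).re < T := by
    obtain ⟨T, hT⟩ := exists_nat_gt (∑ w : InfinitePlace K, |(w.embedding b₀).re|)
    refine ⟨T, fun w => lt_of_le_of_lt ((neg_le_abs _).trans ?_) hT⟩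
    exact Finset.single_le_sum (f := fun w : InfinitePlace K => |(w.embedding b₀).re|)
      (fun _ _ => abs_nonneg _) (Finset.mem_univ w)
  set t : ℕ := ((ℓ * ℓ') ^ 2) * (T + 1)
  have ht0 : (t : 𝓞 K) ≠ 0 := Nat.cast_ne_zero.mpr
    (Nat.mul_ne_zero (pow_ne_zero _ (Nat.mul_ne_zero hℓ.ne_zero hℓ'.ne_zero)) T.succ_ne_zero)
  have htK : (t : K) ≠ 0 := by
    rw [← map_natCast (algebraMap (𝓞 K) K)]; simpa using ht0
  have key : ∀ (v : HeightOneSpectrum (𝓞 K)) (m : ℕ), (m : 𝓞 K) ∈ v.asIdeal → m ^ 2 ∣ t →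
      ordv v b₀ = 1 → ordv v (b₀ + (t : K)) = 1 := by
    intro v m hm hdvd hone
    have h2 : (2 : ℤ) ≤ ordv v (t : K) := by
      have hd : v.asIdeal ^ 2 ∣ Ideal.span {(t : 𝓞 K)} := by
        refine dvd_trans (pow_dvd_pow_of_dvd (Ideal.dvd_span_singleton.mpr hm) 2) ?_
        rw [Ideal.span_singleton_pow, Ideal.dvd_iff_le, Ideal.span_singleton_le_span_singleton,
          ← Nat.cast_pow]
        exact Nat.cast_dvd_cast hdvd
      have := (natCast_le_ordv_iff v ht0 2).mpr hd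
      rwa [map_natCast] at this
    have hlt : v.valuation K (t : K) < v.valuation K b₀ := by
      rw [valuation_eq_exp v htK, valuation_eq_exp v hb₀, WithZero.exp_lt_exp]
      omega
    rw [ordv, Valuation.map_add_eq_of_lt_left _ hlt]
    exact hone
  have hbu := key u ℓ hu (Dvd.dvd.mul_right (pow_dvd_pow_of_dvd (dvd_mul_right _ _) 2) _)
    (h1 u (Finset.mem_insert_self _ _))
  have hbu' := key u' ℓ' hu' (Dvd.dvd.mul_right (pow_dvd_pow_of_dvd (dvd_mul_left _ _) 2) _)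
    (h1 u' (Finset.mem_insert_of_mem (Finset.mem_singleton_self _)))
  refine ⟨b₀ + (t : K), fun h0 => ?_, hbu, hbu', fun w _ => ?_⟩
  · rw [h0, ordv, map_zero] at hbu
    simp at hbu
  · rw [map_add, Complex.add_re, map_natCast, Complex.natCast_re]
    have htT : (T : ℝ) ≤ (t : ℝ) := by
      refine Nat.cast_le.mpr (le_trans T.le_succ (Nat.le_mul_of_pos_left _ ?_))
      exact pow_pos (Nat.mul_pos hℓ.pos hℓ'.pos) 2
    linarith [hT w]

/-- An element negative at exactly one real place. -/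
theorem exists_neg_single {K : Type} [Field K] [NumberField K] {w₀ : InfinitePlace K}
    (hw₀ : w₀.IsReal) :
    ∃ x : K, x ≠ 0 ∧ (w₀.embedding x).re < 0 ∧
      ∀ w : InfinitePlace K, w.IsReal → w ≠ w₀ → 0 < (w.embedding x).re := by
  obtain ⟨θ, hθ⟩ := Field.exists_primitive_element ℚ K
  let r : InfinitePlace K → ℝ := fun w => (w.embedding θ).re
  have hr : ∀ w : InfinitePlace K, w.IsReal → w ≠ w₀ → r w ≠ r w₀ := by
    intro w hw hne he
    refine hne ?_
    rw [← InfinitePlace.mk_embedding w, ← InfinitePlace.mk_embedding w₀]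
    have hre : ∀ w' : InfinitePlace K, w'.IsReal → w'.embedding θ = (r w' : ℂ) := fun w' hw' =>
      (Complex.conj_eq_iff_re.mp (congrArg (fun f => f θ)
        (ComplexEmbedding.isReal_iff.mp (InfinitePlace.isReal_iff.mp hw')))).symm
    have h : w.embedding.toRatAlgHom = w₀.embedding.toRatAlgHom := by
      refine AlgHom.ext_of_adjoin_eq_top (s := {θ}) ?_ ?_
      · rw [← IntermediateField.adjoin_simple_toSubalgebra_of_isAlgebraic
          (Algebra.IsAlgebraic.isAlgebraic θ), hθ, IntermediateField.top_toSubalgebra]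
      · intro y hy
        rw [Set.mem_singleton_iff] at hy
        subst hy
        show w.embedding y = w₀.embedding y
        rw [hre w hw, hre w₀ hw₀, he]
    exact congrArg InfinitePlace.mk (RingHom.ext fun x => AlgHom.congr_fun h x)
  let B : Finset ℝ := ((Finset.univ.filter fun w : InfinitePlace K => w.IsReal ∧ w ≠ w₀).image
    fun w => |r w - r w₀|)
  obtain ⟨δ, hδ, hδB⟩ : ∃ δ : ℝ, 0 < δ ∧ ∀ d ∈ B, δ ≤ d := by
    rcases B.eq_empty_or_nonempty with h | h
    · exact ⟨1, one_pos, by simp [h]⟩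
    · refine ⟨B.min' h, ?_, fun d hd => B.min'_le d hd⟩
      obtain ⟨w, hw, hweq⟩ := Finset.mem_image.mp (B.min'_mem h)
      rw [Finset.mem_filter] at hw
      rw [← hweq]
      exact abs_pos.mpr (sub_ne_zero.mpr (hr w hw.2.1 hw.2.2))
  obtain ⟨t₁, ht₁, ht₁'⟩ := exists_rat_btwn (show r w₀ - δ < r w₀ by linarith)
  obtain ⟨t₂, ht₂, ht₂'⟩ := exists_rat_btwn (show r w₀ < r w₀ + δ by linarith)
  set x : K := (θ - (t₁ : K)) * (θ - (t₂ : K))
  have hval : ∀ w : InfinitePlace K, w.IsReal →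
      (w.embedding x).re = (r w - t₁) * (r w - t₂) := fun w hw => by
    have h1 : (w.embedding θ).im = 0 := Complex.conj_eq_iff_im.mp (congrArg (fun f => f θ)
      (ComplexEmbedding.isReal_iff.mp (InfinitePlace.isReal_iff.mp hw)))
    simp [x, r, map_mul, map_sub, map_ratCast, Complex.mul_re, h1]
  have hneg : (w₀.embedding x).re < 0 := by
    rw [hval w₀ hw₀]
    exact mul_neg_of_pos_of_neg (by linarith) (by linarith)
  refine ⟨x, fun h0 => ?_, hneg, fun w hw hne => ?_⟩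
  · rw [h0, map_zero, Complex.zero_re] at hneg
    exact lt_irrefl _ hneg
  · have hd : δ ≤ |r w - r w₀| := hδB _ (Finset.mem_image.mpr
      ⟨w, Finset.mem_filter.mpr ⟨Finset.mem_univ _, hw, hne⟩, rfl⟩)
    rw [hval w hw]
    rcases le_abs'.mp hd with h' | h'
    · exact mul_pos_of_neg_of_neg (by linarith) (by linarith)
    · exact mul_pos (by linarith) (by linarith)

/-- Two finite places. -/
theorem exists_pair_finite (hH : fullLevels.mem H) (hmu : ∀ σ ∈ H, cycloChar p σ = 1)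
    (ℓ ℓ' : Nat.Primes) (g g' : GQ) (hne : ¬ SamePlace H (Sum.inr ℓ) g (Sum.inr ℓ') g') :
    ∃ F, IsPairClass p H (Sum.inr ℓ) g (Sum.inr ℓ') g' F := by
  have := numberField_fixF hH
  set K := fixF H
  set u := placeAt K ℓ g
  set u' := placeAt K ℓ' g'
  have huu : u ≠ u' := fun h => hne (samePlace_of_placeAt_eq hH h)
  obtain ⟨b, hb0, hbu, hbu', hbpos⟩ := exists_kummer_element u u' ℓ.2 ℓ'.2
    (natCast_mem_placeAt K ℓ g) (natCast_mem_placeAt K ℓ' g')
  obtain ⟨β, hβ⟩ := IsAlgClosed.exists_pow_nat_eq (b : Qb) hp.out.pos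
  have hβK : β ^ p ∈ fixF H := hβ ▸ b.2
  have hβne : β ∉ fixF H := fun hmem => by
    have h1 : (⟨β, hmem⟩ : K) ^ p = b := Subtype.ext (by rw [← hβ]; rfl)
    rw [← h1, ordv_pow] at hbu
    have := Int.eq_one_of_mul_eq_one_right (by positivity) hbu
    exact hp.out.ne_one (by exact_mod_cast this)
  obtain ⟨σ, h⟩ := exists_cyclicOver_kummer hmu hβK hβne
  have := h.numberField_top hH
  obtain ⟨hgal, hdeg, hnorm⟩ := h.top_spec hH
  have hreal : ∀ g₁, archConj g₁ ∈ H → archConj g₁ ∈ H ⊓ MulAction.stabilizer GQ β := by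
    intro g₁ hg₁
    refine ⟨hg₁, ?_⟩
    rcases hp.out.eq_two_or_odd' with rfl | hodd
    · show archConj g₁ β = β
      refine (phiAt g₁).injective ?_
      rw [phiAt_archConj, Complex.conj_eq_iff_im]
      let φ : K →+* ℂ := (phiAt g₁).comp K.val.toRingHom
      have hφ : ComplexEmbedding.IsReal φ := by
        rw [ComplexEmbedding.isReal_iff]
        refine RingHom.ext fun x => ?_
        show starRingEnd ℂ (phiAt g₁ (x : Qb)) = phiAt g₁ (x : Qb)
        rw [← phiAt_archConj, mem_fixF.mp x.2 _ hg₁]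
      have hw : (InfinitePlace.mk φ).IsReal := InfinitePlace.isReal_mk_iff.mpr hφ
      have hpos := hbpos _ hw
      rw [InfinitePlace.embedding_mk_eq_of_isReal hφ] at hpos
      change 0 < (phiAt g₁ (b : Qb)).re at hpos
      have himb : (phiAt g₁ (b : Qb)).im = 0 := Complex.conj_eq_iff_im.mp (RingHom.congr_fun
        (ComplexEmbedding.isReal_iff.mp hφ) b)
      rw [← hβ, map_pow, pow_two, Complex.mul_re] at hpos
      rw [← hβ, map_pow, pow_two, Complex.mul_im] at himb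
      by_contra hne'
      have : (phiAt g₁ β).re = 0 := by
        rcases mul_eq_zero.mp (by linarith : (phiAt g₁ β).re * (phiAt g₁ β).im = 0) with h' | h'
        · exact h'
        · exact absurd h' hne'
      rw [this] at hpos
      nlinarith [mul_self_nonneg (phiAt g₁ β).im]
    · exact absurd hg₁ (archConj_not_mem hmu (fun e => by rw [e] at hodd; exact absurd hodd (by decide)) g₁)
  have : IsUnramifiedAtInfinitePlaces K h.top := h.isUnramifiedAtInfinitePlaces_top hH hreal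
  -- the two places do not split
  have hns : ∀ v : HeightOneSpectrum (𝓞 K), ordv v b = 1 → IsNonSplit K h.top v := by
    intro v hv
    set W := someAbove h.top v
    have hW : primeUnder K W = v := primeUnder_someAbove v
    let βL : h.top := ⟨β, (IntermediateField.mem_extendScalars _).mpr
      (mem_fixF.mpr fun s hs => hs.2)⟩
    have h1 : ordv W (algebraMap K h.top b) = ramIdx K W := by
      rw [ordv_algebraMap, hW, hv, mul_one]
    rw [show algebraMap K h.top b = βL ^ p from Subtype.ext hβ.symm, ordv_pow] at h1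
    have hdvd : p ∣ ramIdx K W := Int.natCast_dvd_natCast.mp ⟨_, h1.symm⟩
    have htop : W.asIdeal.inertia (h.top ≃ₐ[K] h.top) = ⊤ :=
      Subgroup.eq_top_of_le_card _ (by
        rw [card_inertia, IsGalois.card_aut_eq_finrank, hdeg]
        exact Nat.le_of_dvd (ramIdx_pos W) hdvd)
    exact (isNonSplit_iff hW).mpr fun τ => HeightOneSpectrum.ext
      (Ideal.inertia_le_stabilizer _ (htop ▸ Subgroup.mem_top τ))
  have hnonnorm : ∀ v : HeightOneSpectrum (𝓞 K), ordv v b = 1 →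
      ∃ e : K, e ≠ 0 ∧ ¬ IsLocalNormAt K h.top v e := by
    intro v hv
    by_contra hall
    push Not at hall
    have h1 : locNorms K h.top v = ⊤ := eq_top_iff.mpr fun x _ => hall _ x.ne_zero
    have h2 := index_locNorms hp.out hdeg (hns v hv)
    rw [h1, Subgroup.index_top] at h2
    exact hp.out.ne_one h2.symm
  obtain ⟨e₁, he₁, he₁n⟩ := hnonnorm u hbu
  obtain ⟨e₂, he₂, he₂n⟩ := hnonnorm u' hbu'
  -- the class of an element
  let mkU : ∀ c : K, c ≠ 0 → Qbˣ := fun c hc =>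
    Units.mk0 (c : Qb) fun e => hc (Subtype.ext e)
  have hmk : ∀ c hc, mkU c hc ∈ fixU H := fun c hc => mem_fixU.mpr c.2
  have hZ : ∀ c hc, h.fa (mkU c hc) ∈ Z2 H := fun c hc => h.fa_mem_Z2 (hmk c hc)
  have hP : ∀ c hc, h.fa (mkU c hc) ^ p ∈ B2 H := fun c hc => by
    have e : h.fa (mkU c hc) ^ p = h.fa (mkU c hc ^ p) :=
      (map_pow ({ toFun := h.fa, map_one' := h.fa_one, map_mul' := h.fa_mul } :
        Qbˣ →* (GQ → GQ → Qbˣ)) (mkU c hc) p).symm
    rw [e, h.fa_mem_B2_iff (Subgroup.pow_mem _ (hmk c hc) p)]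
    refine ⟨mkU c hc, fun s hs => hmk c hc s (h.le hs), ?_⟩
    rw [Finset.prod_congr rfl fun i _ => hmk c hc _ (h.pow_mem i), Finset.prod_const,
      Finset.card_range]
  have hinf : ∀ c hc g₁, h.fa (mkU c hc) ∈ B2 (locG H (Sum.inl ()) g₁) := fun c hc g₁ => by
    rcases arch_cases g₁ H () with e | e
    · rw [e]; exact mem_B2_bot
    · refine B2_anti ?_ (h.fa_mem_B2_sub _)
      have hg₁ : archConj g₁ ∈ H := locG_le H (Sum.inl ()) g₁ (e ▸ Subgroup.mem_zpowers _)
      rw [e, Subgroup.zpowers_le]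
      exact hreal g₁ hg₁
  have hsingle : ∀ (c : K), c ≠ 0 → ∀ (ℓ₁ : Nat.Primes) (g₁ : GQ),
      (∀ v, v ≠ placeAt K ℓ₁ g₁ → IsLocalNormAt K h.top v c) →
      IsLocalNormAt K h.top (placeAt K ℓ₁ g₁) c := by
    intro c hc ℓ₁ g₁ hall
    refine h.isLocalNormAt_of_mem_B2 hH (hmk c hc) ℓ₁ g₁ ?_
    refine noSingle_finite hH (hZ c hc) (hP c hc) ℓ₁ g₁ (hinf c hc) fun ℓ₂ g₂ hs => ?_
    refine h.mem_B2_of_isLocalNormAt hH (hmk c hc) ℓ₂ g₂ (hall _ fun heq => hs ?_)
    exact (samePlace_of_placeAt_eq hH heq).symm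
  have hex : ¬ ∃ c : K, c ≠ 0 ∧ IsLocalNormAt K h.top u (c / e₁) ∧
      ∀ v, v ≠ u → IsLocalNormAt K h.top v c := by
    rintro ⟨c, hc, hce, hall⟩
    refine he₁n ?_
    have := (hsingle c hc ℓ g hall).mul hce.inv
    rwa [inv_div, mul_div_cancel₀ _ hc] at this
  obtain ⟨c, i, hc, -, hcother⟩ := exists_local_prescription (L := h.top) hp.out hdeg {u'} u e₁ he₁
    hex (Function.update (fun _ => (1 : K)) u' e₂)
    (fun v => by by_cases hv : v = u' <;> simp [hv, he₂]) fun v hv => by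
      rw [Function.update_of_ne (by simpa using hv)]
  have hcu' : ¬ IsLocalNormAt K h.top u' c := fun hn => by
    have h1 := hcother u' huu.symm
    rw [Function.update_self] at h1
    have := hn.mul h1.inv
    rw [inv_div, mul_div_cancel₀ _ hc] at this
    exact he₂n this
  have hrest : ∀ v, v ≠ u → v ≠ u' → IsLocalNormAt K h.top v c := fun v h1 h2 => by
    have := hcother v h1
    rwa [Function.update_of_ne h2, div_one] at this
  have hcu : ¬ IsLocalNormAt K h.top u c := fun hn => hcu' (hsingle c hc ℓ' g' fun v hv => by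
    by_cases hvu : v = u
    · exact hvu ▸ hn
    · exact hrest v hvu hv)
  refine ⟨h.fa (mkU c hc), hZ c hc, hP c hc,
    fun hm => hcu (h.isLocalNormAt_of_mem_B2 hH (hmk c hc) ℓ g hm),
    fun hm => hcu' (h.isLocalNormAt_of_mem_B2 hH (hmk c hc) ℓ' g' hm), ?_⟩
  rintro (⟨⟩ | ℓ'') g'' h1 h2
  · exact hinf c hc g''
  · exact h.mem_B2_of_isLocalNormAt hH (hmk c hc) ℓ'' g'' (hrest _
      (fun heq => h1 (samePlace_of_placeAt_eq hH heq).symm)
      fun heq => h2 (samePlace_of_placeAt_eq hH heq).symm)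

/-- Removing the finite support outside a given place. -/
theorem exists_clear (hH : fullLevels.mem H) (hmu : ∀ σ ∈ H, cycloChar p σ = 1) [NumberField (fixF H)]
    (ℓ' : Nat.Primes) (g' : GQ) (T : Finset (HeightOneSpectrum (𝓞 (fixF H)))) :
    ∀ F ∈ Z2 H, F ^ p ∈ B2 H →
      (∀ ℓ g, placeAt (fixF H) ℓ g ∉ T → placeAt (fixF H) ℓ g ≠ placeAt (fixF H) ℓ' g' →
        F ∈ B2 (locG H (Sum.inr ℓ) g)) →
      ∃ F' ∈ Z2 H, F' ^ p ∈ B2 H ∧
        (∀ ℓ g, placeAt (fixF H) ℓ g ≠ placeAt (fixF H) ℓ' g' → F' ∈ B2 (locG H (Sum.inr ℓ) g)) ∧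
        ∀ u g, F' / F ∈ B2 (locG H (Sum.inl u) g) := by
  induction T using Finset.induction with
  | empty =>
    exact fun F hF hFp hout => ⟨F, hF, hFp, fun ℓ g hne => hout ℓ g (Finset.notMem_empty _) hne,
      fun u g => by rw [div_self']; exact one_mem _⟩
  | @insert w T hw ih =>
    intro F hF hFp hout
    obtain ⟨ℓw, gw, hwe⟩ := exists_placeAt_eq (fixF H) w
    subst hwe
    have hat : ∀ {F : GQ → GQ → Qbˣ}, F ∈ Z2 H → F ^ p ∈ B2 H →
        F ∈ B2 (locG H (Sum.inr ℓw) gw) → ∀ ℓ g,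
          placeAt (fixF H) ℓ g = placeAt (fixF H) ℓw gw → F ∈ B2 (locG H (Sum.inr ℓ) g) :=
      fun hF hFp hm ℓ g he =>
        mem_B2_of_samePlace hmu hF hFp (samePlace_of_placeAt_eq hH he).symm hm
    by_cases hskip : placeAt (fixF H) ℓw gw = placeAt (fixF H) ℓ' g' ∨
        F ∈ B2 (locG H (Sum.inr ℓw) gw)
    · refine ih F hF hFp fun ℓ g hT hne => ?_
      by_cases he : placeAt (fixF H) ℓ g = placeAt (fixF H) ℓw gw
      · rcases hskip with hs | hs
        · exact absurd (he.trans hs) hne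
        · exact hat hF hFp hs ℓ g he
      · exact hout ℓ g (by simp [Finset.mem_insert, he, hT]) hne
    push Not at hskip
    obtain ⟨hsk, hFne⟩ := hskip
    have hns : ¬ SamePlace H (Sum.inr ℓw) gw (Sum.inr ℓ') g' := fun hs => by
      obtain ⟨he, x, hx, d, rfl⟩ := hs
      obtain rfl := Sum.inr.inj he
      exact hsk (placeAt_eq_of_samePlace hH ℓw gw hx d).symm
    obtain ⟨G, hG, hGp, hGw, -, hGout⟩ := exists_pair_finite hH hmu ℓw ℓ' gw g' hns
    have : Fact (ℓw : ℕ).Prime := ⟨ℓw.2⟩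
    obtain ⟨i, hi⟩ := exists_pow_div_mem_B2 (localAt_locG ℓw gw hH) (Z2_anti (locG_le _ _ _) hG)
      (B2_anti (locG_le _ _ _) hGp) hGw (Z2_anti (locG_le _ _ _) hF) (B2_anti (locG_le _ _ _) hFp)
    have hF'p : (F / G ^ i) ^ p ∈ B2 H := by
      rw [div_pow, ← pow_mul, mul_comm, pow_mul]
      exact div_mem hFp (Subgroup.pow_mem _ hGp i)
    have hF' : F / G ^ i ∈ Z2 H := div_mem hF (Subgroup.pow_mem _ hG i)
    have hGinf : ∀ u g, G ∈ B2 (locG H (Sum.inl u) g) := fun u g =>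
      hGout _ _ (fun hs => Sum.inr_ne_inl hs.1) fun hs => Sum.inr_ne_inl hs.1
    obtain ⟨F', h1, h2, h3, h4⟩ := ih (F / G ^ i) hF' hF'p fun ℓ g hT hne => by
      by_cases he : placeAt (fixF H) ℓ g = placeAt (fixF H) ℓw gw
      · exact hat hF' hF'p hi ℓ g he
      · refine div_mem (hout ℓ g (by simp [Finset.mem_insert, he, hT]) hne)
          (Subgroup.pow_mem _ (hGout _ _ (fun hs => he ?_) (fun hs => hne ?_)) i)
        · obtain ⟨e, x, hx, d, rfl⟩ := hs
          obtain rfl := Sum.inr.inj e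
          exact placeAt_eq_of_samePlace hH ℓw gw hx d
        · obtain ⟨e, x, hx, d, rfl⟩ := hs
          obtain rfl := Sum.inr.inj e
          exact placeAt_eq_of_samePlace hH ℓ' g' hx d
    refine ⟨F', h1, h2, h3, fun u g => ?_⟩
    have h5 := div_mem (h4 u g) (Subgroup.pow_mem _ (hGinf u g) i)
    rwa [div_div, div_mul_cancel] at h5

/-- A real and a finite place. -/
theorem exists_pair_real (hH : fullLevels.mem H) (hmu : ∀ σ ∈ H, cycloChar p σ = 1) (hp2 : p = 2)
    (g₀ : GQ) (hg₀ : archConj g₀ ∈ H) (ℓ' : Nat.Primes) (g' : GQ) :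
    ∃ F, IsPairClass p H (Sum.inl ()) g₀ (Sum.inr ℓ') g' F := by
  subst hp2
  have := numberField_fixF hH
  have : Fact (Nat.Prime 3) := ⟨Nat.prime_three⟩
  have : NeZero ((3 : ℕ) : Qb) := ⟨Nat.cast_ne_zero.mpr three_ne_zero⟩
  obtain ⟨ζ, hζ⟩ := HasEnoughRootsOfUnity.exists_primitiveRoot Qb 3
  obtain ⟨σ, n, h⟩ := exists_cyclicOver_root H hζ
  have h32 : (3 : ℕ) ≠ 2 := by norm_num
  let φ₀ : fixF H →+* ℂ := (phiAt g₀).comp (fixF H).val.toRingHom
  have hφ₀ : ComplexEmbedding.IsReal φ₀ := by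
    rw [ComplexEmbedding.isReal_iff]
    refine RingHom.ext fun x => ?_
    show starRingEnd ℂ (phiAt g₀ (x : Qb)) = phiAt g₀ (x : Qb)
    rw [← phiAt_archConj, mem_fixF.mp x.2 _ hg₀]
  have hw₀ : (InfinitePlace.mk φ₀).IsReal := InfinitePlace.isReal_mk_iff.mpr hφ₀
  obtain ⟨x, hx, hx₀, hxpos⟩ := exists_neg_single hw₀
  rw [InfinitePlace.embedding_mk_eq_of_isReal hφ₀] at hx₀
  change (phiAt g₀ (x : Qb)).re < 0 at hx₀
  let a : Qbˣ := Units.mk0 (x : Qb) fun e => hx (Subtype.ext e)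
  have ha : a ∈ fixU H := mem_fixU.mpr x.2
  have hZ : h.fa a ∈ Z2 H := h.fa_mem_Z2 ha
  have hP : h.fa a ^ 2 ∈ B2 H := by
    have hn2 : n ∣ 2 := by
      rw [← h.pow_mem_iff]
      refine ⟨H.pow_mem h.mem 2, ?_⟩
      show (σ ^ 2) ζ = ζ
      obtain ⟨k, -, hk⟩ := hζ.eq_pow_of_pow_eq_one
        (show (σ ζ) ^ 3 = 1 by rw [← map_pow, hζ.pow_eq_one, map_one])
      rw [pow_two, AlgEquiv.mul_apply, ← hk, map_pow, ← hk, ← pow_mul]
      have h3 : (k * k) % 3 = 1 := by
        have hk3 : k % 3 ≠ 0 := fun h0 => by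
          have : σ ζ = 1 := by rw [← hk, pow_eq_pow_mod _ hζ.pow_eq_one, h0, pow_zero]
          exact hζ.ne_one (by norm_num) (σ.injective (by rw [this, map_one]))
        rcases (show k % 3 = 1 ∨ k % 3 = 2 by omega) with h' | h' <;>
          rw [Nat.mul_mod, h']
      rw [pow_eq_pow_mod _ hζ.pow_eq_one, h3, pow_one]
    have e : h.fa a ^ 2 = h.fa (a ^ 2) :=
      (map_pow ({ toFun := h.fa, map_one' := h.fa_one, map_mul' := h.fa_mul } :
        Qbˣ →* (GQ → GQ → Qbˣ)) a 2).symm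
    rw [e, h.fa_mem_B2_iff (Subgroup.pow_mem _ ha 2)]
    obtain ⟨k, hk⟩ := hn2
    refine ⟨a ^ k, fun s hs => Subgroup.pow_mem _ ha k s (h.le hs), ?_⟩
    rw [Finset.prod_congr rfl fun i _ => Subgroup.pow_mem _ ha k _ (h.pow_mem i), Finset.prod_const,
      Finset.card_range, ← pow_mul, mul_comm, ← hk]
  set T := (finite_setOf_ordv_ne_zero (x := x) hx).toFinset ∪
    (Ideal.finite_factors (show Ideal.span {((3 : ℕ) : 𝓞 (fixF H))} ≠ ⊥ by simp)).toFinset
  obtain ⟨F, hF, hFp, hfin, hinf⟩ := exists_clear hH hmu ℓ' g' T (h.fa a) hZ hP fun ℓ g hT _ => by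
    simp only [T, Finset.mem_union, Set.Finite.mem_toFinset, Set.mem_ofPred_eq, not_or, not_not,
      Ideal.dvd_span_singleton] at hT
    refine mem_B2_of_rmod_pow h hH hζ ha ℓ (fun e => hT.2 ?_) g ?_
    · rw [← e]; exact natCast_mem_placeAt (fixF H) ℓ g
    · show rmod 3 _ ^ ordv _ x = 1
      rw [hT.1, zpow_zero]
  have hF₀ : F ∉ B2 (locG H (Sum.inl ()) g₀) := fun hm => by
    have h1 := (pos_iff_mem_B2 hζ h h32 ha hg₀ ()).mp (by
      have := div_mem hm (hinf () g₀)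
      rwa [div_div_cancel] at this)
    exact lt_asymm hx₀ h1
  have hFreal : ∀ g, ¬ SamePlace H (Sum.inl ()) g₀ (Sum.inl ()) g →
      F ∈ B2 (locG H (Sum.inl ()) g) := fun g hs => by
    rw [← div_mul_cancel F (h.fa a)]
    refine mul_mem (hinf () g) ?_
    by_cases hg : archConj g ∈ H
    · refine (pos_iff_mem_B2 hζ h h32 ha hg ()).mpr ?_
      let φ : fixF H →+* ℂ := (phiAt g).comp (fixF H).val.toRingHom
      have hφ : ComplexEmbedding.IsReal φ := by
        rw [ComplexEmbedding.isReal_iff]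
        refine RingHom.ext fun y => ?_
        show starRingEnd ℂ (phiAt g (y : Qb)) = phiAt g (y : Qb)
        rw [← phiAt_archConj, mem_fixF.mp y.2 _ hg]
      have h1 := hxpos _ (InfinitePlace.isReal_mk_iff.mpr hφ) fun he => hs ?_
      · rwa [InfinitePlace.embedding_mk_eq_of_isReal hφ] at h1
      have h2 : φ = φ₀ := by
        rw [← InfinitePlace.embedding_mk_eq_of_isReal hφ, he,
          InfinitePlace.embedding_mk_eq_of_isReal hφ₀]
      refine ⟨rfl, g * g₀⁻¹, mem_of_fix hH fun y hy => ?_, 1, by simp⟩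
      have h3 := RingHom.congr_fun h2 ⟨y, hy⟩
      change complexEmbedding ((g⁻¹ : GQ) y) = complexEmbedding ((g₀⁻¹ : GQ) y) at h3
      rw [AlgEquiv.mul_apply, ← (complexEmbedding : Qb →ₐ[ℚ] ℂ).toRingHom.injective h3,
        ← AlgEquiv.mul_apply, mul_inv_cancel, AlgEquiv.one_apply]
    · rcases arch_cases g H () with e | e
      · rw [e]; exact mem_B2_bot
      · exact absurd (locG_le H (Sum.inl ()) g (e ▸ Subgroup.mem_zpowers _)) hg
  refine ⟨F, hF, hFp, hF₀, fun hm => hF₀ (noSingle_real hH hF hFp g₀ hg₀ (fun ℓ g => ?_) hFreal),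
    ?_⟩
  · by_cases he : placeAt (fixF H) ℓ g = placeAt (fixF H) ℓ' g'
    · exact mem_B2_of_samePlace hmu hF hFp (samePlace_of_placeAt_eq hH he).symm hm
    · exact hfin ℓ g he
  · rintro (⟨⟩ | ℓ'') g'' h1 h2
    · exact hFreal g'' h1
    · exact hfin ℓ'' g'' fun heq => h2 (samePlace_of_placeAt_eq hH heq).symm

/-- The cohomology class of a pair class. -/
theorem exists_class_of_pair {H : Subgroup GQ} {v v' : Place} {g g' : GQ}
    (h : ∃ F, IsPairClass p H v g v' g' F) :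
    ∃ z : GalCoh.H2 (levelsOn H) (muOn p H), (GalCoh.placeMor p H v g).map₂ z ≠ 0 ∧
      ∀ v'' g'', ¬ SamePlace H v g v'' g'' → ¬ SamePlace H v' g' v'' g'' →
        (GalCoh.placeMor p H v'' g'').map₂ z = 0 := by
  obtain ⟨F, hF, hFp, hn, -, hout⟩ := h
  obtain ⟨f, hf⟩ := exists_cocQ_eq hF hFp
  refine ⟨GalCoh.H2mk (levelsOn H) (muOn p H) f, fun h0 => hn ?_, fun v'' g'' a b => ?_⟩
  · rw [← div_div_cancel (cocQ f) F]
    exact div_mem ((placeMor_eq_zero_iff f v g).mp h0) (B2_anti (locG_le _ _ _) hf)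
  · refine (placeMor_eq_zero_iff f v'' g'').mpr ?_
    rw [← div_mul_cancel (cocQ f) F]
    exact mul_mem (B2_anti (locG_le _ _ _) hf) (hout v'' g'' a b)

/-- Existence of classes supported at two given places. -/
theorem twoPlaceClasses (p : ℕ) [Fact p.Prime] : GalCoh.TwoPlaceClasses p := by
  intro N hN _ hmu _ q _ g₀
  refine ⟨fun q' g hne => exists_class_of_pair (exists_pair_finite hN hmu q q' g₀ g hne),
    fun hp2 H hNH u g hg => ?_⟩
  subst hp2
  exact exists_class_of_pair (exists_pair_real (fullLevels.mono hN hNH)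
    (fun σ _ => Subsingleton.elim _ _) rfl g hg q g₀)

end Fermat.Agent.CFT.Brauer
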